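import Fermat.Agent.S44w.Model
import Fermat.Prelude.Def_FLTPrelim_GaloisRep

/-!
# Changes of variables induce isomorphisms on the groups of points, compatible with Galois;
transfer of the irreducibility of the mod `p` representation
-/

set_option autoImplicit false
set_option linter.style.haveILetI false
set_option linter.unusedSectionVars false

noncomputable section

namespace Fermat.Agent.S41vc

open WeierstrassCurve WeierstrassCurve.Affine Fermat.Agent.S44w

section Field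

variable {k : Type*} [Field k] (W : WeierstrassCurve k) (C : VariableChange k)

lemma negY_change (x y : k) :
    W.toAffine.negY ((C.u : k) ^ 2 * x + C.r)
      ((C.u : k) ^ 3 * y + (C.u : k) ^ 2 * C.s * x + C.t) =
    (C.u : k) ^ 3 * (C • W).toAffine.negY x y + (C.u : k) ^ 2 * C.s * x + C.t := by
  have hu : (C.u : k) ≠ 0 := C.u.ne_zero
  rw [negY, negY, variableChange_a₁, variableChange_a₃]
  simp only [Units.val_inv_eq_inv_val]
  field_simp
  ring

lemma X_eq_iff_change (x x' : k) :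
    (C.u : k) ^ 2 * x + C.r = (C.u : k) ^ 2 * x' + C.r ↔ x = x' := by
  have hu : (C.u : k) ≠ 0 := C.u.ne_zero
  constructor
  · intro h
    exact mul_left_cancel₀ (pow_ne_zero 2 hu) (add_right_cancel h)
  · rintro rfl; rfl

lemma Y_eq_iff_change (x y y' : k) :
    (C.u : k) ^ 3 * y + (C.u : k) ^ 2 * C.s * x + C.t =
      (C.u : k) ^ 3 * y' + (C.u : k) ^ 2 * C.s * x + C.t ↔ y = y' := by
  have hu : (C.u : k) ≠ 0 := C.u.ne_zero
  constructor
  · intro h
    exact mul_left_cancel₀ (pow_ne_zero 3 hu) (add_right_cancel (add_right_cancel h))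
  · rintro rfl; rfl

variable [DecidableEq k]

lemma slope_change {x₁ y₁ x₂ y₂ : k} (hxy : ¬ (x₁ = x₂ ∧ y₁ = (C • W).toAffine.negY x₂ y₂))
    (h₁ : (C • W).toAffine.Equation x₁ y₁) (h₂ : (C • W).toAffine.Equation x₂ y₂) :
    W.toAffine.slope ((C.u : k) ^ 2 * x₁ + C.r) ((C.u : k) ^ 2 * x₂ + C.r)
      ((C.u : k) ^ 3 * y₁ + (C.u : k) ^ 2 * C.s * x₁ + C.t)
      ((C.u : k) ^ 3 * y₂ + (C.u : k) ^ 2 * C.s * x₂ + C.t) =
    C.u * (C • W).toAffine.slope x₁ x₂ y₁ y₂ + C.s := by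
  have hu : (C.u : k) ≠ 0 := C.u.ne_zero
  by_cases hx : x₁ = x₂
  · subst hx
    have hy : y₁ ≠ (C • W).toAffine.negY x₁ y₂ := fun h => hxy ⟨rfl, h⟩
    have hyy : y₁ = y₂ := (Y_eq_of_Y_ne h₁ h₂ rfl hy)
    subst hyy
    have hy' : (C.u : k) ^ 3 * y₁ + (C.u : k) ^ 2 * C.s * x₁ + C.t ≠
        W.toAffine.negY ((C.u : k) ^ 2 * x₁ + C.r)
          ((C.u : k) ^ 3 * y₁ + (C.u : k) ^ 2 * C.s * x₁ + C.t) := by
      rw [negY_change, Ne, Y_eq_iff_change]
      exact hy
    rw [slope_of_Y_ne rfl hy', slope_of_Y_ne rfl hy]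
    rw [negY_change]
    have h1 : y₁ - (C • W).toAffine.negY x₁ y₁ ≠ 0 := sub_ne_zero.mpr hy
    have h2 : (C.u : k) ^ 3 * y₁ + (C.u : k) ^ 2 * C.s * x₁ + C.t -
        ((C.u : k) ^ 3 * (C • W).toAffine.negY x₁ y₁ + (C.u : k) ^ 2 * C.s * x₁ + C.t) =
        (C.u : k) ^ 3 * (y₁ - (C • W).toAffine.negY x₁ y₁) := by ring
    rw [h2]
    rw [div_eq_iff (mul_ne_zero (pow_ne_zero 3 hu) h1)]
    have h3 : (C.u * ((3 * x₁ ^ 2 + 2 * (C • W).a₂ * x₁ + (C • W).a₄ - (C • W).a₁ * y₁) /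
        (y₁ - (C • W).toAffine.negY x₁ y₁)) + C.s) *
        ((C.u : k) ^ 3 * (y₁ - (C • W).toAffine.negY x₁ y₁)) =
        (C.u : k) ^ 4 * (3 * x₁ ^ 2 + 2 * (C • W).a₂ * x₁ + (C • W).a₄ - (C • W).a₁ * y₁) +
        C.s * (C.u : k) ^ 3 * (y₁ - (C • W).toAffine.negY x₁ y₁) := by
      field_simp
    rw [h3, negY, variableChange_a₁, variableChange_a₂, variableChange_a₃, variableChange_a₄]
    simp only [Units.val_inv_eq_inv_val]
    field_simp
    ring
  · have hx' : (C.u : k) ^ 2 * x₁ + C.r ≠ (C.u : k) ^ 2 * x₂ + C.r := by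
      rw [Ne, X_eq_iff_change]
      exact hx
    rw [slope_of_X_ne hx', slope_of_X_ne hx]
    have h1 : x₁ - x₂ ≠ 0 := sub_ne_zero.mpr hx
    have h2 : (C.u : k) ^ 2 * x₁ + C.r - ((C.u : k) ^ 2 * x₂ + C.r) =
      (C.u : k) ^ 2 * (x₁ - x₂) := by ring
    rw [h2, div_eq_iff (mul_ne_zero (pow_ne_zero 2 hu) h1)]
    field_simp
    ring

lemma addX_change (x₁ x₂ ℓ : k) :
    W.toAffine.addX ((C.u : k) ^ 2 * x₁ + C.r) ((C.u : k) ^ 2 * x₂ + C.r) (C.u * ℓ + C.s) =
      (C.u : k) ^ 2 * (C • W).toAffine.addX x₁ x₂ ℓ + C.r := by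
  have hu : (C.u : k) ≠ 0 := C.u.ne_zero
  rw [addX, addX, variableChange_a₁, variableChange_a₂]
  simp only [Units.val_inv_eq_inv_val]
  field_simp
  ring

lemma addY_change (x₁ x₂ y₁ ℓ : k) :
    W.toAffine.addY ((C.u : k) ^ 2 * x₁ + C.r) ((C.u : k) ^ 2 * x₂ + C.r)
      ((C.u : k) ^ 3 * y₁ + (C.u : k) ^ 2 * C.s * x₁ + C.t) (C.u * ℓ + C.s) =
      (C.u : k) ^ 3 * (C • W).toAffine.addY x₁ x₂ y₁ ℓ +
        (C.u : k) ^ 2 * C.s * (C • W).toAffine.addX x₁ x₂ ℓ + C.t := by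
  rw [addY, addY, addX_change]
  have h1 : W.toAffine.negAddY ((C.u : k) ^ 2 * x₁ + C.r) ((C.u : k) ^ 2 * x₂ + C.r)
      ((C.u : k) ^ 3 * y₁ + (C.u : k) ^ 2 * C.s * x₁ + C.t) (C.u * ℓ + C.s) =
      (C.u : k) ^ 3 * (C • W).toAffine.negAddY x₁ x₂ y₁ ℓ +
        (C.u : k) ^ 2 * C.s * (C • W).toAffine.addX x₁ x₂ ℓ + C.t := by
    rw [negAddY, negAddY, addX_change]
    ring
  rw [h1, negY_change]

lemma pointMap_zero (hΔ : W.Δ ≠ 0) : pointMap W C hΔ 0 = 0 := rfl

lemma pointMap_add (hΔ : W.Δ ≠ 0) (P Q : (C • W).toAffine.Point) :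
    pointMap W C hΔ (P + Q) = pointMap W C hΔ P + pointMap W C hΔ Q := by
  rcases P with _ | ⟨x₁, y₁, h₁⟩
  · rw [← Point.zero_def, zero_add, pointMap_zero, zero_add]
  rcases Q with _ | ⟨x₂, y₂, h₂⟩
  · rw [← Point.zero_def, add_zero, pointMap_zero, add_zero]
  by_cases hxy : x₁ = x₂ ∧ y₁ = (C • W).toAffine.negY x₂ y₂
  · rw [Point.add_of_Y_eq hxy.1 hxy.2, pointMap_zero]
    simp only [pointMap]
    rw [Point.add_of_Y_eq]
    · rw [hxy.1]
    · rw [negY_change, hxy.2, hxy.1]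
  · rw [Point.add_some hxy]
    simp only [pointMap]
    rw [Point.add_some]
    · simp only [Point.some.injEq]
      rw [slope_change W C hxy h₁.1 h₂.1]
      exact ⟨(addX_change W C _ _ _).symm, (addY_change W C _ _ _ _).symm⟩
    · rw [X_eq_iff_change, negY_change]
      rintro ⟨h1, h2⟩
      subst h1
      rw [Y_eq_iff_change] at h2
      exact hxy ⟨rfl, h2⟩

/-- The inverse map on points. -/
lemma pointMap_surjective (hΔ : W.Δ ≠ 0) : Function.Surjective (pointMap W C hΔ) := by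
  have hu : (C.u : k) ≠ 0 := C.u.ne_zero
  rintro (_ | ⟨x, y, h⟩)
  · exact ⟨0, rfl⟩
  · have hΔ' : (C • W).Δ ≠ 0 := by
      rw [variableChange_Δ]
      exact mul_ne_zero (pow_ne_zero _ (Units.ne_zero _)) hΔ
    set x' := (x - C.r) / (C.u : k) ^ 2 with hx'
    set y' := (y - (C.u : k) ^ 2 * C.s * x' - C.t) / (C.u : k) ^ 3 with hy'
    have e1 : (C.u : k) ^ 2 * x' + C.r = x := by
      rw [hx']; field_simp; ring
    have e2 : (C.u : k) ^ 3 * y' + (C.u : k) ^ 2 * C.s * x' + C.t = y := by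
      rw [hy']; field_simp; ring
    have he : (C • W).toAffine.Equation x' y' := by
      have h3 := h.1
      rw [← e1, ← e2] at h3
      rw [equation_iff] at h3 ⊢
      rw [variableChange_a₁, variableChange_a₂, variableChange_a₃, variableChange_a₄,
        variableChange_a₆]
      simp only [Units.val_inv_eq_inv_val]
      field_simp
      linear_combination h3
    refine ⟨Point.some x' y' ((equation_iff_nonsingular_of_Δ_ne_zero hΔ').mp he), ?_⟩
    simp only [pointMap, Point.some.injEq]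
    exact ⟨e1, e2⟩

/-- The additive map on the groups of points. -/
def pointHomOf (hΔ : W.Δ ≠ 0) : (C • W).toAffine.Point →+ W.toAffine.Point where
  toFun := pointMap W C hΔ
  map_zero' := rfl
  map_add' := pointMap_add W C hΔ

/-- The isomorphism on the groups of points. -/
def pointEquivOf (hΔ : W.Δ ≠ 0) : (C • W).toAffine.Point ≃+ W.toAffine.Point :=
  AddEquiv.ofBijective (pointHomOf W C hΔ)
    ⟨pointMap_injective W C hΔ, pointMap_surjective W C hΔ⟩

lemma pointEquivOf_apply (hΔ : W.Δ ≠ 0) (P : (C • W).toAffine.Point) :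
    pointEquivOf W C hΔ P = pointMap W C hΔ P := rfl

/-- A version without dependent types. -/
lemma exists_equiv (hΔ : W.Δ ≠ 0) {V : WeierstrassCurve k} (hV : C • W = V) :
    ∃ e : V.toAffine.Point ≃+ W.toAffine.Point, ∀ (x y : k) (h : V.toAffine.Nonsingular x y),
      ∃ h', e (.some x y h) = .some ((C.u : k) ^ 2 * x + C.r)
        ((C.u : k) ^ 3 * y + (C.u : k) ^ 2 * C.s * x + C.t) h' := by
  subst hV
  exact ⟨pointEquivOf W C hΔ, fun x y h => ⟨_, rfl⟩⟩

end Field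

section Galois

variable {E E' : WeierstrassCurve ℚ} {C : VariableChange ℚ}

/-- The isomorphism over `Q̄` commutes with Galois. -/
theorem exists_equiv_galois (hΔ : E.Δ ≠ 0) (h : C • E = E') :
    ∃ e : (E'⁄(AlgebraicClosure ℚ)).Point ≃+ (E⁄(AlgebraicClosure ℚ)).Point,
      ∀ (σ : AlgebraicClosure ℚ ≃ₐ[ℚ] AlgebraicClosure ℚ) (P : (E'⁄(AlgebraicClosure ℚ)).Point),
        e (σ • P) = σ • e P := by
  have hΔ' : (E⁄(AlgebraicClosure ℚ) : WeierstrassCurve (AlgebraicClosure ℚ)).Δ ≠ 0 := by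
    rw [show (E⁄(AlgebraicClosure ℚ) : WeierstrassCurve (AlgebraicClosure ℚ)) =
      E.map (algebraMap ℚ (AlgebraicClosure ℚ)) from rfl, WeierstrassCurve.map_Δ]
    simpa using hΔ
  have hV : C.map (algebraMap ℚ (AlgebraicClosure ℚ)) •
      (E⁄(AlgebraicClosure ℚ) : WeierstrassCurve (AlgebraicClosure ℚ)) =
      (E'⁄(AlgebraicClosure ℚ) : WeierstrassCurve (AlgebraicClosure ℚ)) := by
    rw [show (E⁄(AlgebraicClosure ℚ) : WeierstrassCurve (AlgebraicClosure ℚ)) =
      E.map (algebraMap ℚ (AlgebraicClosure ℚ)) from rfl,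
      show (E'⁄(AlgebraicClosure ℚ) : WeierstrassCurve (AlgebraicClosure ℚ)) =
      E'.map (algebraMap ℚ (AlgebraicClosure ℚ)) from rfl]
    rw [WeierstrassCurve.map_variableChange, h]
  obtain ⟨e, he⟩ := exists_equiv (E⁄(AlgebraicClosure ℚ) : WeierstrassCurve (AlgebraicClosure ℚ))
    (C.map (algebraMap ℚ (AlgebraicClosure ℚ))) hΔ' hV
  refine ⟨e, fun σ P => ?_⟩
  rcases P with _ | ⟨x, y, hP⟩
  · have h2 : e (0 : (E'⁄(AlgebraicClosure ℚ)).Point) = (0 : (E⁄(AlgebraicClosure ℚ)).Point) :=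
      map_zero e
    exact h2.trans (by rw [← Point.zero_def, h2]; rfl)
  · obtain ⟨h1, e1⟩ := he x y hP
    rw [e1, Point.algEquiv_smul_def, Point.algEquiv_smul_def, Point.map_some, Point.map_some]
    obtain ⟨h3, e3⟩ := he (σ.toAlgHom x) (σ.toAlgHom y)
      ((Affine.baseChange_nonsingular E' σ.toAlgHom.injective ..).mpr hP)
    refine e3.trans ?_
    rw [Point.some.injEq]
    have hc : ∀ c : ℚ, σ.toAlgHom (algebraMap ℚ (AlgebraicClosure ℚ) c) =
      algebraMap ℚ (AlgebraicClosure ℚ) c := fun c => σ.toAlgHom.commutes c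
    have hu : ((C.map (algebraMap ℚ (AlgebraicClosure ℚ))).u : AlgebraicClosure ℚ) =
      algebraMap ℚ (AlgebraicClosure ℚ) (C.u : ℚ) := rfl
    have hr : ((C.map (algebraMap ℚ (AlgebraicClosure ℚ))).r : AlgebraicClosure ℚ) =
      algebraMap ℚ (AlgebraicClosure ℚ) C.r := rfl
    have hs : ((C.map (algebraMap ℚ (AlgebraicClosure ℚ))).s : AlgebraicClosure ℚ) =
      algebraMap ℚ (AlgebraicClosure ℚ) C.s := rfl
    have ht : ((C.map (algebraMap ℚ (AlgebraicClosure ℚ))).t : AlgebraicClosure ℚ) =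
      algebraMap ℚ (AlgebraicClosure ℚ) C.t := rfl
    rw [hu, hr, hs, ht]
    constructor
    · rw [map_add, map_mul, map_pow, hc, hc]
    · rw [map_add, map_add, map_mul, map_mul, map_mul, map_pow, map_pow, hc, hc, hc]

/-- **Irreducibility of the mod `n` representation does not depend on the model.** -/
theorem galoisRepIsIrreducible_of_variableChange (hΔ : E.Δ ≠ 0) (h : C • E = E') {n : ℕ}
    (hirr : Point.GaloisRepIsIrreducible (K := AlgebraicClosure ℚ) ℚ E n) :
    Point.GaloisRepIsIrreducible (K := AlgebraicClosure ℚ) ℚ E' n := by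
  obtain ⟨e, he⟩ := exists_equiv_galois hΔ h
  -- the induced map on torsion
  let f : Submodule.torsionBy ℤ (E'⁄(AlgebraicClosure ℚ)).Point n ≃+
      Submodule.torsionBy ℤ (E⁄(AlgebraicClosure ℚ)).Point n :=
    { toFun := fun x => ⟨e x.1, by
        have h1 := x.2
        rw [Submodule.mem_torsionBy_iff] at h1 ⊢
        rw [← map_zsmul, h1, map_zero]⟩
      invFun := fun x => ⟨e.symm x.1, by
        have h1 := x.2
        rw [Submodule.mem_torsionBy_iff] at h1 ⊢
        rw [← map_zsmul, h1, map_zero]⟩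
      left_inv := fun x => Subtype.ext (e.symm_apply_apply _)
      right_inv := fun x => Subtype.ext (e.apply_symm_apply _)
      map_add' := fun x y => Subtype.ext (map_add e _ _) }
  have hf : ∀ (σ : AlgebraicClosure ℚ ≃ₐ[ℚ] AlgebraicClosure ℚ) x, f (σ • x) = σ • f x :=
    fun σ x => Subtype.ext (he σ x.1)
  refine ⟨?_, fun N hN => ?_⟩
  · haveI := hirr.1
    exact f.toEquiv.nontrivial
  · let g : Submodule.torsionBy ℤ (E'⁄(AlgebraicClosure ℚ)).Point n →ₗ[ZMod n]
        Submodule.torsionBy ℤ (E⁄(AlgebraicClosure ℚ)).Point n :=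
      AddMonoidHom.toZModLinearMap n f.toAddMonoidHom
    have hg : ∀ x, g x = f x := fun x => rfl
    have hginj : Function.Injective g := f.injective
    have hgsurj : Function.Surjective g := f.surjective
    rcases hirr.2 (N.map g) (by
      intro σ x hx
      obtain ⟨y, hy, rfl⟩ := hx
      exact ⟨σ • y, hN σ y hy, hf σ y⟩) with h0 | h0
    · left
      rw [eq_bot_iff]
      intro x hx
      have h1 : g x ∈ N.map g := Submodule.mem_map_of_mem hx
      rw [h0, Submodule.mem_bot] at h1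
      exact (Submodule.mem_bot _).mpr (hginj (h1.trans (map_zero g).symm))
    · right
      rw [eq_top_iff]
      intro x _
      have h1 : g x ∈ N.map g := by rw [h0]; trivial
      obtain ⟨y, hy, hyx⟩ := h1
      exact hginj hyx ▸ hy

/-- Passage from `E` to an integral model. -/
theorem galoisRepIsIrreducible_of_isIntegralModelOf [E.IsElliptic] {W : WeierstrassCurve ℤ}
    (hW : W.IsIntegralModelOf E) {n : ℕ}
    (hirr : Point.GaloisRepIsIrreducible (K := AlgebraicClosure ℚ) ℚ E n) :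
    Point.GaloisRepIsIrreducible (K := AlgebraicClosure ℚ) ℚ (W.map (Int.castRingHom ℚ)) n := by
  obtain ⟨C, hC⟩ := hW
  exact galoisRepIsIrreducible_of_variableChange (E.isUnit_Δ.ne_zero) hC hirr

lemma Δ_ne_zero_of_isIntegralModelOf [E.IsElliptic] {W : WeierstrassCurve ℤ}
    (hW : W.IsIntegralModelOf E) : W.Δ ≠ 0 := by
  obtain ⟨C, hC⟩ := hW
  intro h
  have h1 : (W.map (Int.castRingHom ℚ)).Δ = 0 := by rw [WeierstrassCurve.map_Δ, h, map_zero]
  rw [← hC, variableChange_Δ] at h1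
  rcases mul_eq_zero.mp h1 with h2 | h2
  · exact (pow_ne_zero _ (Units.ne_zero _)) h2
  · exact (E.isUnit_Δ.ne_zero) h2

end Galois

end Fermat.Agent.S41vc

end
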