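import Fermat.Agent.S41.HmEig

/-!
# Ihara's lemma for `Hm`: injectivity of the degeneracy maps
-/

set_option autoImplicit false
set_option linter.unusedSectionVars false

noncomputable section

namespace Fermat.Agent.S41hm

open IsLocalRing Fermat.Agent.TwExact CongruenceSubgroup HeckePar TwHecke
open scoped MatrixGroups TensorProduct

section AbsRetr

variable {R : Type*} [CommRing R]

theorem map_mem_smul_top {N N' : Type*} [AddCommGroup N] [Module R N] [AddCommGroup N']
    [Module R N'] (I : Ideal R) (f : N →ₗ[R] N') {x : N} (hx : x ∈ (I • ⊤ : Submodule R N)) :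
    f x ∈ (I • ⊤ : Submodule R N') := by
  have : f x ∈ (I • ⊤ : Submodule R N).map f := ⟨x, hx, rfl⟩
  rw [Submodule.map_smul''] at this
  exact Submodule.smul_mono le_rfl le_top this

/-- A map of finite free modules over a local ring that is injective modulo the maximal ideal has
a retraction. -/
theorem exists_retraction_of_mod [IsLocalRing R] {N N' : Type*} [AddCommGroup N] [Module R N]
    [AddCommGroup N'] [Module R N'] [Module.Finite R N] [Module.Finite R N'] [Module.Free R N']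
    (f : N →ₗ[R] N') (h : ∀ x, f x ∈ (maximalIdeal R • ⊤ : Submodule R N') →
      x ∈ (maximalIdeal R • ⊤ : Submodule R N)) : ∃ r : N' →ₗ[R] N, r ∘ₗ f = LinearMap.id := by
  refine (split_injective_iff_lTensor_residueField_injective _).mpr ?_
  rw [← LinearMap.ker_eq_bot, LinearMap.ker_eq_bot']
  intro z hz
  obtain ⟨z, rfl⟩ := TensorProduct.mk_surjective R _ (ResidueField R) residue_surjective z
  rw [TensorProduct.mk_apply, LinearMap.lTensor_tmul] at hz
  have key : ∀ {N : Type _} [AddCommGroup N] [Module R N] (n : N),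
      (1 : ResidueField R) ⊗ₜ[R] n = 0 → n ∈ (maximalIdeal R • ⊤ : Submodule R N) := by
    intro N _ _ n hn
    have h1 := TensorProduct.quotTensorEquivQuotSMul_mk_one_tmul (M := N) (maximalIdeal R) n
    rw [← Submodule.Quotient.mk_eq_zero, ← h1]
    exact (congrArg (TensorProduct.quotTensorEquivQuotSMul N (maximalIdeal R)) hn).trans
      (map_zero _)
  have h3 := h z (key _ hz)
  rw [TensorProduct.mk_apply]
  refine Submodule.smul_induction_on h3 (fun r hr n _ => ?_) fun a b ha hb => ?_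
  · rw [← TensorProduct.smul_tmul, Algebra.smul_def, mul_one]
    have : algebraMap R (ResidueField R) r = 0 := (residue_eq_zero_iff r).mpr hr
    rw [this, TensorProduct.zero_tmul]
  · rw [TensorProduct.tmul_add, ha, hb, add_zero]

end AbsRetr

variable {R : Type} [CommRing R] [IsLocalRing R] {M q : ℕ} {ε : (ZMod M)ˣ →* Rˣ}

theorem hε_infl (hε : ∀ u, residue R (ε u : R) = 1) {M' : ℕ} (h : M ∣ M') (u : (ZMod M')ˣ) :
    residue R (infl h ε u : R) = 1 := hε _

theorem degA_eq (g : Gamma0 (M * q)) :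
    Subgroup.inclusion (Gamma0_le (dvd_mul_right M q)) g = S41aux.degA M q g := rfl

theorem bHom_eq (hq : q.Prime) (g : Gamma0 (M * q)) :
    bHom hq.ne_zero (dvd_refl (M * q)) g = S41aux.degB M hq.ne_zero g := by
  have h1 := bHom_spec hq.ne_zero (dvd_refl (M * q)) g
  have h2 := S41aux.betaZ_mul_degB M hq.ne_zero g
  have h3 : (((bHom hq.ne_zero (dvd_refl (M * q)) g : Gamma0 M) : SL(2, ℤ)) :
      Matrix (Fin 2) (Fin 2) ℤ) * !![(q : ℤ), 0; 0, 1] =
      (((S41aux.degB M hq.ne_zero g : Gamma0 M) : SL(2, ℤ)) : Matrix (Fin 2) (Fin 2) ℤ) *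
        !![(q : ℤ), 0; 0, 1] := by
    rw [← h1]
    exact h2
  refine sl_inj ?_ h3
  rw [Matrix.det_fin_two_of]
  simpa using hq.pos

section Pair

variable (M ε) (A : Type) [AddCommGroup A] [Module R A] (S : Set ℕ)

/-- the Hecke operators on pairs -/
def hop2 (i : PIdx S) : Module.End R (HM M ε A × HM M ε A) :=
  LinearMap.prodMap (hop M ε A S i) (hop M ε A S i)

theorem hop2_commute (i j : PIdx S) : Commute (hop2 M ε A S i) (hop2 M ε A S j) := by
  refine LinearMap.ext fun x => ?_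
  have h := hop_commute M ε A S i j
  exact Prod.ext (LinearMap.congr_fun h x.1) (LinearMap.congr_fun h x.2)

theorem cev_hop2_fst (t : MvPolynomial (PIdx S) R) (x : HM M ε A × HM M ε A) :
    (cev (hop2 M ε A S) (hop2_commute M ε A S) t x).1 =
      cev (hop M ε A S) (hop_commute M ε A S) t x.1 :=
  cev_natural (hop2_commute M ε A S) (hop_commute M ε A S) (LinearMap.fst R _ _)
    (fun _ _ => rfl) t x

theorem cev_hop2_snd (t : MvPolynomial (PIdx S) R) (x : HM M ε A × HM M ε A) :
    (cev (hop2 M ε A S) (hop2_commute M ε A S) t x).2 =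
      cev (hop M ε A S) (hop_commute M ε A S) t x.2 :=
  cev_natural (hop2_commute M ε A S) (hop_commute M ε A S) (LinearMap.snd R _ _)
    (fun _ _ => rfl) t x

/-- the sum of the degeneracy maps -/
def degSum (hq : q.Prime) : HM M ε A × HM M ε A →ₗ[R] HM (M * q) (infl (dvd_mul_right M q) ε) A :=
  LinearMap.coprod (res (dvd_mul_right M q) ε A) (degB hq.ne_zero (dvd_refl (M * q)) ε A)

theorem degSum_apply (hq : q.Prime) (x y : HM M ε A) : degSum M ε A hq (x, y) =
    res (dvd_mul_right M q) ε A x + degB hq.ne_zero (dvd_refl (M * q)) ε A y := rfl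

variable {S}

theorem res_hop (hS : ∀ ℓ : ℕ, ℓ.Prime → ℓ ∣ M * q → ℓ ∈ S) (hq : q.Prime) (i : PIdx S)
    (x : HM M ε A) : res (dvd_mul_right M q) ε A (hop M ε A S i x) =
      hop (M * q) (infl (dvd_mul_right M q) ε) A S i (res (dvd_mul_right M q) ε A x) := by
  have : Fact (i.1 : ℕ).Prime := ⟨i.1.2⟩
  have hne : (i.1 : ℕ) ≠ q := fun h => i.2 (by rw [h]; exact hS q hq (dvd_mul_left _ _))
  exact res_heckeH' ε hq hne x

theorem degB_hop (hS : ∀ ℓ : ℕ, ℓ.Prime → ℓ ∣ M * q → ℓ ∈ S) (hq : q.Prime) (i : PIdx S)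
    (x : HM M ε A) : degB hq.ne_zero (dvd_refl (M * q)) ε A (hop M ε A S i x) =
      hop (M * q) (infl (dvd_mul_right M q) ε) A S i
        (degB hq.ne_zero (dvd_refl (M * q)) ε A x) := by
  have : Fact (i.1 : ℕ).Prime := ⟨i.1.2⟩
  have hne : (i.1 : ℕ) ≠ q := fun h => i.2 (by rw [h]; exact hS q hq (dvd_mul_left _ _))
  exact degB_heckeH' ε hq hne x

theorem degSum_hop (hS : ∀ ℓ : ℕ, ℓ.Prime → ℓ ∣ M * q → ℓ ∈ S) (hq : q.Prime) (i : PIdx S)
    (x : HM M ε A × HM M ε A) : degSum M ε A hq (hop2 M ε A S i x) =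
      hop (M * q) (infl (dvd_mul_right M q) ε) A S i (degSum M ε A hq x) := by
  show res _ ε A (hop M ε A S i x.1) + degB _ _ ε A (hop M ε A S i x.2) = _
  rw [res_hop M ε A hS hq, degB_hop M ε A hS hq, ← map_add]
  rfl

end Pair

section Inj

variable [NeZero M] [IsNoetherianRing R] [IsAdicComplete (maximalIdeal R) R] {p : ℕ}
  [CharP (ResidueField R) p] {S : Set ℕ} {θ : PIdx S → ResidueField R}

theorem isArtinian_HM (hε : ∀ u, residue R (ε u : R) = 1) :
    IsArtinian R (HM M ε (ResidueField R)) := by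
  have := fg_Gamma0 M
  have : Module.Finite R (HM M ε (ResidueField R)) := finite_H1 _ _
  exact isArtinian_of_killed (HM_killed hε)

theorem isNoetherian_HM : IsNoetherian R (HM M ε (ResidueField R)) := by
  have := fg_Gamma0 M
  have : Module.Finite R (HM M ε (ResidueField R)) := finite_H1 _ _
  exact isNoetherian_of_isNoetherianRing_of_finite R _

/-- **Ihara's lemma**, coefficients in the residue field. -/
theorem inj_k (hp : p.Prime) (hp2 : p ≠ 2) (hq : q.Prime) (hqM : ¬ q ∣ M)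
    (hε : ∀ u, residue R (ε u : R) = 1) (hS : ∀ ℓ : ℕ, ℓ.Prime → ℓ ∣ M * q → ℓ ∈ S)
    (hne : StrongNonEis S θ) {x y : HM M ε (ResidueField R)}
    (hx : x ∈ Hm M ε (ResidueField R) S θ) (hy : y ∈ Hm M ε (ResidueField R) S θ)
    (h : res (dvd_mul_right M q) ε (ResidueField R) x +
      degB hq.ne_zero (dvd_refl (M * q)) ε (ResidueField R) y = 0) : x = 0 ∧ y = 0 := by
  have := isArtinian_HM (M := M) hε
  have := isNoetherian_HM (M := M) (ε := ε)
  set W : Submodule R (HM M ε (ResidueField R) × HM M ε (ResidueField R)) :=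
    LinearMap.ker (degSum M ε (ResidueField R) hq) with hW
  obtain ⟨t, ht, hkill⟩ := exists_kill (θ := θ) (hop2_commute M ε (ResidueField R) S) W
    (by
      intro i z hz
      rw [hW, LinearMap.mem_ker] at hz ⊢
      rw [degSum_hop M ε _ hS hq, hz, map_zero])
    (by
      rintro ⟨x, y⟩ hz hev
      induction x using H1.ind with
      | h c =>
        induction y using H1.ind with
        | h d =>
          have h1 : S41aux.IsEig M (gd S) (ext0 S θ) (toHom hε c) :=
            isEig_of_eigen hε fun t ht => by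
              rw [← cev_hop2_fst M ε (ResidueField R) S t (H1.mk c, H1.mk d), hev t ht]
              rfl
          have h2 : S41aux.IsEig M (gd S) (ext0 S θ) (toHom hε d) :=
            isEig_of_eigen hε fun t ht => by
              rw [← cev_hop2_snd M ε (ResidueField R) S t (H1.mk c, H1.mk d), hev t ht]
              rfl
          have h3 : H1.mk (resZ (dvd_mul_right M q) ε (ResidueField R) c +
              degBZ hq.ne_zero (dvd_refl (M * q)) ε (ResidueField R) d) = 0 := hz
          have h4 := (mk_eq_zero (hε_infl hε (dvd_mul_right M q))).mp h3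
          have h5 := S41aux.ihara hp hp2 hq hqM
            (gd_not_dvd fun ℓ hℓ hd => hS ℓ hℓ (hd.mul_right q)) hne.nonEis h1 h2 (by
              intro g
              have h6 := congrArg (fun e : ZM (M * q) (infl (dvd_mul_right M q) ε)
                (ResidueField R) => e g) h4
              have h7 : resZ (dvd_mul_right M q) ε (ResidueField R) c g +
                degBZ hq.ne_zero (dvd_refl (M * q)) ε (ResidueField R) d g = 0 := h6
              rw [resZ_apply, degBZ_apply, bHom_eq hq] at h7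
              exact h7)
          rw [toHom_eq_zero hε h5.1, toHom_eq_zero hε h5.2, H1.mk_zero]
          rfl)
  have hz : (x, y) ∈ W := by rw [hW, LinearMap.mem_ker]; exact h
  have h0 := hkill _ hz
  obtain ⟨e, he⟩ := exists_isIdem_Hm (ResidueField R) ε θ
  refine ⟨he.eq_zero hx ht ?_, he.eq_zero hy ht ?_⟩
  · rw [← cev_hop2_fst M ε (ResidueField R) S t (x, y), h0]; rfl
  · rw [← cev_hop2_snd M ε (ResidueField R) S t (x, y), h0]; rfl

end Inj

/-! ### The degeneracy maps on `Hm` -/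

section HmMaps

variable (A : Type) [AddCommGroup A] [Module R A] {S : Set ℕ} (θ : PIdx S → ResidueField R)
variable (hS : ∀ ℓ : ℕ, ℓ.Prime → ℓ ∣ M * q → ℓ ∈ S) (hq : q.Prime)

include hS hq in
theorem res_mem {x : HM M ε A} (hx : x ∈ Hm M ε A S θ) :
    res (dvd_mul_right M q) ε A x ∈ Hm (M * q) (infl (dvd_mul_right M q) ε) A S θ :=
  map_mem_mpart _ _ (res (dvd_mul_right M q) ε A) (res_hop M ε A hS hq) hx

include hS in
theorem degB_mem {x : HM M ε A} (hx : x ∈ Hm M ε A S θ) :
    degB hq.ne_zero (dvd_refl (M * q)) ε A x ∈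
      Hm (M * q) (infl (dvd_mul_right M q) ε) A S θ :=
  map_mem_mpart _ _ (degB hq.ne_zero (dvd_refl (M * q)) ε A) (degB_hop M ε A hS hq) hx

/-- restriction on `Hm` -/
def hmRes : Hm M ε A S θ →ₗ[R] Hm (M * q) (infl (dvd_mul_right M q) ε) A S θ :=
  (res (dvd_mul_right M q) ε A).restrict fun _ hx => res_mem A θ hS hq hx

/-- the second degeneracy map on `Hm` -/
def hmDegB : Hm M ε A S θ →ₗ[R] Hm (M * q) (infl (dvd_mul_right M q) ε) A S θ :=
  (degB hq.ne_zero (dvd_refl (M * q)) ε A).restrict fun _ hx => degB_mem A θ hS hq hx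

@[simp] theorem coe_hmRes (x : Hm M ε A S θ) :
    (hmRes A θ hS hq x : HM (M * q) (infl (dvd_mul_right M q) ε) A) =
      res (dvd_mul_right M q) ε A x := rfl

@[simp] theorem coe_hmDegB (x : Hm M ε A S θ) :
    (hmDegB A θ hS hq x : HM (M * q) (infl (dvd_mul_right M q) ε) A) =
      degB hq.ne_zero (dvd_refl (M * q)) ε A x := rfl

/-- the sum of the degeneracy maps on `Hm` -/
def hmSum : Hm M ε A S θ × Hm M ε A S θ →ₗ[R] Hm (M * q) (infl (dvd_mul_right M q) ε) A S θ :=
  LinearMap.coprod (hmRes A θ hS hq) (hmDegB A θ hS hq)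

theorem hmSum_apply (x y : Hm M ε A S θ) :
    hmSum A θ hS hq (x, y) = hmRes A θ hS hq x + hmDegB A θ hS hq y := rfl

theorem hmSum_map {B : Type} [AddCommGroup B] [Module R B] (f : A →ₗ[R] B)
    (x y : Hm M ε A S θ) : hmSum B θ hS hq (HmMap M ε S θ f x, HmMap M ε S θ f y) =
      HmMap (M * q) (infl (dvd_mul_right M q) ε) S θ f (hmSum A θ hS hq (x, y)) := by
  apply Subtype.ext
  show res _ ε B (H1.map _ f (x : HM M ε A)) + degB _ _ ε B (H1.map _ f (y : HM M ε A)) =
    H1.map _ f (res _ ε A x + degB _ _ ε A y)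
  rw [map_add, res_map, degB_map]

end HmMaps

section InjR

variable [NeZero M] [NeZero (M * q)] [IsNoetherianRing R] [IsAdicComplete (maximalIdeal R) R]
  {p : ℕ} [CharP (ResidueField R) p] {S : Set ℕ} {θ : PIdx S → ResidueField R}

theorem wt_residue (hε : ∀ u, residue R (ε u : R) = 1) (u : (ZMod M)ˣ) :
    residue R (wt ε u) = 1 := by
  have h : wt ε u = (ε u⁻¹ : R) := by rw [wt, map_inv]
  rw [h, hε]

/-- The standing hypotheses of exactness follow from the strong non Eisenstein condition. -/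
theorem good_of_strong (heps : ε (-1) = 1) (h2 : IsUnit (2 : R))
    (h3 : IsUnit (3 : R) ∨ ∀ x : SL(2, ℤ), x * (ModularGroup.T * ModularGroup.S) * x⁻¹ ∉ Gamma0 M)
    (hε : ∀ u, residue R (ε u : R) = 1) (hS : ∀ ℓ : ℕ, ℓ.Prime → ℓ ∣ M → ℓ ∈ S)
    (hne : StrongNonEis S θ) : Good M ε S θ where
  eps := heps
  two := h2
  three := h3
  noneis := by
    obtain ⟨ℓ, -, h⟩ := hne.one 1 one_pos
    refine ⟨ℓ, fun hd => ℓ.2 (hS _ ℓ.1.2 hd), ?_⟩
    rw [map_add, wt_residue hε, map_natCast]
    exact h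

theorem Good.infl' (hG : Good M ε S θ) (hε : ∀ u, residue R (ε u : R) = 1)
    (hS : ∀ ℓ : ℕ, ℓ.Prime → ℓ ∣ M * q → ℓ ∈ S) (hne : StrongNonEis S θ) :
    Good (M * q) (infl (dvd_mul_right M q) ε) S θ :=
  good_of_strong (by
    show ε (ZMod.unitsMap (dvd_mul_right M q) (-1)) = 1
    rw [← hG.eps]
    congr 1
    apply Units.ext
    rw [ZMod.unitsMap_val]
    simp) hG.two
    (hG.three.imp id fun h x hx => h x (Gamma0_le (dvd_mul_right M q) hx))
    (hε_infl hε _) hS hne

/-- Reduction to the residue field: kernel. -/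
theorem ker_residue (hG : Good M ε S θ) {x : Hm M ε R S θ}
    (h : HmMap M ε S θ (Algebra.linearMap R (ResidueField R)) x = 0) :
    x ∈ (maximalIdeal R • ⊤ : Submodule R (Hm M ε R S θ)) := by
  rw [← hG.ker_mkQ, LinearMap.mem_ker]
  let e : (R ⧸ maximalIdeal R) →ₗ[R] ResidueField R :=
    Submodule.liftQ _ (Algebra.linearMap R (ResidueField R)) (fun r hr =>
      (residue_eq_zero_iff r).mpr hr)
  have he : Function.Injective e := by
    rw [← LinearMap.ker_eq_bot]
    refine Submodule.ker_liftQ_eq_bot _ _ _ fun r hr => ?_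
    exact (residue_eq_zero_iff r).mp hr
  have he' : e ∘ₗ Submodule.mkQ (maximalIdeal R) = Algebra.linearMap R (ResidueField R) :=
    Submodule.liftQ_mkQ _ _ _
  apply hG.injective e he
  rw [← HmMap_comp, map_zero]
  exact (congrArg (fun f => HmMap M ε S θ f x) he').trans h

theorem HmMap_residue_of_mem {x : Hm M ε R S θ}
    (h : x ∈ (maximalIdeal R • ⊤ : Submodule R (Hm M ε R S θ))) :
    HmMap M ε S θ (Algebra.linearMap R (ResidueField R)) x = 0 := by
  refine Submodule.smul_induction_on h (fun r hr n _ => ?_) fun a b ha hb => ?_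
  · rw [← HmMap_toSpanSingleton_smul, ← HmMap_comp]
    have : (Algebra.linearMap R (ResidueField R)) ∘ₗ (LinearMap.toSpanSingleton R R r) =
        (0 : R →ₗ[R] ResidueField R) := by
      refine LinearMap.ext_ring ?_
      show residue R ((1 : R) • r) = 0
      rw [one_smul]
      exact (residue_eq_zero_iff r).mpr hr
    rw [this]
    apply Subtype.ext
    rw [coe_HmMap]
    have h0 := H1_map_smul (chr M ε) (0 : R) (0 : R →ₗ[R] ResidueField R) (n : HM M ε R)
    rw [zero_smul, zero_smul] at h0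
    exact h0
  · rw [map_add, ha, hb, add_zero]

include p in
/-- **Ihara's lemma modulo the maximal ideal.** -/
theorem inj_mod_maximal (hp : p.Prime) (hp2 : p ≠ 2) (hq : q.Prime) (hqM : ¬ q ∣ M)
    (hε : ∀ u, residue R (ε u : R) = 1) (hS : ∀ ℓ : ℕ, ℓ.Prime → ℓ ∣ M * q → ℓ ∈ S)
    (hne : StrongNonEis S θ) (hG : Good M ε S θ) (x y : Hm M ε R S θ)
    (h : hmSum R θ hS hq (x, y) ∈ (maximalIdeal R • ⊤ :
      Submodule R (Hm (M * q) (infl (dvd_mul_right M q) ε) R S θ))) :
    x ∈ (maximalIdeal R • ⊤ : Submodule R (Hm M ε R S θ)) ∧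
      y ∈ (maximalIdeal R • ⊤ : Submodule R (Hm M ε R S θ)) := by
  have h1 := HmMap_residue_of_mem h
  rw [← hmSum_map] at h1
  have h2 := congrArg Subtype.val h1
  obtain ⟨h3, h4⟩ := inj_k hp hp2 hq hqM hε hS hne
    (HmMap M ε S θ (Algebra.linearMap R (ResidueField R)) x).2
    (HmMap M ε S θ (Algebra.linearMap R (ResidueField R)) y).2 h2
  exact ⟨ker_residue hG (Subtype.ext h3), ker_residue hG (Subtype.ext h4)⟩

include p in
/-- **Ihara's lemma**: the sum of the degeneracy maps is a split injection on `Hm`. -/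
theorem exists_retraction (hp : p.Prime) (hp2 : p ≠ 2) (hq : q.Prime) (hqM : ¬ q ∣ M)
    (hε : ∀ u, residue R (ε u : R) = 1) (hS : ∀ ℓ : ℕ, ℓ.Prime → ℓ ∣ M * q → ℓ ∈ S)
    (hne : StrongNonEis S θ) (hG : Good M ε S θ) :
    ∃ r : Hm (M * q) (infl (dvd_mul_right M q) ε) R S θ →ₗ[R] Hm M ε R S θ × Hm M ε R S θ,
      r ∘ₗ hmSum R θ hS hq = LinearMap.id := by
  have hG' := Good.infl' hG hε hS hne
  have := hG.free
  have := hG'.free
  have : Module.Finite R (Hm M ε R S θ) := finite_Hm R ε θ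
  have : Module.Finite R (Hm (M * q) (infl (dvd_mul_right M q) ε) R S θ) :=
    finite_Hm R _ θ
  refine exists_retraction_of_mod _ ?_
  rintro ⟨x, y⟩ hz
  obtain ⟨h1, h2⟩ := inj_mod_maximal hp hp2 hq hqM hε hS hne hG x y hz
  have h3 : (x, y) = (LinearMap.inl R (Hm M ε R S θ) (Hm M ε R S θ)) x +
    (LinearMap.inr R (Hm M ε R S θ) (Hm M ε R S θ)) y := by simp
  rw [h3]
  exact Submodule.add_mem _ (map_mem_smul_top _ _ h1) (map_mem_smul_top _ _ h2)

include p in
/-- **Ihara's lemma modulo any ideal.** -/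
theorem inj_mod (hp : p.Prime) (hp2 : p ≠ 2) (hq : q.Prime) (hqM : ¬ q ∣ M)
    (hε : ∀ u, residue R (ε u : R) = 1) (hS : ∀ ℓ : ℕ, ℓ.Prime → ℓ ∣ M * q → ℓ ∈ S)
    (hne : StrongNonEis S θ) (hG : Good M ε S θ) (I : Ideal R) (x y : Hm M ε R S θ)
    (h : hmRes R θ hS hq x + hmDegB R θ hS hq y ∈ (I • ⊤ :
      Submodule R (Hm (M * q) (infl (dvd_mul_right M q) ε) R S θ))) :
    x ∈ (I • ⊤ : Submodule R (Hm M ε R S θ)) ∧ y ∈ (I • ⊤ : Submodule R (Hm M ε R S θ)) := by
  obtain ⟨r, hr⟩ := exists_retraction hp hp2 hq hqM hε hS hne hG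
  have h1 : r (hmSum R θ hS hq (x, y)) = (x, y) := LinearMap.congr_fun hr (x, y)
  have h2 := map_mem_smul_top I (LinearMap.fst R _ _ ∘ₗ r) h
  have h3 := map_mem_smul_top I (LinearMap.snd R _ _ ∘ₗ r) h
  have h4 : r (hmRes R θ hS hq x + hmDegB R θ hS hq y) = (x, y) := h1
  rw [LinearMap.comp_apply, h4] at h2 h3
  exact ⟨h2, h3⟩

include p in
/-- **Ihara's lemma**, integral coefficients. -/
theorem inj_R (hp : p.Prime) (hp2 : p ≠ 2) (hq : q.Prime) (hqM : ¬ q ∣ M)
    (hε : ∀ u, residue R (ε u : R) = 1) (hS : ∀ ℓ : ℕ, ℓ.Prime → ℓ ∣ M * q → ℓ ∈ S)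
    (hne : StrongNonEis S θ) (hG : Good M ε S θ) (x y : Hm M ε R S θ)
    (h : hmRes R θ hS hq x + hmDegB R θ hS hq y = 0) : x = 0 ∧ y = 0 := by
  have h1 := inj_mod hp hp2 hq hqM hε hS hne hG ⊥ x y (by rw [h]; exact Submodule.zero_mem _)
  rw [Submodule.bot_smul] at h1
  exact h1

end InjR

end Fermat.Agent.S41hm

end
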