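import Mathlib

/-!
# Two dimensional odd representations and common eigenvectors

Pure group theory for the "non Eisenstein" conditions of level raising: a two dimensional
representation of a group `Γ` over a field of characteristic `≠ 2`, with an involution of
determinant `-1`, has a stable line as soon as

* the elements of a subgroup `H` containing all commutators have trace `2` and determinant `1`; or
* every element `g` satisfies `tr(g)² = (1 + det g)²`.
-/

set_option autoImplicit false

namespace Fermat.Agent.S41grp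

open Matrix

variable {K : Type*} [Field K]

/-- In dimension `2`, the kernel of a nonzero matrix is at most a line. -/
theorem exists_smul_of_mulVec_eq_zero {M : Matrix (Fin 2) (Fin 2) K} (hM : M ≠ 0)
    {v w : Fin 2 → K} (hv : v ≠ 0) (h1 : M *ᵥ v = 0) (h2 : M *ᵥ w = 0) : ∃ t : K, w = t • v := by
  -- `v 0 * w 1 - v 1 * w 0 = 0`
  have e1 : ∀ i, M i 0 * v 0 + M i 1 * v 1 = 0 := fun i => by
    have := congrFun h1 i
    simpa [Matrix.mulVec, dotProduct, Fin.sum_univ_two] using this
  have e2 : ∀ i, M i 0 * w 0 + M i 1 * w 1 = 0 := fun i => by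
    have := congrFun h2 i
    simpa [Matrix.mulVec, dotProduct, Fin.sum_univ_two] using this
  have hdet : v 0 * w 1 - v 1 * w 0 = 0 := by
    by_contra hne
    apply hM
    ext i j
    have a0 : M i 0 * (v 0 * w 1 - v 1 * w 0) = 0 := by
      linear_combination w 1 * e1 i - v 1 * e2 i
    have a1 : M i 1 * (v 0 * w 1 - v 1 * w 0) = 0 := by
      linear_combination v 0 * e2 i - w 0 * e1 i
    have b0 : M i 0 = 0 := (mul_eq_zero.mp a0).resolve_right hne
    have b1 : M i 1 = 0 := (mul_eq_zero.mp a1).resolve_right hne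
    fin_cases j
    · exact b0
    · exact b1
  by_cases h0 : v 0 = 0
  · have hv1 : v 1 ≠ 0 := by
      intro h
      apply hv
      ext i
      fin_cases i
      · exact h0
      · exact h
    have hw0 : w 0 = 0 := by
      rw [h0, zero_mul, zero_sub, neg_eq_zero] at hdet
      exact (mul_eq_zero.mp hdet).resolve_left hv1
    refine ⟨w 1 / v 1, ?_⟩
    ext i
    fin_cases i
    · simp [h0, hw0]
    · simp [hv1]
  · refine ⟨w 0 / v 0, ?_⟩
    ext i
    fin_cases i
    · simp [h0]
    · show w 1 = w 0 / v 0 * v 1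
      field_simp
      linear_combination hdet

/-- `M² - tr(M) M + det(M) = 0` in dimension two. -/
theorem cayley (M : Matrix (Fin 2) (Fin 2) K) : M * M = M.trace • M - M.det • 1 := by
  ext i j
  fin_cases i <;> fin_cases j <;>
    simp [Matrix.mul_apply, Fin.sum_univ_two, Matrix.trace_fin_two, Matrix.det_fin_two] <;> ring

theorem mul_eq_zero_of_trace {n m : Matrix (Fin 2) (Fin 2) K} (hn : n.trace = 0) (hn' : n.det = 0)
    (hm : m.trace = 0) (hm' : m.det = 0) (h : (n * m).trace = 0) : n * m = 0 := by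
  rw [Matrix.trace_fin_two] at hn hm
  rw [Matrix.det_fin_two] at hn' hm'
  rw [Matrix.trace_fin_two] at h
  simp only [Matrix.mul_apply, Fin.sum_univ_two] at h
  set a := n 0 0 with ha
  set b := n 0 1 with hb
  set c := n 1 0 with hc
  have hd : n 1 1 = - a := by linear_combination hn
  set a' := m 0 0 with ha'
  set b' := m 0 1 with hb'
  set c' := m 1 0 with hc'
  have hd' : m 1 1 = - a' := by linear_combination hm
  rw [hd] at hn' h
  rw [hd'] at hm' h
  have x00 : a * a' + b * c' = 0 := by
    have : (a * a' + b * c') ^ 2 = 0 := by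
      linear_combination b * c' * h + (b' * c') * hn' - a ^ 2 * hm'
    exact pow_eq_zero_iff (two_ne_zero) |>.mp this
  have x01 : a * b' - b * a' = 0 := by
    have : (a * b' - b * a') ^ 2 = 0 := by
      linear_combination (-(b' ^ 2)) * hn' - b ^ 2 * hm' - b * b' * h
    exact pow_eq_zero_iff (two_ne_zero) |>.mp this
  have x10 : c * a' - a * c' = 0 := by
    have : (c * a' - a * c') ^ 2 = 0 := by
      linear_combination (-(c' ^ 2)) * hn' - c ^ 2 * hm' - c * c' * h
    exact pow_eq_zero_iff (two_ne_zero) |>.mp this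
  have x11 : c * b' + a * a' = 0 := by
    linear_combination h - x00
  ext i j
  fin_cases i <;> fin_cases j
  · simp only [Matrix.mul_apply, Fin.sum_univ_two]
    show a * a' + b * c' = 0
    exact x00
  · simp only [Matrix.mul_apply, Fin.sum_univ_two]
    show a * b' + b * m 1 1 = 0
    rw [hd']; linear_combination x01
  · simp only [Matrix.mul_apply, Fin.sum_univ_two]
    show c * a' + n 1 1 * c' = 0
    rw [hd]; linear_combination x10
  · simp only [Matrix.mul_apply, Fin.sum_univ_two]
    show c * b' + n 1 1 * m 1 1 = 0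
    rw [hd, hd']; linear_combination x11

variable {Γ : Type*} [Group Γ] (ρ : Γ →* Matrix (Fin 2) (Fin 2) K)

theorem mul_inv_eq_one (g : Γ) : ρ g * ρ g⁻¹ = 1 := by
  rw [← map_mul, mul_inv_cancel, map_one]

theorem inv_mul_eq_one (g : Γ) : ρ g⁻¹ * ρ g = 1 := by
  rw [← map_mul, inv_mul_cancel, map_one]

/-- A nilpotent `n` all of whose conjugates `n'` satisfy `tr(n n') = 0` gives a stable line. -/
theorem exists_eigenvector_of_nilpotent {n : Matrix (Fin 2) (Fin 2) K} (hn0 : n ≠ 0)
    (hn : n.trace = 0) (hn' : n.det = 0) (h : ∀ g : Γ, (n * (ρ g * n * ρ g⁻¹)).trace = 0) :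
    ∃ v : Fin 2 → K, v ≠ 0 ∧ ∀ g : Γ, ∃ t : K, ρ g *ᵥ v = t • v := by
  obtain ⟨w, hw⟩ : ∃ w, n *ᵥ w ≠ 0 := by
    by_contra hcon
    push Not at hcon
    apply hn0
    ext i j
    have := congrFun (hcon (Pi.single j 1)) i
    simpa using this
  refine ⟨n *ᵥ w, hw, fun g => ?_⟩
  have h1 : (ρ g * n * ρ g⁻¹).trace = 0 := by
    rw [Matrix.trace_mul_comm, ← mul_assoc, inv_mul_eq_one, one_mul, hn]
  have h2 : (ρ g * n * ρ g⁻¹).det = 0 := by
    rw [Matrix.det_mul, Matrix.det_mul, hn', mul_zero, zero_mul]
  have h3 : n * (ρ g * n * ρ g⁻¹) = 0 := mul_eq_zero_of_trace hn hn' h1 h2 (h g)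
  have h4 : n * ρ g * n = 0 := by
    have : n * (ρ g * n * ρ g⁻¹) * ρ g = n * ρ g * n := by
      rw [mul_assoc, mul_assoc (ρ g * n), inv_mul_eq_one, mul_one, mul_assoc]
    rw [← this, h3, zero_mul]
  have h5 : n * n = 0 := by rw [cayley, hn, hn', zero_smul, zero_smul, sub_zero]
  refine exists_smul_of_mulVec_eq_zero hn0 hw ?_ ?_
  · rw [Matrix.mulVec_mulVec, h5, Matrix.zero_mulVec]
  · rw [Matrix.mulVec_mulVec, Matrix.mulVec_mulVec, h4, Matrix.zero_mulVec]

/-- An element of determinant `-1` with square `1` commuting with everything. -/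
theorem exists_eigenvector_of_commute (h2 : (2 : K) ≠ 0) (c : Γ) (hc : c * c = 1)
    (hdet : (ρ c).det = -1) (hcomm : ∀ g : Γ, ρ g * ρ c = ρ c * ρ g) :
    ∃ v : Fin 2 → K, v ≠ 0 ∧ ∀ g : Γ, ∃ t : K, ρ g *ᵥ v = t • v := by
  have hcc : ρ c * ρ c = 1 := by rw [← map_mul, hc, map_one]
  have hn1 : ρ c - 1 ≠ 0 := by
    intro h
    rw [sub_eq_zero.mp h, Matrix.det_one] at hdet
    exact h2 (by linear_combination hdet)
  have hn2 : ρ c + 1 ≠ 0 := by
    intro h
    rw [eq_neg_of_add_eq_zero_left h, Matrix.det_neg, Matrix.det_one] at hdet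
    simp at hdet
    exact h2 (by linear_combination hdet)
  obtain ⟨w, hw⟩ : ∃ w, (ρ c + 1) *ᵥ w ≠ 0 := by
    by_contra hcon
    push Not at hcon
    apply hn2
    ext i j
    have := congrFun (hcon (Pi.single j 1)) i
    simpa using this
  have h5 : (ρ c - 1) * (ρ c + 1) = 0 := by
    rw [sub_mul, mul_add, hcc, one_mul, mul_one]; abel
  refine ⟨(ρ c + 1) *ᵥ w, hw, fun g => ?_⟩
  refine exists_smul_of_mulVec_eq_zero hn1 hw ?_ ?_
  · rw [Matrix.mulVec_mulVec, h5, Matrix.zero_mulVec]
  · have : (ρ c - 1) * (ρ g * (ρ c + 1)) = 0 := by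
      have : (ρ c - 1) * ρ g = ρ g * (ρ c - 1) := by
        rw [sub_mul, mul_sub, hcomm, one_mul, mul_one]
      rw [← mul_assoc, this, mul_assoc, h5, mul_zero]
    rw [Matrix.mulVec_mulVec, Matrix.mulVec_mulVec, mul_assoc, this, Matrix.zero_mulVec]

theorem trace_one : (1 : Matrix (Fin 2) (Fin 2) K).trace = 2 := by
  rw [Matrix.trace_one]; simp

/-- **First criterion.** -/
theorem exists_eigenvector_of_trace_two (h2 : (2 : K) ≠ 0) (H : Subgroup Γ) [H.Normal]
    (hH : ∀ a b : Γ, a * b * a⁻¹ * b⁻¹ ∈ H)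
    (htr : ∀ h ∈ H, (ρ h).trace = 2) (hdt : ∀ h ∈ H, (ρ h).det = 1) (c : Γ) (hc : c * c = 1)
    (hdet : (ρ c).det = -1) :
    ∃ v : Fin 2 → K, v ≠ 0 ∧ ∀ g : Γ, ∃ t : K, ρ g *ᵥ v = t • v := by
  by_cases htriv : ∀ h ∈ H, ρ h = 1
  · refine exists_eigenvector_of_commute ρ h2 c hc hdet fun g => ?_
    have := htriv _ (hH g c)
    calc ρ g * ρ c = ρ (g * c * g⁻¹ * c⁻¹ * (c * g)) := by rw [← map_mul]; congr 1; group
      _ = ρ c * ρ g := by rw [map_mul ρ (g * c * g⁻¹ * c⁻¹), this, one_mul, map_mul]
  · push Not at htriv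
    obtain ⟨h, hh, hne⟩ := htriv
    have e1 : (ρ h - 1).trace = 0 := by rw [Matrix.trace_sub, htr h hh, trace_one, sub_self]
    have e2 : (ρ h - 1).det = 0 := by
      have a := htr h hh
      have b := hdt h hh
      rw [Matrix.trace_fin_two] at a
      rw [Matrix.det_fin_two] at b ⊢
      simp only [Matrix.sub_apply, Matrix.one_apply_eq, Matrix.one_apply_ne (show (0 : Fin 2) ≠ 1 by decide),
        Matrix.one_apply_ne (show (1 : Fin 2) ≠ 0 by decide)]
      linear_combination b - a
    refine exists_eigenvector_of_nilpotent ρ (sub_ne_zero.mpr hne) e1 e2 fun g => ?_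
    have e3 : ρ g * (ρ h - 1) * ρ g⁻¹ = ρ (g * h * g⁻¹) - 1 := by
      rw [mul_sub, sub_mul, mul_one, mul_inv_eq_one, map_mul, map_mul]
    have hm : g * h * g⁻¹ ∈ H := Subgroup.Normal.conj_mem inferInstance h hh g
    rw [e3, sub_mul, mul_sub, mul_sub, one_mul, mul_one, mul_one, ← map_mul, Matrix.trace_sub,
      Matrix.trace_sub, Matrix.trace_sub, htr _ (H.mul_mem hh hm), htr _ hh, htr _ hm, trace_one]
    ring

/-- **Second criterion.** -/
theorem exists_eigenvector_of_trace_sq (h2 : (2 : K) ≠ 0)
    (htr : ∀ g : Γ, (ρ g).trace ^ 2 = (1 + (ρ g).det) ^ 2) (c : Γ) (hc : c * c = 1)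
    (hdet : (ρ c).det = -1) :
    ∃ v : Fin 2 → K, v ≠ 0 ∧ ∀ g : Γ, ∃ t : K, ρ g *ᵥ v = t • v := by
  have h4 : (4 : K) ≠ 0 := by
    have : (4 : K) = 2 * 2 := by norm_num
    rw [this]; exact mul_ne_zero h2 h2
  by_cases htriv : ∀ g : Γ, (ρ g).det = 1 → ρ g = 1 ∨ ρ g = -1
  · -- commutators are `± 1`
    have key : ∀ g : Γ, ρ g * ρ c = ρ c * ρ g ∨ ρ g * ρ c = - (ρ c * ρ g) := by
      intro g
      have hd : (ρ (g * c * g⁻¹ * c⁻¹)).det = 1 := by
        rw [map_mul, map_mul, map_mul, Matrix.det_mul, Matrix.det_mul, Matrix.det_mul]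
        have a1 : (ρ g).det * (ρ g⁻¹).det = 1 := by
          rw [← Matrix.det_mul, mul_inv_eq_one, Matrix.det_one]
        have a2 : (ρ c).det * (ρ c⁻¹).det = 1 := by
          rw [← Matrix.det_mul, mul_inv_eq_one, Matrix.det_one]
        linear_combination (ρ c).det * (ρ c⁻¹).det * a1 + a2
      have e : ρ g * ρ c = ρ (g * c * g⁻¹ * c⁻¹) * (ρ c * ρ g) := by
        rw [← map_mul, ← map_mul, ← map_mul]; congr 1; group
      rcases htriv _ hd with h | h
      · left; rw [e, h, one_mul]
      · right; rw [e, h, neg_mul, one_mul]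
    refine exists_eigenvector_of_commute ρ h2 c hc hdet fun g => ?_
    rcases key g with h | h
    · exact h
    · exfalso
      have hcc : ρ c * ρ c = 1 := by rw [← map_mul, hc, map_one]
      -- the trace of `g` vanishes
      have t1 : (ρ g).trace = 0 := by
        have : (ρ c * (ρ g * ρ c)).trace = (ρ g).trace := by
          rw [Matrix.trace_mul_comm, mul_assoc, hcc, mul_one]
        rw [h, mul_neg, ← mul_assoc, hcc, one_mul, Matrix.trace_neg] at this
        have : 2 * (ρ g).trace = 0 := by linear_combination -this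
        exact (mul_eq_zero.mp this).resolve_left h2
      have t2 : (ρ g).det = -1 := by
        have := htr g
        rw [t1] at this
        have : (1 + (ρ g).det) ^ 2 = 0 := by linear_combination -this
        have := pow_eq_zero_iff (two_ne_zero) |>.mp this
        linear_combination this
      have t3 : (ρ (g * c)).trace = 0 := by
        rw [map_mul]
        have : (ρ g * ρ c).trace = (ρ c * ρ g).trace := Matrix.trace_mul_comm _ _
        rw [h, Matrix.trace_neg] at this
        have : 2 * (ρ c * ρ g).trace = 0 := by linear_combination -this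
        rw [Matrix.trace_mul_comm]
        exact (mul_eq_zero.mp this).resolve_left h2
      have t4 := htr (g * c)
      rw [t3, map_mul, Matrix.det_mul, t2, hdet] at t4
      apply h4
      linear_combination -t4
  · push Not at htriv
    obtain ⟨g, hg1, hg2, hg3⟩ := htriv
    have ht : (ρ g).trace ^ 2 = 4 := by rw [htr g, hg1]; norm_num
    -- `ρ g * ρ g` is unipotent
    set u := ρ (g * g) with hu
    have hdu : u.det = 1 := by rw [hu, map_mul, Matrix.det_mul, hg1, one_mul]
    have htu : u.trace = 2 := by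
      rw [hu, map_mul, cayley, hg1, Matrix.trace_sub, Matrix.trace_smul, Matrix.trace_smul,
        trace_one, smul_eq_mul, smul_eq_mul]
      linear_combination ht
    have hu1 : u ≠ 1 := by
      intro h
      have e : (ρ g).trace • (ρ g) - (1 : K) • (1 : Matrix (Fin 2) (Fin 2) K) = 1 := by
        have := cayley (ρ g)
        rw [hg1] at this
        rw [← this, ← map_mul, ← hu, h]
      have e' : (ρ g).trace • (ρ g) = (2 : K) • (1 : Matrix (Fin 2) (Fin 2) K) := by
        rw [one_smul, sub_eq_iff_eq_add] at e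
        rw [e, two_smul]
      have ht' : ((ρ g).trace - 2) * ((ρ g).trace + 2) = 0 := by linear_combination ht
      rcases mul_eq_zero.mp ht' with h' | h'
      · apply hg2
        rw [sub_eq_zero.mp h'] at e'
        exact smul_right_injective _ h2 e'
      · apply hg3
        rw [eq_neg_of_add_eq_zero_left h'] at e'
        have : (2 : K) • (ρ g) = (2 : K) • (-1 : Matrix (Fin 2) (Fin 2) K) := by
          rw [smul_neg, ← e', neg_smul, neg_neg]
        exact smul_right_injective _ h2 this
    have e1 : (u - 1).trace = 0 := by rw [Matrix.trace_sub, htu, trace_one, sub_self]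
    have e2 : (u - 1).det = 0 := by
      have a := htu
      have b := hdu
      rw [Matrix.trace_fin_two] at a
      rw [Matrix.det_fin_two] at b ⊢
      simp only [Matrix.sub_apply, Matrix.one_apply_eq, Matrix.one_apply_ne (show (0 : Fin 2) ≠ 1 by decide),
        Matrix.one_apply_ne (show (1 : Fin 2) ≠ 0 by decide)]
      linear_combination b - a
    have e5 : (u - 1) * (u - 1) = 0 := by
      rw [cayley, e1, e2, zero_smul, zero_smul, sub_zero]
    refine exists_eigenvector_of_nilpotent ρ (sub_ne_zero.mpr hu1) e1 e2 fun γ => ?_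
    set m := u - 1 with hm
    set m' := ρ γ * m * ρ γ⁻¹ with hm'
    have t1' : m'.trace = 0 := by
      rw [hm', Matrix.trace_mul_comm, ← mul_assoc, inv_mul_eq_one, one_mul, e1]
    have hu' : ρ (γ * (g * g) * γ⁻¹) = 1 + m' := by
      rw [hm', hm, mul_sub, sub_mul, mul_one, mul_inv_eq_one, map_mul, map_mul]
      abel
    have hum : u = 1 + m := by rw [hm]; abel
    have huu : ρ ((g * g) * (g * g)) = 1 + (2 : K) • m := by
      rw [map_mul, ← hu, hum, mul_add, add_mul, add_mul, e5, two_smul, mul_one, mul_one, one_mul]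
      abel
    set t := (m * m').trace with ht
    have hdet1 : (ρ (γ * (g * g) * γ⁻¹)).det = 1 := by
      rw [map_mul, map_mul, Matrix.det_mul, Matrix.det_mul]
      have a1 : (ρ γ).det * (ρ γ⁻¹).det = 1 := by
        rw [← Matrix.det_mul, mul_inv_eq_one, Matrix.det_one]
      rw [← hu, hdu]
      linear_combination a1
    -- `tr(u u') = 2 + t`
    have q1 : (2 + t) ^ 2 = 4 := by
      have := htr ((g * g) * (γ * (g * g) * γ⁻¹))
      rw [map_mul, Matrix.det_mul, hdet1, ← hu, hdu, hu', hum] at this
      have e : ((1 + m) * (1 + m')).trace = 2 + t := by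
        rw [mul_add, add_mul, add_mul, Matrix.trace_add, Matrix.trace_add, Matrix.trace_add,
          mul_one, mul_one, one_mul, e1, t1', trace_one]
        ring
      rw [e] at this
      linear_combination this
    have q2 : (2 + 2 * t) ^ 2 = 4 := by
      have := htr (((g * g) * (g * g)) * (γ * (g * g) * γ⁻¹))
      have hd4 : (ρ ((g * g) * (g * g))).det = 1 := by
        rw [map_mul, Matrix.det_mul, ← hu, hdu, one_mul]
      rw [map_mul, Matrix.det_mul, hdet1, hd4, hu', huu] at this
      have e : ((1 + (2 : K) • m) * (1 + m')).trace = 2 + 2 * t := by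
        rw [mul_add, add_mul, add_mul, Matrix.trace_add, Matrix.trace_add, Matrix.trace_add,
          mul_one, mul_one, one_mul, Matrix.trace_smul, e1, t1', trace_one, smul_mul_assoc,
          Matrix.trace_smul, smul_eq_mul, smul_eq_mul]
        ring
      rw [e] at this
      linear_combination this
    have q3 : 2 * (2 * t) = 0 := by
      have a1 : t * (t + 4) = 0 := by linear_combination q1
      have a2 : 2 * (2 * (t * (t + 2))) = 0 := by linear_combination q2
      have a3 : t * (t + 2) = 0 :=
        (mul_eq_zero.mp ((mul_eq_zero.mp a2).resolve_left h2)).resolve_left h2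
      linear_combination 2 * a1 - 2 * a3
    exact (mul_eq_zero.mp ((mul_eq_zero.mp q3).resolve_left h2)).resolve_left h2

end Fermat.Agent.S41grp
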