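import Fermat.Agent.S41.VarChangeH
import Fermat.Agent.S41.Group2
import Fermat.Agent.ECFrob.Odd
import Fermat.Prelude.Def_GaloisRep_ComplexConjugation
import Fermat.Prelude.Def_FLTPrelim_Modularity

/-!
# The non Eisenstein conditions for the mod `p` representation of an elliptic curve
-/

set_option autoImplicit false
set_option linter.style.haveILetI false

noncomputable section

namespace Fermat.Agent.S41neh

open WeierstrassCurve WeierstrassCurve.Affine WeierstrassCurve.Affine.Point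
open Fermat.Agent.ECFrob Fermat.Agent.Torsion

local notation "ℚb" => AlgebraicClosure ℚ
local notation "GQ" => AlgebraicClosure ℚ ≃ₐ[ℚ] AlgebraicClosure ℚ

/-! ### Transfer along a change of variables -/

section transfer

variable {E : WeierstrassCurve ℚ} {E' : WeierstrassCurve ℚ} {C : VariableChange ℚ}

lemma vc_baseChange (h : C • E = E') :
    (E'.map (algebraMap ℚ ℚb)) = C.map (algebraMap ℚ ℚb) • E.map (algebraMap ℚ ℚb) := by
  rw [map_variableChange, h]

lemma Δ_baseChange_ne_zero (hΔ : E.Δ ≠ 0) : (E.map (algebraMap ℚ ℚb)).Δ ≠ 0 := by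
  rw [map_Δ]
  intro h0
  exact hΔ ((map_eq_zero _).mp h0)

/-- the homomorphism on `ℚ̄`-points -/
def tr (h : C • E = E') (hΔ : E.Δ ≠ 0) : (E'⁄ℚb).Point →+ (E⁄ℚb).Point :=
  S41vch.ptHom (vc_baseChange h) (Δ_baseChange_ne_zero hΔ)

lemma tr_injective (h : C • E = E') (hΔ : E.Δ ≠ 0) : Function.Injective (tr h hΔ) :=
  S41vch.pt_injective (vc_baseChange h) (Δ_baseChange_ne_zero hΔ)

lemma tr_ns (h : C • E = E') (hΔ : E.Δ ≠ 0) {x y : ℚb} (hxy : (E'⁄ℚb).Nonsingular x y) :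
    (E⁄ℚb).Nonsingular (S41vch.xx (C.map (algebraMap ℚ ℚb)) x)
      (S41vch.yy (C.map (algebraMap ℚ ℚb)) x y) :=
  (equation_iff_nonsingular_of_Δ_ne_zero (Δ_baseChange_ne_zero hΔ)).mp
        (S41vch.equation (vc_baseChange h) hxy.1)

lemma tr_some (h : C • E = E') (hΔ : E.Δ ≠ 0) {x y : ℚb} (hxy : (E'⁄ℚb).Nonsingular x y) :
    tr h hΔ (Point.some x y hxy) = (Point.some (S41vch.xx (C.map (algebraMap ℚ ℚb)) x)
      (S41vch.yy (C.map (algebraMap ℚ ℚb)) x y) (tr_ns h hΔ hxy) : (E⁄ℚb).Point) := rfl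

lemma tr_smul (h : C • E = E') (hΔ : E.Δ ≠ 0) (σ : GQ) (P : (E'⁄ℚb).Point) :
    tr h hΔ (σ • P) = σ • tr h hΔ P := by
  rcases P with _ | ⟨x, y, hxy⟩
  · rfl
  · rw [tr_some h hΔ hxy, algEquiv_smul_def, algEquiv_smul_def, Point.map_some, Point.map_some,
      tr_some, Point.some.injEq]
    have hu : σ ((C.map (algebraMap ℚ ℚb)).u : ℚb) = ((C.map (algebraMap ℚ ℚb)).u : ℚb) :=
      σ.commutes _
    have hr : σ ((C.map (algebraMap ℚ ℚb)).r : ℚb) = ((C.map (algebraMap ℚ ℚb)).r : ℚb) :=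
      σ.commutes _
    have hs : σ ((C.map (algebraMap ℚ ℚb)).s : ℚb) = ((C.map (algebraMap ℚ ℚb)).s : ℚb) :=
      σ.commutes _
    have ht : σ ((C.map (algebraMap ℚ ℚb)).t : ℚb) = ((C.map (algebraMap ℚ ℚb)).t : ℚb) :=
      σ.commutes _
    constructor
    · show S41vch.xx _ (σ x) = σ (S41vch.xx _ x)
      rw [S41vch.xx, S41vch.xx, map_add, map_mul, map_pow, hu, hr]
    · show S41vch.yy _ (σ x) (σ y) = σ (S41vch.yy _ x y)
      rw [S41vch.yy, S41vch.yy, map_add, map_add, map_mul, map_mul, map_mul, map_pow, map_pow, hu, hs,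
        ht]

/-- the map on torsion -/
def trT (h : C • E = E') (hΔ : E.Δ ≠ 0) (p : ℕ) :
    Submodule.torsionBy ℤ (E'⁄ℚb).Point p →+ Submodule.torsionBy ℤ (E⁄ℚb).Point p where
  toFun P := ⟨tr h hΔ P, by
    have := P.2
    rw [Submodule.mem_torsionBy_iff] at this ⊢
    rw [← map_zsmul, this, _root_.map_zero]⟩
  map_zero' := Subtype.ext (_root_.map_zero _)
  map_add' P Q := Subtype.ext (_root_.map_add _ _ _)

lemma trT_injective (h : C • E = E') (hΔ : E.Δ ≠ 0) (p : ℕ) : Function.Injective (trT h hΔ p) := by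
  intro P Q hPQ
  exact Subtype.ext (tr_injective h hΔ (congrArg Subtype.val hPQ))

lemma trT_smul (h : C • E = E') (hΔ : E.Δ ≠ 0) (p : ℕ) (σ : GQ)
    (P : Submodule.torsionBy ℤ (E'⁄ℚb).Point p) : trT h hΔ p (σ • P) = σ • trT h hΔ p P :=
  Subtype.ext (tr_smul h hΔ σ _)

end transfer

/-- A common eigenvector on an integral model contradicts irreducibility. -/
theorem false_of_eigenvector {E : WeierstrassCurve ℚ} [E.IsElliptic] {W : WeierstrassCurve ℤ}
    (hW : W.IsIntegralModelOf E) {p : ℕ} [hp : Fact p.Prime]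
    (hirr : GaloisRepIsIrreducible (K := ℚb) ℚ E p)
    (P : Submodule.torsionBy ℤ ((W.map (Int.castRingHom ℚ))⁄ℚb).Point p) (hP : P ≠ 0)
    (h : ∀ g : GQ, ∃ t : ZMod p, g • P = t • P) : False := by
  obtain ⟨C, hC⟩ := hW
  have hΔ : E.Δ ≠ 0 := E.isUnit_Δ.ne_zero
  set x := trT hC hΔ p P with hx
  have hx0 : x ≠ 0 := by
    intro h0
    apply hP
    apply trT_injective hC hΔ p
    rw [← hx, h0, _root_.map_zero]
  let f : Submodule.torsionBy ℤ ((W.map (Int.castRingHom ℚ))⁄ℚb).Point p →ₗ[ZMod p]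
    Submodule.torsionBy ℤ (E⁄ℚb).Point p := (trT hC hΔ p).toZModLinearMap p
  have hst : IsGaloisStable ℚ (Submodule.span (ZMod p) {x}) := by
    intro σ y hy
    rw [Submodule.mem_span_singleton] at hy ⊢
    obtain ⟨c, rfl⟩ := hy
    obtain ⟨t, ht⟩ := h σ
    have h1 : σ • x = t • x := by
      have h2 : f (σ • P) = t • f P := by rw [ht, map_smul]
      have h3 : f (σ • P) = σ • f P := trT_smul hC hΔ p σ P
      exact h3.symm.trans h2
    refine ⟨c * t, ?_⟩
    have h4 : σ • (c • x) = c • (σ • x) := by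
      exact (galoisRepModuleEnd (K := ℚb) ℚ E p σ).map_smul c x
    rw [h4, h1, mul_smul]
  rcases hirr.2 _ hst with h1 | h1
  · rw [Submodule.span_singleton_eq_bot] at h1
    exact hx0 h1
  · have hcard := card_torsionBy_rat hΔ hp.out.ne_zero
    haveI := finite_torsionBy_rat hΔ hp.out.ne_zero
    have h2 := Module.natCard_eq_pow_finrank (K := ZMod p) (V := Submodule.torsionBy ℤ
      (E⁄ℚb).Point p)
    rw [hcard, Nat.card_zmod] at h2
    have h3 := Nat.pow_right_injective hp.out.two_le h2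
    have h4 : Module.finrank (ZMod p) (Submodule.torsionBy ℤ (E⁄ℚb).Point p) ≤ 1 := by
      rw [← finrank_top, ← h1]
      exact (finrank_span_le_card _).trans (by simp)
    omega

/-! ### The subgroup acting trivially on roots of unity -/

/-- The absolute Galois group of the `n`-th cyclotomic field. -/
def cycSub (n : ℕ) : Subgroup GQ where
  carrier := {σ | ∀ x : ℚb, x ^ n = 1 → σ x = x}
  one_mem' := fun x _ => rfl
  mul_mem' := by
    intro a b ha hb x hx
    show a (b x) = x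
    rw [hb x hx, ha x hx]
  inv_mem' := by
    intro a ha x hx
    show a.symm x = x
    rw [AlgEquiv.symm_apply_eq, ha x hx]

instance (n : ℕ) : (cycSub n).Normal := by
  constructor
  intro h hh g x hx
  show g (h (g.symm x)) = x
  have h1 : (g.symm x) ^ n = 1 := by rw [← _root_.map_pow, hx, _root_.map_one]
  rw [hh _ h1, AlgEquiv.apply_symm_apply]

lemma comm_of_root {n : ℕ} [NeZero n] (a b : GQ) {y : ℚb} (hy : y ^ n = 1) :
    a (b y) = b (a y) := by
  haveI : NeZero ((n : ℕ) : ℚb) := ⟨by exact_mod_cast NeZero.ne n⟩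
  obtain ⟨ζ, hζ⟩ := HasEnoughRootsOfUnity.exists_primitiveRoot (AlgebraicClosure ℚ) n
  obtain ⟨i, -, hi⟩ := hζ.eq_pow_of_pow_eq_one hy
  have key : ∀ g : GQ, ∃ j : ℕ, g ζ = ζ ^ j := by
    intro g
    obtain ⟨j, -, hj⟩ := hζ.eq_pow_of_pow_eq_one (ξ := g ζ) (by
      rw [← _root_.map_pow, hζ.pow_eq_one, _root_.map_one])
    exact ⟨j, hj.symm⟩
  obtain ⟨j, hj⟩ := key a
  obtain ⟨k, hk⟩ := key b
  rw [← hi]
  simp only [_root_.map_pow, hj, hk]
  ring

lemma commutator_mem_cycSub {n : ℕ} [NeZero n] (a b : GQ) : a * b * a⁻¹ * b⁻¹ ∈ cycSub n := by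
  intro x hx
  set y : ℚb := a.symm (b.symm x) with hy
  have hyn : y ^ n = 1 := by rw [hy, ← _root_.map_pow, ← _root_.map_pow, hx, _root_.map_one, _root_.map_one]
  have hxy : b (a y) = x := by rw [hy, AlgEquiv.apply_symm_apply, AlgEquiv.apply_symm_apply]
  show a (b (a.symm (b.symm x))) = x
  rw [← hy, comm_of_root a b hyn, hxy]

/-! ### Matrices -/

section mat

variable {K : Type*} [Field K]

open Matrix

lemma det_sub_one (X : Matrix (Fin 2) (Fin 2) K) (c : K) :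
    (X - c • 1).det = c ^ 2 - c * X.trace + X.det := by
  rw [Matrix.det_fin_two, Matrix.det_fin_two, Matrix.trace_fin_two]
  simp
  ring

lemma det_pow_sub {X : Matrix (Fin 2) (Fin 2) K} {c : K} (h : (X - c • 1).det = 0) (k : ℕ) :
    (X ^ k - c ^ k • (1 : Matrix (Fin 2) (Fin 2) K)).det = 0 := by
  have h1 : Commute X (c • (1 : Matrix (Fin 2) (Fin 2) K)) :=
    (Commute.one_right X).smul_right c
  have h2 := h1.mul_geom_sum₂ k
  rw [smul_pow, one_pow] at h2
  rw [← h2, Matrix.det_mul, h, zero_mul]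

/-- `tr² = (1 + det)²` passes to powers. -/
lemma trace_sq_pow {X : Matrix (Fin 2) (Fin 2) K} (h : X.trace ^ 2 = (1 + X.det) ^ 2) (k : ℕ) :
    (X ^ k).trace ^ 2 = (1 + (X ^ k).det) ^ 2 := by
  have h1 : (X.trace - (1 + X.det)) * (X.trace + (1 + X.det)) = 0 := by linear_combination h
  have key : ∀ ε : K, ε * ε = 1 → X.trace = ε * (1 + X.det) →
      (X ^ k).trace ^ 2 = (1 + (X ^ k).det) ^ 2 := by
    intro ε hε ht
    have h2 : (X - ε • 1).det = 0 := by
      rw [det_sub_one, ht]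
      linear_combination (1 - (1 + X.det)) * hε
    have h3 := det_pow_sub h2 k
    rw [det_sub_one] at h3
    have h4 : ε ^ k * ε ^ k = 1 := by rw [← mul_pow, hε, one_pow]
    have h5 : (X ^ k).trace = ε ^ k * (1 + (X ^ k).det) := by
      have : ε ^ k * (ε ^ k * (X ^ k).trace) = ε ^ k * (1 + (X ^ k).det) := by
        linear_combination (- ε ^ k) * h3 + ε ^ k * h4
      rw [← mul_assoc, h4, one_mul] at this
      exact this
    rw [h5]
    linear_combination (1 + (X ^ k).det) ^ 2 * h4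
  rcases mul_eq_zero.mp h1 with h2 | h2
  · exact key 1 (by norm_num) (by linear_combination h2)
  · exact key (-1) (by norm_num) (by linear_combination h2)

/-- Trace `2` and determinant `1` passes to powers. -/
lemma trace_two_pow {X : Matrix (Fin 2) (Fin 2) K} (h : X.trace = 2) (h' : X.det = 1) (k : ℕ) :
    (X ^ k).trace = 2 ∧ (X ^ k).det = 1 := by
  have h1 : (X ^ k).det = 1 := by rw [Matrix.det_pow, h', one_pow]
  refine ⟨?_, h1⟩
  have h2 : (X - (1 : K) • 1).det = 0 := by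
    rw [det_sub_one, h, h']; norm_num
  have h3 := det_pow_sub h2 k
  rw [det_sub_one, h1, one_pow] at h3
  linear_combination -h3

end mat

/-! ### The conditions -/

section main

variable {E : WeierstrassCurve ℚ} [E.IsElliptic] {W : WeierstrassCurve ℤ} {p : ℕ} [hp : Fact p.Prime]

lemma Δ_ne_zero_of_model (hW : W.IsIntegralModelOf E) : W.Δ ≠ 0 := by
  obtain ⟨C, hC⟩ := hW
  have h1 : (C • E).Δ ≠ 0 := by
    rw [variableChange_Δ]
    exact mul_ne_zero (pow_ne_zero _ (Units.ne_zero _)) E.isUnit_Δ.ne_zero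
  rw [hC, WeierstrassCurve.map_Δ] at h1
  intro h
  rw [h] at h1
  simp at h1

lemma complexConjugation_ne_one : (complexConjugation : GQ) ≠ 1 := by
  intro h
  have h1 := complexEmbedding_complexConjugation
  obtain ⟨i, hi⟩ := IsAlgClosed.exists_pow_nat_eq (-1 : AlgebraicClosure ℚ) (n := 2) two_pos
  have h2 := h1 i
  rw [h, AlgEquiv.one_apply] at h2
  have h3 : complexEmbedding i ^ 2 = -1 := by rw [← _root_.map_pow, hi, map_neg, _root_.map_one]
  have h4 : (complexEmbedding i).im = 0 := Complex.conj_eq_iff_im.mp h2.symm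
  have h5 : (complexEmbedding i ^ 2).re = -1 := by rw [h3]; simp
  rw [sq, Complex.mul_re, h4] at h5
  nlinarith [mul_self_nonneg (complexEmbedding i).re]

/-- The matrix representation. -/
def mrep (hΔ : W.Δ ≠ 0) : GQ →* Matrix (Fin 2) (Fin 2) (ZMod p) :=
  haveI := finite_rat hΔ hp.out.ne_zero
  haveI : Module.Finite (ZMod p)
      (Submodule.torsionBy ℤ ((W.map (Int.castRingHom ℚ))⁄(AlgebraicClosure ℚ)).Point p) :=
    Module.Finite.of_finite
  (LinearMap.toMatrixAlgEquiv (Module.finBasisOfFinrankEq _ _ (finrank_rat hΔ (p := p)))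
    ).toAlgHom.toRingHom.toMonoidHom.comp (rho W p)

lemma trace_mrep (hΔ : W.Δ ≠ 0) (g : GQ) :
    (mrep (p := p) hΔ g).trace = LinearMap.trace (ZMod p) _ (rho W p g) := by
  haveI := finite_rat hΔ hp.out.ne_zero
  haveI : Module.Finite (ZMod p)
      (Submodule.torsionBy ℤ ((W.map (Int.castRingHom ℚ))⁄(AlgebraicClosure ℚ)).Point p) :=
    Module.Finite.of_finite
  rw [LinearMap.trace_eq_matrix_trace _
    (Module.finBasisOfFinrankEq _ _ (finrank_rat hΔ (p := p)))]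
  rfl

lemma det_mrep (hΔ : W.Δ ≠ 0) (g : GQ) :
    (mrep (p := p) hΔ g).det = LinearMap.det (rho W p g) := by
  haveI := finite_rat hΔ hp.out.ne_zero
  haveI : Module.Finite (ZMod p)
      (Submodule.torsionBy ℤ ((W.map (Int.castRingHom ℚ))⁄(AlgebraicClosure ℚ)).Point p) :=
    Module.Finite.of_finite
  rw [← LinearMap.det_toMatrix (Module.finBasisOfFinrankEq _ _ (finrank_rat hΔ (p := p)))]
  rfl

/-- A common eigenvector of the matrices contradicts irreducibility. -/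
lemma false_of_mrep (hW : W.IsIntegralModelOf E) (hirr : GaloisRepIsIrreducible (K := ℚb) ℚ E p)
    (hΔ : W.Δ ≠ 0)
    (h : ∃ v : Fin 2 → ZMod p, v ≠ 0 ∧ ∀ g : GQ, ∃ t : ZMod p,
      (mrep (p := p) hΔ g).mulVec v = t • v) : False := by
  haveI := finite_rat hΔ hp.out.ne_zero
  haveI : Module.Finite (ZMod p)
      (Submodule.torsionBy ℤ ((W.map (Int.castRingHom ℚ))⁄(AlgebraicClosure ℚ)).Point p) :=
    Module.Finite.of_finite
  obtain ⟨v, hv, hg⟩ := h
  let b := Module.finBasisOfFinrankEq _ _ (finrank_rat hΔ (p := p))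
  refine false_of_eigenvector hW hirr (b.equivFun.symm v)
    (fun h0 => hv ((LinearEquiv.map_eq_zero_iff _).mp h0)) fun g => ?_
  obtain ⟨t, ht⟩ := hg g
  refine ⟨t, ?_⟩
  have h1 : (LinearMap.toMatrix b b (rho W p g)).mulVec (b.repr (b.equivFun.symm v)) =
      b.repr (rho W p g (b.equivFun.symm v)) := LinearMap.toMatrix_mulVec_repr b b _ _
  have h2 : (b.repr (b.equivFun.symm v) : Fin 2 → ZMod p) = v := by
    have := b.equivFun.apply_symm_apply v
    exact this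
  rw [h2] at h1
  have h3 : (LinearMap.toMatrix b b (rho W p g)).mulVec v = t • v := ht
  rw [h3] at h1
  apply b.equivFun.injective
  have h4 : b.equivFun (t • b.equivFun.symm v) = t • v := by
    rw [LinearEquiv.map_smul, LinearEquiv.apply_symm_apply]
  rw [h4]
  exact h1.symm

/-- Frobenius density for `E[p]` and the `n`-th roots of unity. -/
lemma exists_frob (hΔ : W.Δ ≠ 0) {n : ℕ} (hn : n ≠ 0) (σ : GQ) :
    ∃ ℓ : ℕ, ℓ.Prime ∧ W.IsGoodPrimeFor ℓ ∧ ℓ ≠ p ∧ ¬ ℓ ∣ n ∧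
      ∃ φ : GQ, (mrep (p := p) hΔ φ).trace = ((W.apOfModel ℓ : ℤ) : ZMod p) ∧
        (mrep (p := p) hΔ φ).det = (ℓ : ZMod p) ∧
        (∃ k' : ℕ, mrep (p := p) hΔ σ = (mrep (p := p) hΔ φ) ^ k') ∧
        (σ ∈ cycSub n → n ∣ ℓ - 1) := by
  haveI : NeZero n := ⟨hn⟩
  obtain ⟨L₁, hL₁, h₁⟩ := galoisRep_factors (map_Δ_ne_zero hΔ) hp.out.ne_zero
  haveI : NeZero ((n : ℕ) : ℚb) := ⟨by exact_mod_cast NeZero.ne n⟩
  obtain ⟨ζ, hζ⟩ := HasEnoughRootsOfUnity.exists_primitiveRoot (AlgebraicClosure ℚ) n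
  haveI := hL₁
  haveI : FiniteDimensional ℚ (IntermediateField.adjoin ℚ {ζ}) :=
    IntermediateField.adjoin.finiteDimensional
      ((AlgebraicClosure.isAlgebraic ℚ).isAlgebraic ζ).isIntegral
  haveI : FiniteDimensional ℚ (L₁ ⊔ IntermediateField.adjoin ℚ {ζ} : IntermediateField ℚ _) :=
    IntermediateField.finiteDimensional_sup _ _
  obtain ⟨ℓ, hℓ, hℓS, A, hA, φ, hφ, k, k', hk, hk'⟩ := FrobDensity.exists_frobenius_on
    (L₁ ⊔ IntermediateField.adjoin ℚ {ζ}) σ ({ℓ | (ℓ : ℤ) ∣ W.Δ} ∪ {p} ∪ {ℓ | ℓ ∣ n}) (by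
      refine Set.Finite.union (Set.Finite.union ?_ (Set.finite_singleton p)) ?_
      · refine (Finset.finite_toSet (W.Δ.natAbs.divisors)).subset fun ℓ hℓ => ?_
        rw [Finset.mem_coe, Nat.mem_divisors]
        exact ⟨Int.natCast_dvd.mp hℓ, Int.natAbs_ne_zero.mpr hΔ⟩
      · refine (Finset.finite_toSet n.divisors).subset fun ℓ hℓ => ?_
        rw [Finset.mem_coe, Nat.mem_divisors]
        exact ⟨hℓ, hn⟩)
  simp only [Set.mem_union, Set.mem_ofPred_eq, Set.mem_singleton_iff, not_or] at hℓS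
  obtain ⟨⟨hgood, hne⟩, hndvd⟩ := hℓS
  haveI : Fact ℓ.Prime := ⟨hℓ⟩
  refine ⟨ℓ, hℓ, hgood, hne, hndvd, φ, ?_, ?_, ⟨k', ?_⟩, ?_⟩
  · rw [trace_mrep]; exact trace_rho_frobenius hgood hA hφ hne
  · rw [det_mrep]; exact det_rho_frobenius hgood hA hφ hne
  · have h2 : rho W p ((φ ^ k')⁻¹ * σ) = 1 := by
      apply h₁
      intro x hx
      show (φ ^ k').symm (σ x) = x
      rw [hk' x (le_sup_left (a := L₁) hx), AlgEquiv.symm_apply_apply]
    have h3 : rho W p σ = rho W p (φ ^ k') := by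
      rw [_root_.map_mul] at h2
      have h4 : rho W p (φ ^ k') * rho W p (φ ^ k')⁻¹ = 1 := by
        rw [← _root_.map_mul, mul_inv_cancel, _root_.map_one]
      calc rho W p σ = (rho W p (φ ^ k') * rho W p (φ ^ k')⁻¹) * rho W p σ := by rw [h4, one_mul]
        _ = rho W p (φ ^ k') := by rw [mul_assoc, h2, mul_one]
    rw [← _root_.map_pow]
    show (mrep (p := p) hΔ) σ = (mrep (p := p) hΔ) (φ ^ k')
    simp only [mrep, MonoidHom.comp_apply, h3]
  · intro hσ
    have hmem : ζ ∈ L₁ ⊔ IntermediateField.adjoin ℚ {ζ} :=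
      le_sup_right (a := L₁) (IntermediateField.mem_adjoin_simple_self ℚ ζ)
    have h5 : φ ζ = ζ := by
      rw [hk ζ hmem]
      exact (cycSub n).pow_mem hσ k ζ hζ.pow_eq_one
    have h6 : φ ζ = ζ ^ ℓ := GalRep.frobenius_rootOfUnity hA
      ((Nat.Prime.coprime_iff_not_dvd hℓ).mpr hndvd) hn hφ hζ.pow_eq_one
    rw [h5] at h6
    have h7 : ζ ^ (ℓ - 1) = 1 := by
      have hz : ζ ≠ 0 := hζ.ne_zero hn
      have : ζ * ζ ^ (ℓ - 1) = ζ * 1 := by
        rw [← pow_succ', Nat.sub_add_cancel hℓ.one_le, mul_one, ← h6]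
      exact mul_left_cancel₀ hz this
    exact hζ.dvd_of_pow_eq_one _ h7

lemma two_ne_zero_zmod (hp2 : p ≠ 2) : (2 : ZMod p) ≠ 0 := by
  have : ((2 : ℕ) : ZMod p) ≠ 0 := by
    rw [Ne, ZMod.natCast_eq_zero_iff]
    intro h
    exact hp2 ((Nat.prime_dvd_prime_iff_eq hp.out Nat.prime_two).mp h)
  exact_mod_cast this

theorem ne1 (hW : W.IsIntegralModelOf E) (hp2 : p ≠ 2)
    (hirr : GaloisRepIsIrreducible (K := AlgebraicClosure ℚ) ℚ E p) (M : ℕ) (hM : 0 < M) :
    ∃ ℓ : ℕ, ℓ.Prime ∧ W.IsGoodPrimeFor ℓ ∧ ℓ ≠ p ∧ (M : ℤ) ∣ ℓ - 1 ∧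
      ¬ (p : ℤ) ∣ W.apOfModel ℓ - (ℓ + 1) := by
  by_contra hcon
  push Not at hcon
  have hΔ := Δ_ne_zero_of_model hW
  have hn : M * p ≠ 0 := mul_ne_zero hM.ne' hp.out.ne_zero
  haveI : NeZero (M * p) := ⟨hn⟩
  have key : ∀ σ ∈ cycSub (M * p), (mrep (p := p) hΔ σ).trace = 2 ∧
      (mrep (p := p) hΔ σ).det = 1 := by
    intro σ hσ
    obtain ⟨ℓ, hℓ, hgood, hne, -, φ, ht, hd, ⟨k', hk'⟩, hdvd⟩ := exists_frob (p := p) hΔ hn σ
    have h1 := hdvd hσ
    have h2 : ((ℓ : ℕ) : ZMod p) = 1 := by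
      have : ((ℓ - 1 : ℕ) : ZMod p) = 0 := by
        rw [ZMod.natCast_eq_zero_iff]
        exact (Dvd.intro_left _ rfl).trans h1
      rw [Nat.cast_sub hℓ.one_le, sub_eq_zero] at this
      simpa using this
    have h3 : (M : ℤ) ∣ (ℓ : ℤ) - 1 := by
      have h4 : ((M : ℕ) : ℤ) ∣ ((ℓ - 1 : ℕ) : ℤ) :=
        Int.natCast_dvd_natCast.mpr ((Dvd.intro _ rfl).trans h1)
      rw [Nat.cast_sub hℓ.one_le] at h4
      simpa using h4
    have h5 := hcon ℓ hℓ hgood hne h3
    rw [← ZMod.intCast_zmod_eq_zero_iff_dvd] at h5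
    push_cast at h5
    rw [h2] at h5 hd
    rw [hk']
    refine trace_two_pow ?_ hd k'
    rw [ht]
    linear_combination h5
  refine false_of_mrep hW hirr hΔ (S41grp.exists_eigenvector_of_trace_two (mrep (p := p) hΔ)
    (two_ne_zero_zmod hp2) (cycSub (M * p)) commutator_mem_cycSub (fun h hh => (key h hh).1)
    (fun h hh => (key h hh).2) complexConjugation complexConjugation_mul_self ?_)
  rw [det_mrep]
  exact det_rho_involution hΔ complexConjugation_mul_self complexConjugation_ne_one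

theorem ne2 (hW : W.IsIntegralModelOf E) (hp2 : p ≠ 2)
    (hirr : GaloisRepIsIrreducible (K := AlgebraicClosure ℚ) ℚ E p) (M : ℕ) (hM : 0 < M) :
    ∃ ℓ : ℕ, ℓ.Prime ∧ W.IsGoodPrimeFor ℓ ∧ ℓ ≠ p ∧ ¬ ℓ ∣ M ∧
      ¬ (p : ℤ) ∣ (W.apOfModel ℓ) ^ 2 - (ℓ + 1) ^ 2 := by
  by_contra hcon
  push Not at hcon
  have hΔ := Δ_ne_zero_of_model hW
  have key : ∀ σ : GQ, (mrep (p := p) hΔ σ).trace ^ 2 = (1 + (mrep (p := p) hΔ σ).det) ^ 2 := by
    intro σ
    obtain ⟨ℓ, hℓ, hgood, hne, hdvd, φ, ht, hd, ⟨k', hk'⟩, -⟩ := exists_frob (p := p) hΔ hM.ne' σ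
    have h5 := hcon ℓ hℓ hgood hne hdvd
    rw [← ZMod.intCast_zmod_eq_zero_iff_dvd] at h5
    push_cast at h5
    rw [hk']
    refine trace_sq_pow ?_ k'
    rw [ht, hd]
    linear_combination h5
  refine false_of_mrep hW hirr hΔ (S41grp.exists_eigenvector_of_trace_sq (mrep (p := p) hΔ)
    (two_ne_zero_zmod hp2) key complexConjugation complexConjugation_mul_self ?_)
  rw [det_mrep]
  exact det_rho_involution hΔ complexConjugation_mul_self complexConjugation_ne_one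

end main

end Fermat.Agent.S41neh

end
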