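import Fermat.Agent.S41.HmEig
import Fermat.Agent.S41.NonEisH
import Fermat.Prelude.Def_FLTPrelim_ModularRep

/-!
# The strong non Eisenstein condition for the residual system of an elliptic curve
-/

set_option autoImplicit false

noncomputable section

namespace Fermat.Agent.S41hm

open Fermat.Agent.TwExact WeierstrassCurve

/-- Abstract form: a system `a` of integers which is not Eisenstein modulo `p` gives a strongly
non Eisenstein system away from any finite set. -/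
theorem strongNonEis_of_int {k : Type*} [Field k] {p : ℕ} [CharP k p] {a : ℕ → ℤ} {G : ℕ → Prop}
    (ne1 : ∀ M : ℕ, 0 < M → ∃ ℓ : ℕ, ℓ.Prime ∧ G ℓ ∧ (M : ℤ) ∣ ℓ - 1 ∧
      ¬ (p : ℤ) ∣ a ℓ - (ℓ + 1))
    (ne2 : ∀ M : ℕ, 0 < M → ∃ ℓ : ℕ, ℓ.Prime ∧ G ℓ ∧ ¬ ℓ ∣ M ∧
      ¬ (p : ℤ) ∣ (a ℓ) ^ 2 - (ℓ + 1) ^ 2)
    {S : Set ℕ} (hS : S.Finite) {θ : PIdx S → k}
    (hθ : ∀ ℓ : PIdx S, G (ℓ.1 : ℕ) → θ ℓ = ((a (ℓ.1 : ℕ) : ℤ) : k)) : StrongNonEis S θ := by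
  classical
  set P : ℕ := ∏ s ∈ hS.toFinset.filter Nat.Prime, s with hP
  have hP0 : 0 < P := Finset.prod_pos fun s hs => (Finset.mem_filter.mp hs).2.pos
  have hdvd : ∀ ℓ : ℕ, ℓ.Prime → ℓ ∈ S → ℓ ∣ P := fun ℓ hℓ h =>
    Finset.dvd_prod_of_mem _ (Finset.mem_filter.mpr ⟨hS.mem_toFinset.mpr h, hℓ⟩)
  constructor
  · intro m hm
    obtain ⟨ℓ, hℓ, hG, hd, ha⟩ := ne1 (m * P) (Nat.mul_pos hm hP0)
    have hℓS : ℓ ∉ S := by
      intro h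
      have h1 : (ℓ : ℤ) ∣ (m * P : ℕ) :=
        Int.natCast_dvd_natCast.mpr ((hdvd ℓ hℓ h).mul_left m)
      have h2 : (ℓ : ℤ) ∣ ℓ - 1 := h1.trans hd
      have h3 : (ℓ : ℤ) ∣ 1 := by
        have := dvd_sub (dvd_refl (ℓ : ℤ)) h2
        simpa using this
      exact (Nat.prime_iff_prime_int.mp hℓ).not_dvd_one h3
    refine ⟨⟨⟨ℓ, hℓ⟩, hℓS⟩, (Int.natCast_dvd_natCast.mpr (dvd_mul_right m P)).trans hd, ?_⟩
    rw [hθ _ hG]
    intro h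
    apply ha
    rw [← CharP.intCast_eq_zero_iff k p]
    push_cast
    exact sub_eq_zero.mpr h
  · intro m hm
    obtain ⟨ℓ, hℓ, hG, hd, ha⟩ := ne2 (m * P) (Nat.mul_pos hm hP0)
    have hℓS : ℓ ∉ S := fun h => hd ((hdvd ℓ hℓ h).mul_left m)
    refine ⟨⟨⟨ℓ, hℓ⟩, hℓS⟩, fun h => hd (h.mul_right P), ?_⟩
    rw [hθ _ hG]
    intro h
    apply ha
    rw [← CharP.intCast_eq_zero_iff k p]
    push_cast
    exact sub_eq_zero.mpr h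

/-- The residual system of an elliptic curve with irreducible `E[p]` is strongly non Eisenstein. -/
theorem strongNonEis_of_model {k : Type*} [Field k] {p : ℕ} [hp : Fact p.Prime] [CharP k p]
    (hp2 : p ≠ 2) {W : WeierstrassCurve ℤ} (hΔ : W.Δ ≠ 0) (hirr : W.ModRepIsIrreducible p)
    {S : Set ℕ} (hS : S.Finite) {θ : PIdx S → k}
    (hθ : ∀ ℓ : PIdx S, W.IsGoodPrimeFor (ℓ.1 : ℕ) → (ℓ.1 : ℕ) ≠ p →
      θ ℓ = ((W.apOfModel (ℓ.1 : ℕ) : ℤ) : k)) : StrongNonEis S θ := by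
  have hell : (W.map (Int.castRingHom ℚ)).IsElliptic := by
    rw [isElliptic_iff, WeierstrassCurve.map_Δ, isUnit_iff_ne_zero]
    simpa using hΔ
  have hW : W.IsIntegralModelOf (W.map (Int.castRingHom ℚ)) := ⟨1, one_smul _ _⟩
  refine strongNonEis_of_int (a := W.apOfModel) (G := fun ℓ => W.IsGoodPrimeFor ℓ ∧ ℓ ≠ p) (p := p)
    (fun M hM => ?_) (fun M hM => ?_) hS (fun ℓ h => hθ ℓ h.1 h.2)
  · obtain ⟨ℓ, h1, h2, h3, h4, h5⟩ := S41neh.ne1 hW hp2 hirr M hM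
    exact ⟨ℓ, h1, ⟨h2, h3⟩, h4, h5⟩
  · obtain ⟨ℓ, h1, h2, h3, h4, h5⟩ := S41neh.ne2 hW hp2 hirr M hM
    exact ⟨ℓ, h1, ⟨h2, h3⟩, h4, h5⟩

end Fermat.Agent.S41hm

end
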