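import Fermat.Agent.S41.NonEisAlg
import Fermat.Agent.S41.VarChange
import Fermat.Agent.ECFrob.Odd
import Fermat.Agent.Frob.Density
import Fermat.Prelude.Def_GaloisRep_ComplexConjugation

/-!
# Existence of primes where an irreducible `E[p]` is not Eisenstein-like

Let `W` be an integral model of an elliptic curve `E` over `ℚ`, `p` an odd prime such that `E[p]` is
irreducible.

* `ne1`: for every `M > 0` there is a good prime `ℓ ≡ 1 mod M` with `a_ℓ ≢ ℓ + 1 mod p`;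
* `ne2`: for every `M > 0` there is a good prime `ℓ ∤ M` with `a_ℓ² ≢ (ℓ + 1)² mod p`.
-/

set_option autoImplicit false
set_option linter.style.haveILetI false

noncomputable section

namespace Fermat.Agent.S41ne

open WeierstrassCurve WeierstrassCurve.Affine WeierstrassCurve.Affine.Point
open Fermat.Agent Fermat.Agent.ECFrob Fermat.Agent.Torsion Fermat.Agent.ECRed

lemma complexConjugation_ne_one : complexConjugation ≠ 1 := by
  intro h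
  have h1 := complexEmbedding_complexConjugation
  obtain ⟨i, hi⟩ := IsAlgClosed.exists_pow_nat_eq (-1 : AlgebraicClosure ℚ) (n := 2) two_pos
  have h2 := h1 i
  rw [h, AlgEquiv.one_apply] at h2
  have h3 : complexEmbedding i ^ 2 = -1 := by rw [← map_pow, hi, map_neg, map_one]
  have h4 : (complexEmbedding i).im = 0 := Complex.conj_eq_iff_im.mp h2.symm
  have h5 : (complexEmbedding i ^ 2).re = -1 := by rw [h3]; simp
  rw [sq, Complex.mul_re, h4] at h5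
  nlinarith [mul_self_nonneg (complexEmbedding i).re]

lemma two_ne_zero_zmod' {p : ℕ} [hp : Fact p.Prime] (hp2 : p ≠ 2) : (2 : ZMod p) ≠ 0 := by
  have : ((2 : ℕ) : ZMod p) ≠ 0 := by
    rw [Ne, ZMod.natCast_eq_zero_iff]
    intro h
    exact hp2 ((Nat.prime_dvd_prime_iff_eq hp.out Nat.prime_two).mp h)
  exact_mod_cast this

variable {W : WeierstrassCurve ℤ} {p : ℕ} [hp : Fact p.Prime]

/-- Approximation by Frobenius elements. -/
theorem approx (hΔ : W.Δ ≠ 0) {M : ℕ} (hM : 0 < M)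
    (σ : AlgebraicClosure ℚ ≃ₐ[ℚ] AlgebraicClosure ℚ) :
    ∃ ℓ : ℕ, ℓ.Prime ∧ W.IsGoodPrimeFor ℓ ∧ ℓ ≠ p ∧ ¬ ℓ ∣ M ∧ ∃ k k' : ℕ,
      ((rho W p σ) ^ k) ^ k' = rho W p σ ∧
      LinearMap.trace (ZMod p) _ ((rho W p σ) ^ k) = (W.apOfModel ℓ : ZMod p) ∧
      LinearMap.det ((rho W p σ) ^ k) = (ℓ : ZMod p) ∧
      ∀ ζ : AlgebraicClosure ℚ, ζ ^ M = 1 → (σ ^ k) ζ = ζ ^ ℓ := by
  obtain ⟨L₁, hL₁, h₁⟩ := galoisRep_factors (map_Δ_ne_zero hΔ) hp.out.ne_zero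
  haveI : NeZero ((M : ℕ) : AlgebraicClosure ℚ) := ⟨by exact_mod_cast hM.ne'⟩
  haveI : NeZero M := ⟨hM.ne'⟩
  obtain ⟨ζ, hζ⟩ : ∃ ζ : AlgebraicClosure ℚ, IsPrimitiveRoot ζ M :=
    HasEnoughRootsOfUnity.exists_primitiveRoot (AlgebraicClosure ℚ) M
  haveI := hL₁
  haveI : FiniteDimensional ℚ (IntermediateField.adjoin ℚ {ζ}) :=
    IntermediateField.adjoin.finiteDimensional
      ((AlgebraicClosure.isAlgebraic ℚ).isAlgebraic ζ).isIntegral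
  haveI : FiniteDimensional ℚ (L₁ ⊔ IntermediateField.adjoin ℚ {ζ} : IntermediateField ℚ _) :=
    IntermediateField.finiteDimensional_sup _ _
  have hfact : ∀ σ τ : AlgebraicClosure ℚ ≃ₐ[ℚ] AlgebraicClosure ℚ,
      (∀ x ∈ (L₁ ⊔ IntermediateField.adjoin ℚ {ζ} : IntermediateField ℚ _), σ x = τ x) →
        rho W p σ = rho W p τ := by
    intro σ τ h
    have h2 : rho W p (τ⁻¹ * σ) = 1 := by
      apply h₁
      intro x hx
      show τ.symm (σ x) = x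
      rw [h x (le_sup_left (a := L₁) hx), τ.symm_apply_apply]
    rw [_root_.map_mul] at h2
    have h4 : rho W p τ * rho W p τ⁻¹ = 1 := by
      rw [← _root_.map_mul, mul_inv_cancel, _root_.map_one]
    calc rho W p σ = (rho W p τ * rho W p τ⁻¹) * rho W p σ := by rw [h4, one_mul]
      _ = rho W p τ := by rw [mul_assoc, h2, mul_one]
  have hS : ({ℓ | (ℓ : ℤ) ∣ W.Δ} ∪ {p} ∪ {ℓ | ℓ ∣ M} : Set ℕ).Finite := by
    refine Set.Finite.union (Set.Finite.union ?_ (Set.finite_singleton p)) ?_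
    · refine (Finset.finite_toSet (W.Δ.natAbs.divisors)).subset fun ℓ hℓ => ?_
      rw [Finset.mem_coe, Nat.mem_divisors]
      exact ⟨Int.natCast_dvd.mp hℓ, Int.natAbs_ne_zero.mpr hΔ⟩
    · refine (Finset.finite_toSet (M.divisors)).subset fun ℓ hℓ => ?_
      rw [Finset.mem_coe, Nat.mem_divisors]
      exact ⟨hℓ, hM.ne'⟩
  obtain ⟨ℓ, hℓ, hℓS, A, hA, φ, hφ, k, k', hk, hk'⟩ :=
    FrobDensity.exists_frobenius_on (L₁ ⊔ IntermediateField.adjoin ℚ {ζ}) σ _ hS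
  simp only [Set.mem_union, Set.mem_ofPred_eq, Set.mem_singleton_iff, not_or] at hℓS
  obtain ⟨⟨hℓ1, hℓ2⟩, hℓ3⟩ := hℓS
  haveI : Fact ℓ.Prime := ⟨hℓ⟩
  have e1 : rho W p φ = (rho W p σ) ^ k := by
    rw [← map_pow]; exact hfact _ _ hk
  have e2 : rho W p σ = (rho W p φ) ^ k' := by
    rw [← map_pow]; exact hfact _ _ hk'
  refine ⟨ℓ, hℓ, hℓ1, hℓ2, hℓ3, k, k', ?_, ?_, ?_, ?_⟩
  · rw [← e1, ← e2]
  · rw [← e1]
    exact trace_rho_frobenius hℓ1 hA hφ hℓ2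
  · rw [← e1]
    exact det_rho_frobenius hℓ1 hA hφ hℓ2
  · intro x hx
    have hζmem : ζ ∈ (L₁ ⊔ IntermediateField.adjoin ℚ {ζ} : IntermediateField ℚ _) :=
      le_sup_right (a := L₁) (IntermediateField.mem_adjoin_simple_self ℚ ζ)
    obtain ⟨i, -, rfl⟩ := hζ.eq_pow_of_pow_eq_one hx
    have h5 := GalRep.frobenius_rootOfUnity hA ((Nat.Prime.coprime_iff_not_dvd hℓ).mpr hℓ3)
      hM.ne' hφ hζ.pow_eq_one
    rw [map_pow, ← hk ζ hζmem, h5, ← pow_mul, ← pow_mul, mul_comm]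

section

variable (hp2 : p ≠ 2) (hΔ : W.Δ ≠ 0)
  (hirr : GaloisRepIsIrreducible (K := AlgebraicClosure ℚ) ℚ (W.map (Int.castRingHom ℚ)) p)

include hp2 hΔ hirr

theorem ne1_aux {M : ℕ} (hM : 0 < M) (hpM : p ∣ M) :
    ∃ ℓ : ℕ, ℓ.Prime ∧ W.IsGoodPrimeFor ℓ ∧ ℓ ≠ p ∧ (M : ℤ) ∣ (ℓ : ℤ) - 1 ∧
      ¬ (p : ℤ) ∣ W.apOfModel ℓ - ((ℓ : ℤ) + 1) := by
  by_contra hcon
  push Not at hcon
  haveI := finite_rat hΔ hp.out.ne_zero
  haveI : NeZero ((M : ℕ) : AlgebraicClosure ℚ) := ⟨by exact_mod_cast hM.ne'⟩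
  haveI : NeZero M := ⟨hM.ne'⟩
  obtain ⟨ζ, hζ⟩ : ∃ ζ : AlgebraicClosure ℚ, IsPrimitiveRoot ζ M :=
    HasEnoughRootsOfUnity.exists_primitiveRoot (AlgebraicClosure ℚ) M
  let H : Subgroup (AlgebraicClosure ℚ ≃ₐ[ℚ] AlgebraicClosure ℚ) :=
    { carrier := {g | g ζ = ζ}
      mul_mem' := fun {a b} ha hb => by
        simp only [Set.mem_ofPred_eq] at ha hb ⊢
        rw [AlgEquiv.mul_apply, hb, ha]
      one_mem' := rfl
      inv_mem' := fun {a} ha => by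
        simp only [Set.mem_ofPred_eq] at ha ⊢
        show a.symm ζ = ζ
        exact a.symm_apply_eq.mpr ha.symm }
  have hHmem : ∀ g, g ∈ H ↔ g ζ = ζ := fun g => Iff.rfl
  refine false_of_unipotent (rho W p) (two_ne_zero_zmod' hp2) (finrank_rat hΔ) ?_
    (c := complexConjugation) complexConjugation_mul_self
    (det_rho_involution hΔ complexConjugation_mul_self complexConjugation_ne_one) H ?_ ?_
  · intro N hN
    exact hirr.2 N (fun σ x hx => hN σ x hx)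
  · intro a b
    rw [hHmem]
    have hpow : ∀ g : AlgebraicClosure ℚ ≃ₐ[ℚ] AlgebraicClosure ℚ, ∃ i : ℕ, g ζ = ζ ^ i := by
      intro g
      have h1 : (g ζ) ^ M = 1 := by rw [← map_pow, hζ.pow_eq_one, map_one]
      obtain ⟨i, -, hi⟩ := hζ.eq_pow_of_pow_eq_one h1
      exact ⟨i, hi.symm⟩
    have hcomm : ∀ a b : AlgebraicClosure ℚ ≃ₐ[ℚ] AlgebraicClosure ℚ, a (b ζ) = b (a ζ) := by
      intro a b
      obtain ⟨i, hi⟩ := hpow a
      obtain ⟨j, hj⟩ := hpow b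
      rw [hj, hi, map_pow, map_pow, hi, hj, ← pow_mul, ← pow_mul, mul_comm]
    have h2 : a (b (a⁻¹ (b⁻¹ ζ))) = ζ := by
      rw [hcomm a⁻¹ b⁻¹]
      have h3 : ∀ (g : AlgebraicClosure ℚ ≃ₐ[ℚ] AlgebraicClosure ℚ) x, g (g⁻¹ x) = x := by
        intro g x
        exact g.apply_symm_apply x
      rw [h3, h3]
    exact h2
  · intro σ hσ
    rw [hHmem] at hσ
    obtain ⟨ℓ, hℓ, hℓ1, hℓ2, hℓ3, k, k', e1, e2, e3, e4⟩ := approx (p := p) hΔ hM σ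
    have hk : (σ ^ k) ζ = ζ := by
      clear e1 e2 e3 e4
      induction k with
      | zero => rfl
      | succ n ih => rw [pow_succ', AlgEquiv.mul_apply, ih, hσ]
    have h5 := e4 ζ hζ.pow_eq_one
    rw [hk] at h5
    have h6 : (M : ℤ) ∣ (ℓ : ℤ) - 1 := by
      have h7 : ζ ^ (ℓ - 1) = 1 := by
        have h8 : ζ ^ (ℓ - 1) * ζ = 1 * ζ := by
          rw [← pow_succ, Nat.sub_add_cancel hℓ.one_le, ← h5, one_mul]
        exact mul_right_cancel₀ (hζ.ne_zero hM.ne') h8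
      have h9 := hζ.dvd_of_pow_eq_one _ h7
      have h10 : ((ℓ - 1 : ℕ) : ℤ) = (ℓ : ℤ) - 1 := by
        rw [Nat.cast_sub hℓ.one_le, Nat.cast_one]
      rw [← h10]
      exact_mod_cast h9
    have h7 := hcon ℓ hℓ hℓ1 hℓ2 h6
    have h8 : ((ℓ : ℕ) : ZMod p) = 1 := by
      have h9 : (p : ℤ) ∣ (ℓ : ℤ) - 1 := dvd_trans (by exact_mod_cast hpM) h6
      rw [← ZMod.intCast_zmod_eq_zero_iff_dvd] at h9
      push_cast at h9
      linear_combination h9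
    rw [← ZMod.intCast_zmod_eq_zero_iff_dvd] at h7
    push_cast at h7
    have h9 : LinearMap.det ((rho W p σ) ^ k) = 1 := by rw [e3, h8]
    have h10 : LinearMap.trace (ZMod p) _ ((rho W p σ) ^ k) = 2 := by
      rw [e2]; linear_combination h7 + h8
    have h11 := cayley (finrank_rat hΔ) ((rho W p σ) ^ k)
    rw [h9, h10] at h11
    have h12 : ((rho W p σ) ^ k) ^ p = 1 := by
      apply pow_eq_one_of_sub_sq
      rw [one_smul, two_smul] at h11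
      rw [← h11]
      noncomm_ring
    rw [← e1, ← pow_mul, mul_comm k' p, pow_mul, h12, one_pow]

theorem ne1' (M : ℕ) (hM : 0 < M) :
    ∃ ℓ : ℕ, ℓ.Prime ∧ W.IsGoodPrimeFor ℓ ∧ ℓ ≠ p ∧ (M : ℤ) ∣ (ℓ : ℤ) - 1 ∧
      ¬ (p : ℤ) ∣ W.apOfModel ℓ - ((ℓ : ℤ) + 1) := by
  obtain ⟨ℓ, h1, h2, h3, h4, h5⟩ := ne1_aux hp2 hΔ hirr (M := M * p)
    (Nat.mul_pos hM hp.out.pos) (Dvd.intro_left M rfl)
  refine ⟨ℓ, h1, h2, h3, dvd_trans ?_ h4, h5⟩
  exact_mod_cast Dvd.intro p rfl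

theorem ne2' (M : ℕ) (hM : 0 < M) :
    ∃ ℓ : ℕ, ℓ.Prime ∧ W.IsGoodPrimeFor ℓ ∧ ℓ ≠ p ∧ ¬ ℓ ∣ M ∧
      ¬ (p : ℤ) ∣ (W.apOfModel ℓ) ^ 2 - ((ℓ : ℤ) + 1) ^ 2 := by
  by_contra hcon
  push Not at hcon
  haveI := finite_rat hΔ hp.out.ne_zero
  refine false_of_pm (rho W p) hp2 (two_ne_zero_zmod' hp2) (finrank_rat hΔ) ?_
    (c := complexConjugation) complexConjugation_mul_self
    (det_rho_involution hΔ complexConjugation_mul_self complexConjugation_ne_one) ?_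
  · intro N hN
    exact hirr.2 N (fun σ x hx => hN σ x hx)
  · intro σ
    obtain ⟨ℓ, hℓ, hℓ1, hℓ2, hℓ3, k, k', e1, e2, e3, -⟩ := approx (p := p) hΔ hM σ
    refine ⟨k, k', e1, ?_⟩
    rw [e2, e3]
    have h7 := hcon ℓ hℓ hℓ1 hℓ2 hℓ3
    rw [← ZMod.intCast_zmod_eq_zero_iff_dvd] at h7
    push_cast at h7
    linear_combination h7

end

/-- **NE1** -/
theorem ne1 {E : WeierstrassCurve ℚ} [E.IsElliptic] {W : WeierstrassCurve ℤ}
    (hW : W.IsIntegralModelOf E) {p : ℕ} (hp : p.Prime) (hp2 : p ≠ 2)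
    (hirr : GaloisRepIsIrreducible (K := AlgebraicClosure ℚ) ℚ E p) (M : ℕ) (hM : 0 < M) :
    ∃ ℓ : ℕ, ℓ.Prime ∧ W.IsGoodPrimeFor ℓ ∧ ℓ ≠ p ∧ (M : ℤ) ∣ (ℓ : ℤ) - 1 ∧
      ¬ (p : ℤ) ∣ W.apOfModel ℓ - ((ℓ : ℤ) + 1) :=
  haveI : Fact p.Prime := ⟨hp⟩
  ne1' hp2 (S41vc.Δ_ne_zero_of_isIntegralModelOf hW)
    (S41vc.galoisRepIsIrreducible_of_isIntegralModelOf hW hirr) M hM

/-- **NE2** -/
theorem ne2 {E : WeierstrassCurve ℚ} [E.IsElliptic] {W : WeierstrassCurve ℤ}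
    (hW : W.IsIntegralModelOf E) {p : ℕ} (hp : p.Prime) (hp2 : p ≠ 2)
    (hirr : GaloisRepIsIrreducible (K := AlgebraicClosure ℚ) ℚ E p) (M : ℕ) (hM : 0 < M) :
    ∃ ℓ : ℕ, ℓ.Prime ∧ W.IsGoodPrimeFor ℓ ∧ ℓ ≠ p ∧ ¬ ℓ ∣ M ∧
      ¬ (p : ℤ) ∣ (W.apOfModel ℓ) ^ 2 - ((ℓ : ℤ) + 1) ^ 2 :=
  haveI : Fact p.Prime := ⟨hp⟩
  ne2' hp2 (S41vc.Δ_ne_zero_of_isIntegralModelOf hW)
    (S41vc.galoisRepIsIrreducible_of_isIntegralModelOf hW hirr) M hM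

end Fermat.Agent.S41ne

end
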