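import Fermat.Agent.S41.HmNonEis
import Fermat.Prelude.Def_GaloisRep_Adic

/-!
# The strong non Eisenstein condition for a general residual representation
-/

set_option autoImplicit false
set_option linter.style.haveILetI false

noncomputable section

namespace Fermat.Agent.S41hm

open Fermat.Agent.TwExact Polynomial Matrix
open Fermat.Agent.S41neh (cycSub commutator_mem_cycSub trace_two_pow trace_sq_pow
  complexConjugation_ne_one)

local notation "GQ" => AlgebraicClosure ℚ ≃ₐ[ℚ] AlgebraicClosure ℚ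

/-- Frobenius density for a representation of finite level and the `n`-th roots of unity. -/
theorem exists_frob_rep {M : Type*} [Monoid M] (r : GQ →* M)
    (L : IntermediateField ℚ (AlgebraicClosure ℚ)) [FiniteDimensional ℚ L]
    (hL : ∀ σ : GQ, (∀ x ∈ L, σ x = x) → r σ = 1) {T : Set ℕ} (hT : T.Finite) {n : ℕ} (hn : n ≠ 0)
    (σ : GQ) :
    ∃ ℓ : ℕ, ℓ.Prime ∧ ℓ ∉ T ∧ ¬ ℓ ∣ n ∧ ∃ A : ValuationSubring (AlgebraicClosure ℚ),
      A.LiesOverPrime ℓ ∧ ∃ φ : GQ, A.IsFrobeniusAt φ ℓ ∧ (∃ k' : ℕ, r σ = (r φ) ^ k') ∧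
        (σ ∈ cycSub n → n ∣ ℓ - 1) := by
  haveI : NeZero n := ⟨hn⟩
  haveI : NeZero ((n : ℕ) : AlgebraicClosure ℚ) := ⟨by exact_mod_cast NeZero.ne n⟩
  obtain ⟨ζ, hζ⟩ := HasEnoughRootsOfUnity.exists_primitiveRoot (AlgebraicClosure ℚ) n
  haveI : FiniteDimensional ℚ (IntermediateField.adjoin ℚ {ζ}) :=
    IntermediateField.adjoin.finiteDimensional
      ((AlgebraicClosure.isAlgebraic ℚ).isAlgebraic ζ).isIntegral
  haveI : FiniteDimensional ℚ (L ⊔ IntermediateField.adjoin ℚ {ζ} : IntermediateField ℚ _) :=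
    IntermediateField.finiteDimensional_sup _ _
  obtain ⟨ℓ, hℓ, hℓT, A, hA, φ, hφ, k, k', hk, hk'⟩ := FrobDensity.exists_frobenius_on
    (L ⊔ IntermediateField.adjoin ℚ {ζ}) σ (T ∪ {ℓ | ℓ ∣ n}) (by
      refine Set.Finite.union hT ?_
      refine (Finset.finite_toSet n.divisors).subset fun ℓ hℓ => ?_
      rw [Finset.mem_coe, Nat.mem_divisors]
      exact ⟨hℓ, hn⟩)
  simp only [Set.mem_union, Set.mem_ofPred_eq, not_or] at hℓT
  refine ⟨ℓ, hℓ, hℓT.1, hℓT.2, A, hA, φ, hφ, ⟨k', ?_⟩, ?_⟩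
  · have h2 : r ((φ ^ k')⁻¹ * σ) = 1 := by
      apply hL
      intro x hx
      show (φ ^ k').symm (σ x) = x
      rw [hk' x (le_sup_left (a := L) hx), AlgEquiv.symm_apply_apply]
    rw [_root_.map_mul] at h2
    have h4 : r (φ ^ k') * r (φ ^ k')⁻¹ = 1 := by
      rw [← _root_.map_mul, mul_inv_cancel, _root_.map_one]
    calc r σ = (r (φ ^ k') * r (φ ^ k')⁻¹) * r σ := by rw [h4, one_mul]
      _ = r φ ^ k' := by rw [mul_assoc, h2, mul_one, _root_.map_pow]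
  · intro hσ
    have hmem : ζ ∈ L ⊔ IntermediateField.adjoin ℚ {ζ} :=
      le_sup_right (a := L) (IntermediateField.mem_adjoin_simple_self ℚ ζ)
    have h5 : φ ζ = ζ := by
      rw [hk ζ hmem]
      exact (cycSub n).pow_mem hσ k ζ hζ.pow_eq_one
    have h6 : φ ζ = ζ ^ ℓ := GalRep.frobenius_rootOfUnity hA
      ((Nat.Prime.coprime_iff_not_dvd hℓ).mpr hℓT.2) hn hφ hζ.pow_eq_one
    rw [h5] at h6
    have h7 : ζ ^ (ℓ - 1) = 1 := by
      have hz : ζ ≠ 0 := hζ.ne_zero hn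
      have : ζ * ζ ^ (ℓ - 1) = ζ * 1 := by
        rw [← pow_succ', Nat.sub_add_cancel hℓ.one_le, mul_one, ← h6]
      exact mul_left_cancel₀ hz this
    exact hζ.dvd_of_pow_eq_one _ h7

section Rep

variable {k : Type} [Field k] (ρ : ResidualGaloisRep k)

/-- a basis of the space. -/
def bas : Module.Basis (Fin 2) k ρ.V := Module.finBasisOfFinrankEq k ρ.V ρ.finrank_eq

/-- the matrices of a residual representation. -/
def matRep : GQ →* Matrix (Fin 2) (Fin 2) k :=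
  ((LinearMap.toMatrixAlgEquiv (bas ρ)).toAlgHom : Module.End k ρ.V →* _).comp ρ.ρ

theorem matRep_apply (σ : GQ) : matRep ρ σ = LinearMap.toMatrix (bas ρ) (bas ρ) (ρ.ρ σ) := rfl

theorem det_matRep (σ : GQ) : (matRep ρ σ).det = LinearMap.det (ρ.ρ σ) := by
  rw [matRep_apply, LinearMap.det_toMatrix]

theorem charpoly_matRep (σ : GQ) : (matRep ρ σ).charpoly = LinearMap.charpoly (ρ.ρ σ) := by
  rw [matRep_apply, LinearMap.charpoly_toMatrix]

theorem trace_det_of_charpoly {X : Matrix (Fin 2) (Fin 2) k} {a d : k}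
    (h : X.charpoly = Polynomial.X ^ 2 - C a * Polynomial.X + C d) : X.trace = a ∧ X.det = d := by
  rw [Matrix.charpoly_fin_two] at h
  have h0 := congrArg (fun P => Polynomial.coeff P 0) h
  have h1 := congrArg (fun P => Polynomial.coeff P 1) h
  simp [Polynomial.coeff_X, Polynomial.coeff_C] at h0 h1
  exact ⟨h1, h0⟩

theorem matRep_level : ∃ L : IntermediateField ℚ (AlgebraicClosure ℚ), FiniteDimensional ℚ L ∧
    ∀ σ : GQ, (∀ x ∈ L, σ x = x) → matRep ρ σ = 1 := by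
  obtain ⟨L, hL, h⟩ := ρ.factorsThroughFiniteLevel
  refine ⟨L, hL, fun σ hσ => ?_⟩
  have h1 : matRep ρ σ = LinearMap.toMatrixAlgEquiv (bas ρ) (ρ.ρ σ) := rfl
  rw [h1, h σ hσ, _root_.map_one]

/-- A common eigenvector contradicts irreducibility. -/
theorem false_of_eigenvector (hirr : ρ.IsIrreducible)
    (h : ∃ v : Fin 2 → k, v ≠ 0 ∧ ∀ g : GQ, ∃ t : k, matRep ρ g *ᵥ v = t • v) : False := by
  obtain ⟨v, hv, h⟩ := h
  set x : ρ.V := (bas ρ).equivFun.symm v with hx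
  have hx0 : x ≠ 0 := by
    intro h0
    apply hv
    rw [hx] at h0
    exact ((bas ρ).equivFun.symm.map_eq_zero_iff).mp h0
  have hst : ∀ σ : GQ, ∀ y ∈ Submodule.span k {x}, ρ.ρ σ y ∈ Submodule.span k {x} := by
    intro σ y hy
    obtain ⟨c, rfl⟩ := Submodule.mem_span_singleton.mp hy
    obtain ⟨t, ht⟩ := h σ
    refine Submodule.mem_span_singleton.mpr ⟨c * t, ?_⟩
    rw [map_smul, mul_smul]
    congr 1
    apply (bas ρ).equivFun.injective
    rw [map_smul, hx, LinearEquiv.apply_symm_apply, ← ht, matRep_apply]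
    have := LinearMap.toMatrix_mulVec_repr (bas ρ) (bas ρ) (ρ.ρ σ) ((bas ρ).equivFun.symm v)
    have h3 : ((bas ρ).repr ((bas ρ).equivFun.symm v) : Fin 2 → k) = v := by
      have := (bas ρ).equivFun.apply_symm_apply v
      exact this
    rw [h3] at this
    exact this
  rcases hirr _ hst with h1 | h1
  · rw [Submodule.span_singleton_eq_bot] at h1
    exact hx0 h1
  · have h4 : Module.finrank k ρ.V ≤ 1 := by
      rw [← finrank_top, ← h1]
      exact (finrank_span_le_card _).trans (by simp)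
    rw [ρ.finrank_eq] at h4
    omega

/-- The hypothesis on the Frobenius elements outside `T`. -/
def FrobAt (T : Set ℕ) (a : ℕ → k) : Prop :=
  ∀ ℓ : ℕ, ℓ.Prime → ℓ ∉ T → ∀ A : ValuationSubring (AlgebraicClosure ℚ), A.LiesOverPrime ℓ →
    ∀ σ : GQ, A.IsFrobeniusAt σ ℓ →
      LinearMap.charpoly (ρ.ρ σ) = Polynomial.X ^ 2 - C (a ℓ) * Polynomial.X + C (ℓ : k)

variable {ρ}

theorem res_ne1 (h2 : (2 : k) ≠ 0) {p : ℕ} (hp0 : p ≠ 0) (hpk : (p : k) = 0)
    (hirr : ρ.IsIrreducible) (hodd : ρ.IsOdd) {T : Set ℕ} (hT : T.Finite) {a : ℕ → k}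
    (ha : FrobAt ρ T a) (M : ℕ) (hM : 0 < M) :
    ∃ ℓ : ℕ, ℓ.Prime ∧ ℓ ∉ T ∧ (M : ℤ) ∣ ℓ - 1 ∧ a ℓ ≠ ℓ + 1 := by
  by_contra hcon
  push Not at hcon
  have hn : M * p ≠ 0 := mul_ne_zero hM.ne' hp0
  haveI : NeZero (M * p) := ⟨hn⟩
  obtain ⟨L, hL, hLr⟩ := matRep_level ρ
  have key : ∀ σ ∈ cycSub (M * p), (matRep ρ σ).trace = 2 ∧ (matRep ρ σ).det = 1 := by
    intro σ hσ
    obtain ⟨ℓ, hℓ, hℓT, -, A, hA, φ, hφ, ⟨k', hk'⟩, hdvd⟩ :=
      exists_frob_rep (matRep ρ) L hLr hT hn σ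
    have h1 := hdvd hσ
    have h2' : ((ℓ : ℕ) : k) = 1 := by
      obtain ⟨c, hc⟩ := (Dvd.intro_left _ rfl : p ∣ M * p).trans h1
      have : ((ℓ - 1 : ℕ) : k) = 0 := by
        rw [hc, Nat.cast_mul, hpk, zero_mul]
      rw [Nat.cast_sub hℓ.one_le, sub_eq_zero] at this
      simpa using this
    have h3 : (M : ℤ) ∣ (ℓ : ℤ) - 1 := by
      have h4 : ((M : ℕ) : ℤ) ∣ ((ℓ - 1 : ℕ) : ℤ) :=
        Int.natCast_dvd_natCast.mpr ((Dvd.intro _ rfl).trans h1)
      rw [Nat.cast_sub hℓ.one_le] at h4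
      simpa using h4
    have h5 := hcon ℓ hℓ hℓT h3
    have h6 := ha ℓ hℓ hℓT A hA φ hφ
    rw [← charpoly_matRep] at h6
    obtain ⟨ht, hd⟩ := trace_det_of_charpoly h6
    rw [h2'] at h5 hd
    rw [hk']
    refine trace_two_pow ?_ hd k'
    rw [ht, h5]; norm_num
  refine false_of_eigenvector ρ hirr (S41grp.exists_eigenvector_of_trace_two (matRep ρ)
    h2 (cycSub (M * p)) commutator_mem_cycSub (fun h hh => (key h hh).1)
    (fun h hh => (key h hh).2) complexConjugation complexConjugation_mul_self ?_)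
  rw [det_matRep]
  exact hodd _ complexConjugation_mul_self complexConjugation_ne_one

theorem res_ne2 (h2 : (2 : k) ≠ 0)
    (hirr : ρ.IsIrreducible) (hodd : ρ.IsOdd) {T : Set ℕ} (hT : T.Finite) {a : ℕ → k}
    (ha : FrobAt ρ T a) (M : ℕ) (hM : 0 < M) :
    ∃ ℓ : ℕ, ℓ.Prime ∧ ℓ ∉ T ∧ ¬ ℓ ∣ M ∧ (a ℓ) ^ 2 ≠ (ℓ + 1) ^ 2 := by
  by_contra hcon
  push Not at hcon
  obtain ⟨L, hL, hLr⟩ := matRep_level ρ
  have key : ∀ σ : GQ, (matRep ρ σ).trace ^ 2 = (1 + (matRep ρ σ).det) ^ 2 := by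
    intro σ
    obtain ⟨ℓ, hℓ, hℓT, hdvd, A, hA, φ, hφ, ⟨k', hk'⟩, -⟩ :=
      exists_frob_rep (matRep ρ) L hLr hT hM.ne' σ
    have h5 := hcon ℓ hℓ hℓT hdvd
    have h6 := ha ℓ hℓ hℓT A hA φ hφ
    rw [← charpoly_matRep] at h6
    obtain ⟨ht, hd⟩ := trace_det_of_charpoly h6
    rw [hk']
    refine trace_sq_pow ?_ k'
    rw [ht, hd, h5]
    ring
  refine false_of_eigenvector ρ hirr (S41grp.exists_eigenvector_of_trace_sq (matRep ρ)
    h2 key complexConjugation complexConjugation_mul_self ?_)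
  rw [det_matRep]
  exact hodd _ complexConjugation_mul_self complexConjugation_ne_one

end Rep

section BaseChange

variable {k : Type} [Field k] {ρ : ResidualGaloisRep k}

theorem frobAt_baseChange {k' : Type} [Field k'] [Algebra k k'] {T : Set ℕ} {a : ℕ → k}
    (ha : FrobAt ρ T a) : FrobAt (ρ.baseChange k') T (fun ℓ => algebraMap k k' (a ℓ)) := by
  intro ℓ hℓ hℓT A hA σ hσ
  have h := ha ℓ hℓ hℓT A hA σ hσ
  show LinearMap.charpoly ((ρ.ρ σ).baseChange k') = _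
  rw [LinearMap.charpoly_baseChange, h]
  simp

theorem isOdd_baseChange {k' : Type} [Field k'] [Algebra k k'] (h : ρ.IsOdd) :
    (ρ.baseChange k').IsOdd := by
  intro c hc hc1
  show LinearMap.det ((ρ.ρ c).baseChange k') = _
  rw [LinearMap.det_baseChange, h c hc hc1]
  simp

/-- **The residual system of an absolutely irreducible odd representation is strongly non
Eisenstein** away from any finite set. -/
theorem strongNonEis_of_residual (h2 : (2 : k) ≠ 0) {p : ℕ} (hp0 : p ≠ 0) (hpk : (p : k) = 0)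
    (hirr : ρ.IsAbsolutelyIrreducible) (hodd : ρ.IsOdd) {T : Set ℕ} (hT : T.Finite) {a : ℕ → k}
    (ha : FrobAt ρ T a) {F : Type*} [Field F] (ψ : k →+* F) {S : Set ℕ} (hS : S.Finite)
    {θ : PIdx S → F} (hθ : ∀ ℓ : PIdx S, (ℓ.1 : ℕ) ∉ T → θ ℓ = ψ (a (ℓ.1 : ℕ))) :
    StrongNonEis S θ := by
  have hTS : (T ∪ S).Finite := hT.union hS
  have ha' : FrobAt (ρ.baseChange (AlgebraicClosure k)) (T ∪ S)
      (fun ℓ => algebraMap k (AlgebraicClosure k) (a ℓ)) := fun ℓ hℓ hℓT =>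
    frobAt_baseChange ha ℓ hℓ (fun h => hℓT (Or.inl h))
  have h2' : (2 : AlgebraicClosure k) ≠ 0 := by
    have h3 : algebraMap k (AlgebraicClosure k) 2 = 2 := map_ofNat _ 2
    rw [← h3]
    exact (_root_.map_ne_zero _).mpr h2
  have hpk' : (p : AlgebraicClosure k) = 0 := by
    have h3 : algebraMap k (AlgebraicClosure k) (p : k) = (p : AlgebraicClosure k) :=
      map_natCast _ p
    rw [← h3, hpk, _root_.map_zero]
  constructor
  · intro m hm
    obtain ⟨ℓ, hℓ, hℓT, hd, hne⟩ := res_ne1 h2' hp0 hpk' hirr (isOdd_baseChange hodd) hTS ha' m hm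
    refine ⟨⟨⟨ℓ, hℓ⟩, fun h => hℓT (Or.inr h)⟩, hd, ?_⟩
    rw [hθ _ (fun h => hℓT (Or.inl h))]
    intro h
    apply hne
    have h4 : ψ (a ℓ) = ψ ((ℓ : k) + 1) := by
      rw [_root_.map_add, map_natCast, _root_.map_one]; exact h
    show algebraMap k (AlgebraicClosure k) (a ℓ) = _
    rw [ψ.injective h4, _root_.map_add, map_natCast, _root_.map_one]
  · intro m hm
    obtain ⟨ℓ, hℓ, hℓT, hd, hne⟩ := res_ne2 h2' hirr (isOdd_baseChange hodd) hTS ha' m hm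
    refine ⟨⟨⟨ℓ, hℓ⟩, fun h => hℓT (Or.inr h)⟩, hd, ?_⟩
    rw [hθ _ (fun h => hℓT (Or.inl h))]
    intro h
    apply hne
    have h4 : ψ (a ℓ ^ 2) = ψ (((ℓ : k) + 1) ^ 2) := by
      rw [_root_.map_pow, _root_.map_pow, _root_.map_add, map_natCast, _root_.map_one]; exact h
    show (algebraMap k (AlgebraicClosure k) (a ℓ)) ^ 2 = _
    rw [← _root_.map_pow, ψ.injective h4, _root_.map_pow, _root_.map_add, map_natCast,
      _root_.map_one]

end BaseChange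

section Adic

open IsLocalRing

variable {𝒪 : Type} [CommRing 𝒪] [IsLocalRing 𝒪] {x : GaloisRepAdic 𝒪}

theorem frobAt_residual {T : Set ℕ} {a : ℕ → 𝒪}
    (frob : ∀ ℓ : ℕ, ℓ.Prime → ℓ ∉ T → ∀ A : ValuationSubring (AlgebraicClosure ℚ),
      A.LiesOverPrime ℓ → ∀ σ : GQ, A.IsFrobeniusAt σ ℓ →
        LinearMap.charpoly (x.ρ σ) = Polynomial.X ^ 2 - C (a ℓ) * Polynomial.X + C (ℓ : 𝒪)) :
    FrobAt x.residual T (fun ℓ => residue 𝒪 (a ℓ)) := by
  intro ℓ hℓ hℓT A hA σ hσ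
  have h := frob ℓ hℓ hℓT A hA σ hσ
  show LinearMap.charpoly ((x.ρ σ).baseChange (ResidueField 𝒪)) = _
  rw [LinearMap.charpoly_baseChange, h]
  simp

/-- The same for the residual system of an `𝒪`-adic representation (`ClimbData`). -/
theorem strongNonEis_of_adic {p : ℕ} (hp2 : p ≠ 2) (hp : p.Prime) (hpm : (p : 𝒪) ∈ maximalIdeal 𝒪)
    (hirr : x.residual.IsAbsolutelyIrreducible) (hodd : x.residual.IsOdd) {T : Set ℕ}
    (hT : T.Finite) {a : ℕ → 𝒪}
    (frob : ∀ ℓ : ℕ, ℓ.Prime → ℓ ∉ T → ∀ A : ValuationSubring (AlgebraicClosure ℚ),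
      A.LiesOverPrime ℓ → ∀ σ : GQ, A.IsFrobeniusAt σ ℓ →
        LinearMap.charpoly (x.ρ σ) = Polynomial.X ^ 2 - C (a ℓ) * Polynomial.X + C (ℓ : 𝒪))
    {F : Type*} [Field F] (ψ : ResidueField 𝒪 →+* F) {S : Set ℕ} (hS : S.Finite)
    {θ : PIdx S → F}
    (hθ : ∀ ℓ : PIdx S, (ℓ.1 : ℕ) ∉ T → θ ℓ = ψ (residue 𝒪 (a (ℓ.1 : ℕ)))) :
    StrongNonEis S θ := by
  have hpk : ((p : ℕ) : ResidueField 𝒪) = 0 := by
    rw [← map_natCast (residue 𝒪), residue_eq_zero_iff]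
    exact hpm
  have h2 : (2 : ResidueField 𝒪) ≠ 0 := by
    intro h0
    have hcop : Nat.Coprime 2 p := (Nat.coprime_primes Nat.prime_two hp).mpr (Ne.symm hp2)
    have hcopZ : IsCoprime (2 : ℤ) (p : ℤ) := by
      have := Nat.isCoprime_iff_coprime.mpr hcop
      exact_mod_cast this
    obtain ⟨u, v, huv⟩ := hcopZ
    have h3 : ((u * 2 + v * p : ℤ) : ResidueField 𝒪) = 1 := by rw [huv, Int.cast_one]
    push_cast at h3
    rw [h0, hpk, mul_zero, mul_zero, add_zero] at h3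
    exact zero_ne_one h3
  exact strongNonEis_of_residual h2 hp.ne_zero hpk hirr hodd hT (frobAt_residual frob) ψ hS hθ

end Adic

end Fermat.Agent.S41hm

end
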