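import Fermat.Agent.S41.Core

/-!
# Ihara's lemma
-/

set_option autoImplicit false

open Matrix CongruenceSubgroup
open scoped MatrixGroups

namespace Fermat.Agent.S41aux

open Fermat.Agent.HeckePar

section Sm

variable {A : Type*} [AddCommGroup A] {N q : ℕ}

/-- `P ∘ X` and `P` differ by a boundary function. -/
def Sm (q : ℕ) (P : V2 → A) (X : Matrix (Fin 2) (Fin 2) ℤ) : Prop :=
  ¬ (q : ℤ) ∣ X.det ∧ Bd q (pull P (toQ X) - P)

theorem ne_zero_of_not_dvd {X : Matrix (Fin 2) (Fin 2) ℤ} (h : ¬ (q : ℤ) ∣ X.det) :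
    (toQ X).det ≠ 0 := by
  rw [det_toQ]
  intro h0
  have : X.det = 0 := by exact_mod_cast h0
  exact h (by rw [this]; exact dvd_zero _)

theorem pull_sub (P Q : V2 → A) (g : M2) : pull (P - Q) g = pull P g - pull Q g := rfl

theorem Sm.mul (hq : q.Prime) {P : V2 → A} {X Y : Matrix (Fin 2) (Fin 2) ℤ} (hX : Sm q P X)
    (hY : Sm q P Y) : Sm q P (X * Y) := by
  refine ⟨?_, ?_⟩
  · rw [Matrix.det_mul]
    intro h
    rcases (Nat.prime_iff_prime_int.mp hq).dvd_or_dvd h with h1 | h1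
    · exact hX.1 h1
    · exact hY.1 h1
  · have h1 := hX.2.pull hq Y hY.1
    rw [pull_sub, pull_pull, ← toQ_mul] at h1
    have h2 := h1.add hq hY.2
    have e : pull P (toQ (X * Y)) - pull P (toQ Y) + (pull P (toQ Y) - P) =
      pull P (toQ (X * Y)) - P := by abel
    rwa [e] at h2

theorem Bd.congr (hq : q.Prime) {P Q : V2 → A} (hP : Bd q P) (h : ∀ v, v ≠ 0 → Q v = P v) :
    Bd q Q := by
  obtain ⟨hP0, M, hM, h'⟩ := hP
  refine ⟨fun t v ht hv => by rw [h _ (smul_ne_zero ht hv), h _ hv, hP0 t v ht hv], M, hM, ?_⟩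
  intro k X hX hc v hv
  have : (toQ X).det ≠ 0 := by
    rw [det_toQ, hX]
    have := hq.ne_zero
    exact_mod_cast pow_ne_zero _ this
  rw [h _ (mulVec_ne_zero this hv), h _ hv, h' k X hX hc v hv]

theorem pull_smul {P : V2 → A} (hP : Homog P) {g : M2} (hg : g.det ≠ 0) {t : ℚ} (ht : t ≠ 0)
    {v : V2} (hv : v ≠ 0) : pull P (t • g) v = pull P g v := by
  rw [pull_apply, pull_apply, Matrix.smul_mulVec, hP t _ ht (mulVec_ne_zero hg hv)]

theorem Sm.of_smul (hq : q.Prime) {P : V2 → A} (hP : Homog P) {X : Matrix (Fin 2) (Fin 2) ℤ}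
    {t : ℤ} (h : Sm q P (t • X)) : Sm q P X := by
  have hdet : (t • X).det = t ^ 2 * X.det := by
    rw [Matrix.det_smul]; simp
  have h1 := h.1
  rw [hdet] at h1
  have hX : ¬ (q : ℤ) ∣ X.det := fun h2 => h1 (Dvd.dvd.mul_left h2 _)
  have ht : t ≠ 0 := by
    rintro rfl
    exact h1 (by simp)
  have htQ : (t : ℚ) ≠ 0 := by exact_mod_cast ht
  refine ⟨hX, h.2.congr hq ?_⟩
  intro v hv
  simp only [Pi.sub_apply]
  rw [toQ_zsmul, pull_smul hP (ne_zero_of_not_dvd hX) htQ hv]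

theorem Sm.adj (hq : q.Prime) {P : V2 → A} (hP : Homog P) {X : Matrix (Fin 2) (Fin 2) ℤ}
    (h : Sm q P X) : Sm q P X.adjugate := by
  have hd : X.adjugate.det = X.det := by
    rw [Matrix.det_adjugate]; simp
  refine ⟨by rw [hd]; exact h.1, ?_⟩
  have h1 := (h.2.pull hq X.adjugate (by rw [hd]; exact h.1)).neg
  refine h1.congr hq ?_
  intro v hv
  have hdQ := ne_zero_of_not_dvd h.1
  rw [det_toQ] at hdQ
  rw [pull_sub, pull_pull, ← toQ_mul, Matrix.mul_adjugate]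
  have e := pull_smul (g := toQ (1 : Matrix (Fin 2) (Fin 2) ℤ)) hP (by rw [toQ_one]; simp) hdQ hv
  simp only [Pi.sub_apply, Pi.neg_apply]
  rw [toQ_zsmul, e, toQ_one, pull_apply P 1, Matrix.one_mulVec]
  abel

/-- the upper unipotent matrix with entry `m / D`. -/
theorem sm_upper (hq : q.Prime) (hqN : ¬ q ∣ N) {P : V2 → A} (hP0 : Homog P) (hP : QN N q P)
    (D m : ℤ) (hD : ¬ (q : ℤ) ∣ D) : Sm q P !![D, m; 0, D] := by
  have hqZ := Nat.prime_iff_prime_int.mp hq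
  set D' : ℤ := D * ((q : ℤ) ^ 2 - 1) with hD'
  have hqD' : ¬ (q : ℤ) ∣ D' := by
    intro h
    rcases hqZ.dvd_or_dvd h with h1 | h1
    · exact hD h1
    · have h2 : (q : ℤ) ∣ 1 := by
        have := dvd_sub (dvd_pow_self (q : ℤ) two_ne_zero) h1
        simpa using this
      exact hqZ.not_dvd_one h2
  have hsq : ¬ (q : ℤ) ∣ D' * D' := fun h => by
    rcases hqZ.dvd_or_dvd h with h1 | h1 <;> exact hqD' h1
  set u : Matrix (Fin 2) (Fin 2) ℤ := !![D', m; 0, D'] with hu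
  set u'' : Matrix (Fin 2) (Fin 2) ℤ := !![D', (q : ℤ) ^ 2 * m; 0, D'] with hu''
  set w : Matrix (Fin 2) (Fin 2) ℤ := !![D', -m; 0, D'] with hw
  have hdu : ¬ (q : ℤ) ∣ u.det := by
    rw [hu, Matrix.det_fin_two_of]; simpa using hsq
  have hdu'' : ¬ (q : ℤ) ∣ u''.det := by
    rw [hu'', Matrix.det_fin_two_of]; simpa using hsq
  have hdw : ¬ (q : ℤ) ∣ w.det := by
    rw [hw, Matrix.det_fin_two_of]; simpa using hsq
  have hd1 : ¬ (q : ℤ) ∣ (1 : Matrix (Fin 2) (Fin 2) ℤ).det := by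
    rw [Matrix.det_one]; exact hqZ.not_dvd_one
  have e1 : hZ q * u = u'' * hZ q := by
    rw [hZ, hu, hu'', Matrix.mul_fin_two, Matrix.mul_fin_two]
    congr 1; ring_nf
  have b1 := serre_bd hq hqN hP0 hP u'' hdu''
  have b2 := (serre_bd hq hqN hP0 hP 1 hd1).pull hq u hdu
  rw [← toQ_mul] at b1
  rw [pull_sub, pull_pull, pull_pull, toQ_one, Matrix.one_mul, Matrix.one_mul, ← toQ_mul, e1] at b2
  have b3 := (b1.neg.add hq b2).pull hq w hdw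
  have e2 : -(pull P (toQ (u'' * hZ q)) - pull P (toQ u'')) +
      (pull P (toQ (u'' * hZ q)) - pull P (toQ u)) = pull P (toQ u'') - pull P (toQ u) := by abel
  rw [e2, pull_sub, pull_pull, pull_pull, ← toQ_mul, ← toQ_mul] at b3
  have e3 : u'' * w = (D' * ((q : ℤ) ^ 2 - 1)) • !![D, m; 0, D] := by
    rw [hu'', hw, Matrix.mul_fin_two, hD']
    ext i j
    fin_cases i <;> fin_cases j <;> simp <;> ring
  have e4 : u * w = (D' * D') • (1 : Matrix (Fin 2) (Fin 2) ℤ) := by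
    rw [hu, hw, Matrix.mul_fin_two, Matrix.one_fin_two]
    ext i j
    fin_cases i <;> fin_cases j <;> simp <;> ring
  have hdX : ¬ (q : ℤ) ∣ (!![D, m; 0, D] : Matrix (Fin 2) (Fin 2) ℤ).det := by
    rw [Matrix.det_fin_two_of]
    intro h
    have h' : (q : ℤ) ∣ D * D := by simpa using h
    rcases hqZ.dvd_or_dvd h' with h1 | h1 <;> exact hD h1
  refine ⟨hdX, b3.congr hq ?_⟩
  intro v hv
  have ht1 : ((D' * ((q : ℤ) ^ 2 - 1) : ℤ) : ℚ) ≠ 0 := by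
    have h1 : D' * ((q : ℤ) ^ 2 - 1) ≠ 0 := by
      apply mul_ne_zero
      · intro h; exact hqD' (by rw [h]; exact dvd_zero _)
      · intro h; exact hqD' (by rw [hD', h, mul_zero]; exact dvd_zero _)
    exact_mod_cast h1
  have ht2 : ((D' * D' : ℤ) : ℚ) ≠ 0 := by
    have h1 : D' * D' ≠ 0 := fun h => hsq (by rw [h]; exact dvd_zero _)
    exact_mod_cast h1
  simp only [Pi.sub_apply]
  rw [e3, e4, toQ_zsmul, toQ_zsmul, pull_smul hP0 (ne_zero_of_not_dvd hdX) ht1 hv,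
    pull_smul hP0 (by rw [toQ_one]; simp) ht2 hv, toQ_one, pull_apply P 1, Matrix.one_mulVec]

/-- the lower unipotent matrix with entry `m / D`. -/
theorem sm_lower (hq : q.Prime) (hqN : ¬ q ∣ N) {P : V2 → A} (hP0 : Homog P) (hP : QN N q P)
    (D m : ℤ) (hD : ¬ (q : ℤ) ∣ D) : Sm q P !![D, 0; m, D] := by
  have hqZ := Nat.prime_iff_prime_int.mp hq
  set D' : ℤ := D * ((q : ℤ) ^ 2 - 1) with hD'
  have hqD' : ¬ (q : ℤ) ∣ D' := by
    intro h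
    rcases hqZ.dvd_or_dvd h with h1 | h1
    · exact hD h1
    · have h2 : (q : ℤ) ∣ 1 := by
        have := dvd_sub (dvd_pow_self (q : ℤ) two_ne_zero) h1
        simpa using this
      exact hqZ.not_dvd_one h2
  have hsq : ¬ (q : ℤ) ∣ D' * D' := fun h => by
    rcases hqZ.dvd_or_dvd h with h1 | h1 <;> exact hqD' h1
  set u : Matrix (Fin 2) (Fin 2) ℤ := !![D', 0; m, D'] with hu
  set u'' : Matrix (Fin 2) (Fin 2) ℤ := !![D', 0; (q : ℤ) ^ 2 * m, D'] with hu''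
  set w : Matrix (Fin 2) (Fin 2) ℤ := !![D', 0; -m, D'] with hw
  have hdu : ¬ (q : ℤ) ∣ u.det := by
    rw [hu, Matrix.det_fin_two_of]; simpa using hsq
  have hdu'' : ¬ (q : ℤ) ∣ u''.det := by
    rw [hu'', Matrix.det_fin_two_of]; simpa using hsq
  have hdw : ¬ (q : ℤ) ∣ w.det := by
    rw [hw, Matrix.det_fin_two_of]; simpa using hsq
  have hd1 : ¬ (q : ℤ) ∣ (1 : Matrix (Fin 2) (Fin 2) ℤ).det := by
    rw [Matrix.det_one]; exact hqZ.not_dvd_one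
  have e1 : hZ q * u'' = u * hZ q := by
    rw [hZ, hu, hu'', Matrix.mul_fin_two, Matrix.mul_fin_two]
    congr 1; ring_nf
  have b1 := serre_bd hq hqN hP0 hP u hdu
  have b2 := (serre_bd hq hqN hP0 hP 1 hd1).pull hq u'' hdu''
  rw [← toQ_mul] at b1
  rw [pull_sub, pull_pull, pull_pull, toQ_one, Matrix.one_mul, Matrix.one_mul, ← toQ_mul, e1] at b2
  have b3 := (b1.add hq b2.neg).pull hq w hdw
  have e2 : (pull P (toQ (u * hZ q)) - pull P (toQ u)) +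
      -(pull P (toQ (u * hZ q)) - pull P (toQ u'')) = pull P (toQ u'') - pull P (toQ u) := by abel
  rw [e2, pull_sub, pull_pull, pull_pull, ← toQ_mul, ← toQ_mul] at b3
  have e3 : u'' * w = (D' * ((q : ℤ) ^ 2 - 1)) • !![D, 0; m, D] := by
    rw [hu'', hw, Matrix.mul_fin_two, hD']
    ext i j
    fin_cases i <;> fin_cases j <;> simp <;> ring
  have e4 : u * w = (D' * D') • (1 : Matrix (Fin 2) (Fin 2) ℤ) := by
    rw [hu, hw, Matrix.mul_fin_two, Matrix.one_fin_two]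
    ext i j
    fin_cases i <;> fin_cases j <;> simp <;> ring
  have hdX : ¬ (q : ℤ) ∣ (!![D, 0; m, D] : Matrix (Fin 2) (Fin 2) ℤ).det := by
    rw [Matrix.det_fin_two_of]
    intro h
    have h' : (q : ℤ) ∣ D * D := by simpa using h
    rcases hqZ.dvd_or_dvd h' with h1 | h1 <;> exact hD h1
  refine ⟨hdX, b3.congr hq ?_⟩
  intro v hv
  have ht1 : ((D' * ((q : ℤ) ^ 2 - 1) : ℤ) : ℚ) ≠ 0 := by
    have h1 : D' * ((q : ℤ) ^ 2 - 1) ≠ 0 := by
      apply mul_ne_zero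
      · intro h; exact hqD' (by rw [h]; exact dvd_zero _)
      · intro h; exact hqD' (by rw [hD', h, mul_zero]; exact dvd_zero _)
    exact_mod_cast h1
  have ht2 : ((D' * D' : ℤ) : ℚ) ≠ 0 := by
    have h1 : D' * D' ≠ 0 := fun h => hsq (by rw [h]; exact dvd_zero _)
    exact_mod_cast h1
  simp only [Pi.sub_apply]
  rw [e3, e4, toQ_zsmul, toQ_zsmul, pull_smul hP0 (ne_zero_of_not_dvd hdX) ht1 hv,
    pull_smul hP0 (by rw [toQ_one]; simp) ht2 hv, toQ_one, pull_apply P 1, Matrix.one_mulVec]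

/-- `diag(ℓ², 1)`. -/
theorem sm_diag (hq : q.Prime) (hqN : ¬ q ∣ N) {P : V2 → A} (hP0 : Homog P) (hP : QN N q P)
    (L : ℤ) (hL : ¬ (q : ℤ) ∣ L) : Sm q P !![L ^ 2, 0; 0, 1] := by
  have hq1 : ¬ (q : ℤ) ∣ 1 := (Nat.prime_iff_prime_int.mp hq).not_dvd_one
  have e : (!![L ^ 2, 0; 0, 1] : Matrix (Fin 2) (Fin 2) ℤ) =
      !![1, L; 0, 1] * !![L, 0; -1, L] * !![1, L; 0, 1] *
        (!![1, -1; 0, 1] * !![1, 0; 1, 1] * !![1, -1; 0, 1]) := by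
    simp only [Matrix.mul_fin_two]
    congr 1; ring_nf
  rw [e]
  exact (((sm_upper hq hqN hP0 hP 1 L hq1).mul hq (sm_lower hq hqN hP0 hP L (-1) hL)).mul hq
    (sm_upper hq hqN hP0 hP 1 L hq1)).mul hq
    (((sm_upper hq hqN hP0 hP 1 (-1) hq1).mul hq (sm_lower hq hqN hP0 hP 1 1 hq1)).mul hq
      (sm_upper hq hqN hP0 hP 1 (-1) hq1))

theorem sm_pair (hq : q.Prime) (hqN : ¬ q ∣ N) {P : V2 → A} (hP0 : Homog P) (hP : QN N q P)
    {ℓ : ℕ} (hℓ : ℓ.Prime) (hℓq : ℓ ≠ q) (x y : Option (ZMod ℓ)) :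
    Sm q P (intRep ℓ x * intRep ℓ y) := by
  have hL : ¬ (q : ℤ) ∣ (ℓ : ℤ) := by
    intro h
    have h1 : q ∣ ℓ := by exact_mod_cast h
    exact hℓq ((Nat.prime_dvd_prime_iff_eq hq hℓ).mp h1).symm
  have hq1 : ¬ (q : ℤ) ∣ 1 := (Nat.prime_iff_prime_int.mp hq).not_dvd_one
  cases x with
  | none =>
    cases y with
    | none =>
      have e : intRep ℓ none * intRep ℓ none = !![(ℓ : ℤ) ^ 2, 0; 0, 1] := by
        rw [intRep_none, Matrix.mul_fin_two]; congr 1; ring_nf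
      rw [e]; exact sm_diag hq hqN hP0 hP ℓ hL
    | some j =>
      have e : intRep ℓ none * intRep ℓ (some j) = !![(ℓ : ℤ), ℓ * j.val; 0, ℓ] := by
        rw [intRep_none, intRep_some, Matrix.mul_fin_two]; congr 1; ring_nf
      rw [e]; exact sm_upper hq hqN hP0 hP ℓ _ hL
  | some i =>
    cases y with
    | none =>
      have e : intRep ℓ (some i) * intRep ℓ none = !![(ℓ : ℤ), i.val; 0, ℓ] := by
        rw [intRep_none, intRep_some, Matrix.mul_fin_two]; congr 1; ring_nf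
      rw [e]; exact sm_upper hq hqN hP0 hP ℓ _ hL
    | some j =>
      have e : intRep ℓ (some i) * intRep ℓ (some j) =
          (!![(ℓ : ℤ) ^ 2, 0; 0, 1]).adjugate * !![1, (j.val : ℤ) + i.val * ℓ; 0, 1] := by
        rw [intRep_some, intRep_some, Matrix.mul_fin_two, Matrix.adjugate_fin_two_of,
          Matrix.mul_fin_two]
        congr 1; ring_nf
      rw [e]
      exact ((sm_diag hq hqN hP0 hP ℓ hL).adj hq hP0).mul hq (sm_upper hq hqN hP0 hP 1 _ hq1)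

theorem bd_hecke_sq (hq : q.Prime) (hqN : ¬ q ∣ N) {P : V2 → A} (hP0 : Homog P) (hP : QN N q P)
    {ℓ : ℕ} [hℓ : Fact ℓ.Prime] (hℓq : ℓ ≠ q) :
    Bd q (heckeFun ℓ (heckeFun ℓ P) - ((ℓ + 1) * (ℓ + 1)) • P) := by
  haveI : NeZero ℓ := ⟨hℓ.out.ne_zero⟩
  have h : heckeFun ℓ (heckeFun ℓ P) - ((ℓ + 1) * (ℓ + 1)) • P =
      ∑ x : Option (ZMod ℓ) × Option (ZMod ℓ), (pull P (toQ (intRep ℓ x.1 * intRep ℓ x.2)) - P) := by
    rw [Finset.sum_sub_distrib, Finset.sum_const, Finset.card_univ, Fintype.card_prod,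
      Fintype.card_option, ZMod.card]
    congr 1
    funext v
    rw [heckeFun_apply, Finset.sum_apply, Fintype.sum_prod_type_right]
    refine Finset.sum_congr rfl fun y _ => ?_
    rw [heckeFun_apply]
    refine Finset.sum_congr rfl fun x _ => ?_
    rw [pull_apply, toQ_mul, Matrix.mulVec_mulVec]
  rw [h]
  exact Bd.sum hq _ _ fun x _ => (sm_pair hq hqN hP0 hP hℓ.out hℓq x.1 x.2).2

end Sm

/-- The eigensystem `a` is not Eisenstein. -/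
structure NonEis {F : Type*} [Field F] (S : ℕ → Prop) (a : ℕ → F) : Prop where
  ne1 : ∀ M : ℕ, 0 < M → ∃ ℓ : ℕ, ℓ.Prime ∧ S ℓ ∧ (M : ℤ) ∣ ℓ - 1 ∧ a ℓ ≠ ℓ + 1
  ne2 : ∀ M : ℕ, 0 < M → ∃ ℓ : ℕ, ℓ.Prime ∧ S ℓ ∧ ¬ ℓ ∣ M ∧ (a ℓ) ^ 2 ≠ (ℓ + 1) ^ 2

/-- `ψ` is an eigenvector of the Hecke operators `T_ℓ`, `S ℓ`, with eigenvalues `a ℓ`. -/
def IsEig {F : Type*} [Field F] (N : ℕ) (S : ℕ → Prop) (a : ℕ → F)
    (ψ : Additive (Gamma0 N) →+ F) : Prop :=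
  ∀ (ℓ : ℕ) [Fact ℓ.Prime], S ℓ → ∀ g, (heckeSys N ℓ).addTransfer ψ g = a ℓ * ψ g

section Main

variable {F : Type*} [Field F] {p N q : ℕ} [CharP F p] {S : ℕ → Prop} {a : ℕ → F}

theorem IsEig.killsPar (hp : p.Prime) (hp2 : p ≠ 2) (hN : N ≠ 0) (hSN : ∀ ℓ, S ℓ → ¬ ℓ ∣ N)
    (hne : NonEis S a) {ψ : Additive (Gamma0 N) →+ F} (h : IsEig N S a ψ) : KillsPar ψ := by
  obtain ⟨ℓ, hℓ, hSℓ, hℓM, ha⟩ := hne.ne1 (N * p) (Nat.mul_pos (Nat.pos_of_ne_zero hN) hp.pos)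
  haveI : Fact ℓ.Prime := ⟨hℓ⟩
  push_cast at hℓM
  have hℓN : (N : ℤ) ∣ ℓ - 1 := (Dvd.intro _ rfl).trans hℓM
  have hℓp : (p : ℤ) ∣ ℓ - 1 := (Dvd.intro_left _ rfl).trans hℓM
  have hℓF : (ℓ : F) = 1 := by
    obtain ⟨k, hk⟩ := hℓp
    have h1 : ((ℓ : ℤ) : F) = ((p * k + 1 : ℤ) : F) := by
      congr 1
      linear_combination hk
    push_cast at h1
    rw [h1, CharP.cast_eq_zero, zero_mul, zero_add]
  refine killsPar_of_eigen hp hp2 (hSN ℓ hSℓ) hℓN hℓp (a := a ℓ) ?_ (h ℓ hSℓ)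
  intro h2
  apply ha
  rw [h2, hℓF]; norm_num

/-- The heart of Ihara's lemma: a non Eisenstein eigenvector with a primitive that is
quasi-invariant under `Γ₀(N)[1/q]` vanishes. -/
theorem core (hq : q.Prime) (hqN : ¬ q ∣ N) (hSN : ∀ ℓ, S ℓ → ¬ ℓ ∣ N)
    (hne : NonEis S a) {ψ : Additive (Gamma0 N) →+ F} (h : IsEig N S a ψ) {P : V2 → F}
    (hP : IsPrimOf ψ P) (hQ : QN N q P) : ψ = 0 := by
  have hN : N ≠ 0 := by rintro rfl; exact hqN (dvd_zero _)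
  have he1 : (![1, 0] : V2) ≠ 0 := by
    intro h0
    have := congrFun h0 0
    simp at this
  -- first step
  obtain ⟨M, hM, hψM⟩ : ∃ M : ℕ, 0 < M ∧ InvM M P := by
    obtain ⟨ℓ, hℓ, hSℓ, hℓq, ha⟩ := hne.ne2 q hq.pos
    haveI : Fact ℓ.Prime := ⟨hℓ⟩
    have hℓq' : ℓ ≠ q := by rintro rfl; exact hℓq dvd_rfl
    obtain ⟨-, M, hM, hinv⟩ := bd_hecke_sq hq hqN hP.homog hQ hℓq'
    have hM0 : M ≠ 0 := by rintro rfl; exact hM (dvd_zero _)
    have hR := ((hP.hecke (hSN ℓ hSℓ)).hecke (hSN ℓ hSℓ)).sub (hP.nsmul ((ℓ + 1) * (ℓ + 1)))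
    refine ⟨M * N, Nat.pos_of_ne_zero (mul_ne_zero hM0 hN), ?_⟩
    intro X hX hc v hv
    have hcM : Cong M X ((q : ℤ) ^ 0 • (1 : Matrix (Fin 2) (Fin 2) ℤ)) := by
      rw [pow_zero, one_smul]; exact hc.of_dvd (dvd_mul_right M N)
    have hX10 : (N : ℤ) ∣ X 1 0 := by
      have h1 := (hc.of_dvd (dvd_mul_left N M)) 1 0
      simpa using h1
    set g : Gamma0 N := toG0 N X hX hX10 with hg
    have hgX : gQ g = toQ X := rfl
    have h1 := hR.qi g v hv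
    rw [hgX, hinv 0 X (by rw [hX]; simp) hcM v hv] at h1
    have h2 : ((heckeSys N ℓ).addTransfer ((heckeSys N ℓ).addTransfer ψ) -
      ((ℓ + 1) * (ℓ + 1)) • ψ) (Additive.ofMul g) = 0 := by
      simpa using h1.symm
    have h3 : (heckeSys N ℓ).addTransfer ((heckeSys N ℓ).addTransfer ψ) (Additive.ofMul g) =
        a ℓ * (a ℓ * ψ (Additive.ofMul g)) := by
      have h4 : (heckeSys N ℓ).addTransfer ψ = (AddMonoidHom.mulLeft (a ℓ)).comp ψ := by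
        ext g; exact h ℓ hSℓ _
      rw [h4, CosetSys.addTransfer_comp, AddMonoidHom.comp_apply, h ℓ hSℓ]
      rfl
    rw [AddMonoidHom.sub_apply, h3, AddMonoidHom.nsmul_apply, nsmul_eq_mul] at h2
    push_cast at h2
    have h5 : ((a ℓ) ^ 2 - (ℓ + 1) ^ 2) * ψ (Additive.ofMul g) = 0 := by
      linear_combination h2
    have h6 := (mul_eq_zero.mp h5).resolve_left (sub_ne_zero.mpr ha)
    have h7 := hP.qi g v hv
    rw [h6, add_zero] at h7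
    exact h7
  -- second step
  obtain ⟨ℓ, hℓ, hSℓ, hℓM, ha⟩ := hne.ne1 M hM
  haveI : Fact ℓ.Prime := ⟨hℓ⟩
  have hU : ∀ (m : ℤ) (v : V2), v ≠ 0 → P (toQ !![1, m; 0, 1] *ᵥ v) = P v := by
    intro m v hv
    have := hP.upper m v hv
    rwa [add_zero] at this
  have hT := hP.hecke (ℓ := ℓ) (hSN ℓ hSℓ)
  ext g
  have h1 := hT.qi g ![1, 0] he1
  rw [heckeFun_of_inv hψM hP.homog hU hℓM _ he1,
    heckeFun_of_inv hψM hP.homog hU hℓM _ (mulVec_ne_zero (det_gQ_ne g) he1),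
    hP.qi g _ he1, h ℓ hSℓ, nsmul_add] at h1
  have h2 := add_left_cancel h1
  rw [nsmul_eq_mul] at h2
  push_cast at h2
  have h3 : (a ℓ - (ℓ + 1)) * ψ (Additive.ofMul g) = 0 := by linear_combination -h2
  exact (mul_eq_zero.mp h3).resolve_left (sub_ne_zero.mpr ha)

end Main

/-! ### Degeneracy maps -/

/-- The inclusion `Γ₀(N q) → Γ₀(N)`. -/
def degA (N q : ℕ) : Gamma0 (N * q) →* Gamma0 N :=
  Subgroup.inclusion (fun g hg => by
    rw [Gamma0_mem] at hg ⊢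
    rw [ZMod.intCast_zmod_eq_zero_iff_dvd] at hg ⊢
    exact (Int.natCast_dvd_natCast.mpr (dvd_mul_right N q)).trans hg)

theorem coe_degA (N q : ℕ) (g : Gamma0 (N * q)) :
    (((degA N q g : Gamma0 N) : SL(2, ℤ)) : Matrix (Fin 2) (Fin 2) ℤ) =
      ((g : SL(2, ℤ)) : Matrix (Fin 2) (Fin 2) ℤ) := rfl

theorem dvd_of_mem {M : ℕ} (g : Gamma0 M) :
    (M : ℤ) ∣ ((g : SL(2, ℤ)) : Matrix (Fin 2) (Fin 2) ℤ) 1 0 :=
  (ZMod.intCast_zmod_eq_zero_iff_dvd _ _).mp (Gamma0_mem.mp g.2)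

theorem entries_det {M : ℕ} (g : Gamma0 M) :
    ((g : SL(2, ℤ)) : Matrix (Fin 2) (Fin 2) ℤ) 0 0 * ((g : SL(2, ℤ)) : Matrix (Fin 2) (Fin 2) ℤ) 1 1 -
    ((g : SL(2, ℤ)) : Matrix (Fin 2) (Fin 2) ℤ) 0 1 * ((g : SL(2, ℤ)) : Matrix (Fin 2) (Fin 2) ℤ) 1 0
      = 1 := by
  have := (g : SL(2, ℤ)).det_coe
  rwa [Matrix.det_fin_two] at this

theorem dvd_q_of_mem {N q : ℕ} (g : Gamma0 (N * q)) :
    (q : ℤ) ∣ ((g : SL(2, ℤ)) : Matrix (Fin 2) (Fin 2) ℤ) 1 0 := by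
  refine Dvd.dvd.trans ?_ (dvd_of_mem g)
  push_cast
  exact dvd_mul_left _ _

/-- conjugation by `diag(q, 1)`: the underlying function. -/
def degBfun (N : ℕ) {q : ℕ} (hq : q ≠ 0) (g : Gamma0 (N * q)) : Gamma0 N :=
  mkG0 N (((g : SL(2, ℤ)) : Matrix (Fin 2) (Fin 2) ℤ) 0 0)
    (q * ((g : SL(2, ℤ)) : Matrix (Fin 2) (Fin 2) ℤ) 0 1)
    (((g : SL(2, ℤ)) : Matrix (Fin 2) (Fin 2) ℤ) 1 0 / q)
    (((g : SL(2, ℤ)) : Matrix (Fin 2) (Fin 2) ℤ) 1 1) (by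
      have h1 := entries_det g
      have h2 := Int.mul_ediv_cancel' (dvd_q_of_mem g)
      linear_combination h1 - (((g : SL(2, ℤ)) : Matrix (Fin 2) (Fin 2) ℤ) 0 1) * h2) (by
      have hq' : (q : ℤ) ≠ 0 := by exact_mod_cast hq
      have h1 := dvd_of_mem g
      have h2 := Int.mul_ediv_cancel' (dvd_q_of_mem g)
      rw [← h2] at h1
      push_cast at h1
      rw [mul_comm (q : ℤ)] at h1
      exact Int.dvd_of_mul_dvd_mul_right hq' h1)

theorem betaZ_mul_degBfun (N : ℕ) {q : ℕ} (hq : q ≠ 0) (g : Gamma0 (N * q)) :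
    betaZ q * ((g : SL(2, ℤ)) : Matrix (Fin 2) (Fin 2) ℤ) =
      ((degBfun N hq g : SL(2, ℤ)) : Matrix (Fin 2) (Fin 2) ℤ) * betaZ q := by
  have h2 := Int.mul_ediv_cancel' (dvd_q_of_mem g)
  rw [degBfun, coe_mkG0, betaZ]
  conv_lhs => rw [eta_mat ((g : SL(2, ℤ)) : Matrix (Fin 2) (Fin 2) ℤ)]
  rw [Matrix.mul_fin_two, Matrix.mul_fin_two]
  ext i j
  fin_cases i <;> fin_cases j <;> simp
  · ring
  · exact h2.symm.trans (mul_comm _ _)

theorem betaZ_inj {q : ℕ} (hq : q ≠ 0) {X Y : Matrix (Fin 2) (Fin 2) ℤ}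
    (h : X * betaZ q = Y * betaZ q) : X = Y := by
  have hq' : (q : ℤ) ≠ 0 := by exact_mod_cast hq
  rw [eta_mat X, eta_mat Y, betaZ, Matrix.mul_fin_two, Matrix.mul_fin_two] at h
  have h00 := congrFun (congrFun h 0) 0
  have h01 := congrFun (congrFun h 0) 1
  have h10 := congrFun (congrFun h 1) 0
  have h11 := congrFun (congrFun h 1) 1
  simp [hq] at h00 h01 h10 h11
  ext i j
  fin_cases i <;> fin_cases j <;> assumption

/-- conjugation by `diag(q, 1)`: `Γ₀(N q) → Γ₀(N)`. -/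
def degB (N : ℕ) {q : ℕ} (hq : q ≠ 0) : Gamma0 (N * q) →* Gamma0 N where
  toFun := degBfun N hq
  map_one' := by
    apply Subtype.ext
    apply Subtype.ext
    apply betaZ_inj hq
    rw [← betaZ_mul_degBfun]
    show betaZ q * 1 = 1 * betaZ q
    rw [Matrix.one_mul, Matrix.mul_one]
  map_mul' g h := by
    apply Subtype.ext
    apply Subtype.ext
    apply betaZ_inj hq
    rw [← betaZ_mul_degBfun]
    show betaZ q * (((g : SL(2, ℤ)) : Matrix (Fin 2) (Fin 2) ℤ) *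
      ((h : SL(2, ℤ)) : Matrix (Fin 2) (Fin 2) ℤ)) =
      (((degBfun N hq g : SL(2, ℤ)) : Matrix (Fin 2) (Fin 2) ℤ) *
      ((degBfun N hq h : SL(2, ℤ)) : Matrix (Fin 2) (Fin 2) ℤ)) * betaZ q
    rw [← Matrix.mul_assoc, betaZ_mul_degBfun, Matrix.mul_assoc, betaZ_mul_degBfun,
      Matrix.mul_assoc]

theorem betaZ_mul_degB (N : ℕ) {q : ℕ} (hq : q ≠ 0) (g : Gamma0 (N * q)) :
    betaZ q * ((g : SL(2, ℤ)) : Matrix (Fin 2) (Fin 2) ℤ) =
      ((degB N hq g : SL(2, ℤ)) : Matrix (Fin 2) (Fin 2) ℤ) * betaZ q := betaZ_mul_degBfun N hq g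

section HeckeBeta

variable {A : Type*} [AddCommGroup A] {N q : ℕ}

theorem det_betaQ_ne {q : ℕ} (hq : q ≠ 0) : (toQ (betaZ q)).det ≠ 0 := by
  rw [det_toQ, betaZ, Matrix.det_fin_two_of]; simpa using hq

/-- Hecke operators commute with `P ↦ P ∘ diag(q, 1)`. -/
theorem heckeFun_pull_beta {P : V2 → A} (hU : ∀ (m : ℤ) (v : V2), v ≠ 0 →
    P (toQ !![1, m; 0, 1] *ᵥ v) = P v) {ℓ : ℕ} [hℓ : Fact ℓ.Prime] (hq0 : q ≠ 0)
    (hℓq : ¬ ℓ ∣ q) (v : V2)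
    (hv : v ≠ 0) : heckeFun ℓ (pull P (toQ (betaZ q))) v = heckeFun ℓ P (toQ (betaZ q) *ᵥ v) := by
  haveI : NeZero ℓ := ⟨hℓ.out.ne_zero⟩
  rw [heckeFun_apply, heckeFun_apply, Fintype.sum_option, Fintype.sum_option]
  have hβv := mulVec_ne_zero (det_betaQ_ne hq0) hv
  congr 1
  · rw [pull_apply, Matrix.mulVec_mulVec, Matrix.mulVec_mulVec, ← toQ_mul, ← toQ_mul]
    congr 3
    rw [intRep_none, betaZ, Matrix.mul_fin_two, Matrix.mul_fin_two]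
    congr 1; ring_nf
  · have hqu : (q : ZMod ℓ) ≠ 0 := by
      intro h
      exact hℓq ((ZMod.natCast_eq_zero_iff _ _).mp h)
    refine (Finset.sum_congr rfl fun j _ => ?_).trans
      (Equiv.sum_comp (Equiv.mulLeft₀ (q : ZMod ℓ) hqu)
        (fun j => P (toQ (intRep ℓ (some j)) *ᵥ (toQ (betaZ q) *ᵥ v))))
    rw [pull_apply, Matrix.mulVec_mulVec, ← toQ_mul]
    obtain ⟨m, hm⟩ : (ℓ : ℤ) ∣ q * (j.val : ℤ) - (((q : ZMod ℓ) * j).val : ℤ) := by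
      rw [← ZMod.intCast_zmod_eq_zero_iff_dvd]
      push_cast
      rw [ZMod.natCast_zmod_val, ZMod.natCast_zmod_val, sub_self]
    have e : betaZ q * intRep ℓ (some j) =
        !![1, m; 0, 1] * (intRep ℓ (some ((q : ZMod ℓ) * j)) * betaZ q) := by
      rw [intRep_some, intRep_some, betaZ, Matrix.mul_fin_two, Matrix.mul_fin_two,
        Matrix.mul_fin_two]
      ext i k
      fin_cases i <;> fin_cases k <;> simp [-ZMod.natCast_val]
      linear_combination hm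
    rw [e, toQ_mul, ← Matrix.mulVec_mulVec, hU, toQ_mul, ← Matrix.mulVec_mulVec]
    · rfl
    · rw [toQ_mul, ← Matrix.mulVec_mulVec]
      exact mulVec_ne_zero (det_intRepQ_ne hℓ.out.ne_zero _) hβv

end HeckeBeta

section IharaThm

variable {F : Type*} [Field F] {p N q : ℕ} [CharP F p] {S : ℕ → Prop} {a : ℕ → F}

theorem QN_of_pair (hq : q.Prime) (hqN : ¬ q ∣ N) {ψ₁ ψ₂ : Additive (Gamma0 N) →+ F}
    {P₁ P₂ : V2 → F} (h₁ : IsPrimOf ψ₁ P₁) (h₂ : IsPrimOf ψ₂ P₂)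
    (h : ∀ v, v ≠ 0 → P₁ v + P₂ (toQ (betaZ q) *ᵥ v) = 0) : QN N q P₁ ∧ QN N q P₂ := by
  have hβ := det_betaQ_ne hq.ne_zero
  have hqQ : (q : ℚ) ≠ 0 := by exact_mod_cast hq.ne_zero
  have hQN1 : QN N q P₁ := by
    intro k X hX hXN
    refine qix_of_generators hq hqN h₁.homog (fun g => ⟨_, h₁.qi g⟩) ?_ k X hX hXN
    intro g A hA
    have hdA : A.det ≠ 0 := by
      intro h0
      have h1 := congrArg Matrix.det hA
      rw [Matrix.det_mul, Matrix.det_mul, h0, mul_zero] at h1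
      exact (mul_ne_zero (det_gQ_ne g) hβ) h1.symm
    refine ⟨-(ψ₂ (Additive.ofMul g)), fun v hv => ?_⟩
    have h3 := h v hv
    have h4 := h _ (mulVec_ne_zero hdA hv)
    rw [Matrix.mulVec_mulVec, hA, ← Matrix.mulVec_mulVec,
      h₂.qi g _ (mulVec_ne_zero hβ hv)] at h4
    linear_combination h4 - h3
  refine ⟨hQN1, ?_⟩
  intro k X hX hXN
  -- `q β⁻¹ X β`
  obtain ⟨c, hc⟩ := hQN1 (k + 1)
    !![(q : ℤ) * X 0 0, X 0 1; (q : ℤ) ^ 2 * X 1 0, (q : ℤ) * X 1 1] (by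
      rw [Matrix.det_fin_two] at hX
      rw [Matrix.det_fin_two_of]
      have : (q : ℤ) ^ (2 * (k + 1)) = (q : ℤ) ^ 2 * (q : ℤ) ^ (2 * k) := by
        rw [← pow_add]; congr 1; ring
      rw [this, ← hX]; ring) (by simpa using Dvd.dvd.mul_left hXN _)
  have hXQ : (toQ X).det ≠ 0 := by
    rw [det_toQ, hX]; exact_mod_cast pow_ne_zero _ (by exact_mod_cast hq.ne_zero)
  refine ⟨-c, fun w hw => ?_⟩
  -- `w = β v`
  obtain ⟨v, hv, rfl⟩ : ∃ v : V2, v ≠ 0 ∧ toQ (betaZ q) *ᵥ v = w := by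
    refine ⟨(toQ (betaZ q))⁻¹ *ᵥ w, mulVec_ne_zero ?_ hw, ?_⟩
    · rw [Matrix.det_nonsing_inv]; simpa using hβ
    · rw [Matrix.mulVec_mulVec, Matrix.mul_nonsing_inv _ (isUnit_iff_ne_zero.mpr hβ),
        Matrix.one_mulVec]
  set Y : Matrix (Fin 2) (Fin 2) ℤ :=
    !![(q : ℤ) * X 0 0, X 0 1; (q : ℤ) ^ 2 * X 1 0, (q : ℤ) * X 1 1] with hY
  have hYdet : (toQ Y).det ≠ 0 := by
    rw [det_toQ, hY, Matrix.det_fin_two_of]
    have h0 : X.det ≠ 0 := by rw [hX]; exact pow_ne_zero _ (by exact_mod_cast hq.ne_zero)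
    have e : (q : ℤ) * X 0 0 * ((q : ℤ) * X 1 1) - X 0 1 * ((q : ℤ) ^ 2 * X 1 0) =
      (q : ℤ) ^ 2 * X.det := by rw [Matrix.det_fin_two]; ring
    rw [e]
    have := mul_ne_zero (pow_ne_zero 2 (show (q : ℤ) ≠ 0 by exact_mod_cast hq.ne_zero)) h0
    exact_mod_cast this
  have e1 : betaZ q * Y = (q : ℤ) • (X * betaZ q) := by
    rw [hY, betaZ]
    conv_rhs => rw [eta_mat X]
    rw [Matrix.mul_fin_two, Matrix.mul_fin_two]
    ext i j
    fin_cases i <;> fin_cases j <;> simp [-mul_eq_mul_left_iff, -mul_eq_mul_right_iff] <;> ring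
  have h3 := h v hv
  have h4 := h _ (mulVec_ne_zero hYdet hv)
  rw [hc v hv, Matrix.mulVec_mulVec, ← toQ_mul, e1, toQ_zsmul, Matrix.smul_mulVec,
    h₂.homog _ _ (by exact_mod_cast hqQ) (by
      rw [toQ_mul, ← Matrix.mulVec_mulVec]
      exact mulVec_ne_zero hXQ (mulVec_ne_zero hβ hv)), toQ_mul, ← Matrix.mulVec_mulVec] at h4
  linear_combination h4 - h3

/-- **Ihara's lemma** for non Eisenstein systems of eigenvalues. -/
theorem ihara (hp : p.Prime) (hp2 : p ≠ 2) (hq : q.Prime) (hqN : ¬ q ∣ N)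
    (hSN : ∀ ℓ, S ℓ → ¬ ℓ ∣ N) (hne : NonEis S a)
    {ψ₁ ψ₂ : Additive (Gamma0 N) →+ F} (h₁ : IsEig N S a ψ₁) (h₂ : IsEig N S a ψ₂)
    (hker : ∀ g : Gamma0 (N * q),
      ψ₁ (Additive.ofMul (degA N q g)) + ψ₂ (Additive.ofMul (degB N hq.ne_zero g)) = 0) :
    ψ₁ = 0 ∧ ψ₂ = 0 := by
  have hN : N ≠ 0 := by rintro rfl; exact hqN (dvd_zero _)
  obtain ⟨P₁, hP₁⟩ := exists_isPrimOf ψ₁ (h₁.killsPar hp hp2 hN hSN hne)
  obtain ⟨P₂, hP₂⟩ := exists_isPrimOf ψ₂ (h₂.killsPar hp hp2 hN hSN hne)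
  have hβ := det_betaQ_ne hq.ne_zero
  -- the sum is `Γ₀(N q)`-invariant
  set R : V2 → F := P₁ + pull P₂ (toQ (betaZ q)) with hR
  have hR0 : Homog R := hP₁.homog.add (hP₂.homog.pull hβ)
  have hRinv : ∀ (g : Gamma0 (N * q)) (v : V2), v ≠ 0 → R (gQ g *ᵥ v) = R v := by
    intro g v hv
    have e1 : gQ g = gQ (degA N q g) := rfl
    have h3 : P₁ (gQ g *ᵥ v) = P₁ v + ψ₁ (Additive.ofMul (degA N q g)) := by
      rw [e1]; exact hP₁.qi _ v hv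
    have h4 : P₂ (toQ (betaZ q) *ᵥ (gQ g *ᵥ v)) = P₂ (toQ (betaZ q) *ᵥ v) +
        ψ₂ (Additive.ofMul (degB N hq.ne_zero g)) := by
      rw [Matrix.mulVec_mulVec, gQ, ← toQ_mul, betaZ_mul_degB, toQ_mul, ← Matrix.mulVec_mulVec]
      exact hP₂.qi _ _ (mulVec_ne_zero hβ hv)
    rw [hR]
    simp only [Pi.add_apply, pull_apply]
    rw [h3, h4]
    linear_combination hker g
  have hU1 : ∀ (m : ℤ) (v : V2), v ≠ 0 → P₁ (toQ !![1, m; 0, 1] *ᵥ v) = P₁ v := by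
    intro m v hv
    have := hP₁.upper m v hv
    rwa [add_zero] at this
  have hU2 : ∀ (m : ℤ) (v : V2), v ≠ 0 → P₂ (toQ !![1, m; 0, 1] *ᵥ v) = P₂ v := by
    intro m v hv
    have := hP₂.upper m v hv
    rwa [add_zero] at this
  have hUR : ∀ (m : ℤ) (v : V2), v ≠ 0 → R (toQ !![1, m; 0, 1] *ᵥ v) = R v := by
    intro m v hv
    exact hRinv (mkG0 (N * q) 1 m 0 1 (by ring) (dvd_zero _)) v hv
  have hRM : InvM (N * q) R := by
    intro X hX hc v hv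
    have h10 := hc 1 0
    simp at h10
    exact hRinv (toG0 (N * q) X hX (by push_cast; exact h10)) v hv
  obtain ⟨ℓ, hℓ, hSℓ, hℓM, ha⟩ := hne.ne1 (N * q) (Nat.mul_pos (Nat.pos_of_ne_zero hN) hq.pos)
  haveI : Fact ℓ.Prime := ⟨hℓ⟩
  have hℓq : ¬ ℓ ∣ q := by
    intro h
    have h1 : ℓ = q := (Nat.prime_dvd_prime_iff_eq hℓ hq).mp h
    subst h1
    have h2 : (ℓ : ℤ) ∣ ℓ - 1 := by
      refine Dvd.dvd.trans ?_ hℓM
      push_cast
      exact dvd_mul_left _ _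
    have h3 : (ℓ : ℤ) ∣ 1 := by
      have := dvd_sub (dvd_refl (ℓ : ℤ)) h2
      simpa using this
    exact (Nat.prime_iff_prime_int.mp hℓ).not_dvd_one h3
  set c : F := a ℓ - (ℓ + 1) with hc
  have hc0 : c ≠ 0 := sub_ne_zero.mpr ha
  -- corrected primitives
  set Q₁ : V2 → F := heckeFun ℓ P₁ - (ℓ + 1) • P₁ with hQ₁
  set Q₂ : V2 → F := heckeFun ℓ P₂ - (ℓ + 1) • P₂ with hQ₂
  have hpr₁ := (hP₁.hecke (ℓ := ℓ) (hSN ℓ hSℓ)).sub (hP₁.nsmul (ℓ + 1))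
  have hpr₂ := (hP₂.hecke (ℓ := ℓ) (hSN ℓ hSℓ)).sub (hP₂.nsmul (ℓ + 1))
  have e₁ : (heckeSys N ℓ).addTransfer ψ₁ - (ℓ + 1) • ψ₁ = (AddMonoidHom.mulLeft c).comp ψ₁ := by
    refine AddMonoidHom.ext fun g => ?_
    rw [AddMonoidHom.sub_apply, h₁ ℓ hSℓ, AddMonoidHom.nsmul_apply, nsmul_eq_mul]
    show _ = c * ψ₁ g
    rw [hc]; push_cast; ring
  have e₂ : (heckeSys N ℓ).addTransfer ψ₂ - (ℓ + 1) • ψ₂ = (AddMonoidHom.mulLeft c).comp ψ₂ := by
    refine AddMonoidHom.ext fun g => ?_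
    rw [AddMonoidHom.sub_apply, h₂ ℓ hSℓ, AddMonoidHom.nsmul_apply, nsmul_eq_mul]
    show _ = c * ψ₂ g
    rw [hc]; push_cast; ring
  rw [e₁] at hpr₁
  rw [e₂] at hpr₂
  have hpair : ∀ v, v ≠ 0 → Q₁ v + Q₂ (toQ (betaZ q) *ᵥ v) = 0 := by
    intro v hv
    have h3 := heckeFun_of_inv hRM hR0 hUR hℓM v hv
    have h4 : heckeFun ℓ R v = heckeFun ℓ P₁ v + heckeFun ℓ (pull P₂ (toQ (betaZ q))) v := by
      haveI : NeZero ℓ := ⟨hℓ.ne_zero⟩
      rw [heckeFun_apply, heckeFun_apply, heckeFun_apply, ← Finset.sum_add_distrib]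
      rfl
    rw [h4, heckeFun_pull_beta hU2 hq.ne_zero hℓq v hv] at h3
    have h5 : R v = P₁ v + P₂ (toQ (betaZ q) *ᵥ v) := rfl
    rw [h5, nsmul_add] at h3
    simp only [hQ₁, hQ₂, Pi.sub_apply, Pi.smul_apply]
    linear_combination h3
  obtain ⟨hN1, hN2⟩ := QN_of_pair hq hqN hpr₁ hpr₂ hpair
  have hcomm : ∀ (ψ : Additive (Gamma0 N) →+ F), IsEig N S a ψ →
      IsEig N S a ((AddMonoidHom.mulLeft c).comp ψ) := by
    intro ψ hψ ℓ' hℓ' hS g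
    rw [CosetSys.addTransfer_comp, AddMonoidHom.comp_apply, hψ ℓ' hS]
    show c * (a ℓ' * ψ g) = a ℓ' * (c * ψ g)
    ring
  have hz₁ := core hq hqN hSN hne (hcomm ψ₁ h₁) hpr₁ hN1
  have hz₂ := core hq hqN hSN hne (hcomm ψ₂ h₂) hpr₂ hN2
  constructor
  · ext g
    have := DFunLike.congr_fun hz₁ (Additive.ofMul g)
    have h6 : c * ψ₁ (Additive.ofMul g) = 0 := this
    exact (mul_eq_zero.mp h6).resolve_left hc0
  · ext g
    have := DFunLike.congr_fun hz₂ (Additive.ofMul g)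
    have h6 : c * ψ₂ (Additive.ofMul g) = 0 := this
    exact (mul_eq_zero.mp h6).resolve_left hc0

end IharaThm

end Fermat.Agent.S41aux
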