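import Fermat.Agent.TwExact.Free
import Fermat.Agent.TwHecke.Main
import Fermat.Agent.S41.Ihara

/-!
# Eigenvectors in modules with commuting operators, non Eisenstein systems in the language of `Hm`
-/

set_option autoImplicit false
set_option linter.unusedSectionVars false

noncomputable section

namespace Fermat.Agent.S41hm

open IsLocalRing Fermat.Agent.TwExact

section Abstract

variable {R : Type} [CommRing R] [IsLocalRing R] {ι : Type} {θ : ι → ResidueField R}
variable {H : Type} [AddCommGroup H] [Module R H] {T : ι → Module.End R H}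
  (hT : ∀ i j, Commute (T i) (T j))

/-- A submodule stable under the operators is stable under all polynomials in the operators. -/
theorem cev_mem {W : Submodule R H} (hW : ∀ i, ∀ x ∈ W, T i x ∈ W) (t : MvPolynomial ι R) {x : H}
    (hx : x ∈ W) : cev T hT t x ∈ W := by
  induction t using MvPolynomial.induction_on generalizing x with
  | C r => rw [cev_C, Module.algebraMap_end_apply]; exact W.smul_mem _ hx
  | add s t hs ht => rw [map_add, LinearMap.add_apply]; exact W.add_mem (hs hx) (ht hx)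
  | mul_X s i hs => rw [map_mul, Module.End.mul_apply, cev_X]; exact hs (hW i x hx)

/-- the cyclic submodule generated by `x` under the operators -/
def cyc (x : H) : Submodule R H := LinearMap.range
  ({ toFun := fun t => cev T hT t x
     map_add' := fun s t => by rw [map_add, LinearMap.add_apply]
     map_smul' := fun r t => by rw [map_smul, LinearMap.smul_apply, RingHom.id_apply] } :
    MvPolynomial ι R →ₗ[R] H)

theorem mem_cyc {x y : H} : y ∈ cyc hT x ↔ ∃ t : MvPolynomial ι R, cev T hT t x = y := Iff.rfl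

theorem self_mem_cyc (x : H) : x ∈ cyc hT x := ⟨1, by
  show cev T hT 1 x = x
  rw [map_one, Module.End.one_apply]⟩

theorem cyc_le {x y : H} (h : y ∈ cyc hT x) : cyc hT y ≤ cyc hT x := by
  rintro _ ⟨t, rfl⟩
  obtain ⟨s, rfl⟩ := h
  exact ⟨t * s, cev_mul_apply hT _ _ _⟩

/-- **Existence of eigenvectors.** -/
theorem exists_eigen [IsArtinian R H] (W : Submodule R H) (hW : ∀ i, ∀ x ∈ W, T i x ∈ W)
    (hW0 : W ≠ ⊥)
    (hinj : ∀ t : MvPolynomial ι R, evk θ t ≠ 0 → ∀ x ∈ W, cev T hT t x = 0 → x = 0) :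
    ∃ v ∈ W, v ≠ 0 ∧ ∀ t : MvPolynomial ι R, evk θ t = 0 → cev T hT t v = 0 := by
  obtain ⟨w, hwW, hw0⟩ := (Submodule.ne_bot_iff W).mp hW0
  -- a minimal cyclic submodule
  obtain ⟨C, ⟨v, hvW, hv0, rfl⟩, hmin⟩ := (inferInstance : WellFoundedLT (Submodule R H)).wf.has_min
    {C | ∃ v ∈ W, v ≠ 0 ∧ cyc hT v = C} ⟨_, w, hwW, hw0, rfl⟩
  refine ⟨v, hvW, hv0, fun t ht => ?_⟩
  by_contra hne
  have hle : cyc hT (cev T hT t v) ≤ cyc hT v := cyc_le hT ⟨t, rfl⟩
  have heq : cyc hT (cev T hT t v) = cyc hT v := by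
    by_contra hlt
    exact hmin _ ⟨_, cev_mem hT hW t hvW, hne, rfl⟩ (lt_of_le_of_ne hle hlt)
  have h1 : v ∈ cyc hT (cev T hT t v) := by rw [heq]; exact self_mem_cyc hT v
  obtain ⟨s, hs⟩ := h1
  have h2 : cev T hT (1 - s * t) v = 0 := by
    rw [map_sub, map_one, LinearMap.sub_apply, Module.End.one_apply, cev_mul_apply, sub_eq_zero]
    exact hs.symm
  exact hv0 (hinj (1 - s * t) (by rw [map_sub, map_one, map_mul, ht, mul_zero, sub_zero]
                                  exact one_ne_zero) v hvW h2)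

/-- If a stable submodule has no eigenvector, it is killed by a polynomial in the operators which
does not vanish at the eigensystem. -/
theorem exists_kill [IsArtinian R H] [IsNoetherian R H] (W : Submodule R H)
    (hW : ∀ i, ∀ x ∈ W, T i x ∈ W)
    (hno : ∀ v ∈ W, (∀ t : MvPolynomial ι R, evk θ t = 0 → cev T hT t v = 0) → v = 0) :
    ∃ t : MvPolynomial ι R, evk θ t ≠ 0 ∧ ∀ x ∈ W, cev T hT t x = 0 := by
  obtain ⟨C, ⟨t, ht, rfl⟩, hmin⟩ := (inferInstance : WellFoundedLT (Submodule R H)).wf.has_min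
    {C | ∃ t : MvPolynomial ι R, evk θ t ≠ 0 ∧ W.map (cev T hT t) = C}
    ⟨_, 1, by rw [map_one]; exact one_ne_zero, rfl⟩
  refine ⟨t, ht, fun x hx => ?_⟩
  set W' := W.map (cev T hT t) with hW'
  have hW's : ∀ i, ∀ y ∈ W', T i y ∈ W' := by
    rintro i _ ⟨y, hy, rfl⟩
    refine ⟨T i y, hW i y hy, ?_⟩
    have := cev_comm T hT t (MvPolynomial.X i)
    rw [cev_X] at this
    rw [← Module.End.mul_apply, ← Module.End.mul_apply, this]
  -- multiplication by `s` is surjective, hence injective, on `W'`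
  have hsurj : ∀ s : MvPolynomial ι R, evk θ s ≠ 0 → ∀ y ∈ W', ∃ z ∈ W', cev T hT s z = y := by
    intro s hs y hy
    have hle : W.map (cev T hT (s * t)) ≤ W' := by
      rintro _ ⟨z, hz, rfl⟩
      refine ⟨cev T hT s z, cev_mem hT hW s hz, ?_⟩
      rw [← cev_mul_apply, mul_comm]
    have heq : W.map (cev T hT (s * t)) = W' := by
      by_contra hne
      exact hmin _ ⟨s * t, by rw [map_mul]; exact mul_ne_zero hs ht, rfl⟩ (lt_of_le_of_ne hle hne)
    rw [← heq] at hy
    obtain ⟨z, hz, hzy⟩ := hy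
    exact ⟨cev T hT t z, ⟨z, hz, rfl⟩, by rw [← cev_mul_apply]; exact hzy⟩
  have hinj : ∀ s : MvPolynomial ι R, evk θ s ≠ 0 → ∀ y ∈ W', cev T hT s y = 0 → y = 0 := by
    intro s hs y hy h0
    let f : W' →ₗ[R] W' := (cev T hT s).restrict fun z hz => cev_mem hT hW's s hz
    have hf : Function.Surjective f := by
      rintro ⟨y, hy⟩
      obtain ⟨z, hz, hzy⟩ := hsurj s hs y hy
      exact ⟨⟨z, hz⟩, Subtype.ext hzy⟩
    have hfi := IsNoetherian.injective_of_surjective_endomorphism f hf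
    have : (⟨y, hy⟩ : W') = 0 := hfi (by
      rw [map_zero]
      exact Subtype.ext h0)
    exact congrArg Subtype.val this
  have hbot : W' = ⊥ := by
    by_contra hne
    obtain ⟨v, hv, hv0, hve⟩ := exists_eigen hT W' hW's hne hinj
    have hvW : v ∈ W := by
      obtain ⟨z, hz, rfl⟩ := hv
      exact cev_mem hT hW t hz
    exact hv0 (hno v hvW hve)
  have : cev T hT t x ∈ W' := ⟨x, hx, rfl⟩
  rw [hbot] at this
  exact this

end Abstract

/-- A finite module killed by the maximal ideal is artinian. -/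
theorem isArtinian_of_killed {R : Type*} [CommRing R] [IsLocalRing R] {H : Type*} [AddCommGroup H]
    [Module R H] [Module.Finite R H] (h : ∀ r ∈ maximalIdeal R, ∀ x : H, r • x = 0) :
    IsArtinian R H := by
  obtain ⟨n, s, hs⟩ := Module.Finite.exists_fin (R := R) (M := H)
  have hsimple : IsSimpleModule R (R ⧸ maximalIdeal R) :=
    isSimpleModule_iff_isCoatom.mpr (Ideal.isMaximal_def.mp (maximalIdeal.isMaximal R))
  have h1 : IsArtinian R (R ⧸ maximalIdeal R) := inferInstance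
  have h2 : IsArtinian R (Fin n → R ⧸ maximalIdeal R) := inferInstance
  let g : (i : Fin n) → (R ⧸ maximalIdeal R) →ₗ[R] H := fun i =>
    Submodule.liftQ _ (LinearMap.toSpanSingleton R H (s i)) (by
      intro r hr
      rw [LinearMap.mem_ker, LinearMap.toSpanSingleton_apply]
      exact h r hr _)
  let f : (Fin n → R ⧸ maximalIdeal R) →ₗ[R] H :=
    ∑ i, (g i) ∘ₗ LinearMap.proj i
  refine isArtinian_of_surjective (Fin n → R ⧸ maximalIdeal R) f ?_
  intro x
  have hx : x ∈ Submodule.span R (Set.range s) := by rw [hs]; trivial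
  obtain ⟨c, rfl⟩ := (Submodule.mem_span_range_iff_exists_fun R).mp hx
  refine ⟨fun i => Submodule.Quotient.mk (c i), ?_⟩
  show (∑ i, (g i) ∘ₗ LinearMap.proj i) _ = _
  rw [LinearMap.sum_apply]
  refine Finset.sum_congr rfl fun i _ => ?_
  rfl

/-! ### Strongly non Eisenstein systems -/

open CongruenceSubgroup HeckePar TwHecke
open scoped MatrixGroups

/-- The system `θ` is not Eisenstein (strong form). -/
structure StrongNonEis {F : Type*} [Field F] (S : Set ℕ) (θ : PIdx S → F) : Prop where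
  one : ∀ m : ℕ, 0 < m → ∃ ℓ : PIdx S, (m : ℤ) ∣ ((ℓ.1 : ℕ) : ℤ) - 1 ∧
    θ ℓ ≠ (((ℓ.1 : ℕ) : ℕ) : F) + 1
  two : ∀ m : ℕ, 0 < m → ∃ ℓ : PIdx S, ¬ (ℓ.1 : ℕ) ∣ m ∧
    θ ℓ ^ 2 ≠ ((((ℓ.1 : ℕ) : ℕ) : F) + 1) ^ 2

/-- extension by zero of `θ` -/
def ext0 {F : Type*} [Field F] (S : Set ℕ) (θ : PIdx S → F) (ℓ : ℕ) : F := by
  classical
  exact if h : ℓ.Prime ∧ ℓ ∉ S then θ ⟨⟨ℓ, h.1⟩, h.2⟩ else 0

theorem ext0_eq {F : Type*} [Field F] (S : Set ℕ) (θ : PIdx S → F) (ℓ : PIdx S) :
    ext0 S θ (ℓ.1 : ℕ) = θ ℓ := by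
  classical
  exact dif_pos ⟨ℓ.1.2, ℓ.2⟩

/-- the good primes -/
def gd (S : Set ℕ) (ℓ : ℕ) : Prop := ℓ.Prime ∧ ℓ ∉ S

theorem StrongNonEis.nonEis {F : Type*} [Field F] {S : Set ℕ} {θ : PIdx S → F}
    (h : StrongNonEis S θ) : S41aux.NonEis (gd S) (ext0 S θ) where
  ne1 m hm := by
    obtain ⟨ℓ, h1, h2⟩ := h.one m hm
    exact ⟨ℓ.1, ℓ.1.2, ⟨ℓ.1.2, ℓ.2⟩, h1, by rw [ext0_eq]; exact h2⟩
  ne2 m hm := by
    obtain ⟨ℓ, h1, h2⟩ := h.two m hm
    exact ⟨ℓ.1, ℓ.1.2, ⟨ℓ.1.2, ℓ.2⟩, h1, by rw [ext0_eq]; exact h2⟩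

theorem gd_not_dvd {S : Set ℕ} {N : ℕ} (hS : ∀ ℓ : ℕ, ℓ.Prime → ℓ ∣ N → ℓ ∈ S) (ℓ : ℕ)
    (h : gd S ℓ) : ¬ ℓ ∣ N := fun hd => h.2 (hS ℓ h.1 hd)

/-! ### Cohomology with coefficients in the residue field, residually trivial character -/

section Coeff

variable {R : Type} [CommRing R] [IsLocalRing R]

/-- The action of `R` on its residue field. -/
theorem smul_residue (r : R) (x : ResidueField R) : r • x = residue R r * x := by
  rw [Algebra.smul_def]; rfl

variable {M : ℕ} {ε : (ZMod M)ˣ →* Rˣ} (hε : ∀ u, residue R (ε u : R) = 1)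

include hε in
theorem eps_smul (u : (ZMod M)ˣ) (x : ResidueField R) : (ε u : R) • x = x := by
  rw [smul_residue, hε, one_mul]

include hε in
theorem wt_smul (u : (ZMod M)ˣ) (x : ResidueField R) : wt ε u • x = x := by
  have h : wt ε u = (ε u⁻¹ : R) := by rw [wt, map_inv]
  rw [h, eps_smul hε]

/-- A cocycle with values in the residue field is a homomorphism. -/
def toHom (c : ZM M ε (ResidueField R)) : Additive (Gamma0 M) →+ ResidueField R where
  toFun g := c (Additive.toMul g)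
  map_zero' := Z1.apply_one c
  map_add' g h := by
    rw [toMul_add, Z1.apply_mul]
    congr 1
    exact eps_smul hε _ _

/-- A homomorphism is a cocycle. -/
def ofHom (ψ : Additive (Gamma0 M) →+ ResidueField R) : ZM M ε (ResidueField R) :=
  ⟨fun g => ψ (Additive.ofMul g), fun g h => by
    show ψ (Additive.ofMul (g * h)) = ψ (Additive.ofMul g) +
      ((chr M ε) g : R) • ψ (Additive.ofMul h)
    rw [ofMul_mul, map_add]
    congr 1
    exact (eps_smul hε _ _).symm⟩

theorem toHom_apply (c : ZM M ε (ResidueField R)) (g : Gamma0 M) :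
    toHom hε c (Additive.ofMul g) = c g := rfl

theorem ofHom_apply (ψ : Additive (Gamma0 M) →+ ResidueField R) (g : Gamma0 M) :
    ofHom hε ψ g = ψ (Additive.ofMul g) := rfl

theorem ofHom_toHom (c : ZM M ε (ResidueField R)) : ofHom hε (toHom hε c) = c := by
  ext g; rfl

include hε in
/-- there are no coboundaries -/
theorem mk_eq_zero {c : ZM M ε (ResidueField R)} : H1.mk c = 0 ↔ c = 0 := by
  rw [H1.mk_eq_zero]
  constructor
  · rintro ⟨a, rfl⟩
    ext g
    show ((chr M ε) g : R) • a - a = 0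
    rw [sub_eq_zero]
    exact eps_smul hε _ _
  · rintro rfl
    exact ⟨0, map_zero _⟩

include hε in
theorem mk_injective {c d : ZM M ε (ResidueField R)} (h : H1.mk c = H1.mk d) : c = d := by
  rw [← sub_eq_zero, ← mk_eq_zero hε, H1.mk_sub, h, sub_self]

theorem toHom_eq_zero {c : ZM M ε (ResidueField R)} (h : toHom hε c = 0) : c = 0 := by
  ext g
  exact DFunLike.congr_fun h (Additive.ofMul g)

include hε in
/-- The cohomology with coefficients in the residue field is killed by the maximal ideal. -/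
theorem HM_killed (r : R) (hr : r ∈ maximalIdeal R) (x : HM M ε (ResidueField R)) : r • x = 0 := by
  induction x using H1.ind with
  | h c =>
    rw [← H1.mk_smul]
    have : r • c = 0 := by
      ext g
      rw [Z1.smul_apply, smul_residue, (residue_eq_zero_iff r).mpr hr, zero_mul]
      rfl
    rw [this, H1.mk_zero]

/-- The Hecke operators. -/
theorem toHom_heckeZ (ℓ : ℕ) [Fact ℓ.Prime] (c : ZM M ε (ResidueField R)) :
    toHom hε (heckeZ M ℓ ε (ResidueField R) c) = (heckeSys M ℓ).addTransfer (toHom hε c) := by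
  refine AddMonoidHom.ext fun g => ?_
  show heckeZ M ℓ ε (ResidueField R) c (Additive.toMul g) = _
  rw [heckeZ_apply]
  refine Finset.sum_congr rfl fun x _ => ?_
  rw [wt_smul hε]
  rfl

/-- An eigenvector in the cohomology gives an eigenvector in the homomorphisms. -/
theorem isEig_of_eigen {S : Set ℕ} {θ : PIdx S → ResidueField R} {c : ZM M ε (ResidueField R)}
    (h : ∀ t : MvPolynomial (PIdx S) R, evk θ t = 0 →
      cev (hop M ε (ResidueField R) S) (hop_commute M ε _ S) t (H1.mk c) = 0) :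
    S41aux.IsEig M (gd S) (ext0 S θ) (toHom hε c) := by
  intro ℓ hℓ hS' g
  have hS : ℓ ∉ S := hS'.2
  obtain ⟨r, hr⟩ := residue_surjective (R := R) (θ ⟨⟨ℓ, hℓ.out⟩, hS⟩)
  have h1 := h (MvPolynomial.X ⟨⟨ℓ, hℓ.out⟩, hS⟩ - MvPolynomial.C r) (by
    rw [map_sub, evk_X, evk_C, hr, sub_self])
  rw [map_sub, cev_X, cev_C, LinearMap.sub_apply, Module.algebraMap_end_apply] at h1
  have h2 : H1.mk (heckeZ M ℓ ε (ResidueField R) c - r • c) = 0 := by
    rw [H1.mk_sub, H1.mk_smul, ← heckeH_mk]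
    exact h1
  have h3 := (mk_eq_zero hε).mp h2
  have h4 := congrArg (fun d : ZM M ε (ResidueField R) => d (Additive.toMul g)) h3
  have h5 : ext0 S θ ℓ = θ ⟨⟨ℓ, hℓ.out⟩, hS⟩ := ext0_eq S θ ⟨⟨ℓ, hℓ.out⟩, hS⟩
  rw [← toHom_heckeZ hε, h5, ← hr]
  have h6 : heckeZ M ℓ ε (ResidueField R) c (Additive.toMul g) - r • c (Additive.toMul g) = 0 := h4
  rw [smul_residue, sub_eq_zero] at h6
  exact h6

end Coeff

end Fermat.Agent.S41hm

end
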