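import Fermat.Agent.HeckePar.Faithful
import Fermat.Agent.HeckeEigen.Forms
import Mathlib.RingTheory.Valuation.LocalSubring
import Fermat.Prelude.Def_FLTPrelim_ModularRep

/-!
# Reduction of the period homomorphism of an eigenform

From a normalised eigenform `f` congruent to a system of integers `a ℓ` modulo a maximal ideal
above `p` we construct `ξ : Hom(Γ₀(N), ℤ)`, not divisible by `p`, with `T_ℓ ξ ≡ a ℓ ξ mod p`.
-/

set_option autoImplicit false

noncomputable section

open CongruenceSubgroup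
open scoped MatrixGroups

namespace Fermat.Agent.S41aux

open Fermat.Agent.HeckePar Fermat.Agent.S21per

/-- A valuation subring of `ℂ` dominating the algebraic integers localised at `𝔪`. -/
theorem exists_valuationSubring (𝔪 : Ideal (integralClosure ℤ ℂ)) (h : 𝔪 ≠ ⊤) :
    ∃ V : ValuationSubring ℂ, (∀ x : integralClosure ℤ ℂ, (x : ℂ) ∈ V) ∧
      ∀ x ∈ 𝔪, (x : ℂ) ∈ V.nonunits := by
  obtain ⟨V, h1, h2⟩ := Ideal.image_subset_nonunits_valuationSubring
    (A := (integralClosure ℤ ℂ).toSubring) 𝔪 h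
  refine ⟨V, fun x => h1 x.2, fun x hx => h2 ⟨x, hx, rfl⟩⟩

section Decomp

variable {Γ C : Type*} [Group Γ] [Group.FG Γ] [AddCommGroup C] [IsAddTorsionFree C]

/-- Decomposition of a homomorphism to a torsion free group. -/
theorem exists_decomposition (u : Additive Γ →+ C) :
    ∃ (n : ℕ) (c : Fin n → C) (l : Fin n → (Additive Γ →+ ℤ)),
      (∀ x, u x = ∑ i, l i x • c i) ∧ ∀ i, ∃ x, u x = c i := by
  classical
  have : AddGroup.FG u.range := AddGroup.fg_range u
  have : Module.Finite ℤ u.range := Module.Finite.iff_addGroup_fg.mpr inferInstance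
  have : IsAddTorsionFree u.range :=
    Function.Injective.isAddTorsionFree u.range.subtype Subtype.val_injective
  have : Module.Free ℤ u.range := inferInstance
  let b := Module.finBasis ℤ u.range
  refine ⟨_, fun i => (b i : C),
    fun i => ((b.coord i).toAddMonoidHom).comp u.rangeRestrict, fun x => ?_, fun i => ?_⟩
  · have h1 := b.sum_repr (u.rangeRestrict x)
    have h2 := congrArg (fun y : u.range => (y : C)) h1
    simp only [AddSubgroup.val_finsetSum, AddMonoidHom.coe_rangeRestrict] at h2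
    rw [← h2]
    rfl
  · exact (b i).2

end Decomp

/-- A normalised homomorphism with values in a valuation ring. -/
theorem exists_integral_scaling {Γ : Type*} [Group Γ] [Group.FG Γ] (V : ValuationSubring ℂ)
    (u : Additive Γ →+ ℂ) (hu : u ≠ 0) :
    ∃ (n : ℕ) (c : Fin n → V) (l : Fin n → (Additive Γ →+ ℤ)) (w : ℂ) (x₀ : Additive Γ),
      w ≠ 0 ∧ (∀ x, w * u x = ((∑ i, l i x • c i : V) : ℂ)) ∧ w * u x₀ = 1 := by
  classical
  obtain ⟨n, c, l, hl, hc⟩ := exists_decomposition u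
  have hne : ∃ i, c i ≠ 0 := by
    by_contra hcon
    push Not at hcon
    apply hu
    refine AddMonoidHom.ext fun x => ?_
    rw [hl]
    simp [hcon]
  obtain ⟨i₁, hi₁⟩ := hne
  haveI : Nonempty (Fin n) := ⟨i₁⟩
  obtain ⟨i₀, hi₀⟩ := Finite.exists_max (fun i => V.valuation (c i))
  have hci₀ : c i₀ ≠ 0 := by
    intro h0
    have h1 := hi₀ i₁
    rw [h0, map_zero] at h1
    have h2 := le_antisymm h1 zero_le'
    rw [map_eq_zero] at h2
    exact hi₁ h2
  have hmem : ∀ i, (c i₀)⁻¹ * c i ∈ V := by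
    intro i
    rw [← ValuationSubring.valuation_le_one_iff, map_mul, map_inv₀]
    have h1 : V.valuation (c i₀) ≠ 0 := (map_ne_zero _).mpr hci₀
    rw [inv_mul_le_iff₀ (zero_lt_iff.mpr h1), mul_one]
    exact hi₀ i
  obtain ⟨x₀, hx₀⟩ := hc i₀
  refine ⟨n, fun i => ⟨(c i₀)⁻¹ * c i, hmem i⟩, l, (c i₀)⁻¹, x₀, inv_ne_zero hci₀, fun x => ?_, ?_⟩
  · rw [hl x, Finset.mul_sum]
    push_cast
    refine Finset.sum_congr rfl fun i _ => ?_
    rw [zsmul_eq_mul, zsmul_eq_mul]
    push_cast
    ring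
  · rw [hx₀, inv_mul_cancel₀ hci₀]

section Main

variable {N : ℕ} [NeZero N]

open FermatAgent.HeckeEigen ModularFormClass in
/-- the period homomorphism of a normalised eigenform is a Hecke eigenvector. -/
theorem addTransfer_periodLin {f : CuspForm (Gamma0 N) 2} (hf : f.IsNormalizedEigenform)
    (ℓ : ℕ) [hℓ : Fact ℓ.Prime] (g : Additive (Gamma0 N)) :
    (heckeSys N ℓ).addTransfer (periodLin N f) g = qCoeff ⇑f ℓ * periodLin N f g := by
  have h1 := heckeOp_eq_of_isNormalizedEigenform hf ⟨ℓ, hℓ.out⟩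
  have h2 : periodLin N (heckeOp N 2 ⟨ℓ, hℓ.out⟩ f) =
      (heckeSys N ℓ).addTransfer (periodLin N f) := by
    by_cases hℓN : ℓ ∣ N
    · rw [heckeOp_of_dvd (p := ⟨ℓ, hℓ.out⟩) hℓN]
      exact periodLin_heckeULin hℓN f
    · rw [heckeOp_of_not_dvd (p := ⟨ℓ, hℓ.out⟩) hℓN]
      exact periodLin_heckeTLin hℓN f
  rw [← h2, h1, map_smul]
  rfl

open ModularFormClass in
/-- reduction of the eigenvector. -/
theorem exists_mod_eigenvector {f : CuspForm (Gamma0 N) 2} (hf : f.IsNormalizedEigenform)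
    {p : ℕ} (hp : p.Prime) (𝔪 : Ideal (integralClosure ℤ ℂ)) (h𝔪 : 𝔪 ≠ ⊤)
    (hp𝔪 : (p : integralClosure ℤ ℂ) ∈ 𝔪) (S : ℕ → Prop) (a : ℕ → ℤ)
    (hcong : ∀ ℓ : ℕ, ℓ.Prime → S ℓ → ∃ x : integralClosure ℤ ℂ, (x : ℂ) = qCoeff ⇑f ℓ ∧
      x - ((a ℓ : ℤ) : integralClosure ℤ ℂ) ∈ 𝔪) :
    ∃ ξ : Additive (Gamma0 N) →+ ℤ, (∃ x, ¬ (p : ℤ) ∣ ξ x) ∧
      ∀ (ℓ : ℕ) [Fact ℓ.Prime], S ℓ → ∀ g, (p : ℤ) ∣ (heckeSys N ℓ).addTransfer ξ g - a ℓ * ξ g := by
  classical
  haveI : Fact p.Prime := ⟨hp⟩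
  haveI : Group.FG (Gamma0 N) := Fermat.Agent.S22alg.fg_Gamma0 N
  obtain ⟨V, hVO, hVm⟩ := exists_valuationSubring 𝔪 h𝔪
  have hf0 : f ≠ 0 := CuspForm.IsNormalizedEigenform.ne_zero hf
  have hu0 : periodLin N f ≠ 0 := fun h => hf0 (periodLin_injective (h.trans (map_zero _).symm))
  obtain ⟨n, c, l, w, x₀, hw, hwu, hx₀⟩ := exists_integral_scaling V (periodLin N f) hu0
  -- the integral homomorphism
  let u : Additive (Gamma0 N) →+ V :=
    { toFun := fun x => ∑ i, l i x • c i
      map_zero' := by simp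
      map_add' := fun x y => by simp [add_smul, Finset.sum_add_distrib] }
  have hu : ∀ x, ((u x : V) : ℂ) = w * periodLin N f x := fun x => (hwu x).symm
  -- residue field
  let k := IsLocalRing.ResidueField V
  have hpk : (p : k) = 0 := by
    have h1 := hVm _ hp𝔪
    have h2 : ((p : V) : ℂ) ∈ V.nonunits := by
      have e : ((p : V) : ℂ) = ((p : integralClosure ℤ ℂ) : ℂ) := by push_cast; rfl
      rw [e]; exact h1
    have h3 : (p : V) ∈ IsLocalRing.maximalIdeal V := by
      have := (ValuationSubring.coe_mem_nonunits_iff (A := V) (a := (p : V))).mp h2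
      exact this
    have h4 : IsLocalRing.residue V (p : V) = 0 := (IsLocalRing.residue_eq_zero_iff _).mpr h3
    rw [map_natCast] at h4
    exact h4
  haveI : CharP k p := (CharP.charP_iff_prime_eq_zero hp).mpr hpk
  letI : Algebra (ZMod p) k := ZMod.algebra k p
  obtain ⟨lam, hlam⟩ := (Algebra.linearMap (ZMod p) k).exists_leftInverse_of_injective
    (LinearMap.ker_eq_bot.mpr (algebraMap (ZMod p) k).injective)
  have hlam1 : lam 1 = 1 := by
    have := LinearMap.congr_fun hlam 1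
    simpa using this
  -- the homomorphism modulo `p`
  let red : V →+ ZMod p := lam.toAddMonoidHom.comp (IsLocalRing.residue V).toAddMonoidHom
  have hred : ∀ x : V, red x = lam (IsLocalRing.residue V x) := fun _ => rfl
  -- integers act through reduction
  have hredmul : ∀ (z : ℤ) (y x : V), ((y : ℂ) - (z : ℂ)) ∈ V.nonunits →
      red (y * x) = (z : ZMod p) * red x := by
    intro z y x hy
    have h1 : y - (z : V) ∈ IsLocalRing.maximalIdeal V := by
      refine (ValuationSubring.coe_mem_nonunits_iff (A := V) (a := y - (z : V))).mp ?_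
      have e : ((y - (z : V) : V) : ℂ) = (y : ℂ) - (z : ℂ) := by push_cast; rfl
      rw [e]; exact hy
    have h2 : IsLocalRing.residue V y = (z : k) := by
      have h3 : IsLocalRing.residue V (y - (z : V)) = 0 :=
        (IsLocalRing.residue_eq_zero_iff _).mpr h1
      rw [map_sub, map_intCast, sub_eq_zero] at h3
      exact h3
    rw [hred, hred, map_mul, h2, ← smul_eq_mul, Int.cast_smul_eq_zsmul, map_zsmul, zsmul_eq_mul]
  -- the lift
  let ξ : Additive (Gamma0 N) →+ ℤ := ∑ i, ((red (c i)).val : ℤ) • l i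
  have hξ : ∀ x, ((ξ x : ℤ) : ZMod p) = red (u x) := by
    intro x
    have h1 : ξ x = ∑ i, ((red (c i)).val : ℤ) * l i x := by
      simp [ξ, AddMonoidHom.finsetSum_apply]
    have h2 : red (u x) = ∑ i, ((l i x : ℤ) : ZMod p) * red (c i) := by
      show red (∑ i, l i x • c i) = _
      rw [map_sum]
      refine Finset.sum_congr rfl fun i _ => ?_
      rw [map_zsmul, zsmul_eq_mul]
    rw [h1, h2]
    push_cast
    refine Finset.sum_congr rfl fun i _ => ?_
    rw [ZMod.natCast_zmod_val, mul_comm]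
  have hcomp : (Int.castAddHom (ZMod p)).comp ξ = red.comp u := by
    refine AddMonoidHom.ext fun x => ?_
    exact hξ x
  refine ⟨ξ, ⟨x₀, ?_⟩, ?_⟩
  · intro hdvd
    have h1 : ((ξ x₀ : ℤ) : ZMod p) = 0 := (ZMod.intCast_zmod_eq_zero_iff_dvd _ _).mpr hdvd
    have h2 : u x₀ = 1 := by
      apply Subtype.ext
      rw [hu, hx₀]; rfl
    rw [hξ, h2, hred, map_one, hlam1] at h1
    exact one_ne_zero h1
  · intro ℓ hℓ hS g
    obtain ⟨x, hx, hxm⟩ := hcong ℓ hℓ.out hS
    -- the eigen equation for `u`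
    have h1 : (heckeSys N ℓ).addTransfer u g = (⟨(x : ℂ), hVO x⟩ : V) * u g := by
      apply Subtype.ext
      have h2 := DFunLike.congr_fun
        ((heckeSys N ℓ).addTransfer_comp (V.subtype.toAddMonoidHom) u) g
      have h3 : V.subtype.toAddMonoidHom.comp u = (AddMonoidHom.mulLeft w).comp (periodLin N f) :=
        AddMonoidHom.ext fun y => hu y
      rw [h3, CosetSys.addTransfer_comp] at h2
      have h4 : (((heckeSys N ℓ).addTransfer u g : V) : ℂ) =
          w * (heckeSys N ℓ).addTransfer (periodLin N f) g := h2.symm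
      rw [h4, addTransfer_periodLin hf]
      show _ = (x : ℂ) * ((u g : V) : ℂ)
      rw [hu, hx]; ring
    have h5 := DFunLike.congr_fun ((heckeSys N ℓ).addTransfer_comp (Int.castAddHom (ZMod p)) ξ) g
    rw [hcomp, CosetSys.addTransfer_comp] at h5
    have h6 : red ((heckeSys N ℓ).addTransfer u g) =
        (((heckeSys N ℓ).addTransfer ξ g : ℤ) : ZMod p) := h5
    rw [h1, hredmul (a ℓ)] at h6
    · rw [← ZMod.intCast_zmod_eq_zero_iff_dvd]
      push_cast
      rw [← h6, hξ, sub_self]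
    · have h7 := hVm _ hxm
      have e : ((x - ((a ℓ : ℤ) : integralClosure ℤ ℂ) : integralClosure ℤ ℂ) : ℂ) =
          (x : ℂ) - ((a ℓ : ℤ) : ℂ) := by push_cast; rfl
      rw [e] at h7
      exact h7

end Main

end Fermat.Agent.S41aux

end
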