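import Fermat.Agent.S41.DualHecke

/-!
# Commutation relations: `T_ℓ` and `U_q` with restriction and trace maps
-/

set_option autoImplicit false

noncomputable section

namespace Fermat.Agent.S41dual

open Matrix CongruenceSubgroup Fermat.Agent.HeckePar
open Fermat.Agent.S41aux (degA degB betaZ coe_degA betaZ_mul_degB)
open scoped MatrixGroups BigOperators

variable {N q ℓ : ℕ} [hq : Fact q.Prime] [hℓ : Fact ℓ.Prime] {A : Type*} [AddCommGroup A]

section Prelim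

omit hℓ

theorem smul_q_inj {X Y : M2} (h : (q : ℤ) • X = (q : ℤ) • Y) : X = Y :=
  smul_right_injective M2 (pos_q (q := q)).ne' h

/-- `c δ = δ degB(c)` -/
theorem mul_dlt (c : Gamma0 (N * q)) : gm (Gamma0 (N * q)) c * dlt q =
    dlt q * gm (Gamma0 N) (degB N hq.out.ne_zero c) := by
  have hb : betaZ q * gm (Gamma0 (N * q)) c = gm (Gamma0 N) (degB N hq.out.ne_zero c) * betaZ q :=
    betaZ_mul_degB N hq.out.ne_zero c
  apply smul_q_inj (q := q)
  calc (q : ℤ) • (gm (Gamma0 (N * q)) c * dlt q)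
      = (dlt q * betaZ q) * (gm (Gamma0 (N * q)) c * dlt q) := by
        rw [dlt_mul_beta, Matrix.smul_mul, Matrix.one_mul]
    _ = dlt q * (betaZ q * gm (Gamma0 (N * q)) c) * dlt q := by simp only [Matrix.mul_assoc]
    _ = dlt q * gm (Gamma0 N) (degB N hq.out.ne_zero c) * (betaZ q * dlt q) := by
        rw [hb]; simp only [Matrix.mul_assoc]
    _ = _ := by rw [beta_mul_dlt, Matrix.mul_smul, Matrix.mul_one]

omit hq in
/-- if `q ∣ G 0 1` then `δ G = C δ` with `C ∈ Γ₀(Nq)`. -/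
theorem exists_dlt_mul (G : Gamma0 N) (h : (q : ℤ) ∣ gm (Gamma0 N) G 0 1) :
    ∃ C : Gamma0 (N * q), dlt q * gm (Gamma0 N) G = gm (Gamma0 (N * q)) C * dlt q := by
  obtain ⟨b, hb⟩ := h
  have hd := gm_ent G
  refine ⟨g0 (N * q) !![gm (Gamma0 N) G 0 0, b; q * gm (Gamma0 N) G 1 0, gm (Gamma0 N) G 1 1]
    (by rw [Matrix.det_fin_two_of]; rw [hb] at hd; linarith) (by
      simp only [Matrix.of_apply, Matrix.cons_val_zero,
        Matrix.cons_val_one, Matrix.cons_val']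
      push_cast
      rw [mul_comm (N : ℤ)]
      exact mul_dvd_mul dvd_rfl (gm_dvd G)), ?_⟩
  rw [gm_g0]
  ext i j
  fin_cases i <;> fin_cases j <;>
    simp [dlt, Matrix.mul_apply, Fin.sum_univ_two, hb, mul_comm]

omit hq in
theorem mem_of_dvd {g : Gamma0 N} (hc : Nat.Coprime q N) (h : (q : ℤ) ∣ gm (Gamma0 N) g 1 0) :
    ((N * q : ℕ) : ℤ) ∣ gm (Gamma0 N) g 1 0 := by
  push_cast
  exact (Nat.isCoprime_iff_coprime.mpr hc.symm).mul_dvd (gm_dvd g) h

theorem exists_decompA (hc : Nat.Coprime q N) (c : Gamma0 N) :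
    ∃ (x : HIdx N q) (C : Gamma0 (N * q)), gm (Gamma0 N) c =
      gm (Gamma0 (N * q)) C * gm (Gamma0 N) (rA hc x.1) := by
  have h := (corrA hc).spec c ⟨none, fun h => absurd h (not_dvd_of_coprime hc)⟩
  have h0 : gm (Gamma0 N) (rA hc (none : Option (ZMod q))) = 1 := rfl
  rw [corrA_mat, corrA_mat, h0, Matrix.one_mul] at h
  exact ⟨_, _, h⟩

theorem gm_sB_zero (hc : Nat.Coprime q N) : gm (Gamma0 N) (sB hc (some (0 : ZMod q))) = 1 := by
  simp only [sB, gm_Tp]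
  simp [ZMod.val_zero, Matrix.one_fin_two]

theorem exists_decompB (hc : Nat.Coprime q N) (c : Gamma0 N) :
    ∃ (x : HIdx N q) (C : Gamma0 (N * q)), dlt q * gm (Gamma0 N) c =
      gm (Gamma0 (N * q)) C * (dlt q * gm (Gamma0 N) (sB hc x.1)) := by
  have h := (corrB hc).spec c ⟨some 0, fun h => absurd h (not_dvd_of_coprime hc)⟩
  rw [corrB_mat, corrB_mat, gm_sB_zero, Matrix.mul_one] at h
  exact ⟨_, _, h⟩

end Prelim

section Ell

omit hq in
theorem intRep_coprime (hℓq : ℓ ≠ q) [hq : Fact q.Prime] (x : Option (ZMod ℓ)) :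
    IsCoprime (q : ℤ) (intRep ℓ x 0 0) ∧ IsCoprime (q : ℤ) (intRep ℓ x 1 1) ∧
      intRep ℓ x 1 0 = 0 := by
  have h : IsCoprime (q : ℤ) (ℓ : ℤ) :=
    Nat.isCoprime_iff_coprime.mpr ((Nat.coprime_primes hq.out hℓ.out).mpr hℓq.symm)
  cases x with
  | none => exact ⟨h, isCoprime_one_right, rfl⟩
  | some j => exact ⟨isCoprime_one_right, h, rfl⟩

/-- change of level of the index set -/
def hE (h : ¬ ℓ ∣ N) (h' : ¬ ℓ ∣ N * q) : HIdx (N * q) ℓ ≃ HIdx N ℓ :=
  (hidxEquivOfNotDvd h').trans (hidxEquivOfNotDvd h).symm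

omit hq hℓ in
theorem hE_val (h : ¬ ℓ ∣ N) (h' : ¬ ℓ ∣ N * q) (x : HIdx (N * q) ℓ) : (hE h h' x).1 = x.1 := rfl

omit hq in
/-- `T_ℓ` commutes with `resA`. -/
theorem hecke_resA (h' : ¬ ℓ ∣ N * q) (φ : Additive (Gamma0 N) →+ A) :
    (heckeSys (N * q) ℓ).addTransfer (resA N q A φ) =
      resA N q A ((heckeSys N ℓ).addTransfer φ) := by
  have h : ¬ ℓ ∣ N := fun h => h' (h.mul_right q)
  rw [← heckeCorr_pull, ← heckeCorr_pull, resA, ← Corr.comp_pull, ← Corr.comp_pull]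
  refine Corr.pull_eq _ _ ?_ ((Equiv.uniqueProd (HIdx (N * q) ℓ) Unit).trans ((hE h h').trans
    (Equiv.prodUnique (HIdx N ℓ) Unit).symm)) (fun _ => 1) (l := 1) one_ne_zero ?_ φ
  · rintro ⟨x, ⟨⟩⟩ ⟨y, ⟨⟩⟩ c hxy
    have h1 : intRep ℓ x.1 * 1 = gm (Gamma0 N) c * (intRep ℓ y.1 * 1) := hxy
    rw [Matrix.mul_one, Matrix.mul_one] at h1
    rw [heckeCorr_inj N ℓ x y c h1]
  · rintro ⟨⟨⟩, x⟩
    show (1 : ℤ) • ((1 : M2) * intRep ℓ x.1) = (1 : ℤ) • ((1 : M2) * (intRep ℓ x.1 * 1))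
    simp

/-- multiplication by `q` on the index set -/
def qE (hℓq : ℓ ≠ q) : Option (ZMod ℓ) ≃ Option (ZMod ℓ) :=
  Equiv.optionCongr (Equiv.mulLeft₀ (q : ZMod ℓ) (by
    intro h
    rw [ZMod.natCast_eq_zero_iff] at h
    exact hℓq ((Nat.prime_dvd_prime_iff_eq hℓ.out hq.out).mp h)))

/-- the unipotent element in `exists_qE`. -/
def qu (N q : ℕ) {ℓ : ℕ} (x : Option (ZMod ℓ)) : Gamma0 N :=
  match x with
  | none => 1
  | some j => Tp N ((q * j.val - ((q : ZMod ℓ) * j).val : ℤ) / ℓ)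

omit hq in
theorem qu_spec (j : ZMod ℓ) : (q * j.val : ℤ) =
    ((q : ZMod ℓ) * j).val + ((q * j.val - ((q : ZMod ℓ) * j).val : ℤ) / ℓ) * ℓ := by
  have hd : (ℓ : ℤ) ∣ (q * j.val - ((q : ZMod ℓ) * j).val : ℤ) := by
    rw [← ZMod.intCast_zmod_eq_zero_iff_dvd]
    push_cast
    have : NeZero ℓ := ⟨hℓ.out.ne_zero⟩
    rw [ZMod.natCast_zmod_val, ZMod.natCast_zmod_val, sub_self]
  have := Int.ediv_mul_cancel hd
  linarith

theorem beta_mul_intRep (hℓq : ℓ ≠ q) (x : Option (ZMod ℓ)) : betaZ q * intRep ℓ x =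
    gm (Gamma0 N) (qu N q x) * (intRep ℓ (qE hℓq x) * betaZ q) := by
  cases x with
  | none =>
    show betaZ q * intRep ℓ none = (1 : M2) * (intRep ℓ none * betaZ q)
    rw [Matrix.one_mul, betaZ, intRep_none, Matrix.mul_fin_two, Matrix.mul_fin_two]
    ext i j; fin_cases i <;> fin_cases j <;> simp [mul_comm]
  | some j =>
    show betaZ q * intRep ℓ (some j) =
      !![1, (q * j.val - ((q : ZMod ℓ) * j).val : ℤ) / ℓ; 0, 1] *
        (intRep ℓ (some ((q : ZMod ℓ) * j)) * betaZ q)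
    have := qu_spec (q := q) j
    rw [intRep_some, intRep_some, betaZ, Matrix.mul_fin_two, Matrix.mul_fin_two,
      Matrix.mul_fin_two]
    ext i k
    fin_cases i <;> fin_cases k
    · simp
    · simpa using this
    · simp
    · simp

theorem intRep_mul_dlt (hℓq : ℓ ≠ q) (x : Option (ZMod ℓ)) : intRep ℓ x * dlt q =
    dlt q * (gm (Gamma0 N) (qu N q x) * intRep ℓ (qE hℓq x)) := by
  cases x with
  | none =>
    show intRep ℓ none * dlt q = dlt q * ((1 : M2) * intRep ℓ none)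
    rw [Matrix.one_mul, dlt, intRep_none, Matrix.mul_fin_two, Matrix.mul_fin_two]
    ext i j; fin_cases i <;> fin_cases j <;> simp
  | some j =>
    show intRep ℓ (some j) * dlt q = dlt q * (
      !![1, (q * j.val - ((q : ZMod ℓ) * j).val : ℤ) / ℓ; 0, 1] *
        (intRep ℓ (some ((q : ZMod ℓ) * j))))
    have := qu_spec (q := q) j
    rw [intRep_some, intRep_some, dlt, Matrix.mul_fin_two, Matrix.mul_fin_two,
      Matrix.mul_fin_two]
    ext i k
    fin_cases i <;> fin_cases k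
    · simp
    · simp only [Fin.zero_eta, Fin.mk_one, Matrix.of_apply, Matrix.cons_val_zero,
        Matrix.cons_val_one, Matrix.cons_val', Matrix.cons_val_fin_one]
      linarith
    · simp
    · simp [mul_comm]

/-- `T_ℓ` commutes with `resB`. -/
theorem hecke_resB (h' : ¬ ℓ ∣ N * q) (φ : Additive (Gamma0 N) →+ A) :
    (heckeSys (N * q) ℓ).addTransfer (resB N q A φ) =
      resB N q A ((heckeSys N ℓ).addTransfer φ) := by
  have h : ¬ ℓ ∣ N := fun h => h' (h.mul_right q)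
  have hℓq : ℓ ≠ q := fun h => h' (h ▸ Dvd.intro_left N rfl)
  rw [← heckeCorr_pull, ← heckeCorr_pull, resB, ← Corr.comp_pull, ← Corr.comp_pull]
  refine Corr.pull_eq _ _ ?_ ((Equiv.uniqueProd (HIdx (N * q) ℓ) Unit).trans
    ((hidxEquivOfNotDvd h').trans ((qE hℓq).trans ((hidxEquivOfNotDvd h).symm.trans
    (Equiv.prodUnique (HIdx N ℓ) Unit).symm)))) (fun p => qu N q p.2.1) (l := 1) one_ne_zero ?_ φ
  · rintro ⟨x, ⟨⟩⟩ ⟨y, ⟨⟩⟩ c hxy
    have h1 : intRep ℓ x.1 * betaZ q = gm (Gamma0 N) c * (intRep ℓ y.1 * betaZ q) := hxy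
    rw [← Matrix.mul_assoc] at h1
    rw [heckeCorr_inj N ℓ x y c (mat_cancel_right (by
      rw [det_beta]; exact (pos_q (q := q)).ne') h1)]
  · rintro ⟨⟨⟩, x⟩
    rw [one_smul, one_smul]
    exact beta_mul_intRep hℓq x.1

/-- `T_ℓ` commutes with `trA`. -/
theorem hecke_trA (hc : Nat.Coprime q N) (h' : ¬ ℓ ∣ N * q) (φ : Additive (Gamma0 (N * q)) →+ A) :
    trA hc A ((heckeSys (N * q) ℓ).addTransfer φ) =
      (heckeSys N ℓ).addTransfer (trA hc A φ) := by
  have h : ¬ ℓ ∣ N := fun h => h' (h.mul_right q)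
  have hℓq : ℓ ≠ q := fun h => h' (h ▸ Dvd.intro_left N rfl)
  rw [← heckeCorr_pull, ← heckeCorr_pull, trA, ← Corr.comp_pull, ← Corr.comp_pull]
  refine Corr.pull_eq_of_card _ _ ?_ ?_ ?_ (l := 1) (m := 1) one_ne_zero one_ne_zero ?_ φ
  · rintro ⟨y, x⟩ ⟨y', x'⟩ c hxy
    have h1 : intRep ℓ y.1 * gm (Gamma0 N) (rA hc x.1) =
      gm (Gamma0 (N * q)) c * (intRep ℓ y'.1 * gm (Gamma0 N) (rA hc x'.1)) := hxy
    set g := rA hc x.1 * (rA hc x'.1)⁻¹ with hg
    have h2 : intRep ℓ y.1 * gm (Gamma0 N) g = gm (Gamma0 (N * q)) c * intRep ℓ y'.1 := by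
      rw [hg, gm_mul, ← Matrix.mul_assoc, h1]
      simp only [Matrix.mul_assoc, gm_mul_inv, Matrix.mul_one]
    obtain ⟨-, k1, k2⟩ := intRep_coprime (ℓ := ℓ) hℓq y.1
    obtain ⟨-, -, k3⟩ := intRep_coprime (ℓ := ℓ) hℓq y'.1
    have h3 : (q : ℤ) ∣ gm (Gamma0 N) g 1 0 := by
      have e := congrFun (congrFun h2 1) 0
      rw [Matrix.mul_apply, Matrix.mul_apply, Fin.sum_univ_two, Fin.sum_univ_two, k2, k3, zero_mul,
        zero_add, mul_zero, add_zero] at e
      apply k1.dvd_of_dvd_mul_left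
      rw [e]
      refine dvd_mul_of_dvd_left (Dvd.dvd.trans ?_ (gm_dvd c)) _
      push_cast
      exact dvd_mul_left _ _
    have h4 := mem_of_dvd hc h3
    have h5 : gm (Gamma0 N) (rA hc x.1) =
        gm (Gamma0 (N * q)) (g0 (N * q) _ (gm_det g) h4) * gm (Gamma0 N) (rA hc x'.1) := by
      rw [gm_g0, ← gm_mul, hg, inv_mul_cancel_right]
    have h6 : x = x' := corrA_inj hc _ _ _ h5
    subst h6
    rw [← Matrix.mul_assoc] at h1
    have h7 := mat_cancel_right (by rw [gm_det]; exact one_ne_zero) h1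
    rw [heckeCorr_inj (N * q) ℓ y y' c h7]
  · rintro ⟨x, y⟩ ⟨x', y'⟩ c hxy
    have h1 : gm (Gamma0 N) (rA hc x.1) * intRep ℓ y.1 =
      gm (Gamma0 (N * q)) c * (gm (Gamma0 N) (rA hc x'.1) * intRep ℓ y'.1) := hxy
    have h2 : y = y' := by
      refine heckeCorr_inj N ℓ y y' ((rA hc x.1)⁻¹ * degA N q c * rA hc x'.1) ?_
      show intRep ℓ y.1 = _ * intRep ℓ y'.1
      rw [gm_mul, gm_mul, gm_degA, Matrix.mul_assoc, Matrix.mul_assoc, ← h1, ← Matrix.mul_assoc,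
        gm_inv_mul, Matrix.one_mul]
    subst h2
    rw [← Matrix.mul_assoc] at h1
    have h3 := mat_cancel_right (by
      rw [det_intRep]; exact_mod_cast hℓ.out.ne_zero) h1
    rw [corrA_inj hc _ _ _ h3]
  · rw [Fintype.card_prod, Fintype.card_prod, Fintype.card_congr (hE h h'), mul_comm]
  · rintro ⟨y, x⟩
    have h1 := (heckeCorr N ℓ).spec (rA hc x.1) (hE h h' y)
    obtain ⟨x', C, hC⟩ := exists_decompA hc ((heckeCorr N ℓ).coc (rA hc x.1) (hE h h' y))
    refine ⟨(x', (heckeCorr N ℓ).act (rA hc x.1) (hE h h' y)), C, ?_⟩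
    rw [one_smul, one_smul]
    show intRep ℓ y.1 * gm (Gamma0 N) (rA hc x.1) = gm (Gamma0 (N * q)) C *
      (gm (Gamma0 N) (rA hc x'.1) * intRep ℓ ((heckeCorr N ℓ).act (rA hc x.1) (hE h h' y)).1)
    rw [← Matrix.mul_assoc, ← hC]
    exact h1

/-- `T_ℓ` commutes with `trB`. -/
theorem hecke_trB (hc : Nat.Coprime q N) (h' : ¬ ℓ ∣ N * q) (φ : Additive (Gamma0 (N * q)) →+ A) :
    trB hc A ((heckeSys (N * q) ℓ).addTransfer φ) =
      (heckeSys N ℓ).addTransfer (trB hc A φ) := by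
  have h : ¬ ℓ ∣ N := fun h => h' (h.mul_right q)
  have hℓq : ℓ ≠ q := fun h => h' (h ▸ Dvd.intro_left N rfl)
  have hδ : (dlt q).det ≠ 0 := by rw [det_dlt]; exact (pos_q (q := q)).ne'
  rw [← heckeCorr_pull, ← heckeCorr_pull, trB, ← Corr.comp_pull, ← Corr.comp_pull]
  refine Corr.pull_eq_of_card _ _ ?_ ?_ ?_ (l := 1) (m := 1) one_ne_zero one_ne_zero ?_ φ
  · rintro ⟨y, x⟩ ⟨y', x'⟩ c hxy
    have h1 : intRep ℓ y.1 * (dlt q * gm (Gamma0 N) (sB hc x.1)) =
      gm (Gamma0 (N * q)) c * (intRep ℓ y'.1 * (dlt q * gm (Gamma0 N) (sB hc x'.1))) := hxy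
    set G := sB hc x.1 * (sB hc x'.1)⁻¹ with hG
    have h2 : intRep ℓ y.1 * dlt q * gm (Gamma0 N) G =
        gm (Gamma0 (N * q)) c * intRep ℓ y'.1 * dlt q := by
      have e1 : intRep ℓ y.1 * dlt q * gm (Gamma0 N) G =
        intRep ℓ y.1 * (dlt q * gm (Gamma0 N) (sB hc x.1)) * gm (Gamma0 N) (sB hc x'.1)⁻¹ := by
        rw [hG, gm_mul]; simp only [Matrix.mul_assoc]
      rw [e1, h1]
      simp only [Matrix.mul_assoc, gm_mul_inv, Matrix.mul_one]
    obtain ⟨k1, -, k2⟩ := intRep_coprime (ℓ := ℓ) hℓq y.1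
    have h3 : (q : ℤ) ∣ gm (Gamma0 N) G 0 1 := by
      have e := congrFun (congrFun h2 0) 1
      simp only [Matrix.mul_apply, Fin.sum_univ_two, dlt, Matrix.of_apply, Matrix.cons_val_zero,
        Matrix.cons_val_one, Matrix.cons_val', Matrix.cons_val_fin_one, mul_one, mul_zero,
        add_zero, zero_add] at e
      apply k1.dvd_of_dvd_mul_left
      have e2 : intRep ℓ y.1 0 0 * gm (Gamma0 N) G 0 1 = (q : ℤ) *
          ((gm (Gamma0 (N * q)) c 0 0 * intRep ℓ y'.1 0 1 +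
          gm (Gamma0 (N * q)) c 0 1 * intRep ℓ y'.1 1 1) - intRep ℓ y.1 0 1 *
          gm (Gamma0 N) G 1 1) := by linarith
      rw [e2]
      exact dvd_mul_right _ _
    obtain ⟨C, hC⟩ := exists_dlt_mul G h3
    have h5 : (corrB hc).mat x = gm (Gamma0 (N * q)) C * (corrB hc).mat x' := by
      rw [corrB_mat, corrB_mat, ← Matrix.mul_assoc, ← hC, Matrix.mul_assoc, ← gm_mul, hG,
        inv_mul_cancel_right]
    have h6 : x = x' := corrB_inj hc _ _ _ h5
    subst h6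
    have h1b : intRep ℓ y.1 * (dlt q * gm (Gamma0 N) (sB hc x.1)) =
        gm (Gamma0 (N * q)) c * intRep ℓ y'.1 * (dlt q * gm (Gamma0 N) (sB hc x.1)) := by
      rw [h1]; simp only [Matrix.mul_assoc]
    have h7 := mat_cancel_right (by
      rw [Matrix.det_mul, gm_det, mul_one]; exact hδ) h1b
    rw [heckeCorr_inj (N * q) ℓ y y' c h7]
  · rintro ⟨x, y⟩ ⟨x', y'⟩ c hxy
    have h1 : dlt q * gm (Gamma0 N) (sB hc x.1) * intRep ℓ y.1 =
      gm (Gamma0 (N * q)) c * (dlt q * gm (Gamma0 N) (sB hc x'.1) * intRep ℓ y'.1) := hxy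
    have h1' : dlt q * (gm (Gamma0 N) (sB hc x.1) * intRep ℓ y.1) =
        dlt q * (gm (Gamma0 N) (degB N hq.out.ne_zero c) *
          (gm (Gamma0 N) (sB hc x'.1) * intRep ℓ y'.1)) := by
      rw [← Matrix.mul_assoc, h1]
      simp only [← Matrix.mul_assoc]
      rw [mul_dlt]
    have h1'' := mat_cancel_left hδ h1'
    have h2 : y = y' := by
      refine heckeCorr_inj N ℓ y y' ((sB hc x.1)⁻¹ * degB N hq.out.ne_zero c * sB hc x'.1) ?_
      show intRep ℓ y.1 = _ * intRep ℓ y'.1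
      rw [gm_mul, gm_mul, Matrix.mul_assoc, Matrix.mul_assoc, ← h1'', ← Matrix.mul_assoc,
        gm_inv_mul, Matrix.one_mul]
    subst h2
    rw [← Matrix.mul_assoc] at h1
    have h3 := mat_cancel_right (by
      rw [det_intRep]; exact_mod_cast hℓ.out.ne_zero) h1
    rw [corrB_inj hc _ _ _ h3]
  · rw [Fintype.card_prod, Fintype.card_prod, Fintype.card_congr (hE h h'), mul_comm]
  · rintro ⟨y, x⟩
    have e1 := intRep_mul_dlt (N := N) hℓq y.1
    set y1 : HIdx N ℓ := ⟨qE hℓq y.1, fun hh => absurd hh h⟩ with hy1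
    have h1 : intRep ℓ (qE hℓq y.1) * gm (Gamma0 N) (sB hc x.1) =
      gm (Gamma0 N) ((heckeCorr N ℓ).coc (sB hc x.1) y1) *
        intRep ℓ ((heckeCorr N ℓ).act (sB hc x.1) y1).1 := (heckeCorr N ℓ).spec (sB hc x.1) y1
    obtain ⟨x', C, hC⟩ := exists_decompB hc (qu N q y.1 * (heckeCorr N ℓ).coc (sB hc x.1) y1)
    refine ⟨(x', (heckeCorr N ℓ).act (sB hc x.1) y1), C, ?_⟩
    rw [one_smul, one_smul]
    show intRep ℓ y.1 * (dlt q * gm (Gamma0 N) (sB hc x.1)) = gm (Gamma0 (N * q)) C *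
      (dlt q * gm (Gamma0 N) (sB hc x'.1) * intRep ℓ ((heckeCorr N ℓ).act (sB hc x.1) y1).1)
    rw [← Matrix.mul_assoc, e1, ← Matrix.mul_assoc (gm (Gamma0 (N * q)) C), ← hC, gm_mul]
    simp only [Matrix.mul_assoc]
    rw [h1]

end Ell

section Uq

omit hℓ

/-- the matrix `w_q = [q x, y; q N, q] = G0 β = δ G1`. -/
def wm (N q : ℕ) : M2 := γ0m N q * betaZ q

omit hq in
theorem wm_eq (hc : Nat.Coprime q N) : wm N q = dlt q * gm (Gamma0 N) (G1 hc) := by
  have := relB hc (none : Option (ZMod q))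
  exact this.symm

theorem memW (hc : Nat.Coprime q N) (c : Gamma0 (N * q)) :
    ((N * q : ℕ) : ℤ) ∣ gm (Gamma0 N) (G0 hc * degB N hq.out.ne_zero c * (G0 hc)⁻¹) 1 0 := by
  apply memB (E := G1 hc * degA N q c * (G1 hc)⁻¹)
  have h1 : dlt q * gm (Gamma0 N) (G1 hc) = γ0m N q * betaZ q := (wm_eq hc).symm
  have h2 : betaZ q * gm (Gamma0 (N * q)) c =
      gm (Gamma0 N) (degB N hq.out.ne_zero c) * betaZ q := betaZ_mul_degB N hq.out.ne_zero c
  have h3 : γ0m N q = gm (Gamma0 N) (G0 hc) := rfl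
  have h4 : betaZ q = gm (Gamma0 N) (G0 hc)⁻¹ * (dlt q * gm (Gamma0 N) (G1 hc)) := by
    rw [h1, h3, ← Matrix.mul_assoc, gm_inv_mul, Matrix.one_mul]
  rw [gm_mul, gm_mul, ← Matrix.mul_assoc, ← Matrix.mul_assoc, h1, gm_degA,
    Matrix.mul_assoc (γ0m N q), h2, h3, h4, gm_mul, gm_mul]
  simp only [Matrix.mul_assoc, gm_mul_inv, Matrix.mul_one]

/-- The Atkin–Lehner correspondence. -/
def corrW (hc : Nat.Coprime q N) : Corr (Gamma0 (N * q)) (Gamma0 (N * q)) Unit where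
  mat _ := wm N q
  n := q
  pos := pos_q
  det _ := by
    rw [wm_eq hc, Matrix.det_mul, gm_det, det_dlt, mul_one]
  act _ x := x
  coc c _ := g0 (N * q) (gm (Gamma0 N) (G0 hc * degB N hq.out.ne_zero c * (G0 hc)⁻¹)) (gm_det _)
    (memW hc c)
  spec c _ := by
    have h2 : betaZ q * gm (Gamma0 (N * q)) c =
      gm (Gamma0 N) (degB N hq.out.ne_zero c) * betaZ q := betaZ_mul_degB N hq.out.ne_zero c
    have h3 : γ0m N q = gm (Gamma0 N) (G0 hc) := rfl
    rw [gm_g0, wm, Matrix.mul_assoc, h2, h3, gm_mul, gm_mul]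
    simp only [Matrix.mul_assoc]
    rw [← Matrix.mul_assoc (gm (Gamma0 N) (G0 hc)⁻¹), gm_inv_mul, Matrix.one_mul]
  act_one _ := rfl
  act_mul _ _ _ := rfl
  coc_mul g h _ := by
    apply gm_injective
    have e : G0 hc * degB N hq.out.ne_zero (g * h) * (G0 hc)⁻¹ =
        (G0 hc * degB N hq.out.ne_zero g * (G0 hc)⁻¹) *
          (G0 hc * degB N hq.out.ne_zero h * (G0 hc)⁻¹) := by
      rw [map_mul]; group
    rw [gm_mul (Γ := Gamma0 (N * q))]
    exact (congrArg (gm (Gamma0 N)) e).trans (gm_mul _ _)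

/-- The Atkin–Lehner operator. -/
def opW (hc : Nat.Coprime q N) (A : Type*) [AddCommGroup A] :
    (Additive (Gamma0 (N * q)) →+ A) →+ (Additive (Gamma0 (N * q)) →+ A) := (corrW hc).pull

theorem corrW_inj (hc : Nat.Coprime q N) : (corrW hc).Inj := fun _ _ _ _ => rfl

/-- the identity correspondence -/
def corrOne (Γ : Subgroup SL(2, ℤ)) : Corr Γ Γ Unit where
  mat _ := 1
  n := 1
  pos := one_pos
  det _ := Matrix.det_one
  act _ x := x
  coc g _ := g
  spec g _ := by rw [Matrix.one_mul, Matrix.mul_one]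
  act_one _ := rfl
  act_mul _ _ _ := rfl
  coc_mul _ _ _ := rfl

omit hq in
theorem corrOne_pull {Γ : Subgroup SL(2, ℤ)} (φ : Additive Γ →+ A) : (corrOne Γ).pull φ = φ := by
  refine AddMonoidHom.ext fun g => ?_
  obtain ⟨g, rfl⟩ := Additive.ofMul.surjective g
  rw [Corr.pull_apply]
  simp [corrOne]

omit hq in
theorem dvd_G0G1 (hc : Nat.Coprime q N) :
    ((N * q : ℕ) : ℤ) ∣ gm (Gamma0 N) (G0 hc * G1 hc) 1 0 := by
  rw [gm_mul, gm_G0, gm_G1, γ0m, γ1m, Matrix.mul_fin_two]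
  simp only [Matrix.of_apply, Matrix.cons_val_zero,
    Matrix.cons_val_one, Matrix.cons_val']
  push_cast
  exact ⟨Nat.gcdA q N + 1, by ring⟩

/-- `W² = 1`. -/
theorem opW_opW (hc : Nat.Coprime q N) (φ : Additive (Gamma0 (N * q)) →+ A) :
    opW hc A (opW hc A φ) = φ := by
  rw [opW, ← Corr.comp_pull]
  conv_rhs => rw [← corrOne_pull φ]
  refine Corr.pull_eq _ _ (fun _ _ _ _ => rfl) (Equiv.uniqueProd Unit Unit)
    (fun _ => g0 (N * q) (gm (Gamma0 N) (G0 hc * G1 hc)) (gm_det _) (dvd_G0G1 hc)) (l := 1)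
    (m := q) (pos_q (q := q)).ne' ?_ φ
  rintro ⟨⟨⟩, ⟨⟩⟩
  rw [one_smul]
  show wm N q * wm N q = (q : ℤ) • (gm (Gamma0 (N * q)) _ * 1)
  rw [gm_g0, Matrix.mul_one]
  nth_rewrite 2 [wm_eq hc]
  rw [wm, Matrix.mul_assoc, ← Matrix.mul_assoc (betaZ q), beta_mul_dlt, Matrix.smul_mul,
    Matrix.one_mul, Matrix.mul_smul, gm_mul]
  rfl

/-- `trB ∘ W = trA`. -/
theorem trB_opW (hc : Nat.Coprime q N) (φ : Additive (Gamma0 (N * q)) →+ A) :
    trB hc A (opW hc A φ) = trA hc A φ := by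
  rw [trB, opW, trA, ← Corr.comp_pull]
  refine Corr.pull_eq _ _ (corrA_inj hc) (Equiv.uniqueProd (HIdx N q) Unit)
    (fun p => match p.2.1 with
      | none => g0 (N * q) (gm (Gamma0 N) (G0 hc * G1 hc)) (gm_det _) (dvd_G0G1 hc)
      | some _ => 1) (l := 1) (m := q) (pos_q (q := q)).ne' ?_ φ
  rintro ⟨⟨⟩, ⟨x, hx⟩⟩
  rw [one_smul]
  show wm N q * (dlt q * gm (Gamma0 N) (sB hc x)) = _
  rw [wm, Matrix.mul_assoc, ← Matrix.mul_assoc (betaZ q), beta_mul_dlt, Matrix.smul_mul,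
    Matrix.one_mul, Matrix.mul_smul]
  congr 1
  cases x with
  | none =>
    show gm (Gamma0 N) (G0 hc) * gm (Gamma0 N) (G1 hc) = gm (Gamma0 N) (G0 hc * G1 hc) *
      gm (Gamma0 N) 1
    rw [gm_mul, gm_one, Matrix.mul_one]
  | some j =>
    show gm (Gamma0 N) (G0 hc) * gm (Gamma0 N) (Tp N j.val) = gm (Gamma0 (N * q)) 1 *
      gm (Gamma0 N) (G0 hc * Tp N j.val)
    rw [gm_mul, gm_one, Matrix.one_mul]

theorem trA_opW (hc : Nat.Coprime q N) (φ : Additive (Gamma0 (N * q)) →+ A) :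
    trA hc A (opW hc A φ) = trB hc A φ := by
  rw [← trB_opW, opW_opW]

theorem sum_HIdx_eq (hc : Nat.Coprime q N) (F : Option (ZMod q) → A) :
    ∑ x : HIdx N q, F x.1 = F none + ∑ x : HIdx (N * q) q, F x.1 := by
  have : NeZero q := ⟨hq.out.ne_zero⟩
  have e1 : ∑ x : HIdx N q, F x.1 = ∑ x : Option (ZMod q), F x :=
    Equiv.sum_comp (hidxEquivOfNotDvd (not_dvd_of_coprime hc)) F
  have e2 : ∑ x : HIdx (N * q) q, F x.1 = ∑ j : ZMod q, F (some j) := by
    rw [← Equiv.sum_comp (hidxEquivOfDvd (Dvd.intro_left N rfl) : HIdx (N * q) q ≃ ZMod q)]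
    refine Finset.sum_congr rfl fun x _ => ?_
    congr 1
    exact (Option.some_get _).symm
  rw [e1, e2, Fintype.sum_option]

/-- **Key relation** `resA (trB φ) = U_q φ + W φ`. -/
theorem resA_trB (hc : Nat.Coprime q N) (φ : Additive (Gamma0 (N * q)) →+ A) :
    resA N q A (trB hc A φ) = (heckeSys (N * q) q).addTransfer φ + opW hc A φ := by
  refine AddMonoidHom.ext fun g => ?_
  obtain ⟨g, rfl⟩ := Additive.ofMul.surjective g
  have hqN := not_dvd_of_coprime hc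
  have hqNq : q ∣ N * q := Dvd.intro_left N rfl
  rw [resA_apply, trB, Corr.pull_apply, AddMonoidHom.add_apply, ← heckeCorr_pull,
    Corr.pull_apply, opW, Corr.pull_apply]
  -- the values
  have hnone : ∀ hx, (corrB hc).coc (degA N q g) (⟨none, hx⟩ : HIdx N q) =
      (corrW hc).coc g () := by
    intro hx
    refine ((corrB hc).ext_coc (corrB_inj hc) (y := ⟨none, hx⟩) ?_).2
    rw [corrB_mat, gm_degA]
    have h1 := (corrW hc).spec g ()
    have h2 : (corrW hc).mat () = dlt q * gm (Gamma0 N) (G1 hc) := wm_eq hc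
    rw [h2] at h1
    exact h1
  have hsome : ∀ (x : HIdx (N * q) q) hx, (corrB hc).coc (degA N q g) (⟨x.1, hx⟩ : HIdx N q) =
      (heckeCorr (N * q) q).coc g x := by
    intro x hx
    refine ((corrB hc).ext_coc (corrB_inj hc)
      (y := ⟨((heckeCorr (N * q) q).act g x).1, fun h => absurd h hqN⟩) ?_).2
    have hval : ∀ y : HIdx (N * q) q, ∀ hy, (corrB hc).mat ⟨y.1, hy⟩ = intRep q y.1 := by
      intro y hy
      obtain ⟨y, hy'⟩ := y
      cases y with
      | none => exact absurd rfl (hy' hqNq)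
      | some j =>
        rw [corrB_mat, relB]
        show gm (Gamma0 N) 1 * _ = _
        rw [gm_one, Matrix.one_mul]
    rw [hval, hval, gm_degA]
    exact (heckeCorr (N * q) q).spec g x
  have hF : ∑ x : HIdx N q, φ (Additive.ofMul ((corrB hc).coc (degA N q g) x)) =
      ∑ x : HIdx N q, (fun y : Option (ZMod q) => φ (Additive.ofMul ((corrB hc).coc (degA N q g)
        (⟨y, fun h => absurd h hqN⟩ : HIdx N q)))) x.1 := rfl
  rw [hF]
  refine (sum_HIdx_eq (A := A) hc (fun y : Option (ZMod q) => φ (Additive.ofMul ((corrB hc).coc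
    (degA N q g) (⟨y, fun h => absurd h hqN⟩ : HIdx N q))))).trans ?_
  simp only [hnone, hsome, Finset.univ_unique, Finset.sum_singleton]
  rw [add_comm]

/-- **`U_q² = 1`** on the kernel of the traces. -/
theorem heckeU_heckeU (hc : Nat.Coprime q N) (φ : Additive (Gamma0 (N * q)) →+ A)
    (hA : trA hc A φ = 0) (hB : trB hc A φ = 0) :
    (heckeSys (N * q) q).addTransfer ((heckeSys (N * q) q).addTransfer φ) = φ := by
  have h1 := resA_trB hc φ
  have h2 := resA_trB hc (opW hc A φ)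
  rw [hB, map_zero] at h1
  rw [trB_opW, hA, map_zero, opW_opW] at h2
  have h3 : (heckeSys (N * q) q).addTransfer φ = - opW hc A φ := eq_neg_of_add_eq_zero_left h1.symm
  rw [h3, map_neg]
  exact neg_eq_of_add_eq_zero_right h2.symm

/-- the kernel of the traces is stable under `U_q`. -/
theorem heckeU_eq_neg_opW (hc : Nat.Coprime q N) (φ : Additive (Gamma0 (N * q)) →+ A)
    (hB : trB hc A φ = 0) : (heckeSys (N * q) q).addTransfer φ = - opW hc A φ := by
  have h1 := resA_trB hc φ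
  rw [hB, map_zero] at h1
  exact eq_neg_of_add_eq_zero_left h1.symm

theorem trA_heckeU (hc : Nat.Coprime q N) (φ : Additive (Gamma0 (N * q)) →+ A)
    (hB : trB hc A φ = 0) : trA hc A ((heckeSys (N * q) q).addTransfer φ) = 0 := by
  rw [heckeU_eq_neg_opW hc φ hB, map_neg, trA_opW, hB, neg_zero]

theorem trB_heckeU (hc : Nat.Coprime q N) (φ : Additive (Gamma0 (N * q)) →+ A)
    (hA : trA hc A φ = 0) (hB : trB hc A φ = 0) :
    trB hc A ((heckeSys (N * q) q).addTransfer φ) = 0 := by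
  rw [heckeU_eq_neg_opW hc φ hB, map_neg, trB_opW, hA, neg_zero]

end Uq

end Fermat.Agent.S41dual
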