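import Fermat.Agent.S41.DualPsi
import Fermat.Agent.S41.Ihara
import Fermat.Agent.HeckePar.Commute

/-!
# Hecke operators, degeneracy and trace maps for `Γ₀(N)`, and the duality map
-/

set_option autoImplicit false

noncomputable section

namespace Fermat.Agent.S41dual

open Matrix CongruenceSubgroup Fermat.Agent.HeckePar
open Fermat.Agent.S41aux (degA degB betaZ coe_degA betaZ_mul_degB)
open scoped MatrixGroups BigOperators

variable {N : ℕ}

/-- element of `Γ₀(N)` from its matrix. -/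
def g0 (N : ℕ) (M : M2) (hdet : M.det = 1) (h : (N : ℤ) ∣ M 1 0) : Gamma0 N :=
  ⟨⟨M, hdet⟩, Gamma0_mem.mpr ((ZMod.intCast_zmod_eq_zero_iff_dvd _ _).mpr h)⟩

@[simp] theorem gm_g0 (M : M2) (hdet : M.det = 1) (h : (N : ℤ) ∣ M 1 0) :
    gm (Gamma0 N) (g0 N M hdet h) = M := rfl

theorem gm_dvd (g : Gamma0 N) : (N : ℤ) ∣ gm (Gamma0 N) g 1 0 :=
  (ZMod.intCast_zmod_eq_zero_iff_dvd _ _).mp (Gamma0_mem.mp g.2)

theorem gm_ent (g : Gamma0 N) : gm (Gamma0 N) g 0 0 * gm (Gamma0 N) g 1 1 -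
    gm (Gamma0 N) g 0 1 * gm (Gamma0 N) g 1 0 = 1 := by
  have := gm_det (Γ := Gamma0 N) g
  rwa [Matrix.det_fin_two] at this

section Hecke

variable (N) (ℓ : ℕ) [hℓ : Fact ℓ.Prime]

/-- The Hecke correspondence at `ℓ`. -/
def heckeCorr : Corr (Gamma0 N) (Gamma0 N) (HIdx N ℓ) :=
  Corr.mk' (fun x => intRep ℓ x.1) ℓ (by exact_mod_cast hℓ.out.pos) (fun x => det_intRep ℓ x.1)
    (heckeSys N ℓ).act (heckeSys N ℓ).coc (heckeSys_spec N ℓ) (fun x y c h =>
      Subtype.ext (intRep_unique hℓ.out 1 (fun h2 => by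
        have h3 : ℓ ∣ 1 := by exact_mod_cast h2
        exact hℓ.out.one_lt.ne' (Nat.dvd_one.mp h3)) (gm (Gamma0 N) c) _ _ (by
          rw [one_smul]; exact h)))

@[simp] theorem heckeCorr_mat (x : HIdx N ℓ) : (heckeCorr N ℓ).mat x = intRep ℓ x.1 := rfl

theorem heckeCorr_inj : (heckeCorr N ℓ).Inj := fun x y c h =>
      Subtype.ext (intRep_unique hℓ.out 1 (fun h2 => by
        have h3 : ℓ ∣ 1 := by exact_mod_cast h2
        exact hℓ.out.one_lt.ne' (Nat.dvd_one.mp h3)) (gm (Gamma0 N) c) _ _ (by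
          rw [one_smul]; exact h))

theorem heckeCorr_pull {A : Type*} [AddCommGroup A] (φ : Additive (Gamma0 N) →+ A) :
    (heckeCorr N ℓ).pull φ = (heckeSys N ℓ).addTransfer φ := rfl

variable {N ℓ}

/-- **(D2)** Hecke operators on `Ψ`. -/
theorem addTransfer_Psi (hℓN : ¬ ℓ ∣ N) (a b : V2) :
    (heckeSys N ℓ).addTransfer (Psi (Gamma0 N) a b) =
      ∑ x : HIdx N ℓ, Psi (Gamma0 N) (intRep ℓ x.1 *ᵥ a) (intRep ℓ x.1 *ᵥ b) := by
  rw [← heckeCorr_pull]
  refine Corr.pull_Psi_self (heckeCorr N ℓ) (heckeCorr_inj N ℓ) ?_ a b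
  intro x d
  have hadj10 : (intRep ℓ x.1).adjugate 1 0 = 0 := by
    obtain ⟨x, hx⟩ := x
    cases x <;> simp [Matrix.adjugate_fin_two]
  obtain ⟨y, M', hM, hdet, hN, -⟩ := exists_factor (N := N) hℓ.out
    ((intRep ℓ x.1).adjugate * gm (Gamma0 N) d) 1 (by
      rw [← Matrix.det_fin_two, Matrix.det_mul, Matrix.det_adjugate, det_intRep, gm_det]
      simp) (by
      rw [Matrix.mul_apply, Fin.sum_univ_two, hadj10, zero_mul, zero_add]
      exact dvd_mul_of_dvd_right (gm_dvd d) _) (fun h => absurd h hℓN)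
  refine ⟨y, g0 N M' (by rw [Matrix.det_fin_two]; exact hdet) hN, ?_⟩
  exact hM

end Hecke

section Trace

variable {q : ℕ}

/-- the matrix `[x y; N q]` of determinant one. -/
def γ0m (N q : ℕ) : M2 := !![Nat.gcdA q N, - Nat.gcdB q N; (N : ℤ), (q : ℤ)]

/-- the matrix `[q x, y; N, 1]` of determinant one. -/
def γ1m (N q : ℕ) : M2 := !![q * Nat.gcdA q N, - Nat.gcdB q N; (N : ℤ), 1]

theorem bez (hc : Nat.Coprime q N) : (q : ℤ) * Nat.gcdA q N + N * Nat.gcdB q N = 1 := by
  have := Nat.gcd_eq_gcd_ab q N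
  rw [hc] at this
  exact_mod_cast this.symm

/-- `[x y; N q]` -/
def G0 (hc : Nat.Coprime q N) : Gamma0 N := g0 N (γ0m N q) (by
  rw [γ0m, Matrix.det_fin_two_of]; linarith [bez hc]) (by simp [γ0m])

/-- `[q x, y; N, 1]` -/
def G1 (hc : Nat.Coprime q N) : Gamma0 N := g0 N (γ1m N q) (by
  rw [γ1m, Matrix.det_fin_two_of]; linarith [bez hc]) (by simp [γ1m])

/-- `[1 m; 0 1]` -/
def Tp (N : ℕ) (m : ℤ) : Gamma0 N := g0 N !![1, m; 0, 1] (by rw [Matrix.det_fin_two_of]; ring)
  (by simp)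

@[simp] theorem gm_G0 (hc : Nat.Coprime q N) : gm (Gamma0 N) (G0 hc) = γ0m N q := rfl
@[simp] theorem gm_G1 (hc : Nat.Coprime q N) : gm (Gamma0 N) (G1 hc) = γ1m N q := rfl
@[simp] theorem gm_Tp (m : ℤ) : gm (Gamma0 N) (Tp N m) = !![1, m; 0, 1] := rfl

/-- `diag(1, q)` -/
def dlt (q : ℕ) : M2 := !![1, 0; 0, (q : ℤ)]

theorem beta_mul_dlt (q : ℕ) : betaZ q * dlt q = (q : ℤ) • (1 : M2) := by
  rw [betaZ, dlt, Matrix.mul_fin_two]
  ext i j; fin_cases i <;> fin_cases j <;> simp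

theorem dlt_mul_beta (q : ℕ) : dlt q * betaZ q = (q : ℤ) • (1 : M2) := by
  rw [betaZ, dlt, Matrix.mul_fin_two]
  ext i j; fin_cases i <;> fin_cases j <;> simp

theorem det_dlt (q : ℕ) : (dlt q).det = q := by rw [dlt, Matrix.det_fin_two_of]; ring

theorem det_beta (q : ℕ) : (betaZ q).det = q := by rw [betaZ, Matrix.det_fin_two_of]; ring

/-- representatives for `Γ₀(Nq) \ Γ₀(N)` -/
def rA (hc : Nat.Coprime q N) (x : Option (ZMod q)) : Gamma0 N :=
  match x with
  | none => 1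
  | some j => G0 hc * Tp N j.val

/-- representatives for `(β Γ₀(Nq) β⁻¹) \ Γ₀(N)` -/
def sB (hc : Nat.Coprime q N) (x : Option (ZMod q)) : Gamma0 N :=
  match x with
  | none => G1 hc
  | some j => Tp N j.val

/-- see `relA` -/
def κA (hc : Nat.Coprime q N) (x : Option (ZMod q)) : Gamma0 N :=
  match x with
  | none => 1
  | some _ => G1 hc

/-- see `relB` -/
def κB (hc : Nat.Coprime q N) (x : Option (ZMod q)) : Gamma0 N :=
  match x with
  | none => G0 hc
  | some _ => 1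

theorem relA (hc : Nat.Coprime q N) (x : Option (ZMod q)) :
    betaZ q * gm (Gamma0 N) (rA hc x) = gm (Gamma0 N) (κA hc x) * intRep q x := by
  cases x with
  | none => simp [rA, κA, betaZ]
  | some j =>
    simp only [rA, κA, gm_mul, gm_G0, gm_Tp, gm_G1, γ0m, γ1m, betaZ, intRep_some,
      Matrix.mul_fin_two]
    ext i k; fin_cases i <;> fin_cases k <;> simp <;> ring

theorem relB (hc : Nat.Coprime q N) (x : Option (ZMod q)) :
    dlt q * gm (Gamma0 N) (sB hc x) = gm (Gamma0 N) (κB hc x) * intRep q x := by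
  cases x with
  | none =>
    simp only [sB, κB, gm_G0, gm_G1, γ0m, γ1m, dlt, intRep_none, Matrix.mul_fin_two]
    ext i k; fin_cases i <;> fin_cases k <;> simp <;> ring
  | some j =>
    simp only [sB, κB, gm_Tp, gm_one, dlt, intRep_some, Matrix.mul_fin_two, Matrix.one_mul]
    ext i k; fin_cases i <;> fin_cases k <;> simp

theorem memA {c C : Gamma0 N} (h : betaZ q * gm (Gamma0 N) c = gm (Gamma0 N) C * betaZ q) :
    ((N * q : ℕ) : ℤ) ∣ gm (Gamma0 N) c 1 0 := by
  have h10 := congrFun (congrFun h 1) 0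
  simp only [betaZ, Matrix.mul_apply, Fin.sum_univ_two, Matrix.of_apply, Matrix.cons_val_zero,
    Matrix.cons_val_one, Matrix.cons_val', Matrix.cons_val_fin_one, zero_mul, one_mul, zero_add,
    mul_zero, add_zero] at h10
  rw [h10]
  push_cast
  exact mul_dvd_mul (gm_dvd C) dvd_rfl

theorem memB {E C : Gamma0 N} (h : dlt q * gm (Gamma0 N) E = gm (Gamma0 N) C * dlt q) :
    ((N * q : ℕ) : ℤ) ∣ gm (Gamma0 N) C 1 0 := by
  have h10 := congrFun (congrFun h 1) 0
  simp only [dlt, Matrix.mul_apply, Fin.sum_univ_two, Matrix.of_apply, Matrix.cons_val_zero,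
    Matrix.cons_val_one, Matrix.cons_val', Matrix.cons_val_fin_one, zero_mul, zero_add,
    mul_zero, add_zero, mul_one] at h10
  rw [← h10]
  push_cast
  rw [mul_comm (N : ℤ)]
  exact mul_dvd_mul dvd_rfl (gm_dvd E)

theorem gm_degA (c : Gamma0 (N * q)) :
    gm (Gamma0 N) (degA N q c) = gm (Gamma0 (N * q)) c := rfl

variable [hq : Fact q.Prime] (hc : Nat.Coprime q N)

theorem pos_q : (0 : ℤ) < q := by exact_mod_cast hq.out.pos

theorem keyA (g : Gamma0 N) (x : HIdx N q) :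
    betaZ q * gm (Gamma0 N) (rA hc x.1 * g * (rA hc ((heckeSys N q).act g x).1)⁻¹) =
      gm (Gamma0 N) (κA hc x.1 * (heckeSys N q).coc g x *
        (κA hc ((heckeSys N q).act g x).1)⁻¹) * betaZ q := by
  have h1 := heckeSys_spec N q g x
  have h1' : intRep q x.1 * gm (Gamma0 N) g =
    gm (Gamma0 N) ((heckeSys N q).coc g x) * intRep q ((heckeSys N q).act g x).1 := h1
  have h2 := relA hc x.1
  have h3 := relA hc ((heckeSys N q).act g x).1
  set y := (heckeSys N q).act g x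
  set c := (heckeSys N q).coc g x
  have h4 : intRep q y.1 = gm (Gamma0 N) (κA hc y.1)⁻¹ * (betaZ q * gm (Gamma0 N) (rA hc y.1)) := by
    rw [h3, ← Matrix.mul_assoc, gm_inv_mul, Matrix.one_mul]
  rw [gm_mul, gm_mul, ← Matrix.mul_assoc, ← Matrix.mul_assoc, h2, Matrix.mul_assoc (gm _ _)
    (intRep q x.1), h1', h4, gm_mul, gm_mul]
  simp only [Matrix.mul_assoc, gm_mul_inv, Matrix.mul_one]

theorem keyB (g : Gamma0 N) (x : HIdx N q) :
    dlt q * gm (Gamma0 N) (sB hc x.1) * gm (Gamma0 N) g =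
      gm (Gamma0 N) (κB hc x.1 * (heckeSys N q).coc g x *
        (κB hc ((heckeSys N q).act g x).1)⁻¹) *
      (dlt q * gm (Gamma0 N) (sB hc ((heckeSys N q).act g x).1)) := by
  have h1 := heckeSys_spec N q g x
  have h1' : intRep q x.1 * gm (Gamma0 N) g =
    gm (Gamma0 N) ((heckeSys N q).coc g x) * intRep q ((heckeSys N q).act g x).1 := h1
  have h2 := relB hc x.1
  have h3 := relB hc ((heckeSys N q).act g x).1
  set y := (heckeSys N q).act g x
  set c := (heckeSys N q).coc g x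
  rw [h2, Matrix.mul_assoc, h1', h3, gm_mul, gm_mul]
  simp only [Matrix.mul_assoc]
  rw [← Matrix.mul_assoc (gm (Gamma0 N) (κB hc y.1)⁻¹), gm_inv_mul, Matrix.one_mul]

theorem keyB' (g : Gamma0 N) (x : HIdx N q) :
    dlt q * gm (Gamma0 N) (sB hc x.1 * g * (sB hc ((heckeSys N q).act g x).1)⁻¹) =
      gm (Gamma0 N) (κB hc x.1 * (heckeSys N q).coc g x *
        (κB hc ((heckeSys N q).act g x).1)⁻¹) * dlt q := by
  have h := keyB hc g x
  rw [gm_mul, gm_mul, ← Matrix.mul_assoc, ← Matrix.mul_assoc, h]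
  simp only [Matrix.mul_assoc, gm_mul_inv, Matrix.mul_one]

/-- The trace correspondence `Hom(Γ₀(Nq), A) → Hom(Γ₀(N), A)`. -/
def corrA : Corr (Gamma0 (N * q)) (Gamma0 N) (HIdx N q) :=
  Corr.mk' (fun x => gm (Gamma0 N) (rA hc x.1)) 1 one_pos (fun x => gm_det _)
    (heckeSys N q).act
    (fun g x => g0 (N * q) (gm (Gamma0 N)
      (rA hc x.1 * g * (rA hc ((heckeSys N q).act g x).1)⁻¹)) (gm_det _) (memA (keyA hc g x)))
    (fun g x => by
      rw [gm_g0, ← gm_mul, ← gm_mul, inv_mul_cancel_right])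
    (fun x y c h => by
      refine heckeCorr_inj N q x y ((κA hc x.1)⁻¹ * degB N hq.out.ne_zero c * κA hc y.1) ?_
      have h' : gm (Gamma0 N) (rA hc x.1) = gm (Gamma0 (N * q)) c * gm (Gamma0 N) (rA hc y.1) := h
      have h1 : gm (Gamma0 N) (κA hc x.1) * intRep q x.1 =
          gm (Gamma0 N) (degB N hq.out.ne_zero c) *
            (gm (Gamma0 N) (κA hc y.1) * intRep q y.1) := by
        rw [← relA, ← relA, h', ← Matrix.mul_assoc, ← Matrix.mul_assoc]
        exact congrArg (fun z => z * gm (Gamma0 N) (rA hc y.1)) (betaZ_mul_degB N hq.out.ne_zero c)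
      show intRep q x.1 = _ * intRep q y.1
      rw [gm_mul, gm_mul, Matrix.mul_assoc, Matrix.mul_assoc, ← h1, ← Matrix.mul_assoc,
        gm_inv_mul, Matrix.one_mul])

/-- The second trace correspondence `Hom(Γ₀(Nq), A) → Hom(Γ₀(N), A)`. -/
def corrB : Corr (Gamma0 (N * q)) (Gamma0 N) (HIdx N q) :=
  Corr.mk' (fun x => dlt q * gm (Gamma0 N) (sB hc x.1)) q pos_q (fun x => by
    rw [Matrix.det_mul, gm_det, det_dlt, mul_one])
    (heckeSys N q).act
    (fun g x => g0 (N * q) (gm (Gamma0 N)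
      (κB hc x.1 * (heckeSys N q).coc g x * (κB hc ((heckeSys N q).act g x).1)⁻¹)) (gm_det _)
        (memB (keyB' hc g x)))
    (fun g x => keyB hc g x)
    (fun x y c h => by
      refine heckeCorr_inj N q x y ((κB hc x.1)⁻¹ * degA N q c * κB hc y.1) ?_
      have h' : dlt q * gm (Gamma0 N) (sB hc x.1) =
        gm (Gamma0 (N * q)) c * (dlt q * gm (Gamma0 N) (sB hc y.1)) := h
      rw [relB, relB] at h'
      show intRep q x.1 = _ * intRep q y.1
      rw [gm_mul, gm_mul, Matrix.mul_assoc, Matrix.mul_assoc, gm_degA, ← h', ← Matrix.mul_assoc,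
        gm_inv_mul, Matrix.one_mul])

theorem corrA_mat (x : HIdx N q) : (corrA hc).mat x = gm (Gamma0 N) (rA hc x.1) := rfl

theorem corrB_mat (x : HIdx N q) : (corrB hc).mat x = dlt q * gm (Gamma0 N) (sB hc x.1) := rfl

theorem corrA_inj : (corrA hc).Inj := fun x y c h => by
  refine heckeCorr_inj N q x y ((κA hc x.1)⁻¹ * degB N hq.out.ne_zero c * κA hc y.1) ?_
  have h' : gm (Gamma0 N) (rA hc x.1) = gm (Gamma0 (N * q)) c * gm (Gamma0 N) (rA hc y.1) := h
  have h1 : gm (Gamma0 N) (κA hc x.1) * intRep q x.1 =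
      gm (Gamma0 N) (degB N hq.out.ne_zero c) *
        (gm (Gamma0 N) (κA hc y.1) * intRep q y.1) := by
    rw [← relA, ← relA, h', ← Matrix.mul_assoc, ← Matrix.mul_assoc]
    exact congrArg (fun z => z * gm (Gamma0 N) (rA hc y.1)) (betaZ_mul_degB N hq.out.ne_zero c)
  show intRep q x.1 = _ * intRep q y.1
  rw [gm_mul, gm_mul, Matrix.mul_assoc, Matrix.mul_assoc, ← h1, ← Matrix.mul_assoc,
    gm_inv_mul, Matrix.one_mul]

theorem corrB_inj : (corrB hc).Inj := fun x y c h => by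
  refine heckeCorr_inj N q x y ((κB hc x.1)⁻¹ * degA N q c * κB hc y.1) ?_
  have h' : dlt q * gm (Gamma0 N) (sB hc x.1) =
    gm (Gamma0 (N * q)) c * (dlt q * gm (Gamma0 N) (sB hc y.1)) := h
  rw [relB, relB] at h'
  show intRep q x.1 = _ * intRep q y.1
  rw [gm_mul, gm_mul, Matrix.mul_assoc, Matrix.mul_assoc, gm_degA, ← h', ← Matrix.mul_assoc,
    gm_inv_mul, Matrix.one_mul]

/-- restriction as a correspondence -/
def resCorrA (N q : ℕ) : Corr (Gamma0 N) (Gamma0 (N * q)) Unit where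
  mat _ := 1
  n := 1
  pos := one_pos
  det _ := Matrix.det_one
  act _ x := x
  coc g _ := degA N q g
  spec g _ := by rw [Matrix.one_mul, Matrix.mul_one]; rfl
  act_one _ := rfl
  act_mul _ _ _ := rfl
  coc_mul _ _ _ := map_mul _ _ _

/-- twisted restriction as a correspondence -/
def resCorrB (N q : ℕ) [hq : Fact q.Prime] : Corr (Gamma0 N) (Gamma0 (N * q)) Unit where
  mat _ := betaZ q
  n := q
  pos := pos_q
  det _ := det_beta q
  act _ x := x
  coc g _ := degB N hq.out.ne_zero g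
  spec g _ := betaZ_mul_degB N hq.out.ne_zero g
  act_one _ := rfl
  act_mul _ _ _ := rfl
  coc_mul _ _ _ := map_mul _ _ _

variable {A : Type*} [AddCommGroup A]

/-- restriction `Hom(Γ₀(N), A) → Hom(Γ₀(Nq), A)`. -/
def resA (N q : ℕ) (A : Type*) [AddCommGroup A] :
    (Additive (Gamma0 N) →+ A) →+ (Additive (Gamma0 (N * q)) →+ A) :=
  (resCorrA N q).pull

/-- twisted restriction `Hom(Γ₀(N), A) → Hom(Γ₀(Nq), A)`. -/
def resB (N q : ℕ) [Fact q.Prime] (A : Type*) [AddCommGroup A] :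
    (Additive (Gamma0 N) →+ A) →+ (Additive (Gamma0 (N * q)) →+ A) :=
  (resCorrB N q).pull

/-- first trace -/
def trA (A : Type*) [AddCommGroup A] :
    (Additive (Gamma0 (N * q)) →+ A) →+ (Additive (Gamma0 N) →+ A) := (corrA hc).pull

/-- second trace -/
def trB (A : Type*) [AddCommGroup A] :
    (Additive (Gamma0 (N * q)) →+ A) →+ (Additive (Gamma0 N) →+ A) := (corrB hc).pull

omit hq in
theorem resA_apply (φ : Additive (Gamma0 N) →+ A) (g : Gamma0 (N * q)) :
    resA N q A φ (Additive.ofMul g) = φ (Additive.ofMul (degA N q g)) := by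
  rw [resA, Corr.pull_apply]; simp [resCorrA]

theorem resB_apply (φ : Additive (Gamma0 N) →+ A) (g : Gamma0 (N * q)) :
    resB N q A φ (Additive.ofMul g) = φ (Additive.ofMul (degB N hq.out.ne_zero g)) := by
  rw [resB, Corr.pull_apply]; simp [resCorrB]

theorem trA_comp {B : Type*} [AddCommGroup B] (f : A →+ B) (φ : Additive (Gamma0 (N * q)) →+ A) :
    trA hc B (f.comp φ) = f.comp (trA hc A φ) := Corr.pull_comp _ f φ

theorem trB_comp {B : Type*} [AddCommGroup B] (f : A →+ B) (φ : Additive (Gamma0 (N * q)) →+ A) :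
    trB hc B (f.comp φ) = f.comp (trB hc A φ) := Corr.pull_comp _ f φ

omit hq in
theorem resA_comp {B : Type*} [AddCommGroup B] (f : A →+ B) (φ : Additive (Gamma0 N) →+ A) :
    resA N q B (f.comp φ) = f.comp (resA N q A φ) := Corr.pull_comp _ f φ

theorem resB_comp {B : Type*} [AddCommGroup B] (f : A →+ B) (φ : Additive (Gamma0 N) →+ A) :
    resB N q B (f.comp φ) = f.comp (resB N q A φ) := Corr.pull_comp _ f φ

include hc in
theorem not_dvd_of_coprime : ¬ q ∣ N := (Nat.Prime.coprime_iff_not_dvd hq.out).mp hc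

include hc in
theorem card_HIdx : Fintype.card (HIdx N q) = q + 1 := by
  have : NeZero q := ⟨hq.out.ne_zero⟩
  rw [Fintype.card_congr (hidxEquivOfNotDvd (not_dvd_of_coprime hc)), Fintype.card_option,
    ZMod.card]

/-- **(D3)** -/
theorem trA_Psi (a b : V2) : trA hc ℤ (Psi (Gamma0 (N * q)) a b) = Psi (Gamma0 N) a b := by
  have h := (corrA hc).pull_Psi_single (corrA_inj hc)
    (⟨none, fun h => absurd h (not_dvd_of_coprime hc)⟩ : HIdx N q) (by
      intro x d
      refine ⟨(rA hc x.1)⁻¹ * degA N q d, ?_⟩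
      rw [corrA_mat, corrA_mat]
      simp only [rA, gm_one, Matrix.adjugate_one, Matrix.mul_one]
      rw [← gm_inv, gm_mul, gm_degA]) a b
  rw [trA, h, corrA_mat]
  simp only [rA, gm_one, Matrix.adjugate_one, Matrix.one_mulVec]

omit hq in
theorem adj_dlt : (dlt q).adjugate = betaZ q := by
  rw [dlt, Matrix.adjugate_fin_two_of, betaZ]; simp

/-- **(D3)** -/
theorem trB_Psi (a b : V2) : trB hc ℤ (Psi (Gamma0 (N * q)) a b) =
    Psi (Gamma0 N) (betaZ q *ᵥ a) (betaZ q *ᵥ b) := by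
  have hs0 : gm (Gamma0 N) (sB hc (some (0 : ZMod q))) = 1 := by
    simp only [sB, gm_Tp]
    simp [ZMod.val_zero, Matrix.one_fin_two]
  have h := (corrB hc).pull_Psi_single (corrB_inj hc)
    (⟨some 0, fun h => absurd h (not_dvd_of_coprime hc)⟩ : HIdx N q) (by
      intro x d
      refine ⟨(sB hc x.1)⁻¹ * degB N hq.out.ne_zero d, ?_⟩
      rw [corrB_mat, corrB_mat, hs0, Matrix.mul_one, adj_dlt, Matrix.adjugate_mul_distrib,
        adj_dlt, ← gm_inv, gm_mul, Matrix.mul_assoc, Matrix.mul_assoc]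
      congr 1
      exact betaZ_mul_degB N hq.out.ne_zero d) a b
  rw [trB, h, corrB_mat, hs0, Matrix.mul_one, adj_dlt]

/-- `trA ∘ resA = q + 1`. -/
theorem trA_resA (φ : Additive (Gamma0 N) →+ A) : trA hc A (resA N q A φ) = (q + 1) • φ := by
  refine AddMonoidHom.ext fun g => ?_
  obtain ⟨g, rfl⟩ := Additive.ofMul.surjective g
  rw [trA, Corr.pull_apply]
  have h1 : ∀ x : HIdx N q, resA N q A φ (Additive.ofMul ((corrA hc).coc g x)) =
      φ (Additive.ofMul (rA hc x.1)) + φ (Additive.ofMul g) -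
        φ (Additive.ofMul (rA hc ((corrA hc).act g x).1)) := by
    intro x
    rw [resA_apply]
    have : degA N q ((corrA hc).coc g x) = rA hc x.1 * g * (rA hc ((corrA hc).act g x).1)⁻¹ :=
      gm_injective rfl
    rw [this, ofMul_mul, ofMul_mul, ofMul_inv, map_add, map_add, map_neg, sub_eq_add_neg]
  simp only [h1, Finset.sum_sub_distrib, Finset.sum_add_distrib]
  have h2 : ∑ x : HIdx N q, φ (Additive.ofMul (rA hc ((corrA hc).act g x).1)) =
      ∑ x : HIdx N q, φ (Additive.ofMul (rA hc x.1)) :=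
    Equiv.sum_comp ((corrA hc).perm g) (fun x => φ (Additive.ofMul (rA hc x.1)))
  rw [h2, Finset.sum_const, Finset.card_univ, card_HIdx hc]
  simp only [AddMonoidHom.nsmul_apply]
  abel

/-- `trB ∘ resB = q + 1`. -/
theorem trB_resB (φ : Additive (Gamma0 N) →+ A) : trB hc A (resB N q A φ) = (q + 1) • φ := by
  refine AddMonoidHom.ext fun g => ?_
  obtain ⟨g, rfl⟩ := Additive.ofMul.surjective g
  rw [trB, Corr.pull_apply]
  have h1 : ∀ x : HIdx N q, resB N q A φ (Additive.ofMul ((corrB hc).coc g x)) =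
      φ (Additive.ofMul (sB hc x.1)) + φ (Additive.ofMul g) -
        φ (Additive.ofMul (sB hc ((corrB hc).act g x).1)) := by
    intro x
    rw [resB_apply]
    have : degB N hq.out.ne_zero ((corrB hc).coc g x) =
        sB hc x.1 * g * (sB hc ((corrB hc).act g x).1)⁻¹ := by
      apply gm_injective
      have hk := keyB' hc g x
      have hb : betaZ q * gm (Gamma0 (N * q)) ((corrB hc).coc g x) =
        gm (Gamma0 N) (degB N hq.out.ne_zero ((corrB hc).coc g x)) * betaZ q :=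
        betaZ_mul_degB N hq.out.ne_zero ((corrB hc).coc g x)
      have e1 : betaZ q * (gm (Gamma0 (N * q)) ((corrB hc).coc g x) * dlt q) =
          (q : ℤ) • gm (Gamma0 N) (degB N hq.out.ne_zero ((corrB hc).coc g x)) := by
        rw [← Matrix.mul_assoc, hb, Matrix.mul_assoc, beta_mul_dlt, Matrix.mul_smul,
          Matrix.mul_one]
      have e2 : betaZ q * (gm (Gamma0 (N * q)) ((corrB hc).coc g x) * dlt q) =
          (q : ℤ) • gm (Gamma0 N) (sB hc x.1 * g * (sB hc ((corrB hc).act g x).1)⁻¹) := by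
        have : gm (Gamma0 (N * q)) ((corrB hc).coc g x) * dlt q =
          dlt q * gm (Gamma0 N) (sB hc x.1 * g * (sB hc ((corrB hc).act g x).1)⁻¹) := hk.symm
        rw [this, ← Matrix.mul_assoc, beta_mul_dlt, Matrix.smul_mul, Matrix.one_mul]
      exact smul_right_injective M2 (pos_q (q := q)).ne' (e1.symm.trans e2)
    rw [this, ofMul_mul, ofMul_mul, ofMul_inv, map_add, map_add, map_neg, sub_eq_add_neg]
  simp only [h1, Finset.sum_sub_distrib, Finset.sum_add_distrib]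
  have h2 : ∑ x : HIdx N q, φ (Additive.ofMul (sB hc ((corrB hc).act g x).1)) =
      ∑ x : HIdx N q, φ (Additive.ofMul (sB hc x.1)) :=
    Equiv.sum_comp ((corrB hc).perm g) (fun x => φ (Additive.ofMul (sB hc x.1)))
  rw [h2, Finset.sum_const, Finset.card_univ, card_HIdx hc]
  simp only [AddMonoidHom.nsmul_apply]
  abel

/-- `trB ∘ resA = T_q`. -/
theorem trB_resA (φ : Additive (Gamma0 N) →+ A) :
    trB hc A (resA N q A φ) = (heckeSys N q).addTransfer φ := by
  rw [← heckeCorr_pull, trB, resA, ← Corr.comp_pull]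
  refine Corr.pull_eq _ _ (heckeCorr_inj N q) (Equiv.uniqueProd (HIdx N q) Unit)
    (fun p => κB hc p.2.1) (l := 1) one_ne_zero ?_ φ
  rintro ⟨⟨⟩, x⟩
  rw [one_smul, one_smul]
  show (1 : M2) * (dlt q * gm (Gamma0 N) (sB hc x.1)) = _
  rw [Matrix.one_mul, relB]
  rfl

/-- `trA ∘ resB = T_q`. -/
theorem trA_resB (φ : Additive (Gamma0 N) →+ A) :
    trA hc A (resB N q A φ) = (heckeSys N q).addTransfer φ := by
  rw [← heckeCorr_pull, trA, resB, ← Corr.comp_pull]
  refine Corr.pull_eq _ _ (heckeCorr_inj N q) (Equiv.uniqueProd (HIdx N q) Unit)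
    (fun p => κA hc p.2.1) (l := 1) one_ne_zero ?_ φ
  rintro ⟨⟨⟩, x⟩
  rw [one_smul, one_smul]
  show betaZ q * gm (Gamma0 N) (rA hc x.1) = _
  rw [relA]
  rfl

end Trace

end Fermat.Agent.S41dual
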