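import Fermat.Agent.HeckePar.CommEval
import Mathlib

/-!
# A Nakayama argument for commuting operators on finitely generated abelian groups
-/

set_option autoImplicit false

noncomputable section

namespace Fermat.Agent.S41dual

open Fermat.Agent.HeckePar

variable {ι : Type*} {M M' : Type*} [AddCommGroup M] [AddCommGroup M']

/-- evaluation at the system of eigenvalues -/
def evA {p : ℕ} (a : ι → ZMod p) : MvPolynomial ι ℤ →+* ZMod p :=
  (MvPolynomial.aeval a : MvPolynomial ι ℤ →ₐ[ℤ] ZMod p).toRingHom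

theorem commEval_C (T : ι → Module.End ℤ M) (hT : ∀ i j, Commute (T i) (T j)) (n : ℤ) (x : M) :
    commEval T hT (MvPolynomial.C n) x = n • x := by
  rw [← MvPolynomial.algebraMap_eq, AlgHom.commutes, eq_intCast, Module.End.intCast_apply]

/-- An additive functional which is a joint eigenvector is an eigenvector for polynomials. -/
theorem functional_commEval {p : ℕ} (T : ι → Module.End ℤ M) (hT : ∀ i j, Commute (T i) (T j))
    (a : ι → ZMod p) (Y : M →+ ZMod p) (hY : ∀ i x, Y (T i x) = a i * Y x)
    (t : MvPolynomial ι ℤ) (x : M) : Y (commEval T hT t x) = evA a t * Y x := by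
  induction t using MvPolynomial.induction_on generalizing x with
  | C n =>
    rw [commEval_C, map_zsmul]
    simp [evA]
  | add s t hs ht => rw [map_add, LinearMap.add_apply, map_add, hs, ht, map_add, add_mul]
  | mul_X s i hs =>
    rw [map_mul, Module.End.mul_apply, hs, commEval_X, hY, map_mul]
    simp only [evA, AlgHom.toRingHom_eq_coe, RingHom.coe_coe, MvPolynomial.aeval_X]
    ring

/-- A vector killed modulo `p` by `T i - a i` is an eigenvector modulo `p` for polynomials. -/
theorem eigen_commEval {p : ℕ} {B : Type*} [AddCommGroup B] [Module (ZMod p) B]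
    (T : ι → Module.End ℤ M) (hT : ∀ i j, Commute (T i) (T j))
    (a : ι → ZMod p) (f : M →+ B) (x : M)
    (hker : ∀ i y, f y = 0 → f (T i y) = 0)
    (hx : ∀ i, f (T i x) = a i • f x) (t : MvPolynomial ι ℤ) :
    f (commEval T hT t x) = evA a t • f x := by
  -- first: kernel is stable
  have hk : ∀ (t : MvPolynomial ι ℤ) y, f y = 0 → f (commEval T hT t y) = 0 := by
    intro t y hy
    exact commEval_mem T hT f.ker (fun i z hz => hker i z hz) t y hy
  have hp0 : ∀ y, f ((p : ℤ) • y) = 0 := by
    intro y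
    rw [map_zsmul, ← Int.cast_smul_eq_zsmul (ZMod p)]
    simp
  induction t using MvPolynomial.induction_on with
  | C n =>
    rw [commEval_C, map_zsmul, ← Int.cast_smul_eq_zsmul (ZMod p)]
    simp [evA]
  | add s t hs ht => rw [map_add, LinearMap.add_apply, map_add, hs, ht, map_add, add_smul]
  | mul_X s i hs =>
    rw [map_mul, Module.End.mul_apply, commEval_X, map_mul]
    -- `T i x = n x + y` with `f y = 0`
    obtain ⟨n, hn⟩ := ZMod.intCast_surjective (a i)
    have h1 : f (T i x - n • x) = 0 := by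
      rw [map_sub, hx, map_zsmul, ← Int.cast_smul_eq_zsmul (ZMod p), hn, sub_self]
    have h2 : T i x = n • x + (T i x - n • x) := by abel
    rw [h2, map_add, map_add, hk s _ h1, add_zero, map_zsmul, map_zsmul, hs,
      ← Int.cast_smul_eq_zsmul (ZMod p), hn, smul_smul]
    congr 1
    simp only [evA, AlgHom.toRingHom_eq_coe, RingHom.coe_coe, MvPolynomial.aeval_X]
    ring

theorem exists_functional_aux {p : ℕ} [hp : Fact p.Prime] {B : Type*} [AddCommGroup B]
    [Module (ZMod p) B] {v : B} (hv : v ≠ 0) : ∃ f : B →+ ZMod p, f v ≠ 0 := by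
  obtain ⟨f, hf⟩ := Module.Projective.exists_dual_ne_zero (V := B) (ZMod p) hv
  exact ⟨f.toAddMonoidHom, hf⟩

theorem exists_functional {p : ℕ} [hp : Fact p.Prime] {B : Type*} [AddCommGroup B]
    (hpB : ∀ b : B, (p : ℕ) • b = 0) {v : B} (hv : v ≠ 0) : ∃ f : B →+ ZMod p, f v ≠ 0 := by
  let inst : Module (ZMod p) B := AddCommGroup.zmodModule hpB
  exact exists_functional_aux hv

/-- **Nakayama**: if every joint eigenfunctional with eigenvalues `a` which kills the range of
`τ` is zero, then some polynomial `t` with `t(a) = 1` maps everything in the range of `τ`. -/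
theorem exists_commEval_mem_range {p : ℕ} [hp : Fact p.Prime] [Module.Finite ℤ M]
    (T : ι → Module.End ℤ M) (hT : ∀ i j, Commute (T i) (T j))
    (T' : ι → Module.End ℤ M') (a : ι → ZMod p) (τ : M' →+ M)
    (hτ : ∀ i x, τ (T' i x) = T i (τ x))
    (hY : ∀ Y : M →+ ZMod p, (∀ i x, Y (T i x) = a i * Y x) → (∀ x, Y (τ x) = 0) → Y = 0) :
    ∃ t : MvPolynomial ι ℤ, evA a t = 1 ∧ ∀ x, ∃ z, commEval T hT t x = τ z := by
  classical
  -- module structure
  let _ : Module (MvPolynomial ι ℤ) M := Module.compHom M (commEval T hT).toRingHom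
  have hsmul : ∀ (t : MvPolynomial ι ℤ) (x : M), t • x = commEval T hT t x := fun t x => rfl
  let Q : Submodule (MvPolynomial ι ℤ) M :=
    { carrier := Set.range τ
      add_mem' := by rintro _ _ ⟨x, rfl⟩ ⟨y, rfl⟩; exact ⟨x + y, map_add _ _ _⟩
      zero_mem' := ⟨0, map_zero _⟩
      smul_mem' := by
        intro t x hx
        rw [hsmul]
        exact commEval_mem T hT τ.range (fun i z hz => by
          obtain ⟨w, rfl⟩ := hz
          exact ⟨T' i w, hτ i w⟩) t x hx }
  have hQ : ∀ x, x ∈ Q ↔ ∃ z, τ z = x := fun x => Iff.rfl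
  let I : Ideal (MvPolynomial ι ℤ) := RingHom.ker (evA a)
  -- finite generation over `R`
  have : IsScalarTower ℤ (MvPolynomial ι ℤ) M := ⟨fun n t x => by
    rw [hsmul, hsmul, map_zsmul]; rfl⟩
  have : Module.Finite (MvPolynomial ι ℤ) M := Module.Finite.of_restrictScalars_finite ℤ (MvPolynomial ι ℤ) M
  have : Module.Finite (MvPolynomial ι ℤ) (M ⧸ Q) := inferInstance
  have hle : (⊤ : Submodule (MvPolynomial ι ℤ) (M ⧸ Q)) ≤ I • ⊤ := by
    -- otherwise there is a functional
    by_contra hcon
    set W : Submodule (MvPolynomial ι ℤ) (M ⧸ Q) := I • ⊤ with hW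
    obtain ⟨v, hv⟩ : ∃ v, v ∉ W := by
      by_contra h; push Not at h
      exact hcon fun x _ => h x
    -- the quotient is an `F_p` vector space
    let B := (M ⧸ Q) ⧸ W
    have hpB : ∀ b : B, (p : ℕ) • b = 0 := by
      intro b
      obtain ⟨x, rfl⟩ := Submodule.Quotient.mk_surjective W b
      rw [← Submodule.Quotient.mk_smul, Submodule.Quotient.mk_eq_zero]
      have h1 : (p : MvPolynomial ι ℤ) ∈ I := by
        rw [RingHom.mem_ker, map_natCast]; exact CharP.cast_eq_zero _ _
      have h2 : (p : ℕ) • x = (p : MvPolynomial ι ℤ) • x := (Nat.cast_smul_eq_nsmul (MvPolynomial ι ℤ) p x).symm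
      rw [h2]
      exact Submodule.smul_mem_smul h1 Submodule.mem_top
    have hvB : (Submodule.Quotient.mk v : B) ≠ 0 := by
      rwa [Ne, Submodule.Quotient.mk_eq_zero]
    obtain ⟨f, hf⟩ := exists_functional hpB hvB
    -- the composite functional
    let π : M →+ B := (Submodule.mkQ W).toAddMonoidHom.comp (Submodule.mkQ Q).toAddMonoidHom
    let Y : M →+ ZMod p := f.comp π
    have hπI : ∀ (t : MvPolynomial ι ℤ) (x : M), t ∈ I → π (t • x) = 0 := by
      intro t x ht
      show Submodule.Quotient.mk (Submodule.Quotient.mk (t • x)) = (0 : B)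
      rw [Submodule.Quotient.mk_eq_zero, Submodule.Quotient.mk_smul]
      exact Submodule.smul_mem_smul ht Submodule.mem_top
    have hY1 : ∀ i x, Y (T i x) = a i * Y x := by
      intro i x
      obtain ⟨n, hn⟩ := ZMod.intCast_surjective (a i)
      have ht : (MvPolynomial.X i - MvPolynomial.C n : MvPolynomial ι ℤ) ∈ I := by
        rw [RingHom.mem_ker, map_sub, sub_eq_zero]
        simp [evA, hn]
      have h1 := hπI _ x ht
      rw [sub_smul, hsmul, hsmul, commEval_X, commEval_C, map_sub, sub_eq_zero] at h1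
      show f (π (T i x)) = a i * f (π x)
      rw [h1, map_zsmul, map_zsmul, ← hn, zsmul_eq_mul]
    have hY2 : ∀ x, Y (τ x) = 0 := by
      intro x
      have : (Submodule.Quotient.mk (τ x) : M ⧸ Q) = 0 := by
        rw [Submodule.Quotient.mk_eq_zero, hQ]; exact ⟨x, rfl⟩
      show f (Submodule.Quotient.mk (Submodule.Quotient.mk (τ x))) = 0
      rw [this, Submodule.Quotient.mk_zero, map_zero]
    have hY0 := hY Y hY1 hY2
    obtain ⟨u, rfl⟩ := Submodule.Quotient.mk_surjective Q v
    exact hf (DFunLike.congr_fun hY0 u)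
  obtain ⟨r, hr, hr0⟩ := Submodule.exists_sub_one_mem_and_smul_eq_zero_of_fg_of_le_smul I
    (⊤ : Submodule (MvPolynomial ι ℤ) (M ⧸ Q)) (Module.Finite.fg_top) hle
  refine ⟨r, ?_, fun x => ?_⟩
  · have : evA a (r - 1) = 0 := hr
    rw [map_sub, map_one, sub_eq_zero] at this
    exact this
  · have h1 := hr0 (Submodule.Quotient.mk x) Submodule.mem_top
    rw [← Submodule.Quotient.mk_smul, Submodule.Quotient.mk_eq_zero, hQ] at h1
    obtain ⟨z, hz⟩ := h1
    exact ⟨z, hz.symm⟩

end Fermat.Agent.S41dual
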