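import Fermat.Agent.S41.Ihara
import Fermat.Prelude.Def_ModularCurve_PeriodMap

/-!
# Ihara's lemma for modular symbols, boundary homomorphisms
-/

set_option autoImplicit false

open Matrix CongruenceSubgroup
open scoped MatrixGroups

namespace Fermat.Agent.S41aux

open Fermat.Agent.HeckePar

/-! ### Parabolic homomorphisms -/

theorem KillsPar.isParabolicHom {A : Type*} [AddCommGroup A] {N : ℕ}
    {ψ : Additive (Gamma0 N) →+ A} (h : KillsPar ψ) :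
    ModularCurve.Period.IsParabolicHom (Gamma0 N) ψ := by
  intro γ htr
  set G : Matrix (Fin 2) (Fin 2) ℤ := ((γ : SL(2, ℤ)) : Matrix (Fin 2) (Fin 2) ℤ) with hG
  have hGdet : G 0 0 * G 1 1 - G 0 1 * G 1 0 = 1 := entries_det γ
  rw [Matrix.trace_fin_two] at htr
  obtain ⟨t, ht1, ht2⟩ : ∃ t : ℤ, G 0 0 + G 1 1 = 2 * t ∧ t * t = 1 := by
    have h1 : (G 0 0 + G 1 1 - 2) * (G 0 0 + G 1 1 + 2) = 0 := by linear_combination htr
    rcases mul_eq_zero.mp h1 with h2 | h2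
    · exact ⟨1, by linear_combination h2, by norm_num⟩
    · exact ⟨-1, by linear_combination h2, by norm_num⟩
  have hGQ : gQ γ = toQ !![G 0 0, G 0 1; G 1 0, G 1 1] := by rw [gQ, ← hG, ← eta_mat G]
  by_cases hv : G 0 1 = 0 ∧ t - G 0 0 = 0
  · have he2 : (![0, 1] : V2) ≠ 0 := by
      intro h0
      have := congrFun h0 1
      simp at this
    refine h γ ![0, 1] he2 (t : ℚ) ?_
    rw [hGQ]
    have h11 : G 1 1 = t := by linear_combination ht1 + hv.2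
    ext i
    fin_cases i
    · simp [Matrix.mulVec, dotProduct, Fin.sum_univ_two, hv.1]
    · simp [Matrix.mulVec, dotProduct, Fin.sum_univ_two, h11]
  · have hv' : (![((G 0 1 : ℤ) : ℚ), ((t - G 0 0 : ℤ) : ℚ)] : V2) ≠ 0 := by
      intro h0
      have h1 := congrFun h0 0
      have h2 := congrFun h0 1
      simp at h1 h2
      exact hv ⟨h1, by exact_mod_cast h2⟩
    refine h γ _ hv' (t : ℚ) ?_
    rw [hGQ, toQ_mulVec]
    have e1 : G 0 0 * G 0 1 + G 0 1 * (t - G 0 0) = t * G 0 1 := by ring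
    have e2 : G 1 0 * G 0 1 + G 1 1 * (t - G 0 0) = t * (t - G 0 0) := by
      linear_combination -hGdet + t * ht1 + ht2
    rw [e1, e2]
    ext i
    fin_cases i
    · simp
    · simp

/-! ### Modular symbols -/

section Symb

variable {F : Type*} [Field F] {p N q : ℕ} [CharP F p] {S : ℕ → Prop} {a : ℕ → F}

/-- Modular symbols for `Γ₀(N)`: additive invariant functions on pairs of rational lines. -/
structure IsSymb (N : ℕ) (X : V2 → V2 → F) : Prop where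
  add : ∀ u v w : V2, u ≠ 0 → v ≠ 0 → w ≠ 0 → X u v + X v w = X u w
  smul_right : ∀ (t : ℚ) (u v : V2), t ≠ 0 → u ≠ 0 → v ≠ 0 → X u (t • v) = X u v
  inv : ∀ (g : Gamma0 N) (u v : V2), u ≠ 0 → v ≠ 0 → X (gQ g *ᵥ u) (gQ g *ᵥ v) = X u v

/-- the base cusp. -/
abbrev e1 : V2 := ![1, 0]

theorem e1_ne : e1 ≠ 0 := by
  intro h0
  have := congrFun h0 0
  simp at this

namespace IsSymb

variable {X : V2 → V2 → F}

theorem self (h : IsSymb N X) {u : V2} (hu : u ≠ 0) : X u u = 0 := by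
  have := h.add u u u hu hu hu
  simpa using this

theorem symm (h : IsSymb N X) {u v : V2} (hu : u ≠ 0) (hv : v ≠ 0) : X u v = -X v u := by
  have h1 := h.add u v u hu hv hu
  rw [h.self hu] at h1
  exact eq_neg_of_add_eq_zero_left h1

theorem smul_left (h : IsSymb N X) (t : ℚ) (u v : V2) (ht : t ≠ 0) (hu : u ≠ 0) (hv : v ≠ 0) :
    X (t • u) v = X u v := by
  rw [h.symm (smul_ne_zero ht hu) hv, h.smul_right t v u ht hv hu, ← h.symm hu hv]

/-- The associated homomorphism. -/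
def hom (h : IsSymb N X) : Additive (Gamma0 N) →+ F where
  toFun g := X e1 (gQ (Additive.toMul g) *ᵥ e1)
  map_zero' := by
    show X e1 (gQ (1 : Gamma0 N) *ᵥ e1) = 0
    rw [gQ_one, Matrix.one_mulVec, h.self e1_ne]
  map_add' g g' := by
    show X e1 (gQ (Additive.toMul g * Additive.toMul g') *ᵥ e1) = _
    rw [gQ_mul, ← Matrix.mulVec_mulVec]
    set γ := Additive.toMul g
    set γ' := Additive.toMul g'
    have h1 := mulVec_ne_zero (det_gQ_ne γ) e1_ne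
    have h2 := mulVec_ne_zero (det_gQ_ne γ') e1_ne
    rw [← h.add e1 (gQ γ *ᵥ e1) _ e1_ne h1 (mulVec_ne_zero (det_gQ_ne γ) h2),
      h.inv γ e1 _ e1_ne h2]

theorem isPrimOf (h : IsSymb N X) : IsPrimOf h.hom (X e1) := by
  refine ⟨fun t v ht hv => h.smul_right t e1 v ht e1_ne hv, fun g v hv => ?_⟩
  have h1 := mulVec_ne_zero (det_gQ_ne g) e1_ne
  have h2 := mulVec_ne_zero (det_gQ_ne g) hv
  rw [← h.add e1 (gQ g *ᵥ e1) _ e1_ne h1 h2, h.inv g e1 v e1_ne hv, add_comm]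
  rfl

end IsSymb

/-- The Hecke eigen-equation for modular symbols. -/
def SymbEig (S : ℕ → Prop) (a : ℕ → F) (X : V2 → V2 → F) : Prop :=
  ∀ (ℓ : ℕ) [Fact ℓ.Prime], S ℓ → ∀ u v : V2, u ≠ 0 → v ≠ 0 →
    ∑ x : HIdx N ℓ, X (toQ (intRep ℓ x.1) *ᵥ u) (toQ (intRep ℓ x.1) *ᵥ v) = a ℓ * X u v

theorem IsSymb.heckeFun_eq {X : V2 → V2 → F} (h : IsSymb N X) (hSN : ∀ ℓ, S ℓ → ¬ ℓ ∣ N)
    (he : SymbEig (N := N) S a X) (ℓ : ℕ) [hℓ : Fact ℓ.Prime] (hS : S ℓ) (v : V2) (hv : v ≠ 0) :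
    heckeFun ℓ (X e1) v = a ℓ * X e1 v + heckeFun ℓ (X e1) e1 := by
  rw [heckeFun_eq_sum (hSN ℓ hS), heckeFun_eq_sum (hSN ℓ hS), ← he ℓ hS e1 v e1_ne hv,
    ← Finset.sum_add_distrib]
  refine Finset.sum_congr rfl fun x _ => ?_
  have hd := det_intRepQ_ne hℓ.out.ne_zero x.1
  rw [add_comm, h.add _ _ _ e1_ne (mulVec_ne_zero hd e1_ne) (mulVec_ne_zero hd hv)]

theorem IsSymb.isEig {X : V2 → V2 → F} (h : IsSymb N X) (hSN : ∀ ℓ, S ℓ → ¬ ℓ ∣ N)
    (he : SymbEig (N := N) S a X) : IsEig N S a h.hom := by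
  intro ℓ hℓ hS g
  have h1 := (h.isPrimOf.hecke (hSN ℓ hS)).qi (Additive.toMul g) e1 e1_ne
  have hg := mulVec_ne_zero (det_gQ_ne (Additive.toMul g)) e1_ne
  rw [h.heckeFun_eq hSN he ℓ hS _ hg, add_comm] at h1
  have h2 := add_left_cancel h1
  exact h2.symm

/-- **Ihara's lemma for modular symbols.** -/
theorem ihara_symb (hp : p.Prime) (hp2 : p ≠ 2) (hq : q.Prime) (hqN : ¬ q ∣ N)
    (hSN : ∀ ℓ, S ℓ → ¬ ℓ ∣ N) (hne : NonEis S a)
    {X₁ X₂ : V2 → V2 → F} (h₁ : IsSymb N X₁) (h₂ : IsSymb N X₂)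
    (he₁ : SymbEig (N := N) S a X₁) (he₂ : SymbEig (N := N) S a X₂)
    (hker : ∀ u v : V2, u ≠ 0 → v ≠ 0 →
      X₁ u v + X₂ (toQ (betaZ q) *ᵥ u) (toQ (betaZ q) *ᵥ v) = 0) :
    (∀ u v : V2, u ≠ 0 → v ≠ 0 → X₁ u v = 0) ∧ (∀ u v : V2, u ≠ 0 → v ≠ 0 → X₂ u v = 0) := by
  have hN : N ≠ 0 := by rintro rfl; exact hqN (dvd_zero _)
  have hβ := det_betaQ_ne hq.ne_zero
  have hqQ : (q : ℚ) ≠ 0 := by exact_mod_cast hq.ne_zero
  have hβe : toQ (betaZ q) *ᵥ e1 = (q : ℚ) • e1 := by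
    ext i; fin_cases i <;> simp [betaZ, Matrix.mulVec, dotProduct, Fin.sum_univ_two]
  have hpair : ∀ v, v ≠ 0 → X₁ e1 v + X₂ e1 (toQ (betaZ q) *ᵥ v) = 0 := by
    intro v hv
    have := hker e1 v e1_ne hv
    rwa [hβe, h₂.smul_left _ _ _ hqQ e1_ne (mulVec_ne_zero hβ hv)] at this
  obtain ⟨hz₁, hz₂⟩ := ihara hp hp2 hq hqN hSN hne (h₁.isEig hSN he₁) (h₂.isEig hSN he₂) (by
    intro g
    have hg := mulVec_ne_zero (det_gQ_ne g) e1_ne
    have h3 := hpair _ hg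
    rw [Matrix.mulVec_mulVec] at h3
    have e : toQ (betaZ q) * gQ g = gQ (degB N hq.ne_zero g) * toQ (betaZ q) := by
      rw [gQ, ← toQ_mul, betaZ_mul_degB, toQ_mul]
    rw [e, ← Matrix.mulVec_mulVec, hβe, Matrix.mulVec_smul,
      h₂.smul_right _ _ _ hqQ e1_ne (mulVec_ne_zero (det_gQ_ne _) e1_ne)] at h3
    exact h3)
  have main : ∀ {X : V2 → V2 → F} (h : IsSymb N X) (he : SymbEig (N := N) S a X),
      h.hom = 0 → ∀ u v : V2, u ≠ 0 → v ≠ 0 → X u v = 0 := by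
    intro X h he h0
    have hP := h.isPrimOf
    rw [h0] at hP
    have hinv : ∀ (g : Gamma0 N) (v : V2), v ≠ 0 → X e1 (gQ g *ᵥ v) = X e1 v := by
      intro g v hv
      have := hP.qi g v hv
      simpa using this
    obtain ⟨ℓ, hℓ, hSℓ, hℓM, ha⟩ := hne.ne1 N (Nat.pos_of_ne_zero hN)
    haveI : Fact ℓ.Prime := ⟨hℓ⟩
    have hM : InvM N (X e1) := by
      intro Y hY hc v hv
      have h10 := hc 1 0
      simp at h10
      exact hinv (toG0 N Y hY h10) v hv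
    have hU : ∀ (m : ℤ) (v : V2), v ≠ 0 → X e1 (toQ !![1, m; 0, 1] *ᵥ v) = X e1 v := by
      intro m v hv
      exact hinv (mkG0 N 1 m 0 1 (by ring) (dvd_zero _)) v hv
    have hall : ∀ v, v ≠ 0 → X e1 v = 0 := by
      intro v hv
      have h4 := h.heckeFun_eq hSN he ℓ hSℓ v hv
      rw [heckeFun_of_inv hM hP.homog hU hℓM v hv, heckeFun_of_inv hM hP.homog hU hℓM e1 e1_ne,
        h.self e1_ne, smul_zero, add_zero, nsmul_eq_mul] at h4
      push_cast at h4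
      have h5 : (a ℓ - (ℓ + 1)) * X e1 v = 0 := by linear_combination -h4
      exact (mul_eq_zero.mp h5).resolve_left (sub_ne_zero.mpr ha)
    intro u v hu hv
    rw [← h.add u e1 v hu e1_ne hv, h.symm hu e1_ne, hall u hu, hall v hv]
    simp
  exact ⟨main h₁ he₁ hz₁, main h₂ he₂ hz₂⟩

/-- **Ihara's lemma, one homomorphism.** -/
theorem ihara_hom (hp : p.Prime) (hp2 : p ≠ 2) (hq : q.Prime) (hqN : ¬ q ∣ N)
    (hSN : ∀ ℓ, S ℓ → ¬ ℓ ∣ N) (hne : NonEis S a)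
    {ψ : Additive (Gamma0 N) →+ F} (h : IsEig N S a ψ) (c : F)
    (hker : ∀ g : Gamma0 (N * q),
      ψ (Additive.ofMul (degA N q g)) + c * ψ (Additive.ofMul (degB N hq.ne_zero g)) = 0) :
    ψ = 0 := by
  have h2 : IsEig N S a ((AddMonoidHom.mulLeft c).comp ψ) := by
    intro ℓ hℓ hS g
    rw [CosetSys.addTransfer_comp, AddMonoidHom.comp_apply, h ℓ hS]
    show c * (a ℓ * ψ g) = a ℓ * (c * ψ g)
    ring
  exact (ihara hp hp2 hq hqN hSN hne h h2 hker).1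

end Symb

/-! ### Characteristic zero eigenvectors congruent to a non Eisenstein system -/

/-- An eigenvector (over a field in which `2 ≠ 0`) whose eigenvalues are congruent to a non
Eisenstein system of integers modulo an ideal containing `p` is parabolic. -/
theorem isParabolicHom_of_congr {E : Type*} [Field E] (hE2 : (2 : E) ≠ 0) {M p : ℕ}
    (hp : p.Prime) {O : Type*} [CommRing O] [Algebra O E] (hinj : Function.Injective (algebraMap O E))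
    (I : Ideal O) (hI : I ≠ ⊤) (hpI : (p : O) ∈ I) (S : ℕ → Prop) (hSM : ∀ ℓ, S ℓ → ¬ ℓ ∣ M)
    (hM : M ≠ 0)
    (a : ℕ → ℤ) (hne : ∀ M' : ℕ, 0 < M' → ∃ ℓ : ℕ, ℓ.Prime ∧ S ℓ ∧ (M' : ℤ) ∣ ℓ - 1 ∧
      ¬ (p : ℤ) ∣ a ℓ - (ℓ + 1))
    (ψ : Additive (Gamma0 M) →+ E) (lam : ℕ → O)
    (hlam : ∀ (ℓ : ℕ) [Fact ℓ.Prime], S ℓ → ∀ g, (heckeSys M ℓ).addTransfer ψ g =
      algebraMap O E (lam ℓ) * ψ g)
    (hcongr : ∀ ℓ : ℕ, ℓ.Prime → S ℓ → lam ℓ - (a ℓ : O) ∈ I) :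
    ModularCurve.Period.IsParabolicHom (Gamma0 M) ψ := by
  obtain ⟨ℓ, hℓ, hSℓ, hℓM, ha⟩ := hne (M * p) (Nat.mul_pos (Nat.pos_of_ne_zero hM) hp.pos)
  haveI : Fact ℓ.Prime := ⟨hℓ⟩
  push_cast at hℓM
  have hℓN : (M : ℤ) ∣ ℓ - 1 := (Dvd.intro _ rfl).trans hℓM
  have hℓp : (p : ℤ) ∣ ℓ - 1 := (Dvd.intro_left _ rfl).trans hℓM
  refine (killsPar_of_eigen' hE2 (p := p) (hSM ℓ hSℓ) hℓN hℓp (a := algebraMap O E (lam ℓ)) ?_
    (hlam ℓ hSℓ)).isParabolicHom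
  intro K hK h
  have h1 : (ℓ : O) * lam ℓ = K := by
    apply hinj
    rw [map_mul, map_natCast, map_natCast]; exact h
  -- reduce modulo `I`
  have hmem : ∀ z : ℤ, (p : ℤ) ∣ z → (z : O) ∈ I := by
    rintro z ⟨w, rfl⟩
    push_cast
    exact I.mul_mem_right _ hpI
  have h2 : ((a ℓ - 2 : ℤ) : O) ∈ I := by
    have e : ((a ℓ - 2 : ℤ) : O) = ((K - 2 : ℤ) : O) - ((ℓ - 1 : ℤ) : O) * lam ℓ -
        (lam ℓ - (a ℓ : O)) := by
      push_cast; linear_combination h1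
    rw [e]
    exact I.sub_mem (I.sub_mem (hmem _ hK) (I.mul_mem_right _ (hmem _ hℓp))) (hcongr ℓ hℓ hSℓ)
  -- an integer in `I` is divisible by `p`
  have h3 : (p : ℤ) ∣ a ℓ - 2 := by
    by_contra hnd
    have hcop : IsCoprime (p : ℤ) (a ℓ - 2) :=
      (Prime.coprime_iff_not_dvd (Nat.prime_iff_prime_int.mp hp)).mpr hnd
    obtain ⟨u, v, huv⟩ := hcop
    apply hI
    rw [Ideal.eq_top_iff_one]
    have e : (1 : O) = ((u * p : ℤ) : O) + (v : O) * ((a ℓ - 2 : ℤ) : O) := by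
      rw [← Int.cast_mul, ← Int.cast_add, huv, Int.cast_one]
    rw [e]
    exact I.add_mem (hmem _ (Dvd.intro_left _ rfl)) (I.mul_mem_left _ h2)
  apply ha
  have e : a ℓ - (ℓ + 1) = (a ℓ - 2) - (ℓ - 1) := by ring
  rw [e]
  exact dvd_sub h3 hℓp

end Fermat.Agent.S41aux
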