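import Fermat.Agent.S41.DualSurj
import Fermat.Agent.S41.DualComm
import Fermat.Agent.S41.Nak
import Fermat.Agent.S41.Symb
import Fermat.Agent.HeckePar.Faithful

/-!
# Surjectivity of the trace maps at a non-Eisenstein system, and existence of a new class
-/

set_option autoImplicit false

noncomputable section

namespace Fermat.Agent.S41dual

open Matrix CongruenceSubgroup Fermat.Agent.HeckePar
open Fermat.Agent.S41aux (degA degB betaZ coe_degA betaZ_mul_degB toQ gQ toQ_mul IsSymb SymbEig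
  NonEis IsEig ihara_symb ihara_hom)
open scoped MatrixGroups BigOperators

section Clear

/-- clearing denominators -/
def dn (v : Fin 2 → ℚ) : ℤ := (v 0).den * (v 1).den

/-- the integral vector `dn v • v`. -/
def cl (v : Fin 2 → ℚ) : V2 := ![(v 0).num * (v 1).den, (v 1).num * (v 0).den]

/-- cast -/
def cQ (v : V2) : Fin 2 → ℚ := fun i => (v i : ℚ)

theorem dn_ne (v : Fin 2 → ℚ) : dn v ≠ 0 := by
  unfold dn
  exact mul_ne_zero (by exact_mod_cast (v 0).den_nz) (by exact_mod_cast (v 1).den_nz)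

theorem cQ_cl (v : Fin 2 → ℚ) : cQ (cl v) = (dn v : ℚ) • v := by
  have h0 : ((v 0).num : ℚ) = v 0 * (v 0).den := (Rat.mul_den_eq_num (v 0)).symm
  have h1 : ((v 1).num : ℚ) = v 1 * (v 1).den := (Rat.mul_den_eq_num (v 1)).symm
  ext i
  fin_cases i
  · simp only [cQ, cl, dn, Fin.zero_eta, Matrix.cons_val_zero, Pi.smul_apply, smul_eq_mul]
    push_cast
    rw [h0]; ring
  · simp only [cQ, cl, dn, Fin.mk_one, Matrix.cons_val_one, Pi.smul_apply, smul_eq_mul]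
    push_cast
    rw [h1]; ring

theorem cQ_inj {u v : V2} (h : cQ u = cQ v) : u = v := by
  ext i
  have := congrFun h i
  simpa [cQ] using this

theorem cQ_smul (n : ℤ) (u : V2) : cQ (n • u) = (n : ℚ) • cQ u := by
  ext i; simp [cQ]

theorem cQ_mulVec (M : M2) (u : V2) : cQ (M *ᵥ u) = toQ M *ᵥ cQ u := by
  ext i
  simp [cQ, Matrix.mulVec, dotProduct, Fin.sum_univ_two, Fermat.Agent.S41aux.toQ_apply]

theorem cl_ne {v : Fin 2 → ℚ} (hv : v ≠ 0) : cl v ≠ 0 := by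
  intro h
  have h1 := cQ_cl v
  rw [h] at h1
  have h2 : (dn v : ℚ) • v = 0 := by
    rw [← h1]; ext i; simp [cQ]
  rcases smul_eq_zero.mp h2 with h3 | h3
  · exact dn_ne v (by exact_mod_cast h3)
  · exact hv h3

theorem cQ_ne {v : V2} (hv : v ≠ 0) : cQ v ≠ 0 := by
  intro h
  apply hv
  ext i
  have := congrFun h i
  simpa [cQ] using this

theorem dn_smul_cl_mulVec (M : M2) (v : Fin 2 → ℚ) :
    dn v • cl (toQ M *ᵥ v) = dn (toQ M *ᵥ v) • (M *ᵥ cl v) := by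
  apply cQ_inj
  rw [cQ_smul, cQ_smul, cQ_cl, cQ_mulVec, cQ_cl, Matrix.mulVec_smul, smul_comm]

theorem cl_cQ (v : V2) : cl (cQ v) = v := by
  ext i
  fin_cases i <;> simp [cl, cQ]

theorem exists_smul_cl (t : ℚ) (ht : t ≠ 0) (v : Fin 2 → ℚ) :
    ∃ m n : ℤ, m ≠ 0 ∧ n ≠ 0 ∧ m • cl (t • v) = n • cl v := by
  refine ⟨t.den * dn v, t.num * dn (t • v), mul_ne_zero (by exact_mod_cast t.den_nz) (dn_ne v),
    mul_ne_zero (Rat.num_ne_zero.mpr ht) (dn_ne _), ?_⟩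
  apply cQ_inj
  rw [cQ_smul, cQ_smul, cQ_cl, cQ_cl]
  have h1 : (t.num : ℚ) = t * t.den := (Rat.mul_den_eq_num t).symm
  push_cast
  rw [h1, smul_smul, smul_smul, smul_smul]
  congr 1
  ring

end Clear

section ExtSymb

variable {N : ℕ} {F : Type*} [Field F]

/-- Modular symbols on nonzero integral vectors. -/
structure IntSymb (N : ℕ) (X : V2 → V2 → F) : Prop where
  add : ∀ u v w : V2, u ≠ 0 → v ≠ 0 → w ≠ 0 → X u v + X v w = X u w
  smul_left : ∀ (t : ℤ) (u v : V2), t ≠ 0 → X (t • u) v = X u v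
  smul_right : ∀ (t : ℤ) (u v : V2), t ≠ 0 → X u (t • v) = X u v
  inv : ∀ (g : Gamma0 N) (u v : V2), X (gm (Gamma0 N) g *ᵥ u) (gm (Gamma0 N) g *ᵥ v) = X u v

theorem IntSymb.congr_left {X : V2 → V2 → F} (h : IntSymb N X) {m n : ℤ} (hm : m ≠ 0) (hn : n ≠ 0)
    {u u' : V2} (he : m • u = n • u') (v : V2) : X u v = X u' v := by
  rw [← h.smul_left m u v hm, he, h.smul_left n u' v hn]

theorem IntSymb.congr_right {X : V2 → V2 → F} (h : IntSymb N X) {m n : ℤ} (hm : m ≠ 0)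
    (hn : n ≠ 0) {u u' : V2} (he : m • u = n • u') (v : V2) : X v u = X v u' := by
  rw [← h.smul_right m v u hm, he, h.smul_right n v u' hn]

theorem IntSymb.cl_mulVec {X : V2 → V2 → F} (h : IntSymb N X) (M : M2) (u v : Fin 2 → ℚ) :
    X (cl (toQ M *ᵥ u)) (cl (toQ M *ᵥ v)) = X (M *ᵥ cl u) (M *ᵥ cl v) := by
  rw [h.congr_left (dn_ne u) (dn_ne _) (dn_smul_cl_mulVec M u),
    h.congr_right (dn_ne v) (dn_ne _) (dn_smul_cl_mulVec M v)]

theorem IntSymb.isSymb {X : V2 → V2 → F} (h : IntSymb N X) :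
    IsSymb N (fun u v => X (cl u) (cl v)) := by
  refine ⟨fun u v w hu hv hw => h.add _ _ _ (cl_ne hu) (cl_ne hv) (cl_ne hw),
    fun t u v ht _ _ => ?_, fun g u v _ _ => ?_⟩
  · obtain ⟨m, n, hm, hn, he⟩ := exists_smul_cl t ht v
    exact h.congr_right hm hn he _
  · have := h.cl_mulVec (gm (Gamma0 N) g) u v
    rw [h.inv] at this
    exact this

/-- **Ihara's lemma for integral symbols.** -/
theorem ihara_int {p q : ℕ} [CharP F p] {S : ℕ → Prop} {a : ℕ → F}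
    (hp : p.Prime) (hp2 : p ≠ 2) (hq : q.Prime) (hqN : ¬ q ∣ N)
    (hSN : ∀ ℓ, S ℓ → ¬ ℓ ∣ N) (hne : NonEis S a)
    {X₁ X₂ : V2 → V2 → F} (h₁ : IntSymb N X₁) (h₂ : IntSymb N X₂)
    (he₁ : ∀ (ℓ : ℕ) [Fact ℓ.Prime], S ℓ → ∀ u v : V2, u ≠ 0 → v ≠ 0 →
      ∑ x : HIdx N ℓ, X₁ (intRep ℓ x.1 *ᵥ u) (intRep ℓ x.1 *ᵥ v) = a ℓ * X₁ u v)
    (he₂ : ∀ (ℓ : ℕ) [Fact ℓ.Prime], S ℓ → ∀ u v : V2, u ≠ 0 → v ≠ 0 →
      ∑ x : HIdx N ℓ, X₂ (intRep ℓ x.1 *ᵥ u) (intRep ℓ x.1 *ᵥ v) = a ℓ * X₂ u v)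
    (hker : ∀ u v : V2, u ≠ 0 → v ≠ 0 → X₁ u v + X₂ (betaZ q *ᵥ u) (betaZ q *ᵥ v) = 0) :
    (∀ u v : V2, u ≠ 0 → v ≠ 0 → X₁ u v = 0) ∧ (∀ u v : V2, u ≠ 0 → v ≠ 0 → X₂ u v = 0) := by
  have h := ihara_symb hp hp2 hq hqN hSN hne h₁.isSymb h₂.isSymb
    (by
      intro ℓ hℓ hS u v hu hv
      simp only [h₁.cl_mulVec]
      exact he₁ ℓ hS _ _ (cl_ne hu) (cl_ne hv))
    (by
      intro ℓ hℓ hS u v hu hv
      simp only [h₂.cl_mulVec]
      exact he₂ ℓ hS _ _ (cl_ne hu) (cl_ne hv))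
    (by
      intro u v hu hv
      simp only [h₂.cl_mulVec]
      exact hker _ _ (cl_ne hu) (cl_ne hv))
  refine ⟨fun u v hu hv => ?_, fun u v hu hv => ?_⟩
  · have := h.1 (cQ u) (cQ v) (cQ_ne hu) (cQ_ne hv)
    simpa only [cl_cQ] using this
  · have := h.2 (cQ u) (cQ v) (cQ_ne hu) (cQ_ne hv)
    simpa only [cl_cQ] using this

end ExtSymb

section Main

variable {p N q : ℕ} [hp : Fact p.Prime] [hq : Fact q.Prime] [NeZero N]

/-- The symbol attached to a functional. -/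
def symbOf (N : ℕ) (Y : (Additive (Gamma0 N) →+ ℤ) →+ ZMod p) (u v : V2) : ZMod p :=
  Y (Psi (Gamma0 N) u v)

omit [NeZero N] in
theorem symbOf_int (Y : (Additive (Gamma0 N) →+ ℤ) →+ ZMod p) :
    IntSymb N (symbOf N Y) := by
  refine ⟨fun u v w hu hv hw => ?_, fun t u v ht => ?_, fun t u v ht => ?_, fun g u v => ?_⟩
  · simp only [symbOf]
    rw [← map_add, Psi_add hu hv hw]
  · simp only [symbOf]
    rw [Psi_smul_left ht]
  · simp only [symbOf]
    rw [Psi_smul_right ht]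
  · simp only [symbOf]
    rw [Psi_gm]

omit [NeZero N] in
theorem symbOf_hecke (Y : (Additive (Gamma0 N) →+ ℤ) →+ ZMod p) {ℓ : ℕ}
    [hℓ : Fact ℓ.Prime] (hℓN : ¬ ℓ ∣ N) (u v : V2) :
    ∑ x : HIdx N ℓ, symbOf N Y (intRep ℓ x.1 *ᵥ u) (intRep ℓ x.1 *ᵥ v) =
      Y ((heckeSys N ℓ).addTransfer (Psi (Gamma0 N) u v)) := by
  rw [addTransfer_Psi hℓN, map_sum]
  rfl

theorem finite_RC (N : ℕ) [NeZero N] : Finite (RC (Gamma0 N)) := by
  have h : (Gamma0 N).FiniteIndex := inferInstance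
  exact Finite.of_equiv _ (QuotientGroup.quotientRightRelEquivQuotientLeftRel (Gamma0 N)).symm

/-- a functional killing all `Ψ` is zero. -/
theorem eq_zero_of_symbOf (hp2 : p ≠ 2) (Y : (Additive (Gamma0 N) →+ ℤ) →+ ZMod p)
    (h : ∀ u v : V2, u ≠ 0 → v ≠ 0 → symbOf N Y u v = 0) : Y = 0 := by
  have := finite_RC N
  have := Fintype.ofFinite (RC (Gamma0 N))
  refine AddMonoidHom.ext fun ψ => ?_
  obtain ⟨w, hw⟩ := exists_eq_sum_Psi ψ
  have he1 : e₁ ≠ 0 := by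
    intro h0
    have := congrFun h0 0
    simp [e₁] at this
  have he2 : e₂ ≠ 0 := by
    intro h0
    have := congrFun h0 1
    simp [e₂] at this
  have h1 := congrArg Y hw
  rw [map_zsmul, map_sum] at h1
  have h2 : ∀ c : RC (Gamma0 N), Y (w c • Psi (Gamma0 N) (gs c.out *ᵥ e₁) (gs c.out *ᵥ e₂)) = 0 := by
    intro c
    have hd : (gs c.out).det ≠ 0 := by rw [fam_gs.det]; exact one_ne_zero
    rw [map_zsmul]
    have := h _ _ (mulVec_ne_zero hd he1) (mulVec_ne_zero hd he2)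
    rw [symbOf] at this
    rw [this, smul_zero]
  rw [Finset.sum_eq_zero fun c _ => h2 c, zsmul_eq_mul] at h1
  rcases mul_eq_zero.mp h1 with h3 | h3
  · exfalso
    have h4 : ((8 : ℕ) : ZMod p) = 0 := by exact_mod_cast h3
    rw [ZMod.natCast_eq_zero_iff] at h4
    have h5 : p ∣ 2 := by
      have h6 : p ∣ 2 ^ 3 := by simpa using h4
      exact hp.out.dvd_of_dvd_pow h6
    exact hp2 ((Nat.prime_dvd_prime_iff_eq hp.out Nat.prime_two).mp h5)
  · exact h3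

variable (S : ℕ → Prop)

/-- index set of the good primes -/
abbrev Gd (S : ℕ → Prop) : Type := {ℓ : Nat.Primes // S (ℓ : ℕ)}

/-- Hecke operator -/
def opG (N : ℕ) (S : ℕ → Prop) (A : Type*) [AddCommGroup A] (ℓ : Gd S) :
    Module.End ℤ (Additive (Gamma0 N) →+ A) := opPrime N A ℓ.1

theorem opG_comm (N : ℕ) (A : Type*) [AddCommGroup A] (ℓ ℓ' : Gd S) :
    Commute (opG N S A ℓ) (opG N S A ℓ') := opPrime_commute _ _

/-- Hecke operators on pairs -/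
def opPair (N : ℕ) (S : ℕ → Prop) (A : Type*) [AddCommGroup A] (ℓ : Gd S) :
    Module.End ℤ ((Additive (Gamma0 N) →+ A) × (Additive (Gamma0 N) →+ A)) :=
  LinearMap.prodMap (opG N S A ℓ) (opG N S A ℓ)

theorem opPair_comm (N : ℕ) (A : Type*) [AddCommGroup A] (ℓ ℓ' : Gd S) :
    Commute (opPair N S A ℓ) (opPair N S A ℓ') := by
  refine LinearMap.ext fun x => ?_
  have h := opG_comm S N A ℓ ℓ'
  refine Prod.ext ?_ ?_
  · exact LinearMap.congr_fun h x.1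
  · exact LinearMap.congr_fun h x.2

/-- the pair of traces -/
def trPair (hc : Nat.Coprime q N) : (Additive (Gamma0 (N * q)) →+ ℤ) →+
    (Additive (Gamma0 N) →+ ℤ) × (Additive (Gamma0 N) →+ ℤ) :=
  (trA hc ℤ).prod (trB hc ℤ)

variable {S}

/-- **Surjectivity of the traces at a non-Eisenstein system.** -/
theorem exists_trPair (hp2 : p ≠ 2) (hc : Nat.Coprime q N) {a : ℕ → ZMod p}
    (hSN : ∀ ℓ, S ℓ → ¬ ℓ ∣ N * q) (hne : NonEis S a) :
    ∃ t : MvPolynomial (Gd S) ℤ, evA (fun ℓ : Gd S => a (ℓ.1 : ℕ)) t = 1 ∧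
      ∀ x, ∃ z, commEval (opPair N S ℤ) (opPair_comm S N ℤ) t x = trPair hc z := by
  have hSN' : ∀ ℓ, S ℓ → ¬ ℓ ∣ N := fun ℓ hℓ h => hSN ℓ hℓ (h.mul_right q)
  refine exists_commEval_mem_range (opPair N S ℤ) (opPair_comm S N ℤ) (opG (N * q) S ℤ)
    (fun ℓ : Gd S => a (ℓ.1 : ℕ)) (trPair hc) ?_ ?_
  · intro ℓ x
    have : Fact (ℓ.1 : ℕ).Prime := ⟨ℓ.1.2⟩
    refine Prod.ext ?_ ?_
    · exact hecke_trA hc (hSN _ ℓ.2) x
    · exact hecke_trB hc (hSN _ ℓ.2) x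
  · intro Y hY1 hY2
    set Y₁ : (Additive (Gamma0 N) →+ ℤ) →+ ZMod p := Y.comp (AddMonoidHom.inl _ _) with hY₁
    set Y₂ : (Additive (Gamma0 N) →+ ℤ) →+ ZMod p := Y.comp (AddMonoidHom.inr _ _) with hY₂
    have hsplit : ∀ x y, Y (x, y) = Y₁ x + Y₂ y := by
      intro x y
      rw [hY₁, hY₂, AddMonoidHom.comp_apply, AddMonoidHom.comp_apply, ← map_add]
      simp
    have hT1 : ∀ (ℓ : ℕ) [hℓ : Fact ℓ.Prime], S ℓ → ∀ φ, Y₁ ((heckeSys N ℓ).addTransfer φ) =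
        a ℓ * Y₁ φ := by
      intro ℓ hℓ hS φ
      have h := hY1 ⟨⟨ℓ, hℓ.out⟩, hS⟩ (φ, 0)
      have e : opPair N S ℤ ⟨⟨ℓ, hℓ.out⟩, hS⟩ (φ, 0) = ((heckeSys N ℓ).addTransfer φ, 0) := by
        refine Prod.ext rfl ?_
        show opPrime N ℤ _ 0 = 0
        rw [map_zero]
      rw [e, hsplit, hsplit, map_zero, add_zero, add_zero] at h
      exact h
    have hT2 : ∀ (ℓ : ℕ) [hℓ : Fact ℓ.Prime], S ℓ → ∀ φ, Y₂ ((heckeSys N ℓ).addTransfer φ) =
        a ℓ * Y₂ φ := by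
      intro ℓ hℓ hS φ
      have h := hY1 ⟨⟨ℓ, hℓ.out⟩, hS⟩ (0, φ)
      have e : opPair N S ℤ ⟨⟨ℓ, hℓ.out⟩, hS⟩ (0, φ) = (0, (heckeSys N ℓ).addTransfer φ) := by
        refine Prod.ext ?_ rfl
        show opPrime N ℤ _ 0 = 0
        rw [map_zero]
      rw [e, hsplit, hsplit, map_zero, zero_add, zero_add] at h
      exact h
    have hI := ihara_int hp.out hp2 hq.out (not_dvd_of_coprime hc) hSN' hne (symbOf_int Y₁)
      (symbOf_int Y₂)
      (fun ℓ hℓ hS u v _ _ => by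
        rw [symbOf_hecke Y₁ (hSN' ℓ hS), hT1 ℓ hS]; rfl)
      (fun ℓ hℓ hS u v _ _ => by
        rw [symbOf_hecke Y₂ (hSN' ℓ hS), hT2 ℓ hS]; rfl)
      (fun u v _ _ => by
        have h := hY2 (Psi (Gamma0 (N * q)) u v)
        have e : trPair hc (Psi (Gamma0 (N * q)) u v) = (Psi (Gamma0 N) u v,
          Psi (Gamma0 N) (betaZ q *ᵥ u) (betaZ q *ᵥ v)) := by
          refine Prod.ext ?_ ?_
          · exact trA_Psi hc u v
          · exact trB_Psi hc u v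
        rw [e, hsplit] at h
        exact h)
    have h1 := eq_zero_of_symbOf hp2 Y₁ hI.1
    have h2 := eq_zero_of_symbOf hp2 Y₂ hI.2
    refine AddMonoidHom.ext fun x => ?_
    obtain ⟨x, y⟩ := x
    rw [hsplit, h1, h2]; simp

/-- reduction modulo `p` -/
def red (p : ℕ) {Γ : Type*} [AddCommGroup Γ] (φ : Γ →+ ℤ) : Γ →+ ZMod p :=
  (Int.castAddHom (ZMod p)).comp φ

/-- reduction of homomorphisms modulo `p` -/
def redH (p : ℕ) (N : ℕ) : (Additive (Gamma0 N) →+ ℤ) →+ (Additive (Gamma0 N) →+ ZMod p) where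
  toFun φ := (Int.castAddHom (ZMod p)).comp φ
  map_zero' := by ext; simp
  map_add' φ ψ := by ext; simp

omit [NeZero N] in
theorem redH_apply (φ : Additive (Gamma0 N) →+ ℤ) (g : Additive (Gamma0 N)) :
    redH p N φ g = ((φ g : ℤ) : ZMod p) := rfl

omit [NeZero N] in
theorem redH_hecke (φ : Additive (Gamma0 N) →+ ℤ) (ℓ : ℕ) [Fact ℓ.Prime] :
    redH p N ((heckeSys N ℓ).addTransfer φ) = (heckeSys N ℓ).addTransfer (redH p N φ) :=
  ((heckeSys N ℓ).addTransfer_comp (Int.castAddHom (ZMod p)) φ).symm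

omit [NeZero N] in
/-- kernel of the reduction -/
theorem exists_of_redH_eq_zero (φ : Additive (Gamma0 N) →+ ℤ) (h : redH p N φ = 0) :
    ∃ ψ : Additive (Gamma0 N) →+ ℤ, φ = (p : ℤ) • ψ := by
  have hp0 : (p : ℤ) ≠ 0 := by exact_mod_cast hp.out.ne_zero
  have hd : ∀ g, (p : ℤ) ∣ φ g := by
    intro g
    rw [← ZMod.intCast_zmod_eq_zero_iff_dvd]
    exact DFunLike.congr_fun h g
  choose f hf using hd
  refine ⟨⟨⟨f, ?_⟩, fun g g' => ?_⟩, ?_⟩
  · have h1 := hf 0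
    rw [map_zero] at h1
    exact (mul_eq_zero.mp h1.symm).resolve_left hp0
  · apply mul_left_cancel₀ hp0
    rw [← hf, map_add, hf g, hf g', mul_add]
  · refine AddMonoidHom.ext fun g => ?_
    rw [AddMonoidHom.smul_apply, smul_eq_mul]
    exact hf g

omit [NeZero N] in
theorem resA_red (φ : Additive (Gamma0 N) →+ ℤ) :
    redH p (N * q) (resA N q ℤ φ) = resA N q (ZMod p) (redH p N φ) :=
  (resA_comp (Int.castAddHom (ZMod p)) φ).symm

omit [NeZero N] in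
theorem resB_red (φ : Additive (Gamma0 N) →+ ℤ) :
    redH p (N * q) (resB N q ℤ φ) = resB N q (ZMod p) (redH p N φ) :=
  (resB_comp (Int.castAddHom (ZMod p)) φ).symm

/-- **Level raising, integral form.** -/
theorem exists_new_class (hp2 : p ≠ 2) (hc : Nat.Coprime q N) {a : ℕ → ZMod p}
    (hSN : ∀ ℓ, S ℓ → ¬ ℓ ∣ N * q) (hne : NonEis S a)
    (ξ : Additive (Gamma0 N) →+ ℤ) (hξ0 : redH p N ξ ≠ 0)
    (hξ : ∀ (ℓ : ℕ) [Fact ℓ.Prime], S ℓ → ∀ g,
      (((heckeSys N ℓ).addTransfer ξ g : ℤ) : ZMod p) = a ℓ * ((ξ g : ℤ) : ZMod p))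
    (ε : ℤ) (hε : ε * ε = 1)
    (hξq : ∀ g, (((heckeSys N q).addTransfer ξ g : ℤ) : ZMod p) =
      (ε * (q + 1) : ℤ) * ((ξ g : ℤ) : ZMod p)) :
    ∃ y : Additive (Gamma0 (N * q)) →+ ℤ, trA hc ℤ y = 0 ∧ trB hc ℤ y = 0 ∧
      redH p (N * q) y ≠ 0 ∧
      ∀ (ℓ : ℕ) [Fact ℓ.Prime], S ℓ → ∀ g,
        (((heckeSys (N * q) ℓ).addTransfer y g : ℤ) : ZMod p) = a ℓ * ((y g : ℤ) : ZMod p) := by
  have hSN' : ∀ ℓ, S ℓ → ¬ ℓ ∣ N := fun ℓ hℓ h => hSN ℓ hℓ (h.mul_right q)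
  have hEig : IsEig N S a (redH p N ξ) := by
    intro ℓ hℓ hS g
    rw [← redH_hecke]
    exact hξ ℓ hS g
  -- the old class
  set x : Additive (Gamma0 (N * q)) →+ ℤ := resA N q ℤ ξ - ε • resB N q ℤ ξ with hx
  -- its Hecke eigenvalues
  have hTx : ∀ (ℓ : ℕ) [hℓ : Fact ℓ.Prime], S ℓ →
      redH p (N * q) ((heckeSys (N * q) ℓ).addTransfer x) = a ℓ • redH p (N * q) x := by
    intro ℓ hℓ hS
    rw [hx, map_sub, map_zsmul, hecke_resA (hSN ℓ hS), hecke_resB (hSN ℓ hS), map_sub, map_zsmul,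
      map_sub, map_zsmul, resA_red, resB_red, resA_red, resB_red, redH_hecke]
    have h1 : (heckeSys N ℓ).addTransfer (redH p N ξ) = a ℓ • redH p N ξ := by
      refine AddMonoidHom.ext fun g => ?_
      exact hEig ℓ hS g
    rw [h1]
    refine AddMonoidHom.ext fun g => ?_
    obtain ⟨g, rfl⟩ := Additive.ofMul.surjective g
    simp only [AddMonoidHom.sub_apply, AddMonoidHom.smul_apply, resA_apply, resB_apply]
    rw [smul_sub]
    congr 1
    rw [smul_comm]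
  -- it is not divisible by `p`
  have hx0 : redH p (N * q) x ≠ 0 := by
    intro h0
    apply hξ0
    refine ihara_hom hp.out hp2 hq.out (not_dvd_of_coprime hc) hSN' hne hEig (-(ε : ZMod p)) ?_
    intro g
    have h1 := DFunLike.congr_fun h0 (Additive.ofMul g)
    rw [hx, map_sub, map_zsmul, resA_red, resB_red] at h1
    simp only [AddMonoidHom.sub_apply, AddMonoidHom.smul_apply, resA_apply, resB_apply,
      AddMonoidHom.zero_apply, zsmul_eq_mul] at h1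
    rw [← h1]; ring
  -- its traces are divisible by `p`
  have hTq : redH p N ((heckeSys N q).addTransfer ξ) =
      ((ε * (q + 1) : ℤ) : ZMod p) • redH p N ξ := by
    refine AddMonoidHom.ext fun g => ?_
    exact hξq g
  have hA : redH p N (trA hc ℤ x) = 0 := by
    rw [hx, map_sub, map_zsmul, trA_resA, trA_resB, map_sub, map_nsmul, map_zsmul, hTq]
    refine AddMonoidHom.ext fun g => ?_
    simp only [AddMonoidHom.sub_apply, AddMonoidHom.smul_apply,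
      AddMonoidHom.zero_apply, zsmul_eq_mul, nsmul_eq_mul, smul_eq_mul]
    have h2 : (ε : ZMod p) * (ε : ZMod p) = 1 := by
      have := congrArg (Int.cast : ℤ → ZMod p) hε
      push_cast at this; exact this
    push_cast
    linear_combination (-(((q : ZMod p) + 1) * redH p N ξ g)) * h2
  have hB : redH p N (trB hc ℤ x) = 0 := by
    rw [hx, map_sub, map_zsmul, trB_resA, trB_resB, map_sub, map_zsmul, map_nsmul, hTq]
    refine AddMonoidHom.ext fun g => ?_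
    simp only [AddMonoidHom.sub_apply, AddMonoidHom.smul_apply,
      AddMonoidHom.zero_apply, zsmul_eq_mul, nsmul_eq_mul, smul_eq_mul]
    push_cast
    ring
  obtain ⟨ψ₁, hψ₁⟩ := exists_of_redH_eq_zero _ hA
  obtain ⟨ψ₂, hψ₂⟩ := exists_of_redH_eq_zero _ hB
  obtain ⟨t, ht1, ht2⟩ := exists_trPair (p := p) hp2 hc hSN hne
  obtain ⟨z, hz⟩ := ht2 (ψ₁, ψ₂)
  -- the action of `t` at level `N q`
  have hnat : trPair hc (commEval (opG (N * q) S ℤ) (opG_comm S (N * q) ℤ) t x) =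
      commEval (opPair N S ℤ) (opPair_comm S N ℤ) t (trPair hc x) := by
    refine commEval_natural (opG (N * q) S ℤ) (opG_comm S (N * q) ℤ) (opPair N S ℤ)
      (opPair_comm S N ℤ) (trPair hc) ?_ t x
    intro ℓ x
    have : Fact (ℓ.1 : ℕ).Prime := ⟨ℓ.1.2⟩
    refine Prod.ext ?_ ?_
    · exact hecke_trA hc (hSN _ ℓ.2) x
    · exact hecke_trB hc (hSN _ ℓ.2) x
  have hpx : trPair hc x = (p : ℤ) • (ψ₁, ψ₂) := Prod.ext hψ₁ hψ₂
  set y := commEval (opG (N * q) S ℤ) (opG_comm S (N * q) ℤ) t x - (p : ℤ) • z with hy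
  have htr : trPair hc y = 0 := by
    rw [hy, map_sub, map_zsmul, hnat, hpx, map_zsmul, hz, sub_self]
  have hredy : redH p (N * q) y = redH p (N * q) x := by
    have h1 := eigen_commEval (opG (N * q) S ℤ) (opG_comm S (N * q) ℤ)
      (fun ℓ : Gd S => a (ℓ.1 : ℕ)) (redH p (N * q)) x (by
        intro ℓ w hw
        have : Fact (ℓ.1 : ℕ).Prime := ⟨ℓ.1.2⟩
        show redH p (N * q) ((heckeSys (N * q) (ℓ.1 : ℕ)).addTransfer w) = 0
        rw [redH_hecke, hw, map_zero]) (by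
        intro ℓ
        have : Fact (ℓ.1 : ℕ).Prime := ⟨ℓ.1.2⟩
        exact hTx (ℓ.1 : ℕ) ℓ.2) t
    rw [ht1, one_smul] at h1
    rw [hy, map_sub, h1, map_zsmul]
    have h2 : (p : ℤ) • redH p (N * q) z = 0 := by
      refine AddMonoidHom.ext fun g => ?_
      simp [zsmul_eq_mul]
    rw [h2, sub_zero]
  refine ⟨y, (Prod.ext_iff.mp htr).1, (Prod.ext_iff.mp htr).2, by rwa [hredy], ?_⟩
  intro ℓ hℓ hS g
  have h3 : redH p (N * q) ((heckeSys (N * q) ℓ).addTransfer y) = a ℓ • redH p (N * q) y := by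
    rw [redH_hecke, hredy, ← redH_hecke, hTx ℓ hS]
  exact DFunLike.congr_fun h3 g

end Main

end Fermat.Agent.S41dual
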