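import Fermat.Agent.S16.Lower
import Fermat.Agent.HeckeEigen.Joint
import Fermat.Agent.HeckeEigen.Forms
import Fermat.Agent.S41.Symb
import Fermat.Agent.S21

/-!
# From an integral eigenvector modulo `p` to a newform: Deligne–Serre lifting on a Hecke stable space
of homomorphisms
-/

set_option autoImplicit false

noncomputable section

open CongruenceSubgroup ModularCurve ModularCurve.Period
open scoped MatrixGroups

namespace Fermat.Agent.S41aux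

open Fermat.Agent.HeckePar Fermat.Agent.S21per FermatAgent.HeckeEigen ModularFormClass

variable {M : ℕ}

/-- The Hecke operator on complex valued homomorphisms. -/
def heckeC (M : ℕ) (ℓ : Nat.Primes) : Module.End ℂ (Additive (Gamma0 M) →+ ℂ) where
  toFun φ := haveI : Fact (ℓ : ℕ).Prime := ⟨ℓ.2⟩; (heckeSys M (ℓ : ℕ)).addTransfer φ
  map_add' φ ψ := map_add _ _ _
  map_smul' c φ := by
    haveI : Fact (ℓ : ℕ).Prime := ⟨ℓ.2⟩
    exact (heckeSys M (ℓ : ℕ)).addTransfer_comp (AddMonoidHom.mulLeft c) φ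

theorem heckeC_apply (ℓ : ℕ) [hℓ : Fact ℓ.Prime] (φ : Additive (Gamma0 M) →+ ℂ) :
    heckeC M ⟨ℓ, hℓ.out⟩ φ = (heckeSys M ℓ).addTransfer φ := rfl

theorem heckeC_commute (ℓ ℓ' : Nat.Primes) : Commute (heckeC M ℓ) (heckeC M ℓ') := by
  have h := opPrime_commute (N := M) (A := ℂ) ℓ ℓ'
  exact LinearMap.ext fun φ => LinearMap.congr_fun h φ

theorem finiteDimensional_hom (M : ℕ) [NeZero M] :
    FiniteDimensional ℂ (Additive (Gamma0 M) →+ ℂ) := by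
  have hfg : Group.FG (Gamma0 M) := Fermat.Agent.S22alg.fg_Gamma0 M
  have hfg' : AddGroup.FG (Additive (Gamma0 M)) := inferInstance
  obtain ⟨s, hs⟩ := hfg'.out
  let ev : (Additive (Gamma0 M) →+ ℂ) →ₗ[ℂ] (s → ℂ) :=
    { toFun := fun φ x => φ x
      map_add' := fun _ _ => rfl
      map_smul' := fun _ _ => rfl }
  refine FiniteDimensional.of_injective ev fun φ ψ h => ?_
  refine AddMonoidHom.eq_of_eqOn_dense hs fun x hx => ?_
  exact congrFun h ⟨x, hx⟩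

/-- Hecke eigenvalues on homomorphisms are algebraic integers. -/
theorem isIntegral_of_heckeC [NeZero M] (ℓ : Nat.Primes) (v : Additive (Gamma0 M) →+ ℂ)
    (hv : v ≠ 0) (c : ℂ) (h : heckeC M ℓ v = c • v) : IsIntegral ℤ c := by
  haveI : Fact (ℓ : ℕ).Prime := ⟨ℓ.2⟩
  have hfg : Group.FG (Gamma0 M) := Fermat.Agent.S22alg.fg_Gamma0 M
  have hfg' : AddGroup.FG (Additive (Gamma0 M)) := inferInstance
  have : AddGroup.FG v.range := AddGroup.fg_range v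
  have hfin : Module.Finite ℤ (AddSubgroup.toIntSubmodule v.range) :=
    Module.Finite.iff_addGroup_fg.mpr (inferInstanceAs (AddGroup.FG v.range))
  refine isIntegral_of_smul_mem_submodule (M := ℂ) (AddSubgroup.toIntSubmodule v.range) ?_
    (Module.Finite.iff_fg.mp hfin) c ?_
  · intro hbot
    apply hv
    refine AddMonoidHom.ext fun x => ?_
    have h1 : v x ∈ AddSubgroup.toIntSubmodule v.range := ⟨x, rfl⟩
    rw [hbot] at h1
    exact h1
  · rintro _ ⟨g, rfl⟩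
    have h1 : c • v g = (heckeSys M (ℓ : ℕ)).addTransfer v g := by
      have := DFunLike.congr_fun h g
      exact this.symm
    rw [h1, CosetSys.addTransfer_apply]
    exact AddSubgroup.sum_mem v.range fun x _ => ⟨_, rfl⟩

/-- equivariance of the period map of pairs. -/
theorem periodHomPair_heckeOp [NeZero M] (ℓ : Nat.Primes) (g : CuspForm (Gamma0 M) 2 ×
    CuspForm (Gamma0 M) 2) :
    heckeC M ℓ (periodHomPair M g) = periodHomPair M (heckeOp M 2 ℓ g.1, heckeOp M 2 ℓ g.2) := by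
  haveI : Fact (ℓ : ℕ).Prime := ⟨ℓ.2⟩
  have h2 : ∀ f : CuspForm (Gamma0 M) 2, periodLin M (heckeOp M 2 ℓ f) =
      heckeC M ℓ (periodLin M f) := by
    intro f
    by_cases hℓN : (ℓ : ℕ) ∣ M
    · rw [heckeOp_of_dvd hℓN]
      exact periodLin_heckeULin hℓN f
    · rw [heckeOp_of_not_dvd hℓN]
      exact periodLin_heckeTLin hℓN f
  have h3 : ∀ φ : Additive (Gamma0 M) →+ ℂ, heckeC M ℓ (charInvolution M ℂ ℂ φ) =
      charInvolution M ℂ ℂ (heckeC M ℓ φ) := fun φ =>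
    Fermat.Agent.S16.addTransfer_charInvolution M (ℓ : ℕ) φ
  rw [periodHomPair_eq, LinearMap.coprod_apply, LinearMap.coprod_apply]
  simp only [LinearMap.comp_apply, LinearMap.add_apply, LinearMap.sub_apply, LinearMap.id_apply,
    map_add, map_sub, h2, h3]

/-- **Lifting.** -/
theorem exists_newform_of_vector [NeZero M] {p : ℕ} (Q : Nat.Primes) (hp : p.Prime)
    (𝔪 : Ideal (integralClosure ℤ ℂ)) (h𝔪 : 𝔪.IsMaximal)
    (hp𝔪 : (p : integralClosure ℤ ℂ) ∈ 𝔪) (S : ℕ → Prop) (hSM : ∀ ℓ, S ℓ → ¬ ℓ ∣ M) (a : ℕ → ℤ)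
    (hne : ∀ M' : ℕ, 0 < M' → ∃ ℓ : ℕ, ℓ.Prime ∧ S ℓ ∧ (M' : ℤ) ∣ ℓ - 1 ∧
      ¬ (p : ℤ) ∣ a ℓ - (ℓ + 1))
    (V : Submodule ℂ (Additive (Gamma0 M) →+ ℂ))
    (hVT : ∀ ℓ : Nat.Primes, S ℓ → ∀ φ ∈ V, heckeC M ℓ φ ∈ V)
    (hVU : ∀ φ ∈ V, heckeC M Q (heckeC M Q φ) = φ)
    (y : Additive (Gamma0 M) →+ ℤ) (hyV : (Int.castAddHom ℂ).comp y ∈ V)
    (hy0 : ∃ g, ¬ (p : ℤ) ∣ y g)
    (hy : ∀ (ℓ : ℕ) [Fact ℓ.Prime], S ℓ → ∀ g,
        (p : ℤ) ∣ (heckeSys M ℓ).addTransfer y g - a ℓ * y g) :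
    ∃ g : CuspForm (Gamma0 M) 2, g.IsNormalizedEigenform ∧
      (∀ ℓ : ℕ, ℓ.Prime → S ℓ → ∃ b : integralClosure ℤ ℂ, (b : ℂ) = qCoeff g ℓ ∧
        b - ((a ℓ : ℤ) : integralClosure ℤ ℂ) ∈ 𝔪) ∧ qCoeff g Q ^ 2 = 1 := by
  classical
  haveI := finiteDimensional_hom M
  -- the Hecke operators on `V`
  let T : {ℓ : Nat.Primes // S ℓ} → Module.End ℂ V := fun ℓ =>
    (heckeC M ℓ.1).restrict (fun φ hφ => hVT ℓ.1 ℓ.2 φ hφ)
  have hT : ∀ ℓ (x : V), ((T ℓ x : V) : Additive (Gamma0 M) →+ ℂ) = heckeC M ℓ.1 x :=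
    fun _ _ => rfl
  have hcomm : ∀ i j, Commute (T i) (T j) := by
    intro i j
    refine LinearMap.ext fun x => Subtype.ext ?_
    exact LinearMap.congr_fun (heckeC_commute i.1 j.1) (x : Additive (Gamma0 M) →+ ℂ)
  -- the lattice of homomorphisms with values in `𝔪`
  let Λ : AddSubgroup V :=
    { carrier := {φ | ∀ g, ∃ c ∈ 𝔪, ((c : integralClosure ℤ ℂ) : ℂ) =
        (φ : Additive (Gamma0 M) →+ ℂ) g}
      zero_mem' := fun g => ⟨0, 𝔪.zero_mem, by simp⟩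
      add_mem' := by
        intro φ ψ hφ hψ g
        obtain ⟨c, hc, hc'⟩ := hφ g
        obtain ⟨d, hd, hd'⟩ := hψ g
        refine ⟨c + d, 𝔪.add_mem hc hd, ?_⟩
        push_cast
        rw [hc', hd']; rfl
      neg_mem' := by
        intro φ hφ g
        obtain ⟨c, hc, hc'⟩ := hφ g
        refine ⟨-c, 𝔪.neg_mem hc, ?_⟩
        push_cast
        rw [hc']; rfl }
  have hΛ : ∀ φ : V, φ ∈ Λ ↔ ∀ g, ∃ c ∈ 𝔪, ((c : integralClosure ℤ ℂ) : ℂ) =
        (φ : Additive (Gamma0 M) →+ ℂ) g := fun _ => Iff.rfl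
  have hint𝔪 : ∀ z : ℤ, (p : ℤ) ∣ z → ((z : ℤ) : integralClosure ℤ ℂ) ∈ 𝔪 := by
    rintro z ⟨w, rfl⟩
    push_cast
    exact 𝔪.mul_mem_right _ hp𝔪
  let f : V := ⟨_, hyV⟩
  have hf : ∀ g, (f : Additive (Gamma0 M) →+ ℂ) g = ((y g : ℤ) : ℂ) := fun _ => rfl
  obtain ⟨g₀, hg₀⟩ := hy0
  obtain ⟨χ, v, hv0, hv, hχ⟩ := exists_joint_eigenvector_congr (K := ℂ) (V := V) 𝔪 h𝔪.isPrime T
    hcomm Λ (by
      intro i φ hφ g
      haveI : Fact ((i.1 : Nat.Primes) : ℕ).Prime := ⟨i.1.2⟩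
      rw [hΛ] at hφ
      choose c hc hc' using hφ
      refine ⟨∑ x, c (Additive.ofMul ((heckeSys M (i.1 : ℕ)).coc (Additive.toMul g) x)),
        𝔪.sum_mem fun x _ => hc _, ?_⟩
      rw [hT]
      show _ = (heckeSys M (i.1 : ℕ)).addTransfer (φ : Additive (Gamma0 M) →+ ℂ) g
      rw [CosetSys.addTransfer_apply]
      push_cast
      exact Finset.sum_congr rfl fun x _ => hc' _) (by
      intro c φ hφ g
      obtain ⟨d, hd, hd'⟩ := hφ g
      refine ⟨c * d, 𝔪.mul_mem_left _ hd, ?_⟩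
      push_cast
      rw [hd']; rfl) f (fun ℓ => ((a ℓ.1 : ℤ) : integralClosure ℤ ℂ)) (by
      intro i g
      haveI : Fact ((i.1 : Nat.Primes) : ℕ).Prime := ⟨i.1.2⟩
      refine ⟨_, hint𝔪 _ (hy (i.1 : ℕ) i.2 g), ?_⟩
      have h1 : ((T i f : V) : Additive (Gamma0 M) →+ ℂ) g =
          (((heckeSys M (i.1 : ℕ)).addTransfer y g : ℤ) : ℂ) := by
        have h2 := DFunLike.congr_fun ((heckeSys M (i.1 : ℕ)).addTransfer_comp
          (Int.castAddHom ℂ) y) g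
        exact h2
      have h3 : ((T i f - (algebraMap (integralClosure ℤ ℂ) ℂ)
          ((a i.1 : ℤ) : integralClosure ℤ ℂ) • f : V) : Additive (Gamma0 M) →+ ℂ) g =
          ((T i f : V) : Additive (Gamma0 M) →+ ℂ) g - ((a i.1 : ℤ) : ℂ) * ((y g : ℤ) : ℂ) := by
        rw [map_intCast]
        rfl
      rw [h3, h1]
      push_cast
      rfl) (by
      intro u hu
      obtain ⟨c, hc, hc'⟩ := hu g₀
      have h1 : (c : ℂ) = (u : ℂ) * ((y g₀ : ℤ) : ℂ) := hc'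
      have h2 : c = u * ((y g₀ : ℤ) : integralClosure ℤ ℂ) := by
        apply Subtype.ext
        rw [h1]; push_cast; rfl
      have hcop : IsCoprime (p : ℤ) (y g₀) :=
        (Prime.coprime_iff_not_dvd (Nat.prime_iff_prime_int.mp hp)).mpr hg₀
      obtain ⟨r, s, hrs⟩ := hcop
      have h3 : u = ((r * p : ℤ) : integralClosure ℤ ℂ) * u + ((s : ℤ) : integralClosure ℤ ℂ) * c := by
        have h4 : ((r * p + s * y g₀ : ℤ) : integralClosure ℤ ℂ) = 1 := by rw [hrs]; simp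
        rw [h2]
        push_cast at h4 ⊢
        linear_combination -u * h4
      rw [h3]
      exact 𝔪.add_mem (𝔪.mul_mem_right _ (hint𝔪 _ (Dvd.intro_left _ rfl))) (𝔪.mul_mem_left _ hc)) (by
      intro χ v hv0 hv i
      have h1 : heckeC M i.1 (v : Additive (Gamma0 M) →+ ℂ) = χ i • (v : Additive (Gamma0 M) →+ ℂ) :=
        congrArg Subtype.val (hv i)
      have h2 : (v : Additive (Gamma0 M) →+ ℂ) ≠ 0 := fun h => hv0 (Subtype.ext h)
      exact ⟨⟨χ i, isIntegral_of_heckeC i.1 _ h2 _ h1⟩, rfl⟩)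
  -- the complex eigenvector
  set w : Additive (Gamma0 M) →+ ℂ := v.1 with hw
  have hw0 : w ≠ 0 := fun h => hv0 (Subtype.ext h)
  have hwe : ∀ i : {ℓ : Nat.Primes // S ℓ}, heckeC M i.1 w = ((χ i : integralClosure ℤ ℂ) : ℂ) • w :=
    fun i => congrArg Subtype.val (hv i)
  have hwU := hVU w v.2
  -- it is parabolic
  have hpar : IsParabolicHom (Gamma0 M) w := by
    let lam : ℕ → integralClosure ℤ ℂ := fun ℓ =>
      if h : ∃ hℓ : ℓ.Prime, S ℓ then χ ⟨⟨ℓ, h.1⟩, h.2⟩ else 0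
    have hlam : ∀ (ℓ : ℕ) (hℓ : ℓ.Prime) (hS : S ℓ), lam ℓ = χ ⟨⟨ℓ, hℓ⟩, hS⟩ := by
      intro ℓ hℓ hS
      simp only [lam]
      rw [dif_pos ⟨hℓ, hS⟩]
    refine isParabolicHom_of_congr (E := ℂ) (by norm_num) hp (O := integralClosure ℤ ℂ)
      Subtype.val_injective 𝔪 h𝔪.ne_top hp𝔪 S hSM (NeZero.ne M) a hne w lam ?_ ?_
    · intro ℓ hℓ hS g
      rw [hlam ℓ hℓ.out hS]
      exact DFunLike.congr_fun (hwe ⟨⟨ℓ, hℓ.out⟩, hS⟩) g
    · intro ℓ hℓ hS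
      rw [hlam ℓ hℓ hS]
      exact hχ ⟨⟨ℓ, hℓ⟩, hS⟩
  -- Eichler–Shimura
  obtain ⟨hinj, hrange⟩ := Fermat.Agent.S21.result M
  obtain ⟨gg, hgg⟩ : w ∈ LinearMap.range (periodHomPair M) := by
    rw [hrange]; exact hpar
  have hgg0 : gg ≠ 0 := by
    rintro rfl
    rw [map_zero] at hgg
    exact hw0 hgg.symm
  have hTgg : ∀ i : {ℓ : Nat.Primes // S ℓ},
      heckeOp M 2 i.1 gg.1 = ((χ i : integralClosure ℤ ℂ) : ℂ) • gg.1 ∧
      heckeOp M 2 i.1 gg.2 = ((χ i : integralClosure ℤ ℂ) : ℂ) • gg.2 := by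
    intro i
    have h1 := hwe i
    rw [← hgg, periodHomPair_heckeOp, ← map_smul] at h1
    have h2 := hinj h1
    exact ⟨congrArg Prod.fst h2, congrArg Prod.snd h2⟩
  have hUgg : heckeOp M 2 Q (heckeOp M 2 Q gg.1) = gg.1 ∧
      heckeOp M 2 Q (heckeOp M 2 Q gg.2) = gg.2 := by
    have h1 := hwU
    rw [← hgg, periodHomPair_heckeOp, periodHomPair_heckeOp] at h1
    have h2 := hinj h1
    exact ⟨congrArg Prod.fst h2, congrArg Prod.snd h2⟩
  -- the space of cusp forms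
  let W : Submodule ℂ (CuspForm (Gamma0 M) 2) :=
    { carrier := {g | (∀ i : {ℓ : Nat.Primes // S ℓ}, heckeOp M 2 i.1 g =
          ((χ i : integralClosure ℤ ℂ) : ℂ) • g) ∧
          heckeOp M 2 Q (heckeOp M 2 Q g) = g}
      add_mem' := by
        rintro x y ⟨hx1, hx2⟩ ⟨hy1, hy2⟩
        exact ⟨fun i => by rw [map_add, hx1, hy1, smul_add], by rw [map_add, map_add, hx2, hy2]⟩
      zero_mem' := ⟨fun i => by rw [map_zero, smul_zero], by rw [map_zero, map_zero]⟩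
      smul_mem' := by
        rintro c x ⟨hx1, hx2⟩
        exact ⟨fun i => by rw [map_smul, hx1, smul_comm], by rw [map_smul, map_smul, hx2]⟩ }
  have hWmem : ∀ g, g ∈ W ↔ (∀ i : {ℓ : Nat.Primes // S ℓ}, heckeOp M 2 i.1 g =
          ((χ i : integralClosure ℤ ℂ) : ℂ) • g) ∧
          heckeOp M 2 Q (heckeOp M 2 Q g) = g := fun _ => Iff.rfl
  have hW1 : gg.1 ∈ W := ⟨fun i => (hTgg i).1, hUgg.1⟩
  have hW2 : gg.2 ∈ W := ⟨fun i => (hTgg i).2, hUgg.2⟩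
  have hWnt : Nontrivial W := by
    rw [Submodule.nontrivial_iff_ne_bot]
    intro hbot
    apply hgg0
    rw [hbot] at hW1 hW2
    exact Prod.ext hW1 hW2
  have hWstab : ∀ (r : Nat.Primes), ∀ x ∈ W, heckeOp M 2 r x ∈ W := by
    intro r x hx
    have hc : ∀ s (z : CuspForm (Gamma0 M) 2), heckeOp M 2 s (heckeOp M 2 r z) =
        heckeOp M 2 r (heckeOp M 2 s z) := fun s z =>
      LinearMap.congr_fun (heckeOp_comm (N := M) (k := 2) s r) z
    refine ⟨fun i => ?_, ?_⟩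
    · rw [hc, hx.1 i, map_smul]
    · rw [hc, hc, hx.2]
  obtain ⟨χ', g', hg'0, hg'⟩ := exists_joint_eigenvector (K := ℂ) (V := W)
    (fun r : Nat.Primes => (heckeOp M 2 r).restrict (hWstab r)) (by
      intro r s
      refine LinearMap.ext fun x => Subtype.ext ?_
      exact LinearMap.congr_fun (heckeOp_comm (N := M) (k := 2) r s) (x : CuspForm (Gamma0 M) 2))
  have hg'e : ∀ r : Nat.Primes, heckeOp M 2 r (g' : CuspForm (Gamma0 M) 2) =
      χ' r • (g' : CuspForm (Gamma0 M) 2) := fun r => congrArg Subtype.val (hg' r)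
  have hg'ne : (g' : CuspForm (Gamma0 M) 2) ≠ 0 := fun h => hg'0 (Subtype.ext h)
  obtain ⟨g, hgN, hge, hgc⟩ := exists_isNormalizedEigenform_of_eigen hg'e hg'ne
  refine ⟨g, hgN, ?_, ?_⟩
  · intro ℓ hℓ hS
    refine ⟨χ ⟨⟨ℓ, hℓ⟩, hS⟩, ?_, hχ ⟨⟨ℓ, hℓ⟩, hS⟩⟩
    rw [hgc ⟨ℓ, hℓ⟩]
    have h1 := (g'.2).1 ⟨⟨ℓ, hℓ⟩, hS⟩
    rw [hg'e] at h1
    exact (smul_left_injective ℂ hg'ne h1).symm
  · rw [hgc Q]
    have h1 := (g'.2).2
    rw [hg'e, map_smul, hg'e, smul_smul] at h1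
    have h2 : (χ' Q * χ' Q - 1) • (g' : CuspForm (Gamma0 M) 2) = 0 := by
      rw [sub_smul, h1, one_smul, sub_self]
    have h3 := (smul_eq_zero.mp h2).resolve_right hg'ne
    rw [pow_two]
    exact sub_eq_zero.mp h3

end Fermat.Agent.S41aux

end
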