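import Fermat.Agent.S41.Raise
import Fermat.Agent.S41.DualComm
import Fermat.Agent.S41.Lift
import Fermat.Agent.S41.ModVec
import Fermat.Statements.S41

/-!
# Level raising: assembly
-/

set_option autoImplicit false

noncomputable section

open CongruenceSubgroup
open scoped MatrixGroups

namespace Fermat.Agent.S41aux

open Fermat.Agent.HeckePar ModularFormClass
open Fermat.Agent.S41dual (trA trB resA resB)

/-- The kernel of the two trace maps. -/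
def kerTr {N q : ℕ} [Fact q.Prime] (hc : Nat.Coprime q N) :
    Submodule ℂ (Additive (Gamma0 (N * q)) →+ ℂ) where
  carrier := {φ | trA hc ℂ φ = 0 ∧ trB hc ℂ φ = 0}
  add_mem' := by
    rintro x y ⟨h1, h2⟩ ⟨h3, h4⟩
    exact ⟨by rw [map_add, h1, h3, add_zero], by rw [map_add, h2, h4, add_zero]⟩
  zero_mem' := ⟨map_zero _, map_zero _⟩
  smul_mem' := by
    rintro c x ⟨h1, h2⟩
    have e : c • x = (AddMonoidHom.mulLeft c).comp x := rfl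
    refine ⟨?_, ?_⟩
    · rw [e, S41dual.trA_comp, h1]
      ext; simp
    · rw [e, S41dual.trB_comp, h2]
      ext; simp

/-- **Level raising** for a system of integers which is not Eisenstein modulo `p`. -/
theorem level_raising {N q p : ℕ} [NeZero N] (hq : q.Prime) (hqN : ¬ q ∣ N) (hp : p.Prime)
    (hp2 : p ≠ 2) (𝔪 : Ideal (integralClosure ℤ ℂ)) (h𝔪 : 𝔪.IsMaximal)
    (hp𝔪 : (p : integralClosure ℤ ℂ) ∈ 𝔪) (G : ℕ → Prop) (a : ℕ → ℤ)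
    (ne1 : ∀ M : ℕ, 0 < M → ∃ ℓ : ℕ, ℓ.Prime ∧ G ℓ ∧ (M : ℤ) ∣ ℓ - 1 ∧
      ¬ (p : ℤ) ∣ a ℓ - (ℓ + 1))
    (ne2 : ∀ M : ℕ, 0 < M → ∃ ℓ : ℕ, ℓ.Prime ∧ G ℓ ∧ ¬ ℓ ∣ M ∧
      ¬ (p : ℤ) ∣ (a ℓ) ^ 2 - (ℓ + 1) ^ 2)
    (f : CuspForm (Gamma0 N) 2) (hf : f.IsNormalizedEigenform)
    (hcong : ∀ ℓ : ℕ, ℓ.Prime → G ℓ → ¬ ℓ ∣ N →
      ∃ b : integralClosure ℤ ℂ, (b : ℂ) = qCoeff f ℓ ∧
        b - ((a ℓ : ℤ) : integralClosure ℤ ℂ) ∈ 𝔪)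
    (hLR : ∃ b : integralClosure ℤ ℂ, (b : ℂ) = qCoeff f q ∧
      b ^ 2 - ((q : integralClosure ℤ ℂ) + 1) ^ 2 ∈ 𝔪) :
    ∃ g : CuspForm (Gamma0 (N * q)) 2, g.IsNormalizedEigenform ∧
      (∀ ℓ : ℕ, ℓ.Prime → G ℓ → ¬ ℓ ∣ N * q →
        ∃ b : integralClosure ℤ ℂ, (b : ℂ) = qCoeff g ℓ ∧
          b - ((a ℓ : ℤ) : integralClosure ℤ ℂ) ∈ 𝔪) ∧
      qCoeff g q ^ 2 = 1 := by
  classical
  haveI : Fact q.Prime := ⟨hq⟩
  haveI : Fact p.Prime := ⟨hp⟩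
  haveI : NeZero q := ⟨hq.ne_zero⟩
  haveI : NeZero (N * q) := ⟨mul_ne_zero (NeZero.ne N) hq.ne_zero⟩
  have hc : Nat.Coprime q N := (Nat.Prime.coprime_iff_not_dvd hq).mpr hqN
  set S : ℕ → Prop := fun ℓ => G ℓ ∧ ¬ ℓ ∣ N * q with hS
  have hSN : ∀ ℓ, S ℓ → ¬ ℓ ∣ N * q := fun ℓ h => h.2
  -- primes `ℓ ≡ 1`
  have hne1 : ∀ M : ℕ, 0 < M → ∃ ℓ : ℕ, ℓ.Prime ∧ S ℓ ∧ (M : ℤ) ∣ ℓ - 1 ∧
      ¬ (p : ℤ) ∣ a ℓ - (ℓ + 1) := by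
    intro M hM
    obtain ⟨ℓ, hℓ, hG, hd, ha⟩ := ne1 (M * (N * q)) (Nat.mul_pos hM (Nat.pos_of_ne_zero
      (NeZero.ne (N * q))))
    push_cast at hd
    refine ⟨ℓ, hℓ, ⟨hG, ?_⟩, (Dvd.intro _ rfl).trans hd, ha⟩
    intro h
    have h1 : (ℓ : ℤ) ∣ (N : ℤ) * q := by exact_mod_cast h
    have h2 : (ℓ : ℤ) ∣ ℓ - 1 := h1.trans ((Dvd.intro_left _ rfl).trans hd)
    have h3 : (ℓ : ℤ) ∣ 1 := by
      have := dvd_sub (dvd_refl (ℓ : ℤ)) h2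
      simpa using this
    exact (Nat.prime_iff_prime_int.mp hℓ).not_dvd_one h3
  have hne2 : ∀ M : ℕ, 0 < M → ∃ ℓ : ℕ, ℓ.Prime ∧ S ℓ ∧ ¬ ℓ ∣ M ∧
      ¬ (p : ℤ) ∣ (a ℓ) ^ 2 - (ℓ + 1) ^ 2 := by
    intro M hM
    obtain ⟨ℓ, hℓ, hG, hd, ha⟩ := ne2 (M * (N * q)) (Nat.mul_pos hM (Nat.pos_of_ne_zero
      (NeZero.ne (N * q))))
    exact ⟨ℓ, hℓ, ⟨hG, fun h => hd (h.mul_left M)⟩, fun h => hd (h.mul_right (N * q)), ha⟩
  have hne : NonEis (F := ZMod p) S (fun ℓ => ((a ℓ : ℤ) : ZMod p)) := by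
    constructor
    · intro M hM
      obtain ⟨ℓ, hℓ, hS, hd, ha⟩ := hne1 M hM
      refine ⟨ℓ, hℓ, hS, hd, fun h => ha ?_⟩
      rw [← ZMod.intCast_zmod_eq_zero_iff_dvd]
      push_cast
      rw [h, sub_self]
    · intro M hM
      obtain ⟨ℓ, hℓ, hS, hd, ha⟩ := hne2 M hM
      refine ⟨ℓ, hℓ, hS, hd, fun h => ha ?_⟩
      rw [← ZMod.intCast_zmod_eq_zero_iff_dvd]
      push_cast
      rw [h, sub_self]
  -- the sign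
  obtain ⟨ε, hε, b₀, hb₀, hb₀m⟩ : ∃ ε : ℤ, ε * ε = 1 ∧ ∃ b : integralClosure ℤ ℂ,
      (b : ℂ) = qCoeff f q ∧ b - ((ε * (q + 1) : ℤ) : integralClosure ℤ ℂ) ∈ 𝔪 := by
    obtain ⟨b, hb, hbm⟩ := hLR
    have h1 : (b - ((q : integralClosure ℤ ℂ) + 1)) * (b + ((q : integralClosure ℤ ℂ) + 1)) ∈ 𝔪 := by
      have : (b - ((q : integralClosure ℤ ℂ) + 1)) * (b + ((q : integralClosure ℤ ℂ) + 1)) =
        b ^ 2 - ((q : integralClosure ℤ ℂ) + 1) ^ 2 := by ring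
      rw [this]; exact hbm
    rcases h𝔪.isPrime.mem_or_mem h1 with h2 | h2
    · exact ⟨1, by norm_num, b, hb, by push_cast; rw [one_mul]; exact h2⟩
    · refine ⟨-1, by norm_num, b, hb, ?_⟩
      have : b - ((-1 * (q + 1) : ℤ) : integralClosure ℤ ℂ) =
        b + ((q : integralClosure ℤ ℂ) + 1) := by push_cast; ring
      rw [this]; exact h2
  -- the vector `ξ`
  obtain ⟨ξ, hξ0, hξ⟩ := exists_mod_eigenvector hf hp 𝔪 h𝔪.ne_top hp𝔪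
    (fun ℓ => S ℓ ∨ ℓ = q) (fun ℓ => if ℓ = q then ε * (q + 1) else a ℓ) (by
      rintro ℓ hℓ (h | h)
      · have hℓq : ℓ ≠ q := by rintro rfl; exact h.2 (dvd_mul_left _ _)
        simp only [if_neg hℓq]
        exact hcong ℓ hℓ h.1 (fun hd => h.2 (hd.mul_right q))
      · subst h
        simp only [if_pos rfl]
        exact ⟨b₀, hb₀, hb₀m⟩)
  have hξS : ∀ (ℓ : ℕ) [Fact ℓ.Prime], S ℓ → ∀ g,
      (p : ℤ) ∣ (heckeSys N ℓ).addTransfer ξ g - a ℓ * ξ g := by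
    intro ℓ hℓ h g
    have hℓq : ℓ ≠ q := by rintro rfl; exact h.2 (dvd_mul_left _ _)
    have := hξ ℓ (Or.inl h) g
    simpa only [if_neg hℓq] using this
  have hξq : ∀ g, (p : ℤ) ∣ (heckeSys N q).addTransfer ξ g - ε * (q + 1) * ξ g := by
    intro g
    have := hξ q (Or.inr rfl) g
    simpa using this
  obtain ⟨y, hyA, hyB, hy0, hy⟩ := exists_kernel_vector hc hp2 S hSN a hne
    (fun ℓ _ h φ => S41dual.hecke_trA hc h φ) (fun ℓ _ h φ => S41dual.hecke_trB hc h φ)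
    (fun ℓ _ h φ => S41dual.hecke_resA h φ) (fun ℓ _ h φ => S41dual.hecke_resB h φ)
    ε hε ξ hξ0 hξS hξq
  -- lifting
  obtain ⟨g, hg1, hg2, hg3⟩ := exists_newform_of_vector (M := N * q) (⟨q, hq⟩ : Nat.Primes) hp 𝔪 h𝔪
    hp𝔪 S hSN a hne1 (kerTr hc) (by
      rintro ℓ hSℓ φ ⟨h1, h2⟩
      haveI : Fact (ℓ : ℕ).Prime := ⟨ℓ.2⟩
      refine ⟨?_, ?_⟩
      · show trA hc ℂ ((heckeSys (N * q) (ℓ : ℕ)).addTransfer φ) = 0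
        rw [S41dual.hecke_trA hc hSℓ.2, h1, map_zero]
      · show trB hc ℂ ((heckeSys (N * q) (ℓ : ℕ)).addTransfer φ) = 0
        rw [S41dual.hecke_trB hc hSℓ.2, h2, map_zero]) (by
      rintro φ ⟨h1, h2⟩
      exact S41dual.heckeU_heckeU hc φ h1 h2) y ⟨by
        rw [S41dual.trA_comp, hyA]; ext; simp, by
        rw [S41dual.trB_comp, hyB]; ext; simp⟩ hy0 hy
  exact ⟨g, hg1, fun ℓ hℓ hG hd => hg2 ℓ hℓ ⟨hG, hd⟩, hg3⟩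

end Fermat.Agent.S41aux

end
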