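import Fermat.Agent.S41.Par

/-!
# The core of Ihara's lemma
-/

set_option autoImplicit false

open Matrix CongruenceSubgroup
open scoped MatrixGroups

namespace Fermat.Agent.S41aux

open Fermat.Agent.HeckePar

/-- quasi-invariance under all integral matrices of determinant `q ^ (2 k)` which are upper
triangular modulo `N`. -/
def QN {A : Type*} [AddCommGroup A] (N q : ℕ) (P : V2 → A) : Prop :=
  ∀ (k : ℕ) (X : Matrix (Fin 2) (Fin 2) ℤ), X.det = (q : ℤ) ^ (2 * k) → (N : ℤ) ∣ X 1 0 →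
    QIx P (toQ X)

theorem toQ_zsmul (z : ℤ) (X : Matrix (Fin 2) (Fin 2) ℤ) : toQ (z • X) = (z : ℚ) • toQ X := by
  ext i j
  rw [toQ_apply, Matrix.smul_apply, Matrix.smul_apply, toQ_apply, smul_eq_mul, smul_eq_mul]
  push_cast; rfl

section Core

variable {A : Type*} [AddCommGroup A] {N q : ℕ}

/-- invariance under `Γ(M)[1/q]`. -/
def InvQ (q M : ℕ) (P : V2 → A) : Prop :=
  ∀ (k : ℕ) (X : Matrix (Fin 2) (Fin 2) ℤ), X.det = (q : ℤ) ^ (2 * k) →
    Cong M X ((q : ℤ) ^ k • (1 : Matrix (Fin 2) (Fin 2) ℤ)) → ∀ v : V2, v ≠ 0 →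
    P (toQ X *ᵥ v) = P v

/-- boundary functions. -/
def Bd (q : ℕ) (P : V2 → A) : Prop := Homog P ∧ ∃ M : ℕ, ¬ q ∣ M ∧ InvQ q M P

theorem InvQ.of_dvd {M M' : ℕ} {P : V2 → A} (h : InvQ q M P) (hM : M ∣ M') : InvQ q M' P :=
  fun k X hX hc v hv => h k X hX (hc.of_dvd hM) v hv

theorem Bd.add (hq : q.Prime) {P Q : V2 → A} (hP : Bd q P) (hQ : Bd q Q) : Bd q (P + Q) := by
  obtain ⟨hP0, M, hM, h⟩ := hP
  obtain ⟨hQ0, M', hM', h'⟩ := hQ
  refine ⟨hP0.add hQ0, M * M', fun hd => ?_, ?_⟩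
  · rcases (Nat.Prime.dvd_mul hq).mp hd with h1 | h1
    · exact hM h1
    · exact hM' h1
  · intro k X hX hc v hv
    simp only [Pi.add_apply]
    rw [h.of_dvd (dvd_mul_right M M') k X hX hc v hv,
      h'.of_dvd (dvd_mul_left M' M) k X hX hc v hv]

theorem Bd.neg {P : V2 → A} (hP : Bd q P) : Bd q (-P) := by
  obtain ⟨hP0, M, hM, h⟩ := hP
  refine ⟨fun t v ht hv => by simp [hP0 t v ht hv], M, hM, ?_⟩
  intro k X hX hc v hv
  simp only [Pi.neg_apply]
  rw [h k X hX hc v hv]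

theorem Bd.zero (hq : q.Prime) : Bd q (0 : V2 → A) :=
  ⟨fun _ _ _ _ => rfl, 1, fun h => hq.one_lt.ne' (Nat.dvd_one.mp h), fun _ _ _ _ _ _ => rfl⟩

theorem Bd.sum (hq : q.Prime) {ι : Type*} (s : Finset ι) (P : ι → V2 → A)
    (h : ∀ i ∈ s, Bd q (P i)) : Bd q (∑ i ∈ s, P i) := by
  classical
  induction s using Finset.induction_on with
  | empty => simpa using Bd.zero hq
  | insert a s ha ih =>
    rw [Finset.sum_insert ha]
    exact (h a (Finset.mem_insert_self a s)).add hq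
      (ih fun i hi => h i (Finset.mem_insert_of_mem hi))

/-- stability under matrices of determinant prime to `q`. -/
theorem Bd.pull {P : V2 → A} (hq : q.Prime) (hP : Bd q P) (g : Matrix (Fin 2) (Fin 2) ℤ)
    (hg : ¬ (q : ℤ) ∣ g.det) : Bd q (pull P (toQ g)) := by
  have hg0 : g.det ≠ 0 := by
    intro h; exact hg (by rw [h]; exact dvd_zero _)
  have hgQ : (toQ g).det ≠ 0 := by rw [det_toQ]; exact_mod_cast hg0
  obtain ⟨hP0, M, hM, h⟩ := hP
  refine ⟨hP0.pull hgQ, M * g.det.natAbs, ?_, ?_⟩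
  · intro hd
    rcases (Nat.Prime.dvd_mul hq).mp hd with h1 | h1
    · exact hM h1
    · exact hg (Int.natCast_dvd.mpr h1)
  · intro k X hX hc v hv
    -- `X = q^k + M D Z`
    have hc' : ∀ i j, ∃ z, X i j - ((q : ℤ) ^ k • (1 : Matrix (Fin 2) (Fin 2) ℤ)) i j =
        (M : ℤ) * g.det * z := by
      intro i j
      have h1 := hc i j
      have h2 : ((M : ℤ) * g.det) ∣ ((M * g.det.natAbs : ℕ) : ℤ) := by
        push_cast
        exact mul_dvd_mul_left _ ((dvd_abs _ _).mpr dvd_rfl)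
      exact (h2.trans h1)
    choose Z hZ using hc'
    set Zm : Matrix (Fin 2) (Fin 2) ℤ := Matrix.of fun i j => Z i j with hZm
    have hXZ : X = (q : ℤ) ^ k • (1 : Matrix (Fin 2) (Fin 2) ℤ) + ((M : ℤ) * g.det) • Zm := by
      ext i j
      have := hZ i j
      simp only [Matrix.add_apply, Matrix.smul_apply, hZm, Matrix.of_apply, smul_eq_mul] at this ⊢
      linear_combination this
    set Y : Matrix (Fin 2) (Fin 2) ℤ := (q : ℤ) ^ k • (1 : Matrix (Fin 2) (Fin 2) ℤ) +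
      (M : ℤ) • (g * Zm * g.adjugate) with hY
    have hYg : Y * g = g * X := by
      rw [hY, hXZ, Matrix.add_mul, Matrix.mul_add, Matrix.smul_mul, Matrix.one_mul,
        Matrix.mul_smul, Matrix.mul_one, Matrix.smul_mul, Matrix.mul_assoc (g * Zm),
        Matrix.adjugate_mul, Matrix.mul_smul, Matrix.mul_smul, Matrix.mul_one, smul_smul]
    have hYdet : Y.det = (q : ℤ) ^ (2 * k) := by
      apply mul_right_cancel₀ hg0
      rw [← Matrix.det_mul, hYg, Matrix.det_mul, hX, mul_comm]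
    have hYc : Cong M Y ((q : ℤ) ^ k • (1 : Matrix (Fin 2) (Fin 2) ℤ)) := by
      intro i j
      refine ⟨(g * Zm * g.adjugate) i j, ?_⟩
      rw [hY, Matrix.add_apply, Matrix.smul_apply (M : ℤ), smul_eq_mul]
      ring
    rw [pull_apply, pull_apply, Matrix.mulVec_mulVec, ← toQ_mul, ← hYg, toQ_mul,
      ← Matrix.mulVec_mulVec]
    exact h k Y hYdet hYc _ (mulVec_ne_zero hgQ hv)

/-- the matrix `diag(q², 1)`. -/
def hZ (q : ℕ) : Matrix (Fin 2) (Fin 2) ℤ := !![(q : ℤ) ^ 2, 0; 0, 1]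

/-- stability under `diag(q², 1)`. -/
theorem det_hZ_ne (hq : q.Prime) : (toQ (hZ q)).det ≠ 0 := by
  rw [det_toQ, hZ, Matrix.det_fin_two_of]
  have := hq.ne_zero
  simpa using this

/-- conjugation of quasi-invariance by `diag(q², 1)`. -/
theorem h_conj (hq : q.Prime) {P : V2 → A} (hP0 : Homog P) {c : A} (X : Matrix (Fin 2) (Fin 2) ℤ)
    (hX : X.det ≠ 0)
    (hY : QI P (toQ !![(q : ℤ) ^ 2 * X 0 0, (q : ℤ) ^ 4 * X 0 1; X 1 0, (q : ℤ) ^ 2 * X 1 1]) c) :
    QI (Fermat.Agent.S41aux.pull P (toQ (hZ q))) (toQ X) c := by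
  have hqQ : (q : ℚ) ≠ 0 := by exact_mod_cast hq.ne_zero
  have h1 : (q : ℤ) ^ 2 • (hZ q * X) =
      !![(q : ℤ) ^ 2 * X 0 0, (q : ℤ) ^ 4 * X 0 1; X 1 0, (q : ℤ) ^ 2 * X 1 1] * hZ q := by
    rw [hZ]
    conv_lhs => rw [eta_mat X]
    rw [Matrix.mul_fin_two, Matrix.mul_fin_two]
    ext i j
    fin_cases i <;> fin_cases j <;> simp <;> ring
  have hXQ : (toQ X).det ≠ 0 := by rw [det_toQ]; exact_mod_cast hX
  intro v hv
  rw [pull_apply, pull_apply]
  have hne : toQ (hZ q) *ᵥ (toQ X *ᵥ v) ≠ 0 :=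
    mulVec_ne_zero (det_hZ_ne hq) (mulVec_ne_zero hXQ hv)
  have h2 : ((q : ℚ) ^ 2) • (toQ (hZ q) *ᵥ (toQ X *ᵥ v)) =
      toQ !![(q : ℤ) ^ 2 * X 0 0, (q : ℤ) ^ 4 * X 0 1; X 1 0, (q : ℤ) ^ 2 * X 1 1] *ᵥ
        (toQ (hZ q) *ᵥ v) := by
    rw [Matrix.mulVec_mulVec, Matrix.mulVec_mulVec, ← toQ_mul, ← toQ_mul, ← h1,
      ← Matrix.smul_mulVec, toQ_zsmul]
    push_cast
    rfl
  rw [← hP0 ((q : ℚ) ^ 2) _ (pow_ne_zero 2 hqQ) hne, h2]
  exact hY _ (mulVec_ne_zero (det_hZ_ne hq) hv)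

theorem Bd.pull_h {P : V2 → A} (hq : q.Prime) (hP : Bd q P) : Bd q (Fermat.Agent.S41aux.pull P (toQ (hZ q))) := by
  obtain ⟨hP0, M, hM, h⟩ := hP
  refine ⟨hP0.pull (det_hZ_ne hq), M, hM, ?_⟩
  intro k X hX hc v hv
  have hX0 : X.det ≠ 0 := by rw [hX]; exact pow_ne_zero _ (by exact_mod_cast hq.ne_zero)
  have hY : QI P (toQ !![(q : ℤ) ^ 2 * X 0 0, (q : ℤ) ^ 4 * X 0 1; X 1 0, (q : ℤ) ^ 2 * X 1 1])
      (0 : A) := by
    intro w hw
    rw [add_zero]
    refine h (k + 2) _ ?_ ?_ w hw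
    · rw [Matrix.det_fin_two_of]
      rw [Matrix.det_fin_two] at hX
      have : (q : ℤ) ^ (2 * (k + 2)) = (q : ℤ) ^ 4 * (q : ℤ) ^ (2 * k) := by
        rw [← pow_add]; congr 1; ring
      rw [this, ← hX]; ring
    · have h00 := hc 0 0
      have h01 := hc 0 1
      have h10 := hc 1 0
      have h11 := hc 1 1
      simp at h00 h01 h10 h11
      intro i j
      fin_cases i <;> fin_cases j <;> simp
      · have := dvd_mul_of_dvd_right h00 ((q : ℤ) ^ 2)
        have e : (q : ℤ) ^ 2 * X 0 0 - (q : ℤ) ^ (k + 2) = (q : ℤ) ^ 2 * (X 0 0 - (q : ℤ) ^ k) := by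
          rw [pow_add]; ring
        rw [e]; exact this
      · exact dvd_mul_of_dvd_right h01 _
      · exact h10
      · have := dvd_mul_of_dvd_right h11 ((q : ℤ) ^ 2)
        have e : (q : ℤ) ^ 2 * X 1 1 - (q : ℤ) ^ (k + 2) = (q : ℤ) ^ 2 * (X 1 1 - (q : ℤ) ^ k) := by
          rw [pow_add]; ring
        rw [e]; exact this
  have := h_conj hq hP0 X hX0 hY v hv
  rwa [add_zero] at this

/-! ### Serre's trick: `P ∘ g ∘ h - P ∘ g` is a boundary function -/

theorem serre_bd (hq : q.Prime) (hqN : ¬ q ∣ N) {P : V2 → A} (hP0 : Homog P)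
    (hP : QN N q P) (g : Matrix (Fin 2) (Fin 2) ℤ) (hg : ¬ (q : ℤ) ∣ g.det) :
    Bd q (pull P (toQ g * toQ (hZ q)) - pull P (toQ g)) := by
  have hqZ0 : (q : ℤ) ≠ 0 := by exact_mod_cast hq.ne_zero
  have hqQ : (q : ℚ) ≠ 0 := by exact_mod_cast hq.ne_zero
  have hg0 : g.det ≠ 0 := by
    intro h; exact hg (by rw [h]; exact dvd_zero _)
  have hgQ : (toQ g).det ≠ 0 := by rw [det_toQ]; exact_mod_cast hg0
  have hN0 : N ≠ 0 := by rintro rfl; exact hqN (dvd_zero _)
  set M₀ : ℕ := if q = 2 then 3 else 4 with hM₀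
  have hqM₀ : ¬ q ∣ M₀ := by
    rw [hM₀]
    split_ifs with h2
    · rw [h2]; decide
    · intro h
      have h3 : q ∣ 2 ^ 2 := by simpa using h
      exact h2 ((Nat.prime_dvd_prime_iff_eq hq Nat.prime_two).mp (hq.dvd_of_dvd_pow h3))
  set M : ℕ := M₀ * (N * g.det.natAbs) with hM
  have hqM : ¬ q ∣ M := by
    intro hd
    rcases (Nat.Prime.dvd_mul hq).mp hd with h1 | h1
    · exact hqM₀ h1
    · rcases (Nat.Prime.dvd_mul hq).mp h1 with h2 | h2
      · exact hqN h2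
      · exact hg (Int.natCast_dvd.mpr h2)
  have hND : 1 ≤ N * g.det.natAbs :=
    Nat.one_le_iff_ne_zero.mpr (mul_ne_zero hN0 (Int.natAbs_ne_zero.mpr hg0))
  have hM2 : 2 ≤ M := by
    have : 2 ≤ M₀ := by rw [hM₀]; split_ifs <;> omega
    calc 2 ≤ M₀ := this
      _ = M₀ * 1 := (mul_one _).symm
      _ ≤ M := Nat.mul_le_mul_left _ hND
  have hM4 : 2 ∣ M → 4 ∣ M := by
    intro h
    by_cases h2 : q = 2
    · rw [← h2] at h; exact absurd h hqM
    · rw [hM, hM₀, if_neg h2]; exact dvd_mul_right _ _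
  set Pg := pull P (toQ g) with hPg
  have hPg0 : Homog Pg := hP0.pull hgQ
  -- quasi-invariance of `Pg`
  have hQ : ∀ (k : ℕ) (X : Matrix (Fin 2) (Fin 2) ℤ), X.det = (q : ℤ) ^ (2 * k) →
      Cong M X ((q : ℤ) ^ k • (1 : Matrix (Fin 2) (Fin 2) ℤ)) → QIx Pg (toQ X) := by
    intro k X hX hc
    have hc' : ∀ i j, ∃ z, X i j - ((q : ℤ) ^ k • (1 : Matrix (Fin 2) (Fin 2) ℤ)) i j =
        (N : ℤ) * g.det * z := by
      intro i j
      have h1 := hc i j
      have h2 : ((N : ℤ) * g.det) ∣ (M : ℤ) := by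
        rw [hM]
        push_cast
        exact Dvd.dvd.mul_left (mul_dvd_mul_left _ ((dvd_abs _ _).mpr dvd_rfl)) _
      exact (h2.trans h1)
    choose Z hZ using hc'
    set Zm : Matrix (Fin 2) (Fin 2) ℤ := Matrix.of fun i j => Z i j with hZm
    have hXZ : X = (q : ℤ) ^ k • (1 : Matrix (Fin 2) (Fin 2) ℤ) + ((N : ℤ) * g.det) • Zm := by
      ext i j
      have := hZ i j
      simp only [Matrix.add_apply, Matrix.smul_apply, hZm, Matrix.of_apply, smul_eq_mul] at this ⊢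
      linear_combination this
    set Y : Matrix (Fin 2) (Fin 2) ℤ := (q : ℤ) ^ k • (1 : Matrix (Fin 2) (Fin 2) ℤ) +
      (N : ℤ) • (g * Zm * g.adjugate) with hY
    have hYg : Y * g = g * X := by
      rw [hY, hXZ, Matrix.add_mul, Matrix.mul_add, Matrix.smul_mul, Matrix.one_mul,
        Matrix.mul_smul, Matrix.mul_one, Matrix.smul_mul, Matrix.mul_assoc (g * Zm),
        Matrix.adjugate_mul, Matrix.mul_smul, Matrix.mul_smul, Matrix.mul_one, smul_smul]
    have hYdet : Y.det = (q : ℤ) ^ (2 * k) := by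
      apply mul_right_cancel₀ hg0
      rw [← Matrix.det_mul, hYg, Matrix.det_mul, hX, mul_comm]
    have hYc : (N : ℤ) ∣ Y 1 0 := by
      refine ⟨(g * Zm * g.adjugate) 1 0, ?_⟩
      rw [hY, Matrix.add_apply, Matrix.smul_apply (N : ℤ), smul_eq_mul]
      simp
    obtain ⟨c, hc⟩ := hP k Y hYdet hYc
    refine ⟨c, QI.pull hgQ hc ?_⟩
    rw [← toQ_mul, ← toQ_mul, hYg]
  -- Serre's invariance
  have he1 : (![1, 0] : V2) ≠ 0 := by
    intro h0
    have := congrFun h0 0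
    simp at this
  have he2 : (![0, 1] : V2) ≠ 0 := by
    intro h0
    have := congrFun h0 1
    simp at this
  have hvne : ∀ x y : ℚ, (x ≠ 0 ∨ y ≠ 0) → (![x, y] : V2) ≠ 0 := by
    intro x y h h0
    have h1 := congrFun h0 0
    have h2 := congrFun h0 1
    simp at h1 h2
    rcases h with h | h
    · exact h h1
    · exact h h2
  have hSI : SerreInv q M (fun x y => Pg ![x, y]) := by
    constructor
    · intro t x y ht hxy
      have := hPg0 t ![x, y] ht (hvne x y hxy)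
      rw [← this]
      congr 1
      ext i; fin_cases i <;> simp
    · intro i z x y hxy
      show Pg ![x + (M * i * (q : ℚ) ^ z) * y, y] = Pg ![x, y]
      -- the matrix
      obtain ⟨k, m, hk, hkm⟩ : ∃ (k : ℕ) (m : ℤ), (M : ℤ) ∣ m ∧
          (M * i * (q : ℚ) ^ z) * (q : ℚ) ^ k = m := by
        obtain ⟨n, rfl | rfl⟩ := z.eq_nat_or_neg
        · exact ⟨0, M * (i * q ^ n), Dvd.intro _ rfl, by push_cast; rw [zpow_natCast]; ring⟩
        · refine ⟨n, M * i, Dvd.intro _ rfl, ?_⟩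
          rw [mul_assoc, _root_.zpow_neg, zpow_natCast, inv_mul_cancel₀ (pow_ne_zero _ hqQ)]
          push_cast; ring
      obtain ⟨c, hc⟩ := hQ k !![(q : ℤ) ^ k, m; 0, (q : ℤ) ^ k]
        (by rw [Matrix.det_fin_two_of]; ring) (by
          intro i j
          fin_cases i <;> fin_cases j <;> simp [hk])
      have hqk : ((q : ℚ) ^ k) ≠ 0 := pow_ne_zero _ hqQ
      have hc0 : c = 0 := hc.eq_zero_of_fixed hPg0 he1 hqk (by
        ext i; fin_cases i <;> simp [Matrix.mulVec, dotProduct, Fin.sum_univ_two])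
      rw [hc0] at hc
      have h1 := hc ![x, y] (hvne x y hxy)
      rw [add_zero] at h1
      rw [← h1, ← hPg0 ((q : ℚ) ^ k) ![x + (M * i * (q : ℚ) ^ z) * y, y] hqk]
      · congr 1
        ext j; fin_cases j
        · simp [Matrix.mulVec, dotProduct, Fin.sum_univ_two]
          rw [← hkm]; ring
        · simp [Matrix.mulVec, dotProduct, Fin.sum_univ_two]
      · apply hvne
        by_cases hy : y = 0
        · left
          rw [hy, mul_zero, add_zero]
          exact hxy.resolve_right (not_not.mpr hy)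
        · exact Or.inr hy
    · intro i z x y hxy
      show Pg ![x, y + (M * i * (q : ℚ) ^ z) * x] = Pg ![x, y]
      obtain ⟨k, m, hk, hkm⟩ : ∃ (k : ℕ) (m : ℤ), (M : ℤ) ∣ m ∧
          (M * i * (q : ℚ) ^ z) * (q : ℚ) ^ k = m := by
        obtain ⟨n, rfl | rfl⟩ := z.eq_nat_or_neg
        · exact ⟨0, M * (i * q ^ n), Dvd.intro _ rfl, by push_cast; rw [zpow_natCast]; ring⟩
        · refine ⟨n, M * i, Dvd.intro _ rfl, ?_⟩
          rw [mul_assoc, _root_.zpow_neg, zpow_natCast, inv_mul_cancel₀ (pow_ne_zero _ hqQ)]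
          push_cast; ring
      obtain ⟨c, hc⟩ := hQ k !![(q : ℤ) ^ k, 0; m, (q : ℤ) ^ k]
        (by rw [Matrix.det_fin_two_of]; ring) (by
          intro i j
          fin_cases i <;> fin_cases j <;> simp [hk])
      have hqk : ((q : ℚ) ^ k) ≠ 0 := pow_ne_zero _ hqQ
      have hc0 : c = 0 := hc.eq_zero_of_fixed hPg0 he2 hqk (by
        ext i; fin_cases i <;> simp [Matrix.mulVec, dotProduct, Fin.sum_univ_two])
      rw [hc0] at hc
      have h1 := hc ![x, y] (hvne x y hxy)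
      rw [add_zero] at h1
      rw [← h1, ← hPg0 ((q : ℚ) ^ k) ![x, y + (M * i * (q : ℚ) ^ z) * x] hqk]
      · congr 1
        ext j; fin_cases j
        · simp [Matrix.mulVec, dotProduct, Fin.sum_univ_two]
        · simp [Matrix.mulVec, dotProduct, Fin.sum_univ_two]
          rw [← hkm]; ring
      · apply hvne
        by_cases hx : x = 0
        · right
          rw [hx, mul_zero, add_zero]
          exact hxy.resolve_left (not_not.mpr hx)
        · exact Or.inl hx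
    · intro n hn x y hxy
      show Pg ![(q : ℚ) ^ (2 * (n : ℤ)) * x, y] = Pg ![x, y]
      have hn' : (M : ℤ) ∣ (q : ℤ) ^ n - 1 := by
        have h1 : (q ^ n : ℕ) ≡ 1 [MOD M] := hn
        have h2 := (Nat.modEq_iff_dvd.mp h1.symm)
        push_cast at h2
        exact h2
      obtain ⟨c, hc⟩ := hQ n !![(q : ℤ) ^ (2 * n), 0; 0, 1]
        (by rw [Matrix.det_fin_two_of]; ring) (by
          intro i j
          fin_cases i <;> fin_cases j <;> simp
          · have e : (q : ℤ) ^ (2 * n) - (q : ℤ) ^ n = (q : ℤ) ^ n * ((q : ℤ) ^ n - 1) := by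
              rw [two_mul, pow_add]; ring
            rw [e]; exact dvd_mul_of_dvd_right hn' _
          · rw [← dvd_neg, neg_sub]; exact hn')
      have hqk : ((q : ℚ) ^ (2 * n)) ≠ 0 := pow_ne_zero _ hqQ
      have hc0 : c = 0 := hc.eq_zero_of_fixed hPg0 he1 hqk (by
        ext i; fin_cases i <;> simp [Matrix.mulVec, dotProduct, Fin.sum_univ_two])
      rw [hc0] at hc
      have h1 := hc ![x, y] (hvne x y hxy)
      rw [add_zero] at h1
      rw [← h1]
      congr 1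
      ext j; fin_cases j
      · simp [Matrix.mulVec, dotProduct, Fin.sum_univ_two]
        left
        exact_mod_cast rfl
      · simp [Matrix.mulVec, dotProduct, Fin.sum_univ_two]
  have hpull : pull P (toQ g * toQ (hZ q)) = pull Pg (toQ (hZ q)) := by
    rw [hPg, pull_pull]
  rw [hpull]
  refine ⟨(hPg0.pull (det_hZ_ne hq)).sub hPg0, M, hqM, ?_⟩
  intro k X hX hc v hv
  have hX0 : X.det ≠ 0 := by rw [hX]; exact pow_ne_zero _ hqZ0
  obtain ⟨c₁, hc₁⟩ := hQ k X hX hc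
  obtain ⟨c₂, hc₂⟩ := hQ (k + 2)
    !![(q : ℤ) ^ 2 * X 0 0, (q : ℤ) ^ 4 * X 0 1; X 1 0, (q : ℤ) ^ 2 * X 1 1] (by
      rw [Matrix.det_fin_two_of]
      rw [Matrix.det_fin_two] at hX
      have : (q : ℤ) ^ (2 * (k + 2)) = (q : ℤ) ^ 4 * (q : ℤ) ^ (2 * k) := by
        rw [← pow_add]; congr 1; ring
      rw [this, ← hX]; ring) (by
      have h00 := hc 0 0
      have h01 := hc 0 1
      have h10 := hc 1 0
      have h11 := hc 1 1
      simp at h00 h01 h10 h11
      intro i j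
      fin_cases i <;> fin_cases j <;> simp
      · have := dvd_mul_of_dvd_right h00 ((q : ℤ) ^ 2)
        have e : (q : ℤ) ^ 2 * X 0 0 - (q : ℤ) ^ (k + 2) = (q : ℤ) ^ 2 * (X 0 0 - (q : ℤ) ^ k) := by
          rw [pow_add]; ring
        rw [e]; exact this
      · exact dvd_mul_of_dvd_right h01 _
      · exact h10
      · have := dvd_mul_of_dvd_right h11 ((q : ℤ) ^ 2)
        have e : (q : ℤ) ^ 2 * X 1 1 - (q : ℤ) ^ (k + 2) = (q : ℤ) ^ 2 * (X 1 1 - (q : ℤ) ^ k) := by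
          rw [pow_add]; ring
        rw [e]; exact this)
  have hc₂' := h_conj hq hPg0 X hX0 hc₂
  have hdiff := hc₂'.sub hc₁
  -- the constant vanishes
  have hcc : c₂ - c₁ = 0 := by
    have h1 := hdiff ![1, 0] he1
    have h2 : (pull Pg (toQ (hZ q)) - Pg) ![1, 0] = 0 := by
      simp only [Pi.sub_apply, pull_apply]
      have e : toQ (hZ q) *ᵥ ![1, 0] = ((q : ℚ) ^ 2) • (![1, 0] : V2) := by
        ext i; fin_cases i <;> simp [hZ, Matrix.mulVec, dotProduct, Fin.sum_univ_two]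
      rw [e, hPg0 _ _ (pow_ne_zero 2 hqQ) he1, sub_self]
    have h3 : (pull Pg (toQ (hZ q)) - Pg) (toQ X *ᵥ ![1, 0]) = 0 := by
      simp only [Pi.sub_apply, pull_apply]
      have e1 : toQ X *ᵥ ![1, 0] = ![((X 0 0 : ℤ) : ℚ), ((X 1 0 : ℤ) : ℚ)] := by
        ext i; fin_cases i <;> simp [Matrix.mulVec, dotProduct, Fin.sum_univ_two]
      have e2 : toQ (hZ q) *ᵥ ![((X 0 0 : ℤ) : ℚ), ((X 1 0 : ℤ) : ℚ)] =
          ![(q : ℚ) ^ 2 * ((X 0 0 : ℤ) : ℚ), ((X 1 0 : ℤ) : ℚ)] := by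
        ext i; fin_cases i <;> simp [hZ, Matrix.mulVec, dotProduct, Fin.sum_univ_two]
      rw [e1, e2]
      -- scale by `q ^ j`
      obtain ⟨j, hj⟩ : ∃ j : ℕ, (M : ℤ) ∣ (q : ℤ) ^ (j + k) - 1 := by
        have h4 : q ^ Nat.totient M ≡ 1 [MOD M] :=
          Nat.ModEq.pow_totient ((Nat.Prime.coprime_iff_not_dvd hq).mpr hqM)
        have htot : 1 ≤ Nat.totient M := Nat.totient_pos.mpr (by omega)
        refine ⟨(Nat.totient M - 1) * k, ?_⟩
        have h5 : (Nat.totient M - 1) * k + k = Nat.totient M * k := by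
          rw [← Nat.succ_mul]; congr 1; omega
        rw [h5, pow_mul]
        have h6 := (h4.pow k)
        rw [one_pow] at h6
        have h7 := Nat.modEq_iff_dvd.mp h6.symm
        push_cast at h7
        exact h7
      have hqj : ((q : ℚ) ^ j) ≠ 0 := pow_ne_zero _ hqQ
      have h10 := hc 1 0
      have h00 := hc 0 0
      simp at h10 h00
      have hser := serre_unimodular hq hqM hM2 hM4 hSI ((q : ℤ) ^ j * X 0 0) ((q : ℤ) ^ j * X 1 0)
        ((q : ℤ) ^ j * X 0 1) ((q : ℤ) ^ j * X 1 1) (2 * j + 2 * k) (by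
          rw [Matrix.det_fin_two] at hX
          rw [pow_add, ← hX]; ring) (by
          have e3 : (q : ℤ) ^ j * X 0 0 - 1 = (q : ℤ) ^ j * (X 0 0 - (q : ℤ) ^ k) +
            ((q : ℤ) ^ (j + k) - 1) := by rw [pow_add]; ring
          have h8 : (M : ℤ) ∣ (q : ℤ) ^ j * X 0 0 - 1 := by
            rw [e3]; exact dvd_add (dvd_mul_of_dvd_right h00 _) hj
          exact (Int.modEq_iff_dvd.mpr h8).symm) (dvd_mul_of_dvd_right h10 _)
      have hXcol : (((X 0 0 : ℤ) : ℚ) ≠ 0 ∨ ((X 1 0 : ℤ) : ℚ) ≠ 0) := by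
        by_contra hcon
        push Not at hcon
        apply hX0
        rw [Matrix.det_fin_two]
        have h9 : X 0 0 = 0 := by exact_mod_cast hcon.1
        have h9' : X 1 0 = 0 := by exact_mod_cast hcon.2
        rw [h9, h9']; ring
      have e4 : Pg ![(q : ℚ) ^ 2 * ((X 0 0 : ℤ) : ℚ), ((X 1 0 : ℤ) : ℚ)] =
          Pg ![(q : ℚ) ^ 2 * (((q : ℤ) ^ j * X 0 0 : ℤ) : ℚ), (((q : ℤ) ^ j * X 1 0 : ℤ) : ℚ)] := by
        rw [← hPg0 ((q : ℚ) ^ j) ![(q : ℚ) ^ 2 * ((X 0 0 : ℤ) : ℚ), ((X 1 0 : ℤ) : ℚ)] hqj]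
        · congr 1
          ext i; fin_cases i
          · simp; ring
          · simp
        · apply hvne
          rcases hXcol with h | h
          · exact Or.inl (mul_ne_zero (pow_ne_zero 2 hqQ) h)
          · exact Or.inr h
      have e5 : Pg ![((X 0 0 : ℤ) : ℚ), ((X 1 0 : ℤ) : ℚ)] =
          Pg ![(((q : ℤ) ^ j * X 0 0 : ℤ) : ℚ), (((q : ℤ) ^ j * X 1 0 : ℤ) : ℚ)] := by
        rw [← hPg0 ((q : ℚ) ^ j) ![((X 0 0 : ℤ) : ℚ), ((X 1 0 : ℤ) : ℚ)] hqj (hvne _ _ hXcol)]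
        congr 1
        ext i; fin_cases i
        · simp
        · simp
      rw [e4, e5]
      exact sub_eq_zero.mpr hser
    rw [h3, h2, zero_add] at h1
    exact h1.symm
  have h1 := hdiff v hv
  rw [hcc, add_zero] at h1
  exact h1

end Core

end Fermat.Agent.S41aux
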