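import Mathlib.Data.Matrix.Mul
import Mathlib.LinearAlgebra.Matrix.Determinant.Basic
import Mathlib.LinearAlgebra.Matrix.NonsingularInverse
import Mathlib.Algebra.BigOperators.Finprod
import Mathlib.Data.Int.Interval
import Mathlib.Data.Int.Order.Basic
import Mathlib.Tactic

/-!
# Elementary intersection numbers on the upper half plane

For integral vectors `a b`, `sg a b = sign (det (a, b)) * sign ⟨a, b⟩` tells on which side of the
geodesic from `a` to `b` the point `i` lies.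
-/

set_option autoImplicit false

namespace Fermat.Agent.S41dual

open Matrix

/-- integral vectors -/
abbrev V2 : Type := Fin 2 → ℤ

/-- integral matrices -/
abbrev M2 : Type := Matrix (Fin 2) (Fin 2) ℤ

/-- determinant of a pair of vectors -/
def dt (a b : V2) : ℤ := a 0 * b 1 - a 1 * b 0

/-- scalar product -/
def ip (a b : V2) : ℤ := a 0 * b 0 + a 1 * b 1

/-- side of `i` with respect to the geodesic from `a` to `b`. -/
def sg (a b : V2) : ℤ := (dt a b).sign * (ip a b).sign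

theorem dt_swap (a b : V2) : dt b a = - dt a b := by simp only [dt]; ring

theorem ip_comm (a b : V2) : ip b a = ip a b := by simp only [ip]; ring

theorem sg_swap (a b : V2) : sg b a = - sg a b := by
  rw [sg, sg, dt_swap, ip_comm, Int.sign_neg, neg_mul]

theorem dt_smul_left (n : ℤ) (a b : V2) : dt (n • a) b = n * dt a b := by
  simp only [dt, Pi.smul_apply, smul_eq_mul]; ring

theorem ip_smul_left (n : ℤ) (a b : V2) : ip (n • a) b = n * ip a b := by
  simp only [ip, Pi.smul_apply, smul_eq_mul]; ring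

theorem sign_mul_self {n : ℤ} (hn : n ≠ 0) : n.sign * n.sign = 1 := by
  rcases lt_trichotomy n 0 with h | h | h
  · rw [Int.sign_eq_neg_one_of_neg h]; norm_num
  · exact absurd h hn
  · rw [Int.sign_eq_one_of_pos h]; norm_num

theorem sg_smul_left {n : ℤ} (hn : n ≠ 0) (a b : V2) : sg (n • a) b = sg a b := by
  rw [sg, sg, dt_smul_left, ip_smul_left, Int.sign_mul, Int.sign_mul]
  have := sign_mul_self hn
  linear_combination ((dt a b).sign * (ip a b).sign) * this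

theorem sg_smul_right {n : ℤ} (hn : n ≠ 0) (a b : V2) : sg a (n • b) = sg a b := by
  rw [sg_swap, sg_smul_left hn, sg_swap a b]; ring

theorem sg_smul_smul {n : ℤ} (hn : n ≠ 0) (a b : V2) : sg (n • a) (n • b) = sg a b := by
  rw [sg_smul_left hn, sg_smul_right hn]

@[simp] theorem sg_self (a : V2) : sg a a = 0 := by
  have : dt a a = 0 := by simp only [dt]; ring
  rw [sg, this, Int.sign_zero, zero_mul]

theorem dt_mulVec (W : M2) (a b : V2) : dt (W *ᵥ a) (W *ᵥ b) = W.det * dt a b := by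
  simp only [dt, Matrix.mulVec, dotProduct, Fin.sum_univ_two, Matrix.det_fin_two]
  ring

/-- mixed discriminant of the two quadratic forms `|W₁ u|²`, `|W₂ u|²`. -/
def mixed (W₁ W₂ : M2) : ℤ :=
  (W₁ 0 0 ^ 2 + W₁ 1 0 ^ 2) * (W₂ 0 1 ^ 2 + W₂ 1 1 ^ 2) +
    (W₂ 0 0 ^ 2 + W₂ 1 0 ^ 2) * (W₁ 0 1 ^ 2 + W₁ 1 1 ^ 2) -
    2 * (W₁ 0 0 * W₁ 0 1 + W₁ 1 0 * W₁ 1 1) * (W₂ 0 0 * W₂ 0 1 + W₂ 1 0 * W₂ 1 1)

theorem mixed_identity (W₁ W₂ : M2) (u v : V2) :
    ip (W₁ *ᵥ u) (W₁ *ᵥ u) * ip (W₂ *ᵥ v) (W₂ *ᵥ v) +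
      ip (W₂ *ᵥ u) (W₂ *ᵥ u) * ip (W₁ *ᵥ v) (W₁ *ᵥ v) =
    2 * (ip (W₁ *ᵥ u) (W₁ *ᵥ v) * ip (W₂ *ᵥ u) (W₂ *ᵥ v)) + dt u v ^ 2 * mixed W₁ W₂ := by
  simp only [ip, dt, mixed, Matrix.mulVec, dotProduct, Fin.sum_univ_two]
  ring

theorem ip_self_nonneg (u : V2) : 0 ≤ ip u u := by
  simp only [ip]; nlinarith [mul_self_nonneg (u 0), mul_self_nonneg (u 1)]

theorem ip_self_pos {u : V2} (hu : u ≠ 0) : 0 < ip u u := by
  rcases (ip_self_nonneg u).lt_or_eq with h | h
  · exact h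
  · exfalso
    apply hu
    have h0 : u 0 * u 0 + u 1 * u 1 = 0 := h.symm
    have h1 : u 0 = 0 := by nlinarith [mul_self_nonneg (u 0), mul_self_nonneg (u 1)]
    have h2 : u 1 = 0 := by nlinarith [mul_self_nonneg (u 0), mul_self_nonneg (u 1)]
    ext i; fin_cases i <;> simp [h1, h2]

theorem mulVec_ne_zero {W : M2} (hW : W.det ≠ 0) {u : V2} (hu : u ≠ 0) : W *ᵥ u ≠ 0 := by
  intro h
  exact hu (Matrix.eq_zero_of_mulVec_eq_zero hW h)

theorem ne_zero_left_of_dt {a b : V2} (h : dt a b ≠ 0) : a ≠ 0 := by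
  rintro rfl; exact h (by simp [dt])

theorem ne_zero_right_of_dt {a b : V2} (h : dt a b ≠ 0) : b ≠ 0 := by
  rintro rfl; exact h (by simp [dt])

theorem sg_eq_zero_of_dt {a b : V2} (h : dt a b = 0) : sg a b = 0 := by
  rw [sg, h, Int.sign_zero, zero_mul]

/-- coordinates of a vector of norm at most `K` are at most `K`. -/
theorem coord_le_of_ip_le {u : V2} {K : ℤ} (h : ip u u ≤ K) (i : Fin 2) : u i ∈ Set.Icc (-K) K := by
  have h0 : u 0 * u 0 + u 1 * u 1 ≤ K := h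
  have key : ∀ t : ℤ, t * t ≤ K → t ∈ Set.Icc (-K) K := by
    intro t ht
    constructor
    · nlinarith [mul_self_nonneg (t + 1), mul_self_nonneg t]
    · nlinarith [mul_self_nonneg (t - 1), mul_self_nonneg t]
  apply key
  fin_cases i
  · have : u 0 * u 0 ≤ K := by nlinarith [mul_self_nonneg (u 1)]
    exact this
  · have : u 1 * u 1 ≤ K := by nlinarith [mul_self_nonneg (u 0)]
    exact this

theorem finite_ip_le (K : ℤ) : {u : V2 | ip u u ≤ K}.Finite := by
  refine (Set.Finite.pi' (fun _ : Fin 2 => Set.finite_Icc (-K) K)).subset ?_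
  intro u hu i
  exact coord_le_of_ip_le hu i

/-- A matrix is determined by the images of two independent vectors. -/
theorem eq_of_mulVec_eq {a b : V2} (hab : dt a b ≠ 0) {x y : M2} (h1 : x *ᵥ a = y *ᵥ a)
    (h2 : x *ᵥ b = y *ᵥ b) : x = y := by
  have key : ∀ i, x i 0 = y i 0 ∧ x i 1 = y i 1 := by
    intro i
    have e1 := congrFun h1 i
    have e2 := congrFun h2 i
    simp only [Matrix.mulVec, dotProduct, Fin.sum_univ_two] at e1 e2
    constructor
    · have : (x i 0 - y i 0) * dt a b = 0 := by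
        simp only [dt]; linear_combination (b 1) * e1 - (a 1) * e2
      exact sub_eq_zero.mp ((mul_eq_zero.mp this).resolve_right hab)
    · have : (x i 1 - y i 1) * dt a b = 0 := by
        simp only [dt]; linear_combination (a 0) * e2 - (b 0) * e1
      exact sub_eq_zero.mp ((mul_eq_zero.mp this).resolve_right hab)
  ext i j
  fin_cases j
  · exact (key i).1
  · exact (key i).2

/-- Finiteness principle: matrices mapping two independent vectors to bounded vectors. -/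
theorem finite_of_bounded {a b : V2} (hab : dt a b ≠ 0) (K : ℤ) :
    {y : M2 | ip (y *ᵥ a) (y *ᵥ a) ≤ K ∧ ip (y *ᵥ b) (y *ᵥ b) ≤ K}.Finite := by
  refine Set.Finite.of_finite_image (f := fun y : M2 => (y *ᵥ a, y *ᵥ b)) ?_ ?_
  · refine ((finite_ip_le K).prod (finite_ip_le K)).subset ?_
    rintro _ ⟨y, hy, rfl⟩
    exact hy
  · intro x _ y _ h
    have h' := Prod.ext_iff.mp h
    exact eq_of_mulVec_eq hab h'.1 h'.2

/-- Bound in case two sides differ. -/
theorem bound_of_sg_ne {W₁ W₂ : M2} (h₁ : 0 < W₁.det) (h₂ : 0 < W₂.det) {u v : V2}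
    (hne : sg (W₁ *ᵥ u) (W₁ *ᵥ v) ≠ sg (W₂ *ᵥ u) (W₂ *ᵥ v)) :
    ip (W₁ *ᵥ u) (W₁ *ᵥ u) ≤ dt u v ^ 2 * mixed W₁ W₂ ∧
      ip (W₁ *ᵥ v) (W₁ *ᵥ v) ≤ dt u v ^ 2 * mixed W₁ W₂ := by
  have huv : dt u v ≠ 0 := by
    intro h
    apply hne
    rw [sg_eq_zero_of_dt (by rw [dt_mulVec, h, mul_zero]),
      sg_eq_zero_of_dt (by rw [dt_mulVec, h, mul_zero])]
  have hu := ne_zero_left_of_dt huv
  have hv := ne_zero_right_of_dt huv
  have hle : ip (W₁ *ᵥ u) (W₁ *ᵥ v) * ip (W₂ *ᵥ u) (W₂ *ᵥ v) ≤ 0 := by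
    by_contra hpos
    rw [not_le] at hpos
    apply hne
    rw [sg, sg, dt_mulVec, dt_mulVec, Int.sign_mul, Int.sign_mul, Int.sign_eq_one_of_pos h₁,
      Int.sign_eq_one_of_pos h₂]
    congr 1
    rcases mul_pos_iff.mp hpos with ⟨h, h'⟩ | ⟨h, h'⟩
    · rw [Int.sign_eq_one_of_pos h, Int.sign_eq_one_of_pos h']
    · rw [Int.sign_eq_neg_one_of_neg h, Int.sign_eq_neg_one_of_neg h']
  have hid := mixed_identity W₁ W₂ u v
  have p1 := ip_self_pos (mulVec_ne_zero h₁.ne' hu)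
  have p2 := ip_self_pos (mulVec_ne_zero h₁.ne' hv)
  have p3 := ip_self_pos (mulVec_ne_zero h₂.ne' hu)
  have p4 := ip_self_pos (mulVec_ne_zero h₂.ne' hv)
  constructor
  · nlinarith [mul_pos p3 p2]
  · nlinarith [mul_pos p1 p4]

section Family

variable {ι : Type*}

/-- A family of distinct matrices of fixed positive determinant. -/
structure Fam (y : ι → M2) (n : ℤ) : Prop where
  inj : Function.Injective y
  det : ∀ i, (y i).det = n
  pos : 0 < n

/-- the function whose finite differences we sum. -/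
def sw (W : M2) (a b : V2) (x : M2) : ℤ := sg (W *ᵥ (x *ᵥ a)) (W *ᵥ (x *ᵥ b))

theorem sw_mul (W g : M2) (a b : V2) (x : M2) : sw (W * g) a b x = sw W a b (g * x) := by
  simp only [sw, Matrix.mulVec_mulVec, Matrix.mul_assoc]

theorem sw_mulVec (W : M2) (a b : V2) (x α : M2) : sw W (α *ᵥ a) (α *ᵥ b) x = sw W a b (x * α) := by
  simp only [sw, Matrix.mulVec_mulVec, Matrix.mul_assoc]

theorem sw_swap (W : M2) (a b : V2) (x : M2) : sw W b a x = - sw W a b x := sg_swap _ _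

theorem sw_smul {n : ℤ} (hn : n ≠ 0) (W : M2) (a b : V2) (x : M2) :
    sw (n • W) a b x = sw W a b x := by
  simp only [sw, Matrix.smul_mulVec]
  exact sg_smul_smul hn _ _

theorem sw_smul_left {n : ℤ} (hn : n ≠ 0) (W : M2) (a b : V2) (x : M2) :
    sw W (n • a) b x = sw W a b x := by
  simp only [sw, Matrix.mulVec_smul]
  exact sg_smul_left hn _ _

theorem sw_smul_right {n : ℤ} (hn : n ≠ 0) (W : M2) (a b : V2) (x : M2) :
    sw W a (n • b) x = sw W a b x := by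
  simp only [sw, Matrix.mulVec_smul]
  exact sg_smul_right hn _ _

theorem Fam.finite_support {y : ι → M2} {n : ℤ} (hy : Fam y n) (a b : V2) {W₁ W₂ : M2}
    (h₁ : 0 < W₁.det) (h₂ : 0 < W₂.det) :
    (Function.support fun i => sw W₁ a b (y i) - sw W₂ a b (y i)).Finite := by
  by_cases hab : dt a b = 0
  · convert Set.finite_empty
    ext i
    simp only [Function.mem_support, Set.mem_empty_iff_false, iff_false, not_not]
    rw [sw, sw, sg_eq_zero_of_dt, sg_eq_zero_of_dt, sub_self] <;>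
    simp only [dt_mulVec, hab, mul_zero]
  · have hfin := finite_of_bounded hab ((n * dt a b) ^ 2 * mixed W₁ W₂)
    refine Set.Finite.subset (Set.Finite.preimage (f := fun i => W₁ * y i) ?_ hfin) ?_
    · intro i _ j _ hij
      apply hy.inj
      have : W₁ * y i = W₁ * y j := hij
      have h3 := congrArg (fun z => W₁.adjugate * z) this
      simp only [← Matrix.mul_assoc, Matrix.adjugate_mul, Matrix.smul_mul, Matrix.one_mul] at h3
      exact smul_right_injective M2 h₁.ne' h3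
    · intro i hi
      rw [Function.mem_support] at hi
      have hne : sg (W₁ *ᵥ (y i *ᵥ a)) (W₁ *ᵥ (y i *ᵥ b)) ≠
          sg (W₂ *ᵥ (y i *ᵥ a)) (W₂ *ᵥ (y i *ᵥ b)) := fun h => hi (sub_eq_zero.mpr h)
      have hb := bound_of_sg_ne h₁ h₂ hne
      rw [dt_mulVec, hy.det] at hb
      simpa only [Set.mem_preimage, Set.mem_ofPred_eq, ← Matrix.mulVec_mulVec] using hb

/-- the intersection number. -/
noncomputable def IJ (y : ι → M2) (a b : V2) (W₁ W₂ : M2) : ℤ :=
  ∑ᶠ i, (sw W₁ a b (y i) - sw W₂ a b (y i))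

theorem IJ_self (y : ι → M2) (a b : V2) (W : M2) : IJ y a b W W = 0 := by
  simp [IJ]

theorem Fam.IJ_add {y : ι → M2} {n : ℤ} (hy : Fam y n) (a b : V2) {W₁ W₂ W₃ : M2}
    (h₁ : 0 < W₁.det) (h₂ : 0 < W₂.det) (h₃ : 0 < W₃.det) :
    IJ y a b W₁ W₂ + IJ y a b W₂ W₃ = IJ y a b W₁ W₃ := by
  rw [IJ, IJ, IJ, ← finsum_add_distrib (hy.finite_support a b h₁ h₂) (hy.finite_support a b h₂ h₃)]
  exact finsum_congr fun i => by ring

theorem Fam.IJ_swap_base {y : ι → M2} {n : ℤ} (hy : Fam y n) (a b : V2) {W₁ W₂ : M2}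
    (h₁ : 0 < W₁.det) (h₂ : 0 < W₂.det) : IJ y a b W₂ W₁ = - IJ y a b W₁ W₂ := by
  have := hy.IJ_add a b h₁ h₂ h₁
  rw [IJ_self] at this
  linarith

theorem IJ_smul_left {y : ι → M2} {n : ℤ} (hn : n ≠ 0) (a b : V2) (W₁ W₂ : M2) :
    IJ y a b (n • W₁) W₂ = IJ y a b W₁ W₂ := by
  simp only [IJ, sw_smul hn]

theorem IJ_smul_right {y : ι → M2} {n : ℤ} (hn : n ≠ 0) (a b : V2) (W₁ W₂ : M2) :
    IJ y a b W₁ (n • W₂) = IJ y a b W₁ W₂ := by
  simp only [IJ, sw_smul hn]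

theorem IJ_vec_smul_left {y : ι → M2} {n : ℤ} (hn : n ≠ 0) (a b : V2) (W₁ W₂ : M2) :
    IJ y (n • a) b W₁ W₂ = IJ y a b W₁ W₂ := by
  simp only [IJ, sw_smul_left hn]

theorem IJ_vec_smul_right {y : ι → M2} {n : ℤ} (hn : n ≠ 0) (a b : V2) (W₁ W₂ : M2) :
    IJ y a (n • b) W₁ W₂ = IJ y a b W₁ W₂ := by
  simp only [IJ, sw_smul_right hn]

theorem IJ_swap (y : ι → M2) (a b : V2) (W₁ W₂ : M2) : IJ y b a W₁ W₂ = - IJ y a b W₁ W₂ := by
  rw [IJ, IJ, ← finsum_neg_distrib]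
  exact finsum_congr fun i => by rw [sw_swap, sw_swap W₂]; ring

/-- left translation -/
theorem IJ_mul_right {y : ι → M2} (a b : V2) (W₁ W₂ g : M2) :
    IJ y a b (W₁ * g) (W₂ * g) = IJ (fun i => g * y i) a b W₁ W₂ := by
  simp only [IJ, sw_mul]

/-- change of vectors -/
theorem IJ_mulVec {y : ι → M2} (a b : V2) (W₁ W₂ α : M2) :
    IJ y (α *ᵥ a) (α *ᵥ b) W₁ W₂ = IJ (fun i => y i * α) a b W₁ W₂ := by
  simp only [IJ, sw_mulVec]

/-- reindexing -/
theorem IJ_equiv {κ : Type*} {y : ι → M2} {z : κ → M2} (e : ι ≃ κ) (h : ∀ i, y i = z (e i))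
    (a b : V2) (W₁ W₂ : M2) : IJ y a b W₁ W₂ = IJ z a b W₁ W₂ := by
  rw [IJ, IJ, ← finsum_comp_equiv e]
  exact finsum_congr fun i => by rw [h]

/-- decomposition into finitely many pieces -/
theorem Fam.IJ_prod {κ : Type*} [Fintype κ] {y : κ × ι → M2} {n : ℤ} (hy : Fam y n) (a b : V2)
    {W₁ W₂ : M2} (h₁ : 0 < W₁.det) (h₂ : 0 < W₂.det) :
    IJ y a b W₁ W₂ = ∑ k, IJ (fun i => y (k, i)) a b W₁ W₂ := by
  rw [IJ, finsum_curry _ (hy.finite_support a b h₁ h₂), finsum_eq_sum_of_fintype]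
  rfl

end Family

end Fermat.Agent.S41dual
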