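import Fermat.Agent.S41.DualTri
import Fermat.Agent.HeckePar.Cosets
import Mathlib.LinearAlgebra.Matrix.SpecialLinearGroup

/-!
# The duality map `Ψ` from pairs of cusps to `Hom(Γ, ℤ)`
-/

set_option autoImplicit false

noncomputable section

namespace Fermat.Agent.S41dual

open Matrix
open scoped MatrixGroups BigOperators

/-- the integral matrix of an element of a subgroup. -/
def gm (Γ : Subgroup SL(2, ℤ)) (d : Γ) : M2 := ((d : SL(2, ℤ)) : M2)

variable {Γ : Subgroup SL(2, ℤ)}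

@[simp] theorem gm_one : gm Γ 1 = 1 := rfl

theorem gm_mul (g h : Γ) : gm Γ (g * h) = gm Γ g * gm Γ h := by
  simp [gm]

theorem gm_det (g : Γ) : (gm Γ g).det = 1 := (g : SL(2, ℤ)).det_coe

theorem gm_det_pos (g : Γ) : 0 < (gm Γ g).det := by rw [gm_det]; norm_num

theorem one_det_pos : (0 : ℤ) < (1 : M2).det := by rw [Matrix.det_one]; norm_num

theorem gm_injective : Function.Injective (gm Γ) := by
  intro g h hgh
  exact Subtype.ext (Subtype.ext hgh)

theorem gm_inv_mul (g : Γ) : gm Γ g⁻¹ * gm Γ g = 1 := by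
  rw [← gm_mul, inv_mul_cancel, gm_one]

theorem gm_mul_inv (g : Γ) : gm Γ g * gm Γ g⁻¹ = 1 := by
  rw [← gm_mul, mul_inv_cancel, gm_one]

theorem gm_inv (g : Γ) : gm Γ g⁻¹ = (gm Γ g).adjugate := by
  have h := Matrix.adjugate_mul (gm Γ g)
  rw [gm_det, one_smul] at h
  have h2 := congrArg (fun z => z * gm Γ g⁻¹) h
  simpa only [Matrix.mul_assoc, gm_mul_inv, Matrix.mul_one, Matrix.one_mul] using h2.symm

theorem fam_gm (Γ : Subgroup SL(2, ℤ)) : Fam (gm Γ) 1 :=
  ⟨gm_injective, gm_det, one_pos⟩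

theorem Fam.mul_left {ι : Type*} {y : ι → M2} {n : ℤ} (hy : Fam y n) {B : M2} (hB : 0 < B.det) :
    Fam (fun i => B * y i) (B.det * n) where
  inj i j hij := by
    apply hy.inj
    have h3 := congrArg (fun z => B.adjugate * z) hij
    simp only [← Matrix.mul_assoc, Matrix.adjugate_mul, Matrix.smul_mul, Matrix.one_mul] at h3
    exact smul_right_injective M2 hB.ne' h3
  det i := by rw [Matrix.det_mul, hy.det]
  pos := mul_pos hB hy.pos

theorem Fam.mul_right {ι : Type*} {y : ι → M2} {n : ℤ} (hy : Fam y n) {B : M2} (hB : 0 < B.det) :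
    Fam (fun i => y i * B) (n * B.det) where
  inj i j hij := by
    apply hy.inj
    have h3 := congrArg (fun z => z * B.adjugate) hij
    simp only [Matrix.mul_assoc, Matrix.mul_adjugate, Matrix.mul_smul, Matrix.mul_one] at h3
    exact smul_right_injective M2 hB.ne' h3
  det i := by rw [Matrix.det_mul, hy.det]
  pos := mul_pos hy.pos hB

/-- invariance under left translation. -/
theorem IJ_gm_translate (a b : V2) (W₁ W₂ : M2) (g : Γ) :
    IJ (gm Γ) a b (W₁ * gm Γ g) (W₂ * gm Γ g) = IJ (gm Γ) a b W₁ W₂ := by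
  rw [IJ_mul_right]
  exact IJ_equiv (Equiv.mulLeft g) (fun i => by rw [Equiv.coe_mulLeft, gm_mul]) a b W₁ W₂

theorem IJ_gm_mul (a b : V2) (g h : Γ) :
    IJ (gm Γ) a b (gm Γ (g * h)⁻¹) 1 = IJ (gm Γ) a b (gm Γ g⁻¹) 1 + IJ (gm Γ) a b (gm Γ h⁻¹) 1 := by
  have e0 : (g * h)⁻¹ = h⁻¹ * g⁻¹ := by group
  have e1 := (fam_gm Γ).IJ_add a b (W₁ := gm Γ (g * h)⁻¹) (W₂ := gm Γ g⁻¹) (W₃ := 1)
    (gm_det_pos _) (gm_det_pos _) one_det_pos
  have e2 := IJ_gm_translate a b (gm Γ h⁻¹) 1 g⁻¹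
  rw [Matrix.one_mul, ← gm_mul, ← e0] at e2
  rw [← e1, e2]
  exact add_comm _ _

/-- The duality map. -/
def Psi (Γ : Subgroup SL(2, ℤ)) (a b : V2) : Additive Γ →+ ℤ where
  toFun g := IJ (gm Γ) a b (gm Γ (Additive.toMul g)⁻¹) 1
  map_zero' := by rw [toMul_zero, inv_one, gm_one, IJ_self]
  map_add' g h := IJ_gm_mul a b (Additive.toMul g) (Additive.toMul h)

theorem Psi_apply (a b : V2) (g : Γ) :
    Psi Γ a b (Additive.ofMul g) = IJ (gm Γ) a b (gm Γ g⁻¹) 1 := rfl

theorem Psi_swap (a b : V2) : Psi Γ b a = - Psi Γ a b := by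
  ext g
  exact IJ_swap _ _ _ _ _

theorem Psi_self (a : V2) : Psi Γ a a = 0 := by
  refine AddMonoidHom.ext fun g => ?_
  have := IJ_swap (gm Γ) a a (gm Γ (Additive.toMul g)⁻¹) 1
  show IJ (gm Γ) a a (gm Γ (Additive.toMul g)⁻¹) 1 = 0
  linarith

theorem Psi_smul_left {n : ℤ} (hn : n ≠ 0) (a b : V2) : Psi Γ (n • a) b = Psi Γ a b := by
  ext g
  exact IJ_vec_smul_left hn _ _ _ _

theorem Psi_smul_right {n : ℤ} (hn : n ≠ 0) (a b : V2) : Psi Γ a (n • b) = Psi Γ a b := by
  ext g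
  exact IJ_vec_smul_right hn _ _ _ _

/-- invariance -/
theorem Psi_gm (γ : Γ) (a b : V2) : Psi Γ (gm Γ γ *ᵥ a) (gm Γ γ *ᵥ b) = Psi Γ a b := by
  ext g
  show IJ (gm Γ) _ _ _ 1 = IJ (gm Γ) _ _ _ 1
  rw [IJ_mulVec]
  exact IJ_equiv (Equiv.mulRight γ) (fun i => by rw [Equiv.coe_mulRight, gm_mul]) a b _ _

/-- additivity -/
theorem Psi_add {a b c : V2} (ha : a ≠ 0) (hb : b ≠ 0) (hc : c ≠ 0) :
    Psi Γ a b + Psi Γ b c = Psi Γ a c := by
  refine AddMonoidHom.ext fun g => ?_
  rw [AddMonoidHom.add_apply]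
  have h := (fam_gm Γ).IJ_tri (gm Γ (Additive.toMul g)⁻¹) (gm_det_pos _)
    (Equiv.mulLeft (Additive.toMul g)⁻¹) (fun i => by rw [Equiv.coe_mulLeft, gm_mul]) ha hb hc
  have h2 := IJ_swap (gm Γ) a c (gm Γ (Additive.toMul g)⁻¹) 1
  show IJ (gm Γ) a b (gm Γ (Additive.toMul g)⁻¹) 1 + IJ (gm Γ) b c (gm Γ (Additive.toMul g)⁻¹) 1 =
    IJ (gm Γ) a c (gm Γ (Additive.toMul g)⁻¹) 1
  linarith

/-- A correspondence between `Γ` and `Γ'`: finitely many matrices permuted by right translation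
by `Γ'` modulo left translation by `Γ`. -/
structure Corr (Γ Γ' : Subgroup SL(2, ℤ)) (X : Type*) where
  /-- the matrices -/
  mat : X → M2
  /-- the determinant -/
  n : ℤ
  pos : 0 < n
  det : ∀ x, (mat x).det = n
  /-- right action -/
  act : Γ' → X → X
  /-- cocycle -/
  coc : Γ' → X → Γ
  spec : ∀ g x, mat x * gm Γ' g = gm Γ (coc g x) * mat (act g x)
  act_one : ∀ x, act 1 x = x
  act_mul : ∀ g h x, act (g * h) x = act h (act g x)
  coc_mul : ∀ g h x, coc (g * h) x = coc g x * coc h (act g x)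

/-- cancellation of matrices of nonzero determinant -/
theorem mat_cancel_right {A B C : M2} (hC : C.det ≠ 0) (h : A * C = B * C) : A = B := by
  have h3 := congrArg (fun z => z * C.adjugate) h
  simp only [Matrix.mul_assoc, Matrix.mul_adjugate, Matrix.mul_smul, Matrix.mul_one] at h3
  exact smul_right_injective M2 hC h3

theorem mat_cancel_left {A B C : M2} (hC : C.det ≠ 0) (h : C * A = C * B) : A = B := by
  have h3 := congrArg (fun z => C.adjugate * z) h
  simp only [← Matrix.mul_assoc, Matrix.adjugate_mul, Matrix.smul_mul, Matrix.one_mul] at h3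
  exact smul_right_injective M2 hC h3

theorem gm_cancel_left (c : Γ) {A B : M2} (h : gm Γ c * A = gm Γ c * B) : A = B :=
  mat_cancel_left (by rw [gm_det]; norm_num) h

namespace Corr

variable {Γ' : Subgroup SL(2, ℤ)} {X : Type*} (S : Corr Γ Γ' X)

/-- the matrices represent distinct cosets -/
def Inj : Prop := ∀ (x y : X) (c : Γ), S.mat x = gm Γ c * S.mat y → x = y

theorem det_pos (x : X) : 0 < (S.mat x).det := by rw [S.det]; exact S.pos

theorem cancel {x : X} {A B : M2} (h : A * S.mat x = B * S.mat x) : A = B :=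
  mat_cancel_right (S.det_pos x).ne' h

theorem ext_coc (hS : S.Inj) {g : Γ'} {x y : X} {c : Γ}
    (h : S.mat x * gm Γ' g = gm Γ c * S.mat y) :
    S.act g x = y ∧ S.coc g x = c := by
  have h1 := S.spec g x
  have h2 : S.mat (S.act g x) = gm Γ ((S.coc g x)⁻¹ * c) * S.mat y := by
    rw [gm_mul, Matrix.mul_assoc, ← h, h1, ← Matrix.mul_assoc, gm_inv_mul, Matrix.one_mul]
  have h3 := hS _ _ _ h2
  refine ⟨h3, ?_⟩
  rw [h3, h] at h1
  exact (gm_injective (S.cancel h1)).symm

/-- Constructor from an existence statement. -/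
def mk' {Γ Γ' : Subgroup SL(2, ℤ)} {X : Type*} (mat : X → M2) (n : ℤ) (pos : 0 < n)
    (det : ∀ x, (mat x).det = n) (act : Γ' → X → X) (coc : Γ' → X → Γ)
    (spec : ∀ g x, mat x * gm Γ' g = gm Γ (coc g x) * mat (act g x))
    (inj : ∀ (x y : X) (c : Γ), mat x = gm Γ c * mat y → x = y) : Corr Γ Γ' X :=
  have key : ∀ {g : Γ'} {x y : X} {c : Γ}, mat x * gm Γ' g = gm Γ c * mat y →
      act g x = y ∧ coc g x = c := by
    intro g x y c h
    have h1 := spec g x
    have h2 : mat (act g x) = gm Γ ((coc g x)⁻¹ * c) * mat y := by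
      rw [gm_mul, Matrix.mul_assoc, ← h, h1, ← Matrix.mul_assoc, gm_inv_mul, Matrix.one_mul]
    have h3 := inj _ _ _ h2
    refine ⟨h3, ?_⟩
    rw [h3, h] at h1
    exact (gm_injective (mat_cancel_right (by rw [det]; exact pos.ne') h1)).symm
  have haux : ∀ g h x, mat x * gm Γ' (g * h) =
      gm Γ (coc g x * coc h (act g x)) * mat (act h (act g x)) := by
    intro g h x
    rw [gm_mul, ← Matrix.mul_assoc, spec, Matrix.mul_assoc, spec, gm_mul, Matrix.mul_assoc]
  { mat := mat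
    n := n
    pos := pos
    det := det
    act := act
    coc := coc
    spec := spec
    act_one := fun x => (key (g := 1) (x := x) (y := x) (c := 1) (by simp)).1
    act_mul := fun g h x => (key (haux g h x)).1
    coc_mul := fun g h x => (key (haux g h x)).2 }

theorem coc_one (x : X) : S.coc 1 x = 1 := by
  have h := S.coc_mul 1 1 x
  rw [S.act_one, mul_one] at h
  exact left_eq_mul.mp h

/-- The permutation of the index set given by an element of `Γ'`. -/
def perm (g : Γ') : Equiv.Perm X where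
  toFun := S.act g
  invFun := S.act g⁻¹
  left_inv x := by rw [← S.act_mul, mul_inv_cancel, S.act_one]
  right_inv x := by rw [← S.act_mul, inv_mul_cancel, S.act_one]

@[simp] theorem perm_apply (g : Γ') (x : X) : S.perm g x = S.act g x := rfl

variable [Fintype X]

/-- The operator on homomorphisms. -/
def pull {A : Type*} [AddCommGroup A] : (Additive Γ →+ A) →+ (Additive Γ' →+ A) where
  toFun φ :=
    { toFun := fun g => ∑ x, φ (Additive.ofMul (S.coc (Additive.toMul g) x))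
      map_zero' := by simp [S.coc_one]
      map_add' := fun g h => by
        simp only [toMul_add, S.coc_mul, ofMul_mul, map_add, Finset.sum_add_distrib]
        congr 1
        exact Equiv.sum_comp (S.perm (Additive.toMul g))
          (fun x => φ (Additive.ofMul (S.coc (Additive.toMul h) x))) }
  map_zero' := by ext g; simp
  map_add' φ ψ := by ext g; simp [Finset.sum_add_distrib]

theorem pull_apply {A : Type*} [AddCommGroup A] (φ : Additive Γ →+ A) (g : Γ') :
    S.pull φ (Additive.ofMul g) = ∑ x, φ (Additive.ofMul (S.coc g x)) := rfl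

theorem pull_comp {A B : Type*} [AddCommGroup A] [AddCommGroup B] (f : A →+ B)
    (φ : Additive Γ →+ A) : S.pull (f.comp φ) = f.comp (S.pull φ) := by
  ext g
  show ∑ x, f (φ _) = f (∑ x, φ _)
  rw [map_sum]

/-- **Main formula**: the operators on `Ψ`. -/
theorem pull_Psi (a b : V2) (g : Γ') :
    S.pull (Psi Γ a b) (Additive.ofMul g) =
      ∑ x, IJ (fun d : Γ => (S.mat x).adjugate * gm Γ d) a b (gm Γ' g⁻¹) 1 := by
  have hdet : ∀ x, 0 < ((S.mat x).adjugate).det := by
    intro x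
    rw [Matrix.det_adjugate]
    simpa using S.det_pos x
  rw [pull_apply]
  have key : ∀ x, Psi Γ a b (Additive.ofMul (S.coc g x)) =
      IJ (gm Γ) a b 1 (S.mat (S.act g x)).adjugate +
      IJ (fun d : Γ => (S.mat x).adjugate * gm Γ d) a b (gm Γ' g⁻¹) 1 -
      IJ (gm Γ) a b 1 (S.mat x).adjugate := by
    intro x
    set c := S.coc g x
    set j := S.act g x
    have hspec : S.mat x * gm Γ' g = gm Γ c * S.mat j := S.spec g x
    have hadj : (S.mat j).adjugate * gm Γ c⁻¹ = gm Γ' g⁻¹ * (S.mat x).adjugate := by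
      have := congrArg Matrix.adjugate hspec
      rw [Matrix.adjugate_mul_distrib, Matrix.adjugate_mul_distrib] at this
      rw [gm_inv, gm_inv]
      exact this.symm
    have hd1 : 0 < ((S.mat j).adjugate * gm Γ c⁻¹).det := by
      rw [Matrix.det_mul]; exact mul_pos (hdet j) (gm_det_pos _)
    rw [Psi_apply, ← (fam_gm Γ).IJ_add a b (gm_det_pos _) hd1 one_det_pos,
      ← (fam_gm Γ).IJ_add a b hd1 (hdet x) one_det_pos,
      (fam_gm Γ).IJ_swap_base a b one_det_pos (hdet x)]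
    have e1 := IJ_gm_translate a b 1 (S.mat j).adjugate c⁻¹
    rw [Matrix.one_mul] at e1
    rw [e1, hadj]
    have e2 := IJ_mul_right (y := gm Γ) a b (gm Γ' g⁻¹) 1 (S.mat x).adjugate
    rw [Matrix.one_mul] at e2
    rw [e2]
    ring
  simp only [key, Finset.sum_sub_distrib, Finset.sum_add_distrib]
  have e3 : ∑ x, IJ (gm Γ) a b 1 (S.mat (S.act g x)).adjugate =
      ∑ x, IJ (gm Γ) a b 1 (S.mat x).adjugate :=
    Equiv.sum_comp (S.perm g) (fun x => IJ (gm Γ) a b 1 (S.mat x).adjugate)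
  rw [e3]
  ring

/-- If `adj (mat x) * d` (`x ∈ X`, `d ∈ Γ`) are the same matrices as the `d' * mat' y`
(`y ∈ Y`, `d' ∈ Γ'`), then the operator on `Ψ` is given by the second family. -/
theorem pull_Psi_eq {Y : Type*} [Fintype Y] (mat' : Y → M2)
    (hdet : ∀ y, (mat' y).det = S.n)
    (e : X × Γ ≃ Y × Γ')
    (he : ∀ p : X × Γ, (S.mat p.1).adjugate * gm Γ p.2 = gm Γ' (e p).2 * mat' (e p).1)
    (hinj : ∀ p p' : Y × Γ', gm Γ' p.2 * mat' p.1 = gm Γ' p'.2 * mat' p'.1 → p = p') (a b : V2) :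
    S.pull (Psi Γ a b) = ∑ y, Psi Γ' (mat' y *ᵥ a) (mat' y *ᵥ b) := by
  have hF2 : Fam (fun p : Y × Γ' => gm Γ' p.2 * mat' p.1) S.n :=
    ⟨fun p p' h => hinj p p' h, fun p => by rw [Matrix.det_mul, gm_det, one_mul, hdet], S.pos⟩
  have hF1 : Fam (fun p : X × Γ => (S.mat p.1).adjugate * gm Γ p.2) S.n := by
    refine ⟨fun p p' h => ?_, fun p => ?_, S.pos⟩
    · have h' : (S.mat p.1).adjugate * gm Γ p.2 = (S.mat p'.1).adjugate * gm Γ p'.2 := h
      rw [he, he] at h'
      exact e.injective (hinj _ _ h')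
    · show ((S.mat p.1).adjugate * gm Γ p.2).det = S.n
      rw [he, Matrix.det_mul, gm_det, one_mul, hdet]
  refine AddMonoidHom.ext fun g => ?_
  obtain ⟨g, rfl⟩ := Additive.ofMul.surjective g
  rw [pull_Psi, ← hF1.IJ_prod a b (gm_det_pos _) one_det_pos,
    IJ_equiv e (z := fun p : Y × Γ' => gm Γ' p.2 * mat' p.1) he,
    hF2.IJ_prod a b (gm_det_pos _) one_det_pos, AddMonoidHom.finsetSum_apply]
  refine Finset.sum_congr rfl fun y _ => ?_
  rw [Psi_apply, IJ_mulVec]

/-- The case `Γ = Γ'` of a self-adjoint correspondence (Hecke operators). -/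
theorem pull_Psi_self {X : Type*} [Fintype X] (S : Corr Γ Γ X) (hS : S.Inj)
    (hadj : ∀ (x : X) (d : Γ), ∃ (x' : X) (d' : Γ),
      (S.mat x).adjugate * gm Γ d = gm Γ d' * S.mat x') (a b : V2) :
    S.pull (Psi Γ a b) = ∑ y, Psi Γ (S.mat y *ᵥ a) (S.mat y *ᵥ b) := by
  have huniq : ∀ p p' : X × Γ, gm Γ p.2 * S.mat p.1 = gm Γ p'.2 * S.mat p'.1 → p = p' := by
    rintro ⟨x, d⟩ ⟨x', d'⟩ h
    have h' : gm Γ d * S.mat x = gm Γ d' * S.mat x' := h
    have h1 : S.mat x = gm Γ (d⁻¹ * d') * S.mat x' := by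
      rw [gm_mul, Matrix.mul_assoc, ← h', ← Matrix.mul_assoc, gm_inv_mul, Matrix.one_mul]
    have h2 := hS _ _ _ h1
    subst h2
    have h3 := gm_injective (S.cancel h')
    rw [h3]
  choose f₁ f₂ hf using hadj
  let f : X × Γ → X × Γ := fun p => (f₁ p.1 p.2, f₂ p.1 p.2)
  let ι : X × Γ → X × Γ := fun p => (p.1, p.2⁻¹)
  have hadj2 : ∀ x : X, (S.mat x).adjugate.adjugate = S.mat x := fun x => by
    rw [Matrix.adjugate_adjugate (S.mat x) (by decide)]; simp
  have key : ∀ p, f (ι (f p)) = ι p := by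
    rintro ⟨x, d⟩
    have h1 : (S.mat x).adjugate * gm Γ d = gm Γ (f₂ x d) * S.mat (f₁ x d) := hf x d
    have h2 := hf (f₁ x d) (f₂ x d)⁻¹
    apply huniq
    show gm Γ (f₂ (f₁ x d) (f₂ x d)⁻¹) * S.mat (f₁ (f₁ x d) (f₂ x d)⁻¹) = gm Γ d⁻¹ * S.mat x
    rw [← h2, gm_inv, gm_inv, ← Matrix.adjugate_mul_distrib, ← h1, Matrix.adjugate_mul_distrib,
      hadj2]
  have hι : ∀ p, ι (ι p) = p := fun p => by simp [ι]
  let e : X × Γ ≃ X × Γ :=
    { toFun := f
      invFun := fun p => ι (f (ι p))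
      left_inv := fun p => by
        show ι (f (ι (f p))) = p
        rw [key, hι]
      right_inv := fun p => by
        show f (ι (f (ι p))) = p
        rw [key, hι] }
  exact S.pull_Psi_eq S.mat S.det e (fun p => hf p.1 p.2) huniq a b

/-- The case of a correspondence such that all `adj (mat x) * d` lie in one coset
(trace maps). -/
theorem pull_Psi_single (hS : S.Inj) (x₀ : X)
    (hadj : ∀ (x : X) (d : Γ), ∃ γ : Γ',
      (S.mat x).adjugate * gm Γ d = gm Γ' γ * (S.mat x₀).adjugate) (a b : V2) :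
    S.pull (Psi Γ a b) = Psi Γ' ((S.mat x₀).adjugate *ᵥ a) ((S.mat x₀).adjugate *ᵥ b) := by
  choose f hf using hadj
  have hd0 : ((S.mat x₀).adjugate).det = S.n := by
    rw [Matrix.det_adjugate]; simp [S.det]
  have hd0' : ((S.mat x₀).adjugate).det ≠ 0 := by rw [hd0]; exact S.pos.ne'
  have hadj2 : ∀ x : X, (S.mat x).adjugate.adjugate = S.mat x := fun x => by
    rw [Matrix.adjugate_adjugate (S.mat x) (by decide)]; simp
  have hbij : Function.Bijective (fun p : X × Γ => ((), f p.1 p.2) : X × Γ → Unit × Γ') := by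
    constructor
    · rintro ⟨x, d⟩ ⟨x', d'⟩ h
      have h1 : f x d = f x' d' := (Prod.ext_iff.mp h).2
      have h2 : (S.mat x).adjugate * gm Γ d = (S.mat x').adjugate * gm Γ d' := by
        rw [hf, hf, h1]
      have h3 := congrArg Matrix.adjugate h2
      rw [Matrix.adjugate_mul_distrib, Matrix.adjugate_mul_distrib, hadj2, hadj2, ← gm_inv,
        ← gm_inv] at h3
      have h4 : S.mat x = gm Γ (d * d'⁻¹) * S.mat x' := by
        rw [gm_mul, Matrix.mul_assoc, ← h3, ← Matrix.mul_assoc, gm_mul_inv, Matrix.one_mul]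
      have h5 := hS _ _ _ h4
      subst h5
      have h6 := gm_injective (S.cancel h3)
      rw [inv_inj.mp h6]
    · rintro ⟨⟨⟩, γ⟩
      have h1 := S.spec γ⁻¹ x₀
      refine ⟨(S.act γ⁻¹ x₀, (S.coc γ⁻¹ x₀)⁻¹), ?_⟩
      refine Prod.ext rfl ?_
      apply gm_injective
      apply mat_cancel_right hd0'
      show gm Γ' (f _ _) * _ = gm Γ' γ * _
      rw [← hf, gm_inv, ← Matrix.adjugate_mul_distrib, ← h1, Matrix.adjugate_mul_distrib,
        ← gm_inv, inv_inv]
  have h := S.pull_Psi_eq (Y := Unit) (fun _ => (S.mat x₀).adjugate) (fun _ => hd0)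
    (Equiv.ofBijective _ hbij) (fun p => hf p.1 p.2) (by
      rintro ⟨⟨⟩, γ⟩ ⟨⟨⟩, γ'⟩ h
      have h' : gm Γ' γ * (S.mat x₀).adjugate = gm Γ' γ' * (S.mat x₀).adjugate := h
      rw [gm_injective (mat_cancel_right hd0' h')]) a b
  rw [h]
  simp

/-- Composition of correspondences. -/
def comp {Γ'' : Subgroup SL(2, ℤ)} {X Y : Type*} (S : Corr Γ Γ' X) (T : Corr Γ' Γ'' Y) :
    Corr Γ Γ'' (X × Y) where
  mat p := S.mat p.1 * T.mat p.2
  n := S.n * T.n
  pos := mul_pos S.pos T.pos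
  det p := by rw [Matrix.det_mul, S.det, T.det]
  act g p := (S.act (T.coc g p.2) p.1, T.act g p.2)
  coc g p := S.coc (T.coc g p.2) p.1
  spec g p := by
    rw [Matrix.mul_assoc, T.spec, ← Matrix.mul_assoc, S.spec, Matrix.mul_assoc]
  act_one p := by rw [T.coc_one, S.act_one, T.act_one]
  act_mul g h p := by rw [T.coc_mul, S.act_mul, T.act_mul]
  coc_mul g h p := by rw [T.coc_mul, S.coc_mul]

theorem comp_pull {Γ'' : Subgroup SL(2, ℤ)} {X Y : Type*} [Fintype X] [Fintype Y]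
    (S : Corr Γ Γ' X) (T : Corr Γ' Γ'' Y) {A : Type*} [AddCommGroup A] (φ : Additive Γ →+ A) :
    (S.comp T).pull φ = T.pull (S.pull φ) := by
  refine AddMonoidHom.ext fun g => ?_
  obtain ⟨g, rfl⟩ := Additive.ofMul.surjective g
  rw [pull_apply, pull_apply, Fintype.sum_prod_type_right]
  rfl

/-- **Comparison**: the operator depends only on the cosets. -/
theorem pull_eq {X Y : Type*} [Fintype X] [Fintype Y] (S : Corr Γ Γ' X) (T : Corr Γ Γ' Y)
    (hT : T.Inj) (e : X ≃ Y) (κ : X → Γ) {l m : ℤ} (hm : m ≠ 0)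
    (h : ∀ x, l • S.mat x = m • (gm Γ (κ x) * T.mat (e x))) {A : Type*} [AddCommGroup A]
    (φ : Additive Γ →+ A) : S.pull φ = T.pull φ := by
  have key : ∀ g x, T.act g (e x) = e (S.act g x) ∧
      T.coc g (e x) = (κ x)⁻¹ * (S.coc g x * κ (S.act g x)) := by
    intro g x
    apply T.ext_coc hT
    apply smul_right_injective M2 hm
    show m • (T.mat (e x) * gm Γ' g) = m • (gm Γ ((κ x)⁻¹ * (S.coc g x * κ (S.act g x))) *
      T.mat (e (S.act g x)))
    apply gm_cancel_left (κ x)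
    rw [Matrix.mul_smul, ← Matrix.mul_assoc, ← Matrix.smul_mul, ← h, Matrix.smul_mul, S.spec,
      ← Matrix.mul_smul, h, gm_mul, gm_mul]
    simp only [Matrix.mul_smul, ← Matrix.mul_assoc, gm_mul_inv, Matrix.one_mul]
  refine AddMonoidHom.ext fun g => ?_
  obtain ⟨g, rfl⟩ := Additive.ofMul.surjective g
  rw [pull_apply, pull_apply, ← Equiv.sum_comp e]
  simp only [(key g _).2, ofMul_mul, ofMul_inv, map_add, map_neg, Finset.sum_add_distrib,
    Finset.sum_neg_distrib]
  have e3 : ∑ x, φ (Additive.ofMul (κ (S.act g x))) = ∑ x, φ (Additive.ofMul (κ x)) :=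
    Equiv.sum_comp (S.perm g) (fun x => φ (Additive.ofMul (κ x)))
  rw [e3]
  abel

theorem pull_eq_of_card {X Y : Type*} [Fintype X] [Fintype Y] (S : Corr Γ Γ' X)
    (T : Corr Γ Γ' Y) (hS : S.Inj) (hT : T.Inj) (hcard : Fintype.card X = Fintype.card Y)
    {l m : ℤ} (hl : l ≠ 0) (hm : m ≠ 0)
    (h : ∀ x, ∃ (y : Y) (c : Γ), l • S.mat x = m • (gm Γ c * T.mat y)) {A : Type*}
    [AddCommGroup A] (φ : Additive Γ →+ A) : S.pull φ = T.pull φ := by
  choose f κ hf using h
  have hinj : Function.Injective f := by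
    intro x y hxy
    have h1 := hf x
    have h2 := hf y
    rw [hxy] at h1
    have h3 : l • S.mat x = l • (gm Γ (κ x * (κ y)⁻¹) * S.mat y) := by
      rw [h1, ← Matrix.mul_smul, ← Matrix.mul_smul, h2, ← Matrix.mul_smul, gm_mul]
      simp only [Matrix.mul_assoc]
      rw [← Matrix.mul_assoc (gm Γ (κ y)⁻¹), gm_inv_mul, Matrix.one_mul]
    exact hS _ _ _ (smul_right_injective M2 hl h3)
  have hbij : Function.Bijective f :=
    (Fintype.bijective_iff_injective_and_card f).mpr ⟨hinj, hcard⟩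
  exact S.pull_eq T hT (Equiv.ofBijective f hbij) κ hm (fun x => hf x) φ

end Corr

end Fermat.Agent.S41dual
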