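import Fermat.Agent.S41.DualPsi
import Fermat.Agent.S16.Lift

/-!
# Surjectivity (up to the factor `8`) of the duality map `Ψ`
-/

set_option autoImplicit false

noncomputable section

namespace Fermat.Agent.S41dual

open Matrix ModularGroup
open scoped MatrixGroups BigOperators

/-- first basis vector (the cusp `∞`) -/
def e₁ : V2 := ![1, 0]

/-- second basis vector (the cusp `0`) -/
def e₂ : V2 := ![0, 1]

/-- position of `i` with respect to the edge `x (∞, 0)`. -/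
def sf (x : M2) : ℤ := sg (x *ᵥ e₁) (x *ᵥ e₂)

theorem dt_e : dt e₁ e₂ = 1 := by simp [dt, e₁, e₂]

theorem sf_eq (x : M2) : sf x = (x.det).sign * (x 0 0 * x 0 1 + x 1 0 * x 1 1).sign := by
  rw [sf, sg, dt_mulVec, dt_e, mul_one]
  simp [ip, e₁, e₂, Matrix.mulVec, dotProduct, Fin.sum_univ_two]

/-- position function on `SL(2, ℤ)`. -/
def ss (x : SL(2, ℤ)) : ℤ := (x 0 0 * x 0 1 + x 1 0 * x 1 1).sign

theorem sf_coe (x : SL(2, ℤ)) : sf (x : M2) = ss x := by
  rw [sf_eq, x.det_coe, Int.sign_one, one_mul]; rfl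

theorem ss_neg (x : SL(2, ℤ)) : ss (-x) = ss x := by
  simp only [ss, Matrix.SpecialLinearGroup.coe_neg, Matrix.neg_apply]
  congr 1; ring

theorem ss_S_mul (x : SL(2, ℤ)) : ss (S * x) = ss x := by
  simp only [ss, Matrix.SpecialLinearGroup.coe_mul, coe_S, Matrix.mul_apply, Fin.sum_univ_two,
    Matrix.of_apply, Matrix.cons_val_zero, Matrix.cons_val_one, Matrix.cons_val',
    Matrix.cons_val_fin_one]
  congr 1; ring

theorem ss_Sinv_mul (x : SL(2, ℤ)) : ss (S⁻¹ * x) = ss x := by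
  rw [← ss_S_mul (S⁻¹ * x), mul_inv_cancel_left]

theorem ss_mul_S (x : SL(2, ℤ)) : ss (x * S) = - ss x := by
  simp only [ss, Matrix.SpecialLinearGroup.coe_mul, coe_S, Matrix.mul_apply, Fin.sum_univ_two,
    Matrix.of_apply, Matrix.cons_val_zero, Matrix.cons_val_one, Matrix.cons_val',
    Matrix.cons_val_fin_one]
  rw [← Int.sign_neg]
  congr 1; ring

/-- inclusion of `SL(2, ℤ)` in matrices -/
def gs (x : SL(2, ℤ)) : M2 := x

theorem fam_gs : Fam gs 1 :=
  ⟨fun _ _ h => Subtype.ext h, fun x => x.det_coe, one_pos⟩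

theorem ss_eq_sw (g x : SL(2, ℤ)) : ss (g * x) = sw (g : M2) e₁ e₂ (gs x) := by
  rw [← sf_coe, sf, sw, Matrix.SpecialLinearGroup.coe_mul, gs, Matrix.mulVec_mulVec,
    Matrix.mulVec_mulVec]

theorem ss_finite (g h : SL(2, ℤ)) :
    (Function.support fun x : SL(2, ℤ) => ss (g * x) - ss (h * x)).Finite := by
  simp only [ss_eq_sw]
  exact fam_gs.finite_support e₁ e₂ (by rw [g.det_coe]; norm_num) (by rw [h.det_coe]; norm_num)

theorem ss_finite_mul (w : SL(2, ℤ) → ℤ) (g h : SL(2, ℤ)) :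
    (Function.support fun x : SL(2, ℤ) => w x * (ss (g * x) - ss (h * x))).Finite :=
  (ss_finite g h).subset (Function.support_mul_subset_right _ _)

/-- difference along one step -/
def dl (x : SL(2, ℤ)) : ℤ := ss ((T * S)⁻¹ * x) - ss x

theorem TS_coe : ((T * S : SL(2, ℤ)) : M2) = !![1, -1; 1, 0] := by
  rw [Matrix.SpecialLinearGroup.coe_mul, coe_S, coe_T]; decide

theorem TSinv_coe : (((T * S)⁻¹ : SL(2, ℤ)) : M2) = !![0, 1; -1, 1] := by
  rw [Matrix.SpecialLinearGroup.coe_inv, TS_coe, Matrix.adjugate_fin_two_of]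
  norm_num

theorem dl_eq (x : SL(2, ℤ)) : dl x = (x 1 0 * x 1 1 + (x 1 0 - x 0 0) * (x 1 1 - x 0 1)).sign -
    (x 0 0 * x 0 1 + x 1 0 * x 1 1).sign := by
  rw [dl, ss, ss, Matrix.SpecialLinearGroup.coe_mul, TSinv_coe]
  simp only [Matrix.mul_apply, Fin.sum_univ_two,
    Matrix.of_apply, Matrix.cons_val_zero, Matrix.cons_val_one, Matrix.cons_val',
    Matrix.cons_val_fin_one]
  congr 2
  ring

/-- the support of `dl` -/
def L8 : Finset SL(2, ℤ) := {1, -1, S, -S, T * S, -(T * S), T, -T}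

theorem mem_Icc_of_dl {x : SL(2, ℤ)} (h : dl x ≠ 0) (i j : Fin 2) :
    x i j ∈ Finset.Icc (-1 : ℤ) 1 := by
  have hne : sg ((1 : M2) *ᵥ (gs x *ᵥ e₁)) ((1 : M2) *ᵥ (gs x *ᵥ e₂)) ≠
      sg ((((T * S)⁻¹ : SL(2, ℤ)) : M2) *ᵥ (gs x *ᵥ e₁))
        ((((T * S)⁻¹ : SL(2, ℤ)) : M2) *ᵥ (gs x *ᵥ e₂)) := by
    intro h1
    apply h
    have h2 : ss (1 * x) = ss ((T * S)⁻¹ * x) := by
      rw [ss_eq_sw, ss_eq_sw]; exact h1
    rw [one_mul] at h2
    rw [dl, ← h2, sub_self]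
  have hb := bound_of_sg_ne (by rw [Matrix.det_one]; norm_num)
    (by rw [Matrix.SpecialLinearGroup.det_coe]; norm_num) hne
  rw [dt_mulVec, dt_e, TSinv_coe, gs, x.det_coe] at hb
  have hm : mixed (1 : M2) !![0, 1; -1, 1] = 3 := by
    simp [mixed]
  rw [hm] at hb
  norm_num at hb
  have k : ∀ t s : ℤ, t * t + s * s ≤ 3 → t ∈ Finset.Icc (-1 : ℤ) 1 ∧ s ∈ Finset.Icc (-1 : ℤ) 1 := by
    intro t s hts
    simp only [Finset.mem_Icc]
    refine ⟨⟨?_, ?_⟩, ⟨?_, ?_⟩⟩ <;> nlinarith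
  have h1 : x 0 0 * x 0 0 + x 1 0 * x 1 0 ≤ 3 := by
    have := hb.1
    simpa [ip, e₁, Matrix.mulVec, dotProduct, Fin.sum_univ_two] using this
  have h2 : x 0 1 * x 0 1 + x 1 1 * x 1 1 ≤ 3 := by
    have := hb.2
    simpa [ip, e₂, Matrix.mulVec, dotProduct, Fin.sum_univ_two] using this
  have k1 := k _ _ h1
  have k2 := k _ _ h2
  fin_cases i <;> fin_cases j
  · exact k1.1
  · exact k2.1
  · exact k1.2
  · exact k2.2

theorem entries_check : ∀ a ∈ Finset.Icc (-1 : ℤ) 1, ∀ b ∈ Finset.Icc (-1 : ℤ) 1,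
    ∀ c ∈ Finset.Icc (-1 : ℤ) 1, ∀ d ∈ Finset.Icc (-1 : ℤ) 1, a * d - b * c = 1 →
    (c * d + (c - a) * (d - b)).sign - (a * b + c * d).sign ≠ 0 →
    (a, b, c, d) ∈ ({(1, 0, 0, 1), (-1, 0, 0, -1), (0, -1, 1, 0), (0, 1, -1, 0), (1, -1, 1, 0),
      (-1, 1, -1, 0), (1, 1, 0, 1), (-1, -1, 0, -1)} : Finset (ℤ × ℤ × ℤ × ℤ)) := by
  decide

theorem support_dl (x : SL(2, ℤ)) (h : dl x ≠ 0) : x ∈ L8 := by
  have h1 := entries_check _ (mem_Icc_of_dl h 0 0) _ (mem_Icc_of_dl h 0 1) _ (mem_Icc_of_dl h 1 0) _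
    (mem_Icc_of_dl h 1 1) (by have := x.det_coe; rwa [Matrix.det_fin_two] at this)
    (by rw [← dl_eq]; exact h)
  simp only [Finset.mem_insert, Finset.mem_singleton, Prod.mk.injEq] at h1
  have hx : ∀ y : SL(2, ℤ), x 0 0 = y 0 0 → x 0 1 = y 0 1 → x 1 0 = y 1 0 → x 1 1 = y 1 1 →
      x = y := by
    intro y h1 h2 h3 h4
    ext i j
    fin_cases i <;> fin_cases j <;> assumption
  simp only [L8, Finset.mem_insert, Finset.mem_singleton]
  rcases h1 with ⟨h1, h2, h3, h4⟩ | ⟨h1, h2, h3, h4⟩ | ⟨h1, h2, h3, h4⟩ | ⟨h1, h2, h3, h4⟩ |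
    ⟨h1, h2, h3, h4⟩ | ⟨h1, h2, h3, h4⟩ | ⟨h1, h2, h3, h4⟩ | ⟨h1, h2, h3, h4⟩
  · exact Or.inl (hx _ (by simp [h1]) (by simp [h2]) (by simp [h3]) (by simp [h4]))
  · exact Or.inr (Or.inl (hx _ (by simp [h1]) (by simp [h2]) (by simp [h3]) (by simp [h4])))
  · exact Or.inr (Or.inr (Or.inl (hx _ (by simp [h1, coe_S]) (by simp [h2, coe_S])
      (by simp [h3, coe_S]) (by simp [h4, coe_S]))))
  · exact Or.inr (Or.inr (Or.inr (Or.inl (hx _ (by simp [h1, coe_S]) (by simp [h2, coe_S])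
      (by simp [h3, coe_S]) (by simp [h4, coe_S])))))
  · refine Or.inr (Or.inr (Or.inr (Or.inr (Or.inl (hx _ ?_ ?_ ?_ ?_))))) <;>
    simp only [h1, h2, h3, h4, TS_coe] <;> rfl
  · refine Or.inr (Or.inr (Or.inr (Or.inr (Or.inr (Or.inl (hx _ ?_ ?_ ?_ ?_)))))) <;>
    simp only [h1, h2, h3, h4, TS_coe, Matrix.SpecialLinearGroup.coe_neg] <;> rfl
  · refine Or.inr (Or.inr (Or.inr (Or.inr (Or.inr (Or.inr (Or.inl (hx _ ?_ ?_ ?_ ?_))))))) <;>
    simp only [h1, h2, h3, h4, coe_T] <;> rfl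
  · refine Or.inr (Or.inr (Or.inr (Or.inr (Or.inr (Or.inr (Or.inr (hx _ ?_ ?_ ?_ ?_))))))) <;>
    simp only [h1, h2, h3, h4, coe_T, Matrix.SpecialLinearGroup.coe_neg] <;> rfl

theorem dl_neg (x : SL(2, ℤ)) : dl (-x) = dl x := by
  rw [dl, dl, mul_neg, ss_neg, ss_neg]

theorem dl_one : dl 1 = -1 := by rw [dl_eq]; simp
theorem dl_S : dl S = 1 := by rw [dl_eq]; simp [coe_S]
theorem dl_TS : dl (T * S) = 1 := by rw [dl_eq, TS_coe]; simp
theorem dl_T : dl T = -1 := by rw [dl_eq]; simp [coe_T]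

theorem sum_L8 (F : SL(2, ℤ) → ℤ) : ∑ x ∈ L8, F x =
    F 1 + (F (-1) + (F S + (F (-S) + (F (T * S) + (F (-(T * S)) + (F T + F (-T))))))) := by
  rw [L8, Finset.sum_insert, Finset.sum_insert, Finset.sum_insert, Finset.sum_insert,
    Finset.sum_insert, Finset.sum_insert, Finset.sum_insert, Finset.sum_singleton]
  all_goals decide


/-- the total crossing number with weights `w`. -/
def CC (w : SL(2, ℤ) → ℤ) (g : SL(2, ℤ)) : ℤ := ∑ᶠ x : SL(2, ℤ), w x * (ss (g⁻¹ * x) - ss x)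

theorem CC_one (w : SL(2, ℤ) → ℤ) : CC w 1 = 0 := by
  simp [CC]

theorem CC_mul_S (w : SL(2, ℤ) → ℤ) (g : SL(2, ℤ)) : CC w (g * S) = CC w g := by
  rw [CC, CC]
  refine finsum_congr fun x => ?_
  rw [_root_.mul_inv_rev, mul_assoc, ss_Sinv_mul]

theorem CC_mul_TS (w : SL(2, ℤ) → ℤ) (hw : ∀ x, w (x * S) = - w x) (g : SL(2, ℤ)) :
    CC w (g * (T * S)) = CC w g + 4 * (w (g * (T * S)) - w g) := by
  have hneg : ∀ x, w (-x) = w x := by
    intro x
    have h1 := hw (x * S)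
    rw [hw x, neg_neg, mul_assoc, Fermat.Agent.S16.Farey.S_mul_S, mul_neg, mul_one] at h1
    exact h1
  have e1 : CC w (g * (T * S)) = CC w g +
      ∑ᶠ x : SL(2, ℤ), w x * (ss ((g * (T * S))⁻¹ * x) - ss (g⁻¹ * x)) := by
    have hf1 := ss_finite_mul w g⁻¹ 1
    have hf2 := ss_finite_mul w (g * (T * S))⁻¹ g⁻¹
    simp only [one_mul] at hf1
    rw [CC, CC, ← finsum_add_distrib hf1 hf2]
    exact finsum_congr fun x => by ring
  have e2 : ∑ᶠ x : SL(2, ℤ), w x * (ss ((g * (T * S))⁻¹ * x) - ss (g⁻¹ * x)) =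
      ∑ᶠ y : SL(2, ℤ), w (g * y) * dl y := by
    rw [← finsum_comp_equiv (Equiv.mulLeft g)]
    refine finsum_congr fun y => ?_
    rw [Equiv.coe_mulLeft, _root_.mul_inv_rev, mul_assoc, inv_mul_cancel_left, dl]
  have e3 : ∑ᶠ y : SL(2, ℤ), w (g * y) * dl y = 4 * (w (g * (T * S)) - w g) := by
    rw [finsum_eq_sum_of_support_subset (s := L8), sum_L8]
    · rw [dl_neg, dl_neg, dl_neg, dl_neg, dl_one, dl_S, dl_TS, dl_T]
      have hT : w (g * T) = - w (g * (T * S)) := by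
        have h1 := hw (g * (T * S))
        rw [mul_assoc, mul_assoc, Fermat.Agent.S16.Farey.S_mul_S, mul_neg, mul_one, mul_neg,
          hneg] at h1
        exact h1
      simp only [mul_neg, mul_one, hneg, hw, hT]
      ring
    · intro y hy
      rw [Function.mem_support] at hy
      exact support_dl y fun h => hy (by rw [h, mul_zero])
  rw [e1, e2, e3]

theorem CC_eq (P : SL(2, ℤ) → ℤ) (hP : ∀ x, P (x * (T * S)) = P x) (g : SL(2, ℤ)) :
    CC (fun x => P x - P (x * S)) g = -4 * (P g + P (g * S)) + 4 * (P 1 + P (1 * S)) := by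
  have hPneg : ∀ x, P (-x) = P x := by
    intro x
    have h3 : P (x * (T * S) ^ 3) = P x := by
      have h4 : x * (T * S) ^ 3 = x * (T * S) * (T * S) * (T * S) := by
        rw [pow_succ, pow_succ, pow_one]; simp only [mul_assoc]
      rw [h4, hP, hP, hP]
    rw [Fermat.Agent.S16.TS_pow_three, mul_neg, mul_one] at h3
    exact h3
  have hw : ∀ x, (fun x => P x - P (x * S)) (x * S) = - (fun x => P x - P (x * S)) x := by
    intro x
    simp only [mul_assoc, Fermat.Agent.S16.Farey.S_mul_S, mul_neg, mul_one, hPneg]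
    ring
  -- the difference is right invariant
  have hS : ∀ x, CC (fun x => P x - P (x * S)) (x * S) + 4 * (P (x * S) + P (x * S * S)) =
      CC (fun x => P x - P (x * S)) x + 4 * (P x + P (x * S)) := by
    intro x
    rw [CC_mul_S]
    simp only [mul_assoc, Fermat.Agent.S16.Farey.S_mul_S, mul_neg, mul_one, hPneg]
    ring
  have hTS : ∀ x, CC (fun x => P x - P (x * S)) (x * (T * S)) +
      4 * (P (x * (T * S)) + P (x * (T * S) * S)) =
      CC (fun x => P x - P (x * S)) x + 4 * (P x + P (x * S)) := by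
    intro x
    rw [CC_mul_TS _ hw, hP]
    ring
  have key : ∀ g : SL(2, ℤ), ∀ x, CC (fun x => P x - P (x * S)) (x * g) +
      4 * (P (x * g) + P (x * g * S)) =
      CC (fun x => P x - P (x * S)) x + 4 * (P x + P (x * S)) := by
    intro g
    induction g using Fermat.Agent.S16.Farey.induction_TS_S with
    | hS => exact hS
    | hTS => exact hTS
    | h1 => intro x; rw [mul_one]
    | hmul g h hg hh => intro x; rw [← mul_assoc, hh, hg]
    | hinv g hg =>
      intro x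
      have := hg (x * g⁻¹)
      rw [inv_mul_cancel_right] at this
      exact this.symm
  have h := key g 1
  rw [one_mul, CC_one] at h
  linarith

section Surj

variable {Γ : Subgroup SL(2, ℤ)}

/-- the right cosets of `Γ`. -/
abbrev RC (Γ : Subgroup SL(2, ℤ)) : Type := Quotient (QuotientGroup.rightRel Γ)

theorem exists_rc (x : SL(2, ℤ)) :
    ∃ d : Γ, x = (d : SL(2, ℤ)) * (Quotient.mk (QuotientGroup.rightRel Γ) x).out := by
  have h := QuotientGroup.rightRel_apply.mp (Quotient.mk_out (s := QuotientGroup.rightRel Γ) x)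
  exact ⟨⟨_, h⟩, by simp⟩

theorem rc_bijective : Function.Bijective
    (fun p : RC Γ × Γ => (p.2 : SL(2, ℤ)) * p.1.out) := by
  constructor
  · rintro ⟨q, d⟩ ⟨q', d'⟩ h
    have h' : (d : SL(2, ℤ)) * q.out = (d' : SL(2, ℤ)) * q'.out := h
    have hq : q = q' := by
      rw [← Quotient.out_eq q, ← Quotient.out_eq q']
      apply Quotient.sound'
      rw [QuotientGroup.rightRel_apply]
      have : q'.out * q.out⁻¹ = (((d' : Γ)⁻¹ * d : Γ) : SL(2, ℤ)) := by
        have h2 : q.out = (d : SL(2, ℤ))⁻¹ * ((d' : SL(2, ℤ)) * q'.out) := by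
          rw [← h']; group
        rw [h2, Subgroup.coe_mul, Subgroup.coe_inv]
        group
      rw [this]
      exact Subtype.coe_prop _
    subst hq
    have hd : d = d' := Subtype.ext (mul_right_cancel h')
    rw [hd]
  · intro x
    obtain ⟨d, hd⟩ := exists_rc (Γ := Γ) x
    exact ⟨(Quotient.mk (QuotientGroup.rightRel Γ) x, d), hd.symm⟩

/-- **Surjectivity**: `8 ψ` is a combination of values of `Ψ` on Farey edges. -/
theorem exists_eq_sum_Psi [Fintype (RC Γ)] (ψ : Additive Γ →+ ℤ) :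
    ∃ w : RC Γ → ℤ,
      (8 : ℤ) • ψ = ∑ q : RC Γ, w q • Psi Γ (gs q.out *ᵥ e₁) (gs q.out *ᵥ e₂) := by
  classical
  -- the potential
  obtain ⟨P₀, hP₀1, hP₀2⟩ := Fermat.Agent.S16.exists_potential ψ (T * S) (by
    intro δ k h
    have h6 : ((⟨_, h⟩ : Γ)) ^ 6 = 1 := by
      apply Subtype.ext
      rw [Subgroup.coe_pow, Subgroup.coe_one]
      show (δ⁻¹ * (T * S) ^ k * δ) ^ 6 = 1
      have h1 : (δ⁻¹ * (T * S) ^ k * δ) ^ 6 = δ⁻¹ * ((T * S) ^ k) ^ 6 * δ := by
        have := conj_pow (i := 6) (a := δ⁻¹) (b := (T * S) ^ k)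
        rwa [inv_inv] at this
      rw [h1, ← zpow_natCast, ← _root_.zpow_mul, mul_comm k, _root_.zpow_mul, zpow_natCast,
        Fermat.Agent.S16.TS_pow_six, _root_.one_zpow, mul_one, inv_mul_cancel]
    have h7 := congrArg (fun z => ψ (Additive.ofMul z)) h6
    simp only [ofMul_pow, map_nsmul, ofMul_one, map_zero, nsmul_eq_mul] at h7
    push_cast at h7
    omega)
  set P : SL(2, ℤ) → ℤ := fun x => - P₀ x⁻¹ with hPdef
  have hP1 : ∀ (γ : Γ) x, P ((γ : SL(2, ℤ)) * x) = ψ (Additive.ofMul γ) + P x := by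
    intro γ x
    simp only [hPdef, _root_.mul_inv_rev]
    have := hP₀1 x⁻¹ γ⁻¹
    rw [Subgroup.coe_inv] at this
    rw [this, ofMul_inv, map_neg]; ring
  have hP2 : ∀ x, P (x * (T * S)) = P x := by
    intro x
    simp only [hPdef, _root_.mul_inv_rev]
    have := hP₀2 ((T * S)⁻¹ * x⁻¹)
    rw [mul_inv_cancel_left, _root_.mul_inv_rev] at this
    rw [this]
  set w : SL(2, ℤ) → ℤ := fun x => P x - P (x * S) with hwdef
  have hw : ∀ (γ : Γ) x, w ((γ : SL(2, ℤ)) * x) = w x := by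
    intro γ x
    simp only [hwdef]
    rw [mul_assoc, hP1, hP1]; ring
  refine ⟨fun q => - w q.out, ?_⟩
  refine AddMonoidHom.ext fun g => ?_
  obtain ⟨g, rfl⟩ := Additive.ofMul.surjective g
  have e1 := CC_eq P hP2 (g : SL(2, ℤ))
  have e2 : P (g : SL(2, ℤ)) = ψ (Additive.ofMul g) + P 1 := by
    rw [← hP1, mul_one]
  have e3 : P ((g : SL(2, ℤ)) * S) = ψ (Additive.ofMul g) + P (1 * S) := by
    rw [hP1, one_mul]
  have e4 : CC w (g : SL(2, ℤ)) = -8 * ψ (Additive.ofMul g) := by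
    rw [hwdef, e1, e2, e3]; ring
  have hfin := ss_finite_mul w (g : SL(2, ℤ))⁻¹ 1
  simp only [one_mul] at hfin
  have e5 : CC w (g : SL(2, ℤ)) = ∑ q : RC Γ, w q.out * Psi Γ (gs q.out *ᵥ e₁)
      (gs q.out *ᵥ e₂) (Additive.ofMul g) := by
    rw [CC, ← finsum_comp_equiv (Equiv.ofBijective _ (rc_bijective (Γ := Γ))), finsum_curry,
      finsum_eq_sum_of_fintype]
    · refine Finset.sum_congr rfl fun q _ => ?_
      rw [Psi_apply, IJ, mul_finsum']
      · refine finsum_congr fun d => ?_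
        simp only [Equiv.ofBijective_apply]
        rw [hw]
        congr 2
        · rw [ss_eq_sw, ← Subgroup.coe_inv]
          simp only [sw_mulVec]
          rfl
        · rw [← one_mul ((d : SL(2, ℤ)) * q.out), ss_eq_sw]
          simp only [sw_mulVec]
          rfl
      · exact (fam_gm Γ).finite_support _ _ (gm_det_pos _) one_det_pos
    · exact hfin.preimage ((Equiv.ofBijective _ (rc_bijective (Γ := Γ))).injective.injOn)
  rw [AddMonoidHom.finsetSum_apply]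
  simp only [neg_smul, AddMonoidHom.neg_apply, AddMonoidHom.smul_apply, smul_eq_mul,
    Finset.sum_neg_distrib]
  rw [← e5, e4]; ring

end Surj

end Fermat.Agent.S41dual
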