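import Fermat.Agent.S41.DualBase

/-!
# Additivity of the intersection numbers: ideal triangles
-/

set_option autoImplicit false

namespace Fermat.Agent.S41dual

open Matrix

/-- the sum of the three sides -/
def tri (a b c : V2) : ℤ := sg a b + sg b c + sg c a

theorem vec_relation (u v w : V2) : dt v w * ip u u + dt w u * ip u v + dt u v * ip w u = 0 := by
  simp only [dt, ip]; ring

theorem ip_relation (u v w : V2) (huv : dt u v ≠ 0) :
    dt w u * (ip u v * ip v w) + dt v w * (ip u v * ip w u) + dt u v * (ip v w * ip w u) =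
      dt u v * dt v w * dt w u := by
  apply mul_left_cancel₀ huv
  simp only [dt, ip]; ring

theorem tri_pos {u v w : V2} (hx : 0 < dt u v) (hy : 0 < dt v w) (hz : 0 < dt w u)
    (hne : tri u v w ≠ -1) :
    ip u v ≤ 0 ∧ ip v w ≤ 0 ∧ ip w u ≤ 0 := by
  have hu := ip_self_pos (ne_zero_left_of_dt hx.ne')
  have hv := ip_self_pos (ne_zero_left_of_dt hy.ne')
  have hw := ip_self_pos (ne_zero_left_of_dt hz.ne')
  have r1 := vec_relation u v w
  have r2 := vec_relation v w u
  have r3 := vec_relation w u v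
  have hT : tri u v w = (ip u v).sign + (ip v w).sign + (ip w u).sign := by
    rw [tri, sg, sg, sg, Int.sign_eq_one_of_pos hx, Int.sign_eq_one_of_pos hy,
      Int.sign_eq_one_of_pos hz]
    ring
  set x := dt u v
  set y := dt v w
  set z := dt w u
  set A := ip u v
  set B := ip v w
  set C := ip w u
  have k1 : 0 < A → C < 0 ∧ B < 0 := fun h => by
    constructor
    · by_contra hc
      rw [not_lt] at hc
      nlinarith [mul_pos hy hu, mul_pos hz h, mul_nonneg hx.le hc]
    · by_contra hc
      rw [not_lt] at hc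
      nlinarith [mul_pos hz hv, mul_pos hy h, mul_nonneg hx.le hc]
  have k2 : 0 < B → A < 0 ∧ C < 0 := fun h => by
    constructor
    · by_contra hc
      rw [not_lt] at hc
      nlinarith [mul_pos hz hv, mul_pos hx h, mul_nonneg hy.le hc]
    · by_contra hc
      rw [not_lt] at hc
      nlinarith [mul_pos hx hw, mul_pos hz h, mul_nonneg hy.le hc]
  have k3 : 0 < C → A < 0 ∧ B < 0 := fun h => by
    constructor
    · by_contra hc
      rw [not_lt] at hc
      nlinarith [mul_pos hy hu, mul_pos hx h, mul_nonneg hz.le hc]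
    · by_contra hc
      rw [not_lt] at hc
      nlinarith [mul_pos hx hw, mul_pos hy h, mul_nonneg hz.le hc]
  refine ⟨?_, ?_, ?_⟩
  · by_contra h
    rw [not_le] at h
    apply hne
    rw [hT, Int.sign_eq_one_of_pos h, Int.sign_eq_neg_one_of_neg (k1 h).1,
      Int.sign_eq_neg_one_of_neg (k1 h).2]
    norm_num
  · by_contra h
    rw [not_le] at h
    apply hne
    rw [hT, Int.sign_eq_one_of_pos h, Int.sign_eq_neg_one_of_neg (k2 h).1,
      Int.sign_eq_neg_one_of_neg (k2 h).2]
    norm_num
  · by_contra h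
    rw [not_le] at h
    apply hne
    rw [hT, Int.sign_eq_one_of_pos h, Int.sign_eq_neg_one_of_neg (k3 h).1,
      Int.sign_eq_neg_one_of_neg (k3 h).2]
    norm_num

theorem bound_aux {x y z A B C : ℤ} (hx : 0 < x) (hy : 0 < y) (hz : 0 < z) (hA : 0 ≤ A)
    (hB : 0 ≤ B) (hC : 0 ≤ C) (h : z * (A * B) + y * (A * C) + x * (B * C) = x * y * z) :
    A ≤ x * y + x * z := by
  have hAB := mul_nonneg hA hB
  have hAC := mul_nonneg hA hC
  have hBC := mul_nonneg hB hC
  have h1 : A * B ≤ x * y := by
    have : z * (A * B) ≤ z * (x * y) := by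
      nlinarith [mul_nonneg hy.le hAC, mul_nonneg hx.le hBC]
    exact le_of_mul_le_mul_left this hz
  have h2 : A * C ≤ x * z := by
    have : y * (A * C) ≤ y * (x * z) := by
      nlinarith [mul_nonneg hz.le hAB, mul_nonneg hx.le hBC]
    exact le_of_mul_le_mul_left this hy
  have hxy := mul_pos hx hy
  have hxz := mul_pos hx hz
  rcases hB.lt_or_eq with hB' | hB'
  · nlinarith
  · rcases hC.lt_or_eq with hC' | hC'
    · nlinarith
    · exfalso
      rw [← hB', ← hC'] at h
      have := mul_pos hxy hz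
      nlinarith

theorem tri_bound {u v w : V2} (hx : 0 < dt u v) (hy : 0 < dt v w) (hz : 0 < dt w u)
    (hne : tri u v w ≠ -1) :
    ip u u ≤ (dt u v + dt w u) * (dt u v + dt v w) * (dt v w + dt w u) ∧
    ip v v ≤ (dt u v + dt w u) * (dt u v + dt v w) * (dt v w + dt w u) := by
  obtain ⟨hA, hB, hC⟩ := tri_pos hx hy hz hne
  have hid := ip_relation u v w hx.ne'
  have r1 := vec_relation u v w
  have r2 := vec_relation v w u
  set x := dt u v
  set y := dt v w
  set z := dt w u
  set A := ip u v
  set B := ip v w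
  set C := ip w u
  have bA : -A ≤ x * y + x * z := bound_aux (A := -A) (B := -B) (C := -C) hx hy hz
    (by linarith) (by linarith) (by linarith) (by linarith)
  have bB : -B ≤ y * z + y * x := bound_aux (x := y) (y := z) (z := x) (A := -B) (B := -C)
    (C := -A) hy hz hx (by linarith) (by linarith) (by linarith) (by linarith)
  have bC : -C ≤ z * x + z * y := bound_aux (x := z) (y := x) (z := y) (A := -C) (B := -A)
    (C := -B) hz hx hy (by linarith) (by linarith) (by linarith) (by linarith)
  have hxy := mul_pos hx hy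
  have hxz := mul_pos hx hz
  have hyz := mul_pos hy hz
  have hxyz := mul_pos hxy hz
  have hu0 := ip_self_nonneg u
  have hv0 := ip_self_nonneg v
  constructor
  · -- y |u|² = z(-A) + x(-C)
    have e : y * ip u u = z * (-A) + x * (-C) := by linarith
    have b1 : z * (-A) ≤ z * (x * y + x * z) := mul_le_mul_of_nonneg_left bA hz.le
    have b2 : x * (-C) ≤ x * (z * x + z * y) := mul_le_mul_of_nonneg_left bC hx.le
    have b3 : ip u u ≤ y * ip u u := by nlinarith
    nlinarith [mul_pos hx hx, mul_pos hy hy, mul_pos hz hz, mul_pos hxy hy, mul_pos hyz hy,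
      mul_pos hxy hx, mul_pos hyz hz]
  · have e : z * ip v v = x * (-B) + y * (-A) := by linarith
    have b1 : x * (-B) ≤ x * (y * z + y * x) := mul_le_mul_of_nonneg_left bB hx.le
    have b2 : y * (-A) ≤ y * (x * y + x * z) := mul_le_mul_of_nonneg_left bA hy.le
    have b3 : ip v v ≤ z * ip v v := by nlinarith
    nlinarith [mul_pos hx hx, mul_pos hy hy, mul_pos hz hz, mul_pos hxz hz, mul_pos hyz hz,
      mul_pos hxz hx, mul_pos hyz hy]


theorem tri_neg_swap (a b c : V2) : tri a c b = - tri a b c := by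
  rw [tri, tri, sg_swap c a, sg_swap b c, sg_swap a b]; ring

theorem tri_smul {l m n : ℤ} (hl : l ≠ 0) (hm : m ≠ 0) (hn : n ≠ 0) (a b c : V2) :
    tri (l • a) (m • b) (n • c) = tri a b c := by
  simp only [tri, sg_smul_left hl, sg_smul_left hm, sg_smul_left hn, sg_smul_right hl,
    sg_smul_right hm, sg_smul_right hn]

section Family

variable {ι : Type*}

theorem Fam.finite_tri_pos {y : ι → M2} {n : ℤ} (hy : Fam y n) {a b c : V2} (hab : 0 < dt a b)
    (hbc : 0 < dt b c) (hca : 0 < dt c a) :
    {i | tri (y i *ᵥ a) (y i *ᵥ b) (y i *ᵥ c) ≠ -1}.Finite := by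
  have hfin := finite_of_bounded hab.ne' ((n * dt a b + n * dt c a) * (n * dt a b + n * dt b c) *
    (n * dt b c + n * dt c a))
  refine Set.Finite.subset (Set.Finite.preimage hy.inj.injOn hfin) ?_
  intro i hi
  have hb := tri_bound (u := y i *ᵥ a) (v := y i *ᵥ b) (w := y i *ᵥ c)
    (by rw [dt_mulVec, hy.det]; exact mul_pos hy.pos hab)
    (by rw [dt_mulVec, hy.det]; exact mul_pos hy.pos hbc)
    (by rw [dt_mulVec, hy.det]; exact mul_pos hy.pos hca) hi
  simp only [dt_mulVec, hy.det] at hb
  exact hb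

theorem sg_eq_of_parallel {a b c : V2} (ha : a ≠ 0) (hb : b ≠ 0) (h : dt a b = 0) :
    sg a c = sg b c := by
  -- `s • a = t • b` with `s t ≠ 0`
  obtain ⟨s, t, hs, ht, hst⟩ : ∃ s t : ℤ, s ≠ 0 ∧ t ≠ 0 ∧ s • a = t • b := by
    by_cases h0 : a 0 = 0
    · have h1 : a 1 ≠ 0 := by
        intro h1; apply ha; ext i; fin_cases i <;> simp [h0, h1]
      have hb0 : b 0 = 0 := by
        simp only [dt, h0, zero_mul, zero_sub, neg_eq_zero] at h
        exact (mul_eq_zero.mp h).resolve_left h1
      have hb1 : b 1 ≠ 0 := by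
        intro h1; apply hb; ext i; fin_cases i <;> simp [hb0, h1]
      refine ⟨b 1, a 1, hb1, h1, ?_⟩
      ext i; fin_cases i
      · simp [h0, hb0]
      · simp only [Fin.mk_one, Pi.smul_apply, smul_eq_mul]; ring
    · have hb0 : b 0 ≠ 0 := by
        intro hb0
        simp only [dt, hb0, mul_zero, sub_zero] at h
        have hb1 := (mul_eq_zero.mp h).resolve_left h0
        apply hb; ext i; fin_cases i <;> simp [hb0, hb1]
      refine ⟨b 0, a 0, hb0, h0, ?_⟩
      ext i; fin_cases i
      · simp only [Fin.zero_eta, Pi.smul_apply, smul_eq_mul]; ring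
      · simp only [dt] at h
        simp only [Fin.mk_one, Pi.smul_apply, smul_eq_mul]
        linarith
  rw [← sg_smul_left hs, hst, sg_smul_left ht]

theorem dt_self (a : V2) : dt a a = 0 := by simp only [dt]; ring

theorem tri_eq_zero_of_parallel {a b c : V2} (ha : a ≠ 0) (hb : b ≠ 0) (h : dt a b = 0) :
    tri a b c = 0 := by
  rw [tri, sg_eq_zero_of_dt h, sg_swap a c, sg_eq_of_parallel ha hb h]; ring

theorem tri_rot (a b c : V2) : tri b c a = tri a b c := by rw [tri, tri]; ring

theorem Fam.finite_tri {y : ι → M2} {n : ℤ} (hy : Fam y n) {a b c : V2} (ha : a ≠ 0) (hb : b ≠ 0)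
    (hc : c ≠ 0) :
    ∃ κ : ℤ, (Function.support fun i => tri (y i *ᵥ a) (y i *ᵥ b) (y i *ᵥ c) - κ).Finite := by
  have hdet : ∀ i, (y i).det ≠ 0 := fun i => by rw [hy.det]; exact hy.pos.ne'
  by_cases hab : dt a b = 0
  · refine ⟨0, ?_⟩
    convert Set.finite_empty
    ext i
    simp only [Function.mem_support, Set.mem_empty_iff_false, iff_false, not_not, sub_zero]
    exact tri_eq_zero_of_parallel (mulVec_ne_zero (hdet i) ha) (mulVec_ne_zero (hdet i) hb)
      (by rw [dt_mulVec, hab, mul_zero])
  by_cases hbc : dt b c = 0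
  · refine ⟨0, ?_⟩
    convert Set.finite_empty
    ext i
    simp only [Function.mem_support, Set.mem_empty_iff_false, iff_false, not_not, sub_zero]
    rw [← tri_rot]
    exact tri_eq_zero_of_parallel (mulVec_ne_zero (hdet i) hb) (mulVec_ne_zero (hdet i) hc)
      (by rw [dt_mulVec, hbc, mul_zero])
  by_cases hca : dt c a = 0
  · refine ⟨0, ?_⟩
    convert Set.finite_empty
    ext i
    simp only [Function.mem_support, Set.mem_empty_iff_false, iff_false, not_not, sub_zero]
    rw [← tri_rot, ← tri_rot]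
    exact tri_eq_zero_of_parallel (mulVec_ne_zero (hdet i) hc) (mulVec_ne_zero (hdet i) ha)
      (by rw [dt_mulVec, hca, mul_zero])
  -- normalise signs
  have hsab : (dt a b).sign ≠ 0 := fun h => hab (Int.sign_eq_zero_iff_zero.mp h)
  have hsbc : (dt b c).sign ≠ 0 := fun h => hbc (Int.sign_eq_zero_iff_zero.mp h)
  have hsca : (dt c a).sign ≠ 0 := fun h => hca (Int.sign_eq_zero_iff_zero.mp h)
  set a' : V2 := (dt b c).sign • a with ha'
  set b' : V2 := (dt c a).sign • b with hb'
  set c' : V2 := (dt a b).sign • c with hc'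
  have htri : ∀ i, tri (y i *ᵥ a') (y i *ᵥ b') (y i *ᵥ c') = tri (y i *ᵥ a) (y i *ᵥ b) (y i *ᵥ c) := by
    intro i
    rw [ha', hb', hc', Matrix.mulVec_smul, Matrix.mulVec_smul, Matrix.mulVec_smul,
      tri_smul hsbc hsca hsab]
  set o : ℤ := (dt a b).sign * (dt b c).sign * (dt c a).sign with ho
  have hdt1 : dt a' b' = o * |dt a b| := by
    have : dt a' b' = (dt b c).sign * (dt c a).sign * dt a b := by
      simp only [ha', hb', dt, Pi.smul_apply, smul_eq_mul]; ring
    rw [this, ho]
    nth_rewrite 1 [← Int.sign_mul_abs (dt a b)]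
    ring
  have hdt2 : dt b' c' = o * |dt b c| := by
    have : dt b' c' = (dt c a).sign * (dt a b).sign * dt b c := by
      simp only [hb', hc', dt, Pi.smul_apply, smul_eq_mul]; ring
    rw [this, ho]
    nth_rewrite 1 [← Int.sign_mul_abs (dt b c)]
    ring
  have hdt3 : dt c' a' = o * |dt c a| := by
    have : dt c' a' = (dt a b).sign * (dt b c).sign * dt c a := by
      simp only [ha', hc', dt, Pi.smul_apply, smul_eq_mul]; ring
    rw [this, ho]
    nth_rewrite 1 [← Int.sign_mul_abs (dt c a)]
    ring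
  have p1 : 0 < |dt a b| := abs_pos.mpr hab
  have p2 : 0 < |dt b c| := abs_pos.mpr hbc
  have p3 : 0 < |dt c a| := abs_pos.mpr hca
  have ho1 : o = 1 ∨ o = -1 := by
    have : o * o = 1 := by
      have e1 := sign_mul_self hab
      have e2 := sign_mul_self hbc
      have e3 := sign_mul_self hca
      calc o * o = ((dt a b).sign * (dt a b).sign) * ((dt b c).sign * (dt b c).sign) *
            ((dt c a).sign * (dt c a).sign) := by rw [ho]; ring
        _ = 1 := by rw [e1, e2, e3]; norm_num
    exact Int.isUnit_iff.mp (IsUnit.of_mul_eq_one _ this)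
  rcases ho1 with h1 | h1
  · refine ⟨-1, ?_⟩
    have := hy.finite_tri_pos (a := a') (b := b') (c := c') (by rw [hdt1, h1, one_mul]; exact p1)
      (by rw [hdt2, h1, one_mul]; exact p2) (by rw [hdt3, h1, one_mul]; exact p3)
    refine this.subset fun i hi => ?_
    rw [Function.mem_support] at hi
    intro h
    rw [htri] at h
    exact hi (by rw [h]; norm_num)
  · refine ⟨1, ?_⟩
    have := hy.finite_tri_pos (a := a') (b := c') (c := b')
      (by rw [dt_swap c' a', hdt3, h1]; linarith)
      (by rw [dt_swap b' c', hdt2, h1]; linarith) (by rw [dt_swap a' b', hdt1, h1]; linarith)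
    refine this.subset fun i hi => ?_
    rw [Function.mem_support] at hi
    intro h
    rw [tri_neg_swap, htri] at h
    exact hi (by linarith)

/-- Additivity. -/
theorem Fam.IJ_tri {y : ι → M2} {n : ℤ} (hy : Fam y n) (g : M2) (hg : 0 < g.det) (e : ι ≃ ι)
    (he : ∀ i, g * y i = y (e i)) {a b c : V2} (ha : a ≠ 0) (hb : b ≠ 0)
    (hc : c ≠ 0) : IJ y a b g 1 + IJ y b c g 1 + IJ y c a g 1 = 0 := by
  have h1 : (0 : ℤ) < (1 : M2).det := by rw [Matrix.det_one]; norm_num
  obtain ⟨κ, hκ⟩ := hy.finite_tri ha hb hc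
  rw [IJ, IJ, IJ, ← finsum_add_distrib (hy.finite_support a b hg h1) (hy.finite_support b c hg h1),
    ← finsum_add_distrib _ (hy.finite_support c a hg h1)]
  · have e1 : ∀ i, sw g a b (y i) - sw 1 a b (y i) + (sw g b c (y i) - sw 1 b c (y i)) +
        (sw g c a (y i) - sw 1 c a (y i)) =
        (tri (y (e i) *ᵥ a) (y (e i) *ᵥ b) (y (e i) *ᵥ c) - κ) +
          - (tri (y i *ᵥ a) (y i *ᵥ b) (y i *ᵥ c) - κ) := by
      intro i
      simp only [sw, tri, ← he, Matrix.mulVec_mulVec, Matrix.one_mul]
      ring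
    rw [finsum_congr e1, finsum_add_distrib, finsum_neg_distrib,
      finsum_comp_equiv e (f := fun i => tri (y i *ᵥ a) (y i *ᵥ b) (y i *ᵥ c) - κ)]
    · exact add_neg_cancel _
    · refine (hκ.preimage (e.injective.injOn)).subset ?_
      intro i hi
      exact hi
    · refine hκ.subset ?_
      intro i hi
      rw [Function.mem_support] at hi ⊢
      exact fun h => hi (by rw [h, neg_zero])
  · refine ((hy.finite_support a b hg h1).union (hy.finite_support b c hg h1)).subset ?_
    exact Function.support_add _ _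

end Family

end Fermat.Agent.S41dual
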