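import Fermat.Agent.HeckePar.CommEval
import Mathlib.RingTheory.Nakayama
import Mathlib.LinearAlgebra.Dual.Lemmas
import Mathlib.Algebra.Module.ZMod
import Mathlib.Algebra.Field.ZMod

/-!
# A consequence of Nakayama's lemma for Hecke modules
-/

set_option autoImplicit false

noncomputable section

namespace Fermat.Agent.S41aux

open Fermat.Agent.HeckePar

theorem exists_dual_ne {K V : Type*} [Field K] [AddCommGroup V] [Module K V] (v : V) (hv : v ≠ 0) :
    ∃ f : V →ₗ[K] K, f v ≠ 0 := by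
  by_contra hcon
  push Not at hcon
  exact hv ((Module.forall_dual_apply_eq_zero_iff K v).mp hcon)

theorem exists_functional {p : ℕ} (hp : p.Prime) {Q : Type*} [AddCommGroup Q]
    (hpQ : ∀ y : Q, p • y = 0) (q : Q) (hq : q ≠ 0) : ∃ Λ : Q →+ ZMod p, Λ q ≠ 0 := by
  have : Fact p.Prime := ⟨hp⟩
  let inst : Module (ZMod p) Q := AddCommGroup.zmodModule hpQ
  obtain ⟨f, hf⟩ := exists_dual_ne (K := ZMod p) q hq
  exact ⟨f.toAddMonoidHom, hf⟩

variable {ι L : Type*} [AddCommGroup L] [Module.Finite ℤ L]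

/-- If no nonzero functional `L / L' → ZMod p` is an eigenvector with eigenvalues `a`, then some
Hecke polynomial congruent to `1` maps `L` into `L'`. -/
theorem exists_poly_mem {p : ℕ} (hp : p.Prime) (op : ι → Module.End ℤ L)
    (h : ∀ i j, Commute (op i) (op j)) (L' : AddSubgroup L) (hL' : ∀ i, ∀ x ∈ L', op i x ∈ L')
    (a : ι → ℤ)
    (hdual : ∀ Y : L →+ ZMod p, (∀ x ∈ L', Y x = 0) →
      (∀ i x, Y (op i x) = (a i : ZMod p) * Y x) → Y = 0) :
    ∃ t : MvPolynomial ι ℤ, (p : ℤ) ∣ MvPolynomial.eval a t - 1 ∧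
      ∀ x : L, commEval op h t x ∈ L' := by
  classical
  have : Fact p.Prime := ⟨hp⟩
  letI inst : Module (MvPolynomial ι ℤ) L := Module.compHom L (commEval op h).toRingHom
  have hsmul : ∀ (t : MvPolynomial ι ℤ) (x : L), t • x = commEval op h t x := fun _ _ => rfl
  let L'' : Submodule (MvPolynomial ι ℤ) L :=
    { carrier := L'
      add_mem' := fun hx hy => L'.add_mem hx hy
      zero_mem' := L'.zero_mem
      smul_mem' := fun t x hx => commEval_mem op h L' hL' t x hx }
  have hmem : ∀ x, x ∈ L'' ↔ x ∈ L' := fun _ => Iff.rfl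
  -- the ideal
  let φ : MvPolynomial ι ℤ →+* ZMod p := (Int.castRingHom (ZMod p)).comp (MvPolynomial.eval a)
  let I : Ideal (MvPolynomial ι ℤ) := RingHom.ker φ
  have hI : ∀ t, t ∈ I ↔ ((MvPolynomial.eval a t : ℤ) : ZMod p) = 0 := fun _ => Iff.rfl
  have hfin : Module.Finite (MvPolynomial ι ℤ) (L ⧸ L'') := by
    have : Module.Finite (MvPolynomial ι ℤ) L := Module.Finite.of_restrictScalars_finite ℤ _ _
    infer_instance
  by_cases htop : (⊤ : Submodule (MvPolynomial ι ℤ) (L ⧸ L'')) ≤ I • ⊤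
  · obtain ⟨t, ht1, ht2⟩ := Submodule.exists_sub_one_mem_and_smul_eq_zero_of_fg_of_le_smul I
      (⊤ : Submodule (MvPolynomial ι ℤ) (L ⧸ L'')) Module.Finite.fg_top htop
    refine ⟨t, ?_, fun x => ?_⟩
    · rw [hI] at ht1
      rw [← ZMod.intCast_zmod_eq_zero_iff_dvd]
      rw [map_sub, map_one] at ht1
      exact ht1
    · have h1 := ht2 (Submodule.Quotient.mk x) Submodule.mem_top
      rw [← Submodule.Quotient.mk_smul, Submodule.Quotient.mk_eq_zero] at h1
      exact h1
  · exfalso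
    set J : Submodule (MvPolynomial ι ℤ) (L ⧸ L'') := I • ⊤ with hJ
    obtain ⟨q, -, hq⟩ := SetLike.not_le_iff_exists.mp htop
    have hIQ : ∀ (t : MvPolynomial ι ℤ), t ∈ I → ∀ y : (L ⧸ L'') ⧸ J, t • y = 0 := by
      intro t ht y
      obtain ⟨y, rfl⟩ := Submodule.Quotient.mk_surjective _ y
      rw [← Submodule.Quotient.mk_smul, Submodule.Quotient.mk_eq_zero]
      exact Submodule.smul_mem_smul ht Submodule.mem_top
    have hpQ : ∀ y : (L ⧸ L'') ⧸ J, p • y = 0 := by
      intro y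
      have h1 := hIQ (p : MvPolynomial ι ℤ) (by rw [hI]; simp) y
      rwa [Nat.cast_smul_eq_nsmul] at h1
    have hq0 : (Submodule.Quotient.mk q : (L ⧸ L'') ⧸ J) ≠ 0 := by
      rw [Ne, Submodule.Quotient.mk_eq_zero]; exact hq
    obtain ⟨Λ, hΛ⟩ := exists_functional hp hpQ (Submodule.Quotient.mk q : (L ⧸ L'') ⧸ J) hq0
    let Y : L →+ ZMod p := Λ.comp
      (J.mkQ.toAddMonoidHom.comp L''.mkQ.toAddMonoidHom)
    have hY : ∀ x, Y x = Λ (Submodule.Quotient.mk (Submodule.Quotient.mk x)) := fun _ => rfl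
    have hY0 : Y = 0 := by
      apply hdual
      · intro x hx
        rw [hY]
        have : (Submodule.Quotient.mk x : L ⧸ L'') = 0 := (Submodule.Quotient.mk_eq_zero _).mpr hx
        rw [this, Submodule.Quotient.mk_zero, map_zero]
      · intro i x
        have h1 := hIQ (MvPolynomial.X i - MvPolynomial.C (a i)) (by rw [hI]; simp)
          (Submodule.Quotient.mk (Submodule.Quotient.mk x))
        rw [sub_smul, sub_eq_zero] at h1
        have h2 : (MvPolynomial.C (a i) : MvPolynomial ι ℤ) = ((a i : ℤ) : MvPolynomial ι ℤ) := by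
          simp
        rw [h2, Int.cast_smul_eq_zsmul, ← Submodule.Quotient.mk_smul,
          ← Submodule.Quotient.mk_smul, hsmul, commEval_X] at h1
        rw [hY, h1, map_zsmul, zsmul_eq_mul, hY]
    obtain ⟨x, rfl⟩ := Submodule.Quotient.mk_surjective _ q
    exact hΛ (by rw [← hY, hY0]; rfl)

end Fermat.Agent.S41aux

end
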