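import Mathlib

/-!
# Algebra behind the existence of primes at which an irreducible odd representation is not
Eisenstein-like
-/

set_option autoImplicit false
set_option linter.unusedSectionVars false
set_option linter.style.haveILetI false

namespace Fermat.Agent.S41ne

section Ring

variable {p : ℕ} [hp : Fact p.Prime] {A : Type*} [Ring A] [Algebra (ZMod p) A]

lemma pow_eq_one_of_sub_sq {X : A} (h : (X - 1) * (X - 1) = 0) : X ^ p = 1 := by
  have key : ∀ n : ℕ, X ^ n = 1 + (n : ZMod p) • (X - 1) := by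
    intro n
    induction n with
    | zero => simp
    | succ n ih =>
      have hX : X = 1 + (X - 1) := by abel
      rw [pow_succ, ih]
      nth_rewrite 2 [hX]
      rw [mul_add, mul_one, add_mul, one_mul, smul_mul_assoc, h, smul_zero, add_zero,
        Nat.cast_succ, add_smul, one_smul]
      abel
  rw [key p, ZMod.natCast_self, zero_smul, add_zero]

lemma pow_eq_neg_one_of_add_sq (hp2 : p ≠ 2) {X : A} (h : (X + 1) * (X + 1) = 0) :
    X ^ p = -1 := by
  have h1 : (-X - 1) * (-X - 1) = 0 := by
    rw [show (-X - 1) * (-X - 1) = (X + 1) * (X + 1) by noncomm_ring]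
    exact h
  have h2 := pow_eq_one_of_sub_sq (p := p) h1
  rw [(hp.out.odd_of_ne_two hp2).neg_pow] at h2
  rw [← h2, neg_neg]

end Ring

section Fixed

variable {p : ℕ} [hp : Fact p.Prime] {V : Type*} [AddCommGroup V] [Module (ZMod p) V]
  [Finite V] {G : Type*} [Group G] (ρ : G →* Module.End (ZMod p) V)

/-- A group acting through elements killed by `p` has a nonzero fixed vector. -/
theorem exists_fixed_vector [Nontrivial V] (H : Subgroup G) (hH : ∀ h ∈ H, (ρ h) ^ p = 1) :
    ∃ v : V, v ≠ 0 ∧ ∀ h ∈ H, ρ h v = v := by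
  have hP : IsPGroup p (H.map ρ.toHomUnits) := by
    rw [isPGroup_iff_pow_pow_eq_one]
    rintro ⟨g, h, hh, rfl⟩
    refine ⟨1, Subtype.ext (Units.ext ?_)⟩
    rw [pow_one]
    exact hH h hh
  haveI : Finite (Module.End (ZMod p) V)ˣ := by
    haveI : Finite (Module.End (ZMod p) V) := Finite.of_injective (fun f => (f : V → V))
      DFunLike.coe_injective
    infer_instance
  have hcard : p ∣ Nat.card V := by
    have h1 := Module.natCard_eq_pow_finrank (K := ZMod p) (V := V)
    rw [Nat.card_zmod] at h1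
    rw [h1]
    have h2 : 0 < Module.finrank (ZMod p) V := Module.finrank_pos
    exact dvd_pow_self _ h2.ne'
  obtain ⟨v, hv, hv0⟩ := hP.exists_fixed_point_of_prime_dvd_card_of_fixed_point V hcard
    (a := (0 : V)) (by
      rw [MulAction.mem_fixedPoints]
      rintro ⟨g, h, hh, rfl⟩
      exact map_zero (ρ h))
  refine ⟨v, hv0.symm, fun h hh => ?_⟩
  rw [MulAction.mem_fixedPoints] at hv
  exact hv ⟨ρ.toHomUnits h, h, hh, rfl⟩

/-- A group acting through elements whose `p`-th power is `± 1` on a plane has a stable line. -/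
theorem exists_fixed_line (hV : Module.finrank (ZMod p) V = 2) (H : Subgroup G)
    (hH : ∀ h ∈ H, (ρ h) ^ p = 1 ∨ (ρ h) ^ p = -1) :
    ∃ v : V, v ≠ 0 ∧ ∀ h ∈ H, ∃ a : ZMod p, ρ h v = a • v := by
  classical
  let φ : (Module.End (ZMod p) V)ˣ →* Equiv.Perm (Projectivization (ZMod p) V) :=
    MulAction.toPermHom _ _
  have hφ : ∀ (u : (Module.End (ZMod p) V)ˣ), (u = 1 ∨ u = -1) → φ u = 1 := by
    rintro u (rfl | rfl)
    · exact map_one φ
    · refine Equiv.ext fun x => ?_
      induction x using Projectivization.ind with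
      | h v hv =>
        show (-1 : (Module.End (ZMod p) V)ˣ) • Projectivization.mk (ZMod p) v hv =
          Projectivization.mk (ZMod p) v hv
        rw [Projectivization.smul_mk, Projectivization.mk_eq_mk_iff]
        refine ⟨-1, ?_⟩
        rw [Units.smul_def, Units.smul_def]
        simp
  have hP : IsPGroup p ((H.map ρ.toHomUnits).map φ) := by
    rw [isPGroup_iff_pow_pow_eq_one]
    rintro ⟨g, u, ⟨h, hh, rfl⟩, rfl⟩
    refine ⟨1, Subtype.ext ?_⟩
    rw [pow_one]
    show (φ (ρ.toHomUnits h)) ^ p = 1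
    rw [← map_pow]
    apply hφ
    rcases hH h hh with h1 | h1
    · left; exact Units.ext h1
    · right; exact Units.ext h1
  haveI : Finite (Projectivization (ZMod p) V) := inferInstance
  have hcard : ¬ p ∣ Nat.card (Projectivization (ZMod p) V) := by
    rw [Projectivization.card_of_finrank_two _ _ hV, Nat.card_zmod]
    intro h
    have h1 : p ∣ 1 := (Nat.dvd_add_right (dvd_refl p)).mp h
    exact hp.out.one_lt.ne' (Nat.dvd_one.mp h1)
  obtain ⟨x, hx⟩ := hP.nonempty_fixed_point_of_prime_not_dvd_card (Projectivization (ZMod p) V)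
    hcard
  rw [MulAction.mem_fixedPoints] at hx
  induction x using Projectivization.ind with
  | h v hv =>
    refine ⟨v, hv, fun h hh => ?_⟩
    have h1 := hx ⟨φ (ρ.toHomUnits h), _, ⟨h, hh, rfl⟩, rfl⟩
    have h2 : (ρ.toHomUnits h) • Projectivization.mk (ZMod p) v hv =
      Projectivization.mk (ZMod p) v hv := h1
    rw [Projectivization.smul_mk, Projectivization.mk_eq_mk_iff'] at h2
    obtain ⟨a, ha⟩ := h2
    exact ⟨a, ha.symm⟩

end Fixed

section Main

variable {p : ℕ} [hp : Fact p.Prime] {V : Type*} [AddCommGroup V] [Module (ZMod p) V]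
  [Finite V] {G : Type*} [Group G] (ρ : G →* Module.End (ZMod p) V)

/-- An odd irreducible representation is not abelian. -/
theorem false_of_commute (h2 : (2 : ZMod p) ≠ 0) (hV : Module.finrank (ZMod p) V = 2)
    (hirr : ∀ N : Submodule (ZMod p) V, (∀ g, ∀ x ∈ N, ρ g x ∈ N) → N = ⊥ ∨ N = ⊤)
    {c : G} (hc : c * c = 1) (hdc : LinearMap.det (ρ c) = -1)
    (hcomm : ∀ g, ρ g * ρ c = ρ c * ρ g) : False := by
  have hcc : ρ c * ρ c = 1 := by rw [← map_mul, hc, map_one]
  rcases hirr (LinearMap.ker (ρ c - 1)) (fun g x hx => by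
    rw [LinearMap.mem_ker, LinearMap.sub_apply, Module.End.one_apply, sub_eq_zero] at hx ⊢
    have h1 := congrArg (fun f : Module.End (ZMod p) V => f x) (hcomm g)
    simp only [Module.End.mul_apply] at h1
    rw [← h1, hx]) with h | h
  · have h3 : ρ c = -1 := by
      refine LinearMap.ext fun x => ?_
      have h4 : ρ c x + x ∈ LinearMap.ker (ρ c - 1) := by
        rw [LinearMap.mem_ker, LinearMap.sub_apply, Module.End.one_apply, map_add]
        have h5 := congrArg (fun f : Module.End (ZMod p) V => f x) hcc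
        simp only [Module.End.mul_apply, Module.End.one_apply] at h5
        rw [h5]; abel
      rw [h, Submodule.mem_bot] at h4
      rw [LinearMap.neg_apply, Module.End.one_apply]
      exact eq_neg_of_add_eq_zero_left h4
    rw [h3, ← neg_one_smul (ZMod p) (1 : Module.End (ZMod p) V), LinearMap.det_smul, hV,
      map_one] at hdc
    apply h2
    linear_combination hdc
  · have h3 : ρ c = 1 := by
      refine LinearMap.ext fun x => ?_
      have h4 : x ∈ LinearMap.ker (ρ c - 1) := by rw [h]; trivial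
      rwa [LinearMap.mem_ker, LinearMap.sub_apply, sub_eq_zero] at h4
    rw [h3, map_one] at hdc
    apply h2
    linear_combination hdc

/-- **NE1, abstract form.** -/
theorem false_of_unipotent (h2 : (2 : ZMod p) ≠ 0) (hV : Module.finrank (ZMod p) V = 2)
    (hirr : ∀ N : Submodule (ZMod p) V, (∀ g, ∀ x ∈ N, ρ g x ∈ N) → N = ⊥ ∨ N = ⊤)
    {c : G} (hc : c * c = 1) (hdc : LinearMap.det (ρ c) = -1)
    (H : Subgroup G) (hab : ∀ a b : G, a * b * a⁻¹ * b⁻¹ ∈ H)
    (hH : ∀ h ∈ H, (ρ h) ^ p = 1) : False := by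
  have hV0 : 0 < Module.finrank (ZMod p) V := by rw [hV]; norm_num
  haveI : Nontrivial V := Module.nontrivial_of_finrank_pos hV0
  obtain ⟨v, hv0, hv⟩ := exists_fixed_vector ρ H hH
  -- `H` is normal
  have hnorm : ∀ g : G, ∀ h ∈ H, g⁻¹ * h * g ∈ H := by
    intro g h hh
    have h1 := H.mul_mem (hab g⁻¹ h) hh
    simpa [mul_assoc] using h1
  let N : Submodule (ZMod p) V :=
    { carrier := {x | ∀ h ∈ H, ρ h x = x}
      add_mem' := fun {x y} hx hy h hh => by rw [map_add, hx h hh, hy h hh]
      zero_mem' := fun h _ => map_zero _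
      smul_mem' := fun a x hx h hh => by rw [map_smul, hx h hh] }
  have hN : ∀ g, ∀ x ∈ N, ρ g x ∈ N := by
    intro g x hx h hh
    have h1 := hx _ (hnorm g h hh)
    have h3 : h * g = g * (g⁻¹ * h * g) := by group
    rw [← Module.End.mul_apply, ← map_mul, h3, map_mul, Module.End.mul_apply, h1]
  rcases hirr N hN with h | h
  · have : v ∈ N := hv
    rw [h, Submodule.mem_bot] at this
    exact hv0 this
  · refine false_of_commute ρ h2 hV hirr hc hdc fun g => ?_
    have h1 : ρ (g * c * g⁻¹ * c⁻¹) = 1 := by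
      refine LinearMap.ext fun x => ?_
      have h4 : x ∈ N := by rw [h]; trivial
      exact h4 _ (hab g c)
    have h3 : g * c = (g * c * g⁻¹ * c⁻¹) * (c * g) := by group
    rw [← map_mul, h3, map_mul, h1, one_mul, map_mul]

lemma cayley (hV : Module.finrank (ZMod p) V = 2) (X : Module.End (ZMod p) V) :
    X * X - LinearMap.trace (ZMod p) V X • X + LinearMap.det X • (1 : Module.End (ZMod p) V) = 0 := by
  haveI : Module.Finite (ZMod p) V := Module.Finite.of_finite
  let b := Module.finBasisOfFinrankEq _ _ hV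
  have h1 := LinearMap.aeval_self_charpoly X
  rw [← LinearMap.charpoly_toMatrix X b, Matrix.charpoly_fin_two,
    ← LinearMap.trace_eq_matrix_trace (ZMod p) b X, LinearMap.det_toMatrix] at h1
  simpa [sq, Algebra.smul_def] using h1

lemma pow_of_det_one (hp2 : p ≠ 2)
    (hV : Module.finrank (ZMod p) V = 2) (X : Module.End (ZMod p) V)
    (hdet : LinearMap.det X = 1)
    (htr : (LinearMap.trace (ZMod p) V X) ^ 2 = (LinearMap.det X + 1) ^ 2) :
    X ^ p = 1 ∨ X ^ p = -1 := by
  have h1 := cayley hV X
  rw [hdet] at h1 htr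
  rcases sq_eq_sq_iff_eq_or_eq_neg.mp htr with h | h
  · left
    apply pow_eq_one_of_sub_sq
    rw [h, one_smul, add_smul, one_smul] at h1
    rw [← h1]
    noncomm_ring
  · right
    apply pow_eq_neg_one_of_add_sq hp2
    rw [h, one_smul, neg_smul, add_smul, one_smul] at h1
    rw [← h1]
    noncomm_ring

/-- **NE2, abstract form.** -/
theorem false_of_pm (hp2 : p ≠ 2) (h2 : (2 : ZMod p) ≠ 0) (hV : Module.finrank (ZMod p) V = 2)
    (hirr : ∀ N : Submodule (ZMod p) V, (∀ g, ∀ x ∈ N, ρ g x ∈ N) → N = ⊥ ∨ N = ⊤)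
    {c : G} (hc : c * c = 1) (hdc : LinearMap.det (ρ c) = -1)
    (hF : ∀ g : G, ∃ k k' : ℕ, ((ρ g) ^ k) ^ k' = ρ g ∧
      (LinearMap.trace (ZMod p) V ((ρ g) ^ k)) ^ 2 = (LinearMap.det ((ρ g) ^ k) + 1) ^ 2) :
    False := by
  haveI : Module.Finite (ZMod p) V := Module.Finite.of_finite
  have hcc : ρ c * ρ c = 1 := by rw [← map_mul, hc, map_one]
  have hinv : ∀ g, ρ g * ρ g⁻¹ = 1 := fun g => by rw [← map_mul, mul_inv_cancel, map_one]
  have hinv' : ∀ g, ρ g⁻¹ * ρ g = 1 := fun g => by rw [← map_mul, inv_mul_cancel, map_one]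
  -- the determinant one subgroup
  let H : Subgroup G :=
    { carrier := {g | LinearMap.det (ρ g) = 1}
      mul_mem' := fun {a b} ha hb => by
        simp only [Set.mem_ofPred_eq] at ha hb ⊢
        rw [map_mul, map_mul, ha, hb, one_mul]
      one_mem' := by
        simp only [Set.mem_ofPred_eq]
        rw [map_one, map_one]
      inv_mem' := fun {a} ha => by
        simp only [Set.mem_ofPred_eq] at ha ⊢
        have h1 := congrArg LinearMap.det (hinv a)
        rw [map_mul, ha, one_mul, map_one] at h1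
        exact h1 }
  have hHmem : ∀ g, g ∈ H ↔ LinearMap.det (ρ g) = 1 := fun g => Iff.rfl
  have hab : ∀ a b : G, a * b * a⁻¹ * b⁻¹ ∈ H := by
    intro a b
    rw [hHmem, map_mul, map_mul, map_mul, map_mul, map_mul, map_mul]
    have h1 := congrArg LinearMap.det (hinv a)
    have h3 := congrArg LinearMap.det (hinv b)
    rw [map_mul, map_one] at h1 h3
    linear_combination (LinearMap.det (ρ b) * LinearMap.det (ρ b⁻¹)) * h1 + h3
  have hnorm : ∀ g : G, ∀ h ∈ H, g⁻¹ * h * g ∈ H := by
    intro g h hh
    have h1 := H.mul_mem (hab g⁻¹ h) hh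
    simpa [mul_assoc] using h1
  have hH : ∀ h ∈ H, (ρ h) ^ p = 1 ∨ (ρ h) ^ p = -1 := by
    intro h hh
    obtain ⟨k, k', h3, h4⟩ := hF h
    have h5 : LinearMap.det ((ρ h) ^ k) = 1 := by
      rw [map_pow, (hHmem h).mp hh, one_pow]
    rw [← h3, ← pow_mul, mul_comm k' p, pow_mul]
    rcases pow_of_det_one hp2 hV _ h5 h4 with h6 | h6
    · left; rw [h6, one_pow]
    · rw [h6]; exact neg_one_pow_eq_or _ _
  obtain ⟨v, hv0, hv⟩ := exists_fixed_line ρ hV H hH
  -- a second line
  obtain ⟨g₀, hg₀⟩ : ∃ g, ρ g v ∉ Submodule.span (ZMod p) {v} := by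
    by_contra hcon
    push Not at hcon
    rcases hirr (Submodule.span (ZMod p) {v}) (fun g x hx => by
      obtain ⟨a, rfl⟩ := Submodule.mem_span_singleton.mp hx
      rw [map_smul]
      exact Submodule.smul_mem _ _ (hcon g)) with h | h
    · exact hv0 (Submodule.span_singleton_eq_bot.mp h)
    · have h3 := finrank_span_singleton (K := ZMod p) hv0
      rw [h, finrank_top, hV] at h3
      norm_num at h3
  set w := ρ g₀ v with hw
  have hpair : ∀ x y : Module.End (ZMod p) V, x v = y v → x w = y w → x = y := by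
    intro x y h3 h4
    have hli : LinearIndependent (ZMod p) ![v, w] := by
      rw [LinearIndependent.pair_iff]
      intro s t hst
      have ht : t = 0 := by
        by_contra ht
        apply hg₀
        rw [Submodule.mem_span_singleton]
        refine ⟨-(t⁻¹ * s), ?_⟩
        have h5 : t⁻¹ • (s • v + t • w) = 0 := by rw [hst, smul_zero]
        rw [smul_add, smul_smul, smul_smul, inv_mul_cancel₀ ht, one_smul] at h5
        rw [neg_smul]
        exact neg_eq_of_add_eq_zero_right h5
      refine ⟨?_, ht⟩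
      rw [ht, zero_smul, add_zero] at hst
      exact (smul_eq_zero.mp hst).resolve_right hv0
    let b := basisOfLinearIndependentOfCardEqFinrank hli (by rw [Fintype.card_fin, hV])
    refine b.ext fun i => ?_
    rw [coe_basisOfLinearIndependentOfCardEqFinrank]
    fin_cases i
    · exact h3
    · exact h4
  -- `H` acts by signs
  have hsign : ∀ h ∈ H, ρ h = 1 ∨ ρ h = -1 := by
    intro h hh
    obtain ⟨a, ha⟩ := hv h hh
    obtain ⟨a', ha'⟩ := hv _ (hnorm g₀ h hh)
    have haw : ρ h w = a' • w := by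
      have h3 : h * g₀ = g₀ * (g₀⁻¹ * h * g₀) := by group
      rw [hw, ← Module.End.mul_apply, ← map_mul, h3, map_mul, Module.End.mul_apply, ha', map_smul]
    have hpow : ∀ (u : V) (s : ZMod p), ρ h u = s • u → ∀ n : ℕ, ((ρ h) ^ n) u = s ^ n • u := by
      intro u s hs n
      induction n with
      | zero => simp
      | succ n ih => rw [pow_succ', Module.End.mul_apply, ih, map_smul, hs, smul_smul, pow_succ]
    have hw0 : w ≠ 0 := by
      intro h0
      apply hg₀
      rw [h0]
      exact Submodule.zero_mem _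
    have h3 := hpow v a ha p
    have h4 := hpow w a' haw p
    rw [ZMod.pow_card] at h3 h4
    have hcancel : ∀ (u : V) (s t : ZMod p), u ≠ 0 → s • u = t • u → s = t := by
      intro u s t hu hst
      rw [← sub_eq_zero, ← sub_smul] at hst
      exact sub_eq_zero.mp ((smul_eq_zero.mp hst).resolve_right hu)
    rcases hH h hh with h5 | h5
    · left
      rw [h5, Module.End.one_apply] at h3 h4
      have h6 : a = 1 := hcancel v a 1 hv0 (by rw [one_smul]; exact h3.symm)
      have h7 : a' = 1 := hcancel w a' 1 hw0 (by rw [one_smul]; exact h4.symm)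
      apply hpair
      · rw [ha, h6, one_smul]; rfl
      · rw [haw, h7, one_smul]; rfl
    · right
      rw [h5, LinearMap.neg_apply, Module.End.one_apply] at h3 h4
      have h6 : a = -1 := hcancel v a (-1) hv0 (by rw [neg_one_smul]; exact h3.symm)
      have h7 : a' = -1 := hcancel w a' (-1) hw0 (by rw [neg_one_smul]; exact h4.symm)
      apply hpair
      · rw [ha, h6, neg_one_smul]; rfl
      · rw [haw, h7, neg_one_smul]; rfl
  -- everything commutes or anticommutes with `c`
  have hpm : ∀ g, ρ g * ρ c = ρ c * ρ g ∨ ρ g * ρ c = -(ρ c * ρ g) := by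
    intro g
    have h3 : g * c = (g * c * g⁻¹ * c⁻¹) * (c * g) := by group
    rw [← map_mul, h3, map_mul]
    rcases hsign _ (hab g c) with h | h
    · left; rw [h, one_mul, map_mul]
    · right; rw [h, neg_one_mul, map_mul]
  have hne : ∀ g, ρ g ≠ 0 := by
    intro g h0
    have h3 := hinv g
    rw [h0, zero_mul] at h3
    have h4 := congrArg (fun f : Module.End (ZMod p) V => f v) h3
    exact hv0 h4.symm
  -- cannot do both
  have hboth : ∀ g, ρ g * ρ c = ρ c * ρ g → ρ g * ρ c = -(ρ c * ρ g) → False := by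
    intro g h3 h4
    have h5 : (2 : ZMod p) • (ρ g * ρ c) = 0 := by
      rw [two_smul]
      nth_rewrite 1 [h4]
      rw [h3]; abel
    have h6 := (smul_eq_zero.mp h5).resolve_left h2
    rw [← map_mul] at h6
    exact hne _ h6
  -- parity
  have hpar : ∀ X : Module.End (ZMod p) V, X * ρ c = -(ρ c * X) → ∀ n : ℕ,
      (Even n → X ^ n * ρ c = ρ c * X ^ n) ∧ (Odd n → X ^ n * ρ c = -(ρ c * X ^ n)) := by
    intro X hX n
    have key : X ^ n * ρ c = (-1) ^ n * (ρ c * X ^ n) := by
      induction n with
      | zero => simp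
      | succ n ih =>
        rw [pow_succ', mul_assoc, ih, pow_succ]
        have h3 : X * ((-1) ^ n * (ρ c * X ^ n)) = (-1) ^ n * (X * ρ c * X ^ n) := by
          rcases neg_one_pow_eq_or (Module.End (ZMod p) V) n with h | h <;> rw [h] <;>
            noncomm_ring
        rw [h3, hX]
        noncomm_ring
    exact ⟨fun h => by rw [key, h.neg_one_pow, one_mul],
      fun h => by rw [key, h.neg_one_pow, neg_one_mul]⟩
  -- determinant of anticommuting elements
  have hdet : ∀ g, ρ g * ρ c = -(ρ c * ρ g) → LinearMap.det (ρ g) = -1 := by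
    intro g hg
    obtain ⟨k, k', h3, h4⟩ := hF g
    have hk : Odd k := by
      by_contra hk
      rw [Nat.not_odd_iff_even] at hk
      have h5 : Commute ((ρ g) ^ k) (ρ c) := (hpar _ hg k).1 hk
      have h6 : Commute (ρ g) (ρ c) := by rw [← h3]; exact h5.pow_left k'
      exact hboth g h6 hg
    have hX := (hpar _ hg k).2 hk
    have hk' : Odd k' := by
      by_contra hk'
      rw [Nat.not_odd_iff_even] at hk'
      have h5 := (hpar _ hX k').1 hk'
      rw [h3] at h5
      exact hboth g h5 hg
    have htr : LinearMap.trace (ZMod p) V ((ρ g) ^ k) = 0 := by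
      have h5 : (ρ g) ^ k = -(ρ c * (ρ g) ^ k * ρ c) := by
        rw [mul_assoc, hX]
        rw [mul_neg, ← mul_assoc, hcc, one_mul, neg_neg]
      have h6 := congrArg (LinearMap.trace (ZMod p) V) h5
      rw [map_neg, LinearMap.trace_mul_comm, ← mul_assoc, hcc, one_mul] at h6
      have h7 : (2 : ZMod p) * LinearMap.trace (ZMod p) V ((ρ g) ^ k) = 0 := by
        linear_combination h6
      exact (mul_eq_zero.mp h7).resolve_left h2
    rw [htr] at h4
    have h8 : LinearMap.det ((ρ g) ^ k) = -1 := by
      have h9 : (LinearMap.det ((ρ g) ^ k) + 1) ^ 2 = 0 := by rw [← h4]; ring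
      exact eq_neg_of_add_eq_zero_left (pow_eq_zero_iff (two_ne_zero) |>.mp h9)
    rw [← h3, map_pow, h8, hk'.neg_one_pow]
  by_cases hall : ∀ g, ρ g * ρ c = ρ c * ρ g
  · exact false_of_commute ρ h2 hV hirr hc hdc hall
  · push Not at hall
    obtain ⟨τ, hτ⟩ := hall
    have h3 := (hpm τ).resolve_left hτ
    have h4 := hdet τ h3
    have h5 := hdet (τ * c) (by
      rw [map_mul]
      nth_rewrite 1 [h3]
      noncomm_ring)
    rw [map_mul, map_mul, h4, hdc] at h5
    apply h2
    linear_combination h5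

end Main

end Fermat.Agent.S41ne
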