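import Fermat.Agent.S41.Prim
import Mathlib.Algebra.CharP.Defs
import Mathlib.Data.ZMod.Basic

/-!
# Non-Eisenstein homomorphisms are parabolic
-/

set_option autoImplicit false

open Matrix CongruenceSubgroup
open scoped MatrixGroups

namespace Fermat.Agent.S41aux

open Fermat.Agent.HeckePar

theorem eta_mat (X : Matrix (Fin 2) (Fin 2) ℤ) : X = !![X 0 0, X 0 1; X 1 0, X 1 1] := by
  ext i j; fin_cases i <;> fin_cases j <;> rfl

section Par

variable {F : Type*} [Field F] {p N : ℕ} [CharP F p]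

theorem mat_coc_unique {ℓ : ℕ} [hℓ : Fact ℓ.Prime] (γ δ : Gamma0 N) (x : HIdx N ℓ)
    (h : intRep ℓ x.1 * ((γ : SL(2, ℤ)) : Matrix (Fin 2) (Fin 2) ℤ) =
      ((δ : SL(2, ℤ)) : Matrix (Fin 2) (Fin 2) ℤ) * intRep ℓ x.1) :
    (heckeSys N ℓ).coc γ x = δ := by
  have h1 := (hrep_mul_iota_eq_iff hℓ.out.ne_zero x.1 x.1 γ δ).mpr h
  exact ((heckeSys N ℓ).ext_coc h1).2

/-- The upper triangular factor of `g⁻¹ α g`. -/
theorem exists_conj_factor {ℓ : ℕ} (hℓ : ℓ.Prime) (hℓN : (N : ℤ) ∣ ℓ - 1) (x : HIdx N ℓ)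
    (g g' : Matrix (Fin 2) (Fin 2) ℤ) (hgg : g * g' = 1) (hg'g : g' * g = 1) :
    ∃ (ε : Gamma0 N) (α : Matrix (Fin 2) (Fin 2) ℤ),
      (α = !![(ℓ : ℤ), 0; 0, 1] ∨ ∃ b : ℤ, α = !![1, b; 0, (ℓ : ℤ)]) ∧
      intRep ℓ x.1 = ((ε : SL(2, ℤ)) : Matrix (Fin 2) (Fin 2) ℤ) * (g * α * g') := by
  have hdg : g.det * g'.det = 1 := by rw [← Matrix.det_mul, hgg, Matrix.det_one]
  obtain ⟨y, κ, hκ, hκdet, -, -⟩ := exists_factor (N := 1) hℓ (g' * intRep ℓ x.1 * g) 1 (by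
    rw [← Matrix.det_fin_two, Matrix.det_mul, Matrix.det_mul, det_intRep]
    linear_combination (ℓ : ℤ) * hdg) (by simp) (by
      intro h; exact absurd (Nat.dvd_one.mp h) hℓ.one_lt.ne')
  rw [← Matrix.det_fin_two] at hκdet
  -- a representative congruent to one modulo `N`
  obtain ⟨κ', α, hα, hαN, hκ'det, hκ'⟩ : ∃ κ' α : Matrix (Fin 2) (Fin 2) ℤ,
      (α = !![(ℓ : ℤ), 0; 0, 1] ∨ ∃ b : ℤ, α = !![1, b; 0, (ℓ : ℤ)]) ∧ Cong N α 1 ∧
      κ'.det = 1 ∧ g' * intRep ℓ x.1 * g = κ' * α := by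
    obtain ⟨y, hy⟩ := y
    cases y with
    | none =>
      refine ⟨κ, _, Or.inl rfl, ?_, hκdet, hκ⟩
      intro i j
      fin_cases i <;> fin_cases j <;> simp [hℓN]
    | some j =>
      refine ⟨κ * !![1, (j.val : ℤ); 0, 1], !![1, (j.val : ℤ) - j.val * ℓ; 0, (ℓ : ℤ)],
        Or.inr ⟨_, rfl⟩, ?_, ?_, ?_⟩
      · obtain ⟨k, hk⟩ := hℓN
        intro i l
        fin_cases i <;> fin_cases l
        · simp
        · refine ⟨-j.val * k, ?_⟩
          simp only [Fin.zero_eta, Fin.isValue, Fin.mk_one, of_apply, cons_val', cons_val_one,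
            cons_val_fin_one, cons_val_zero, ne_eq, zero_ne_one, not_false_eq_true, one_apply_ne]
          linear_combination (-(j.val : ℤ)) * hk
        · simp
        · exact ⟨k, by simpa using hk⟩
      · rw [Matrix.det_mul, hκdet, Matrix.det_fin_two_of]; ring
      · rw [hκ, Matrix.mul_assoc]
        congr 1
        rw [intRep_some]
        ext i k
        fin_cases i <;> fin_cases k <;> simp [Matrix.mul_apply, Fin.sum_univ_two]
  have hint : intRep ℓ x.1 = (g * κ' * g') * (g * α * g') := by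
    calc intRep ℓ x.1 = (g * g') * intRep ℓ x.1 * (g * g') := by
          rw [hgg, Matrix.one_mul, Matrix.mul_one]
      _ = g * (g' * intRep ℓ x.1 * g) * g' := by simp only [Matrix.mul_assoc]
      _ = g * (κ' * α) * g' := by rw [hκ']
      _ = g * (κ' * ((g' * g) * α)) * g' := by rw [hg'g, Matrix.one_mul]
      _ = (g * κ' * g') * (g * α * g') := by simp only [Matrix.mul_assoc]
  have hεdet : (g * κ' * g').det = 1 := by
    rw [Matrix.det_mul, Matrix.det_mul, hκ'det]; linear_combination hdg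
  have hεN : (N : ℤ) ∣ (g * κ' * g') 1 0 := by
    have h1 : Cong N (g * α * g') 1 := by
      have := ((Cong.refl N g).mul hαN).mul (Cong.refl N g')
      rwa [Matrix.mul_one, hgg] at this
    have h2 : Cong N (intRep ℓ x.1) (g * κ' * g') := by
      have := (Cong.refl N (g * κ' * g')).mul h1
      rwa [← hint, Matrix.mul_one] at this
    have h3 := h2 1 0
    have h4 : intRep ℓ x.1 1 0 = 0 := by
      rcases x with ⟨x, hx⟩
      cases x <;> simp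
    rw [h4, zero_sub, dvd_neg] at h3
    exact h3
  exact ⟨toG0 N _ hεdet hεN, α, hα, hint⟩

/-- The transfer of `γ ^ ℓ`, `γ` unipotent, is a multiple of `ψ γ`. -/
theorem exists_transfer_unipotent {A : Type*} [AddCommGroup A] {ℓ : ℕ} [hℓ : Fact ℓ.Prime]
    (hℓNdvd : ¬ ℓ ∣ N) (hℓN : (N : ℤ) ∣ ℓ - 1) {p : ℕ}
    (hℓp : (p : ℤ) ∣ ℓ - 1)
    (ψ : Additive (Gamma0 N) →+ A)
    (γ : Gamma0 N) (g g' : Matrix (Fin 2) (Fin 2) ℤ) (hgg : g * g' = 1) (hg'g : g' * g = 1) (m : ℤ)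
    (hγ : ((γ : SL(2, ℤ)) : Matrix (Fin 2) (Fin 2) ℤ) = g * !![1, m; 0, 1] * g') :
    ∃ K : ℕ, (p : ℤ) ∣ K - 2 ∧
      (heckeSys N ℓ).addTransfer ψ (Additive.ofMul (γ ^ ℓ)) = K • ψ (Additive.ofMul γ) := by
  haveI : NeZero ℓ := ⟨hℓ.out.ne_zero⟩
  -- powers
  have hpow : ∀ n : ℕ, (((γ ^ n : Gamma0 N) : SL(2, ℤ)) : Matrix (Fin 2) (Fin 2) ℤ) =
      g * !![1, (n : ℤ) * m; 0, 1] * g' := by
    intro n
    induction n with
    | zero =>
      have : (((γ ^ 0 : Gamma0 N) : SL(2, ℤ)) : Matrix (Fin 2) (Fin 2) ℤ) = 1 := by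
        rw [pow_zero]; rfl
      rw [this]
      have h1 : (!![1, ((0 : ℕ) : ℤ) * m; 0, 1] : Matrix (Fin 2) (Fin 2) ℤ) = 1 := by
        rw [Matrix.one_fin_two]; simp
      rw [h1, Matrix.mul_one, hgg]
    | succ n ih =>
      have h1 : (((γ ^ (n + 1) : Gamma0 N) : SL(2, ℤ)) : Matrix (Fin 2) (Fin 2) ℤ) =
          (((γ ^ n : Gamma0 N) : SL(2, ℤ)) : Matrix (Fin 2) (Fin 2) ℤ) *
            ((γ : SL(2, ℤ)) : Matrix (Fin 2) (Fin 2) ℤ) := by
        rw [pow_succ]; rfl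
      rw [h1, ih, hγ]
      have h2 : (!![1, ((n + 1 : ℕ) : ℤ) * m; 0, 1] : Matrix (Fin 2) (Fin 2) ℤ) =
          !![1, (n : ℤ) * m; 0, 1] * !![1, m; 0, 1] := by
        rw [Matrix.mul_fin_two]; push_cast
        congr 1
        ring_nf
      rw [h2]
      calc g * !![1, (n : ℤ) * m; 0, 1] * g' * (g * !![1, m; 0, 1] * g')
          = g * (!![1, (n : ℤ) * m; 0, 1] * ((g' * g) * !![1, m; 0, 1])) * g' := by
            simp only [Matrix.mul_assoc]
        _ = _ := by rw [hg'g, Matrix.one_mul]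
  -- the cocycle at every coset
  have hcoc : ∀ x : HIdx N ℓ, ∃ k : ℕ, (p : ℤ) ∣ k - 1 ∧
      ψ (Additive.ofMul ((heckeSys N ℓ).coc (γ ^ ℓ) x)) = k • ψ (Additive.ofMul γ) := by
    intro x
    obtain ⟨ε, α, hα, hint⟩ := exists_conj_factor hℓ.out hℓN x g g' hgg hg'g
    obtain ⟨k, hk, hkF⟩ : ∃ k : ℕ, α * !![1, (ℓ : ℤ) * m; 0, 1] = !![1, (k : ℤ) * m; 0, 1] * α ∧
        (p : ℤ) ∣ k - 1 := by
      rcases hα with rfl | ⟨b, rfl⟩
      · refine ⟨ℓ * ℓ, ?_, ?_⟩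
        · rw [Matrix.mul_fin_two, Matrix.mul_fin_two]
          push_cast
          congr 1
          ring_nf
        · obtain ⟨c, hc⟩ := hℓp
          exact ⟨c * (ℓ + 1), by push_cast; linear_combination (ℓ + 1) * hc⟩
      · refine ⟨1, ?_, by simp⟩
        rw [Matrix.mul_fin_two, Matrix.mul_fin_two]
        push_cast
        congr 1
        ring_nf
    have hmat : intRep ℓ x.1 * (((γ ^ ℓ : Gamma0 N) : SL(2, ℤ)) : Matrix (Fin 2) (Fin 2) ℤ) =
        (((ε * γ ^ k * ε⁻¹ : Gamma0 N) : SL(2, ℤ)) : Matrix (Fin 2) (Fin 2) ℤ) *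
          intRep ℓ x.1 := by
      have hε : (((ε * γ ^ k * ε⁻¹ : Gamma0 N) : SL(2, ℤ)) : Matrix (Fin 2) (Fin 2) ℤ) =
          ((ε : SL(2, ℤ)) : Matrix (Fin 2) (Fin 2) ℤ) *
          (((γ ^ k : Gamma0 N) : SL(2, ℤ)) : Matrix (Fin 2) (Fin 2) ℤ) *
          (((ε⁻¹ : Gamma0 N) : SL(2, ℤ)) : Matrix (Fin 2) (Fin 2) ℤ) := rfl
      have hεε : (((ε⁻¹ : Gamma0 N) : SL(2, ℤ)) : Matrix (Fin 2) (Fin 2) ℤ) *
          ((ε : SL(2, ℤ)) : Matrix (Fin 2) (Fin 2) ℤ) = 1 := by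
        have : (((ε⁻¹ * ε : Gamma0 N) : SL(2, ℤ)) : Matrix (Fin 2) (Fin 2) ℤ) = 1 := by
          rw [inv_mul_cancel]; rfl
        exact this
      rw [hε, hpow, hpow, hint]
      calc ((ε : SL(2, ℤ)) : Matrix (Fin 2) (Fin 2) ℤ) * (g * α * g') *
            (g * !![1, (ℓ : ℤ) * m; 0, 1] * g')
          = ((ε : SL(2, ℤ)) : Matrix (Fin 2) (Fin 2) ℤ) * g *
              (α * ((g' * g) * !![1, (ℓ : ℤ) * m; 0, 1])) * g' := by
            simp only [Matrix.mul_assoc]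
        _ = ((ε : SL(2, ℤ)) : Matrix (Fin 2) (Fin 2) ℤ) * g *
              (!![1, (k : ℤ) * m; 0, 1] * α) * g' := by rw [hg'g, Matrix.one_mul, hk]
        _ = ((ε : SL(2, ℤ)) : Matrix (Fin 2) (Fin 2) ℤ) * g *
              (!![1, (k : ℤ) * m; 0, 1] * ((g' * ((((ε⁻¹ : Gamma0 N) : SL(2, ℤ)) :
                Matrix (Fin 2) (Fin 2) ℤ) * ((ε : SL(2, ℤ)) : Matrix (Fin 2) (Fin 2) ℤ)) * g) *
                α)) * g' := by
            rw [hεε, Matrix.mul_one, hg'g, Matrix.one_mul]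
        _ = _ := by simp only [Matrix.mul_assoc]
    refine ⟨k, hkF, ?_⟩
    rw [mat_coc_unique _ _ x hmat, ofMul_mul, ofMul_mul, ofMul_inv, ofMul_pow, map_add, map_add,
      map_neg, map_nsmul]
    abel
  choose k hkp hk using hcoc
  refine ⟨∑ x, k x, ?_, ?_⟩
  · have h1 : (p : ℤ) ∣ ∑ x : HIdx N ℓ, ((k x : ℤ) - 1) := Finset.dvd_sum fun x _ => hkp x
    rw [Finset.sum_sub_distrib, Finset.sum_const, Finset.card_univ,
      Fintype.card_congr (hidxEquivOfNotDvd hℓNdvd), Fintype.card_option, ZMod.card,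
      nsmul_eq_mul, mul_one] at h1
    have h2 := dvd_add h1 hℓp
    push_cast at h2 ⊢
    have e : (∑ x, (k x : ℤ)) - (ℓ + 1) + (ℓ - 1) = (∑ x, (k x : ℤ)) - 2 := by ring
    rwa [e] at h2
  · rw [CosetSys.addTransfer_apply]
    simp only [toMul_ofMul, hk, Finset.sum_smul]

theorem two_ne_zero_of_charP (hp : p.Prime) (hp2 : p ≠ 2) : (2 : F) ≠ 0 := by
  intro h
  have h1 : ((2 : ℕ) : F) = 0 := by exact_mod_cast h
  rw [CharP.cast_eq_zero_iff F p] at h1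
  exact hp2 ((Nat.prime_dvd_prime_iff_eq hp Nat.prime_two).mp h1)

/-- A homomorphism `ψ` with `T_ℓ ψ = a ψ` for one prime `ℓ ≡ 1 mod N p` and such that `ℓ a` is not
an integer congruent to `2` modulo `p`, is parabolic. -/
theorem killsPar_of_eigen' {E : Type*} [Field E] (hE2 : (2 : E) ≠ 0) {p : ℕ}
    {ℓ : ℕ} [hℓ : Fact ℓ.Prime]
    (hℓNdvd : ¬ ℓ ∣ N) (hℓN : (N : ℤ) ∣ ℓ - 1)
    (hℓp : (p : ℤ) ∣ ℓ - 1)
    {ψ : Additive (Gamma0 N) →+ E} {a : E} (ha : ∀ K : ℕ, (p : ℤ) ∣ K - 2 → (ℓ : E) * a ≠ K)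
    (hψ : ∀ g, (heckeSys N ℓ).addTransfer ψ g = a * ψ g) : KillsPar ψ := by
  intro γ v hv t ht
  obtain ⟨s, x, y, hs, hxy, rfl⟩ := exists_primitive v hv
  have hv0 := vec_ne_zero hxy
  have ht' : gQ γ *ᵥ ![(x : ℚ), (y : ℚ)] = t • ![(x : ℚ), (y : ℚ)] := by
    rw [Matrix.mulVec_smul, smul_comm] at ht
    exact smul_right_injective _ hs ht
  obtain ⟨u, w, huw⟩ := hxy
  set G : Matrix (Fin 2) (Fin 2) ℤ := ((γ : SL(2, ℤ)) : Matrix (Fin 2) (Fin 2) ℤ) with hG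
  have hGdet : G.det = 1 := (γ : SL(2, ℤ)).det_coe
  set g : Matrix (Fin 2) (Fin 2) ℤ := !![x, -w; y, u] with hg
  set g' : Matrix (Fin 2) (Fin 2) ℤ := !![u, w; -y, x] with hg'
  have hgg : g * g' = 1 := by
    rw [hg, hg', Matrix.mul_fin_two, Matrix.one_fin_two]
    have h1 : x * u + -w * -y = 1 := by linear_combination huw
    have h2 : x * w + -w * x = 0 := by ring
    have h3 : y * u + u * -y = 0 := by ring
    have h4 : y * w + u * x = 1 := by linear_combination huw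
    rw [h1, h2, h3, h4]
  have hg'g : g' * g = 1 := by
    rw [hg, hg', Matrix.mul_fin_two, Matrix.one_fin_two]
    have h1 : u * x + w * y = 1 := huw
    have h2 : u * -w + w * u = 0 := by ring
    have h3 : -y * x + x * y = 0 := by ring
    have h4 : -y * -w + x * u = 1 := by linear_combination huw
    rw [h1, h2, h3, h4]
  -- `T = g⁻¹ γ g` is upper triangular
  set T : Matrix (Fin 2) (Fin 2) ℤ := g' * G * g with hT
  have hTdet : T.det = 1 := by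
    rw [hT, Matrix.det_mul, Matrix.det_mul, hGdet]
    have : g'.det * g.det = 1 := by rw [← Matrix.det_mul, hg'g, Matrix.det_one]
    linear_combination this
  have hT10 : T 1 0 = 0 := by
    have e := ht'
    have hGe := eta_mat G
    have h0 : gQ γ = toQ !![G 0 0, G 0 1; G 1 0, G 1 1] := by rw [gQ, ← hG, ← hGe]
    rw [h0, toQ_mulVec] at e
    have e0 := congrFun e 0
    have e1 := congrFun e 1
    simp at e0 e1
    have h1 : T 1 0 = -y * (G 0 0 * x + G 0 1 * y) + x * (G 1 0 * x + G 1 1 * y) := by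
      have h3 : T = g' * !![G 0 0, G 0 1; G 1 0, G 1 1] * g := by rw [← hGe]
      rw [h3, hg, hg', Matrix.mul_fin_two, Matrix.mul_fin_two]
      simp
      ring
    have h2 : ((T 1 0 : ℤ) : ℚ) = 0 := by
      rw [h1]; push_cast
      rw [e0, e1]; ring
    exact_mod_cast h2
  have hTT : T * T = !![1, (T * T) 0 1; 0, 1] := by
    rw [Matrix.det_fin_two, hT10, mul_zero, sub_zero] at hTdet
    have h1 : T 0 0 = 1 ∧ T 1 1 = 1 ∨ T 0 0 = -1 ∧ T 1 1 = -1 := Int.mul_eq_one_iff_eq_one_or_neg_one.mp hTdet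
    ext i j
    fin_cases i <;> fin_cases j
    · rcases h1 with h1 | h1 <;> simp [Matrix.mul_apply, Fin.sum_univ_two, h1, hT10]
    · simp
    · simp [Matrix.mul_apply, Fin.sum_univ_two, hT10]
    · rcases h1 with h1 | h1 <;> simp [Matrix.mul_apply, Fin.sum_univ_two, h1, hT10]
  have hsq : (((γ ^ 2 : Gamma0 N) : SL(2, ℤ)) : Matrix (Fin 2) (Fin 2) ℤ) =
      g * !![1, (T * T) 0 1; 0, 1] * g' := by
    have h1 : (((γ ^ 2 : Gamma0 N) : SL(2, ℤ)) : Matrix (Fin 2) (Fin 2) ℤ) = G * G := by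
      rw [pow_two]; rfl
    rw [h1, ← hTT, hT]
    calc G * G = (g * g') * G * (g * g') * G * (g * g') := by
          rw [hgg, Matrix.one_mul, Matrix.mul_one, Matrix.mul_one]
      _ = _ := by simp only [Matrix.mul_assoc]
  obtain ⟨K, hK, hKψ⟩ := exists_transfer_unipotent hℓNdvd hℓN hℓp ψ (γ ^ 2) g g' hgg hg'g _ hsq
  rw [hψ, ofMul_pow, map_nsmul, nsmul_eq_mul, nsmul_eq_mul] at hKψ
  have h1 : ((ℓ : E) * a - K) * ψ (Additive.ofMul (γ ^ 2)) = 0 := by linear_combination hKψ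
  have h2 := (mul_eq_zero.mp h1).resolve_left (sub_ne_zero.mpr (ha K hK))
  rw [ofMul_pow, map_nsmul, nsmul_eq_mul] at h2
  exact (mul_eq_zero.mp h2).resolve_left (by exact_mod_cast hE2)

/-- A homomorphism `ψ` with `T_ℓ ψ = a ψ`, `a ≠ 1 + ℓ`, for one prime `ℓ ≡ 1 mod N p`, is
parabolic. -/
theorem killsPar_of_eigen (hp : p.Prime) (hp2 : p ≠ 2) {ℓ : ℕ} [hℓ : Fact ℓ.Prime]
    (hℓNdvd : ¬ ℓ ∣ N) (hℓN : (N : ℤ) ∣ ℓ - 1)
    (hℓp : (p : ℤ) ∣ ℓ - 1)
    {ψ : Additive (Gamma0 N) →+ F} {a : F} (ha : a ≠ 2)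
    (hψ : ∀ g, (heckeSys N ℓ).addTransfer ψ g = a * ψ g) : KillsPar ψ := by
  refine killsPar_of_eigen' (two_ne_zero_of_charP (F := F) hp hp2) hℓNdvd hℓN hℓp ?_ hψ
  intro K hK h
  have hℓF : (ℓ : F) = 1 := by
    obtain ⟨k, hk⟩ := hℓp
    have h1 : ((ℓ : ℤ) : F) = ((p * k + 1 : ℤ) : F) := by
      congr 1
      linear_combination hk
    push_cast at h1
    rw [h1, CharP.cast_eq_zero, zero_mul, zero_add]
  have hKF : (K : F) = 2 := by
    obtain ⟨k, hk⟩ := hK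
    have h1 : ((K : ℤ) : F) = ((p * k + 2 : ℤ) : F) := by
      congr 1
      linear_combination hk
    push_cast at h1
    rw [h1, CharP.cast_eq_zero, zero_mul, zero_add]
  rw [hℓF, hKF, one_mul] at h
  exact ha h

end Par

end Fermat.Agent.S41aux
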