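import Fermat.Agent.S41.Quasi
import Fermat.Agent.HeckePar.Cosets
import Fermat.Agent.HeckePar.Commute

/-!
# Primitives of homomorphisms `Γ₀(N) → A` on `P¹(ℚ)` and Hecke operators
-/

set_option autoImplicit false

open Matrix CongruenceSubgroup
open scoped MatrixGroups

namespace Fermat.Agent.S41aux

open Fermat.Agent.HeckePar

/-- the rational matrix of an element of `Γ₀(N)`. -/
abbrev gQ {N : ℕ} (g : Gamma0 N) : M2 := toQ ((g : SL(2, ℤ)) : Matrix (Fin 2) (Fin 2) ℤ)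

theorem det_gQ {N : ℕ} (g : Gamma0 N) : (gQ g).det = 1 := by
  rw [det_toQ, Matrix.SpecialLinearGroup.det_coe]; simp

theorem det_gQ_ne {N : ℕ} (g : Gamma0 N) : (gQ g).det ≠ 0 := by
  rw [det_gQ]; exact one_ne_zero

theorem gQ_mul {N : ℕ} (g h : Gamma0 N) : gQ (g * h) = gQ g * gQ h := by
  rw [gQ, gQ, gQ, ← toQ_mul]
  rfl

theorem gQ_one {N : ℕ} : gQ (1 : Gamma0 N) = 1 := by
  have : ((((1 : Gamma0 N)) : SL(2, ℤ)) : Matrix (Fin 2) (Fin 2) ℤ) = 1 := rfl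
  rw [gQ, this, toQ_one]

theorem gQ_inv_mulVec {N : ℕ} (g : Gamma0 N) (v : V2) : gQ g⁻¹ *ᵥ (gQ g *ᵥ v) = v := by
  rw [Matrix.mulVec_mulVec, ← gQ_mul, inv_mul_cancel, gQ_one, Matrix.one_mulVec]

theorem gQ_mulVec_inv {N : ℕ} (g : Gamma0 N) (v : V2) : gQ g *ᵥ (gQ g⁻¹ *ᵥ v) = v := by
  rw [Matrix.mulVec_mulVec, ← gQ_mul, mul_inv_cancel, gQ_one, Matrix.one_mulVec]

section Prim

variable {A : Type*} [AddCommGroup A] {N : ℕ}

/-- `ψ` vanishes on the stabilisers of all rational lines. -/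
def KillsPar (ψ : Additive (Gamma0 N) →+ A) : Prop :=
  ∀ (g : Gamma0 N) (v : V2), v ≠ 0 → ∀ t : ℚ, gQ g *ᵥ v = t • v → ψ (Additive.ofMul g) = 0

/-- `P` is a primitive of `ψ` on `P¹(ℚ)`. -/
structure IsPrimOf (ψ : Additive (Gamma0 N) →+ A) (P : V2 → A) : Prop where
  homog : Homog P
  qi : ∀ g : Gamma0 N, QI P (gQ g) (ψ (Additive.ofMul g))

/-- The relation "same `Γ₀(N)`-orbit of lines" on nonzero vectors. -/
def lineSetoid (N : ℕ) : Setoid {v : V2 // v ≠ 0} where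
  r v w := ∃ (g : Gamma0 N) (t : ℚ), t ≠ 0 ∧ (w : V2) = t • (gQ g *ᵥ (v : V2))
  iseqv :=
    { refl := fun v => ⟨1, 1, one_ne_zero, by rw [gQ_one, Matrix.one_mulVec, one_smul]⟩
      symm := by
        rintro v w ⟨g, t, ht, h⟩
        refine ⟨g⁻¹, t⁻¹, inv_ne_zero ht, ?_⟩
        rw [h, Matrix.mulVec_smul, gQ_inv_mulVec, smul_smul, inv_mul_cancel₀ ht, one_smul]
      trans := by
        rintro v w z ⟨g, t, ht, h⟩ ⟨g', t', ht', h'⟩
        refine ⟨g' * g, t' * t, mul_ne_zero ht' ht, ?_⟩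
        rw [h', h, Matrix.mulVec_smul, smul_smul, Matrix.mulVec_mulVec, ← gQ_mul] }

theorem exists_isPrimOf (ψ : Additive (Gamma0 N) →+ A) (hψ : KillsPar ψ) :
    ∃ P : V2 → A, IsPrimOf ψ P := by
  classical
  let rep : {v : V2 // v ≠ 0} → {v : V2 // v ≠ 0} := fun v =>
    (Quotient.mk (lineSetoid N) v).out
  have hrep : ∀ v : {v : V2 // v ≠ 0}, ∃ (g : Gamma0 N) (t : ℚ), t ≠ 0 ∧ (v : V2) = t • (gQ g *ᵥ (rep v : V2)) := by
    intro v
    have h : (lineSetoid N).r (rep v) v := Quotient.mk_out (s := lineSetoid N) v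
    exact h
  choose gg tt htt hgt using hrep
  have key : ∀ (v w : {v : V2 // v ≠ 0}) (g : Gamma0 N) (t : ℚ), t ≠ 0 →
      (w : V2) = t • (gQ g *ᵥ (v : V2)) →
      ψ (Additive.ofMul (gg w)) = ψ (Additive.ofMul (gg v)) + ψ (Additive.ofMul g) := by
    intro v w g t ht h
    have hr : rep v = rep w := by
      have : (Quotient.mk (lineSetoid N) v) = Quotient.mk (lineSetoid N) w :=
        Quotient.sound (s := lineSetoid N) ⟨g, t, ht, h⟩
      show (Quotient.mk (lineSetoid N) v).out = (Quotient.mk (lineSetoid N) w).out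
      rw [this]
    have h1 := hψ ((g * gg v)⁻¹ * gg w) (rep w) (rep w).2 (t * tt v * (tt w)⁻¹) (by
      have e1 : gQ (gg w) *ᵥ (rep w : V2) = (tt w)⁻¹ • (w : V2) := by
        have := hgt w
        conv_rhs => rw [this]
        rw [smul_smul, inv_mul_cancel₀ (htt w), one_smul]
      have e2 : gQ g *ᵥ (v : V2) = tt v • (gQ (g * gg v) *ᵥ (rep v : V2)) := by
        conv_lhs => rw [hgt v]
        rw [Matrix.mulVec_smul, Matrix.mulVec_mulVec, ← gQ_mul]
      rw [gQ_mul, ← Matrix.mulVec_mulVec, e1, h, e2, Matrix.mulVec_smul, Matrix.mulVec_smul,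
        Matrix.mulVec_smul, gQ_inv_mulVec, hr, smul_smul, smul_smul]
      congr 1; ring)
    rw [ofMul_mul, ofMul_inv, ofMul_mul, map_add, map_neg, map_add] at h1
    have h2 := neg_add_eq_zero.mp h1
    rw [← h2, add_comm]
  refine ⟨fun v => if h : v ≠ 0 then ψ (Additive.ofMul (gg ⟨v, h⟩)) else 0, ?_, ?_⟩
  · intro t v ht hv
    have htv : t • v ≠ 0 := smul_ne_zero ht hv
    simp only [dif_pos hv, dif_pos htv]
    have := key ⟨v, hv⟩ ⟨t • v, htv⟩ 1 t ht (by simp [gQ_one])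
    simpa using this
  · intro g v hv
    have hgv : gQ g *ᵥ v ≠ 0 := mulVec_ne_zero (det_gQ_ne g) hv
    simp only [dif_pos hv, dif_pos hgv]
    exact key ⟨v, hv⟩ ⟨gQ g *ᵥ v, hgv⟩ g 1 one_ne_zero (by rw [one_smul])

theorem IsPrimOf.killsPar {ψ : Additive (Gamma0 N) →+ A} {P : V2 → A} (h : IsPrimOf ψ P) :
    KillsPar ψ := by
  intro g v hv t ht
  have ht0 : t ≠ 0 := by
    rintro rfl
    rw [zero_smul] at ht
    exact mulVec_ne_zero (det_gQ_ne g) hv ht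
  exact (h.qi g).eq_zero_of_fixed h.homog hv ht0 ht

/-- The Hecke operator on functions on `P¹(ℚ)`. -/
noncomputable def heckeFun (ℓ : ℕ) [hℓ : Fact ℓ.Prime] (P : V2 → A) : V2 → A :=
  haveI : NeZero ℓ := ⟨hℓ.out.ne_zero⟩
  fun v => ∑ x : Option (ZMod ℓ), P (toQ (intRep ℓ x) *ᵥ v)

theorem heckeFun_apply (ℓ : ℕ) [hℓ : Fact ℓ.Prime] [NeZero ℓ] (P : V2 → A) (v : V2) :
    heckeFun ℓ P v = ∑ x : Option (ZMod ℓ), P (toQ (intRep ℓ x) *ᵥ v) := rfl

theorem det_intRepQ_ne {ℓ : ℕ} (hℓ : ℓ ≠ 0) (x : Option (ZMod ℓ)) :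
    (toQ (intRep ℓ x)).det ≠ 0 := by
  rw [det_toQ, det_intRep]; exact_mod_cast hℓ

theorem Homog.heckeFun {ℓ : ℕ} [hℓ : Fact ℓ.Prime] {P : V2 → A} (hP : Homog P) :
    Homog (heckeFun ℓ P) := by
  haveI : NeZero ℓ := ⟨hℓ.out.ne_zero⟩
  intro t v ht hv
  rw [heckeFun_apply, heckeFun_apply]
  refine Finset.sum_congr rfl fun x _ => ?_
  rw [Matrix.mulVec_smul, hP t _ ht (mulVec_ne_zero (det_intRepQ_ne hℓ.out.ne_zero _) hv)]

theorem heckeFun_eq_sum {ℓ : ℕ} [hℓ : Fact ℓ.Prime] (hℓN : ¬ ℓ ∣ N) (P : V2 → A) (v : V2) :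
    heckeFun ℓ P v = ∑ x : HIdx N ℓ, P (toQ (intRep ℓ x.1) *ᵥ v) := by
  haveI : NeZero ℓ := ⟨hℓ.out.ne_zero⟩
  rw [heckeFun_apply]
  exact (Equiv.sum_comp (hidxEquivOfNotDvd hℓN) (fun x => P (toQ (intRep ℓ x) *ᵥ v))).symm

theorem IsPrimOf.hecke {ℓ : ℕ} [hℓ : Fact ℓ.Prime] (hℓN : ¬ ℓ ∣ N)
    {ψ : Additive (Gamma0 N) →+ A} {P : V2 → A}
    (h : IsPrimOf ψ P) : IsPrimOf ((heckeSys N ℓ).addTransfer ψ) (heckeFun ℓ P) := by
  refine ⟨h.homog.heckeFun, ?_⟩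
  intro g v hv
  have h1 : ∀ x : HIdx N ℓ, P (toQ (intRep ℓ x.1) *ᵥ (gQ g *ᵥ v)) =
      P (toQ (intRep ℓ ((heckeSys N ℓ).act g x).1) *ᵥ v) +
        ψ (Additive.ofMul ((heckeSys N ℓ).coc g x)) := by
    intro x
    rw [Matrix.mulVec_mulVec, gQ, ← toQ_mul, heckeSys_spec, toQ_mul, ← Matrix.mulVec_mulVec]
    exact h.qi _ _ (mulVec_ne_zero (det_intRepQ_ne hℓ.out.ne_zero _) hv)
  simp only [heckeFun_eq_sum hℓN, h1, Finset.sum_add_distrib, CosetSys.addTransfer_apply,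
    toMul_ofMul]
  congr 1
  exact Equiv.sum_comp ((heckeSys N ℓ).perm g) (fun x => P (toQ (intRep ℓ x.1) *ᵥ v))

theorem IsPrimOf.sub {ψ φ : Additive (Gamma0 N) →+ A} {P Q : V2 → A} (h : IsPrimOf ψ P)
    (h' : IsPrimOf φ Q) : IsPrimOf (ψ - φ) (P - Q) :=
  ⟨h.homog.sub h'.homog, fun g => (h.qi g).sub (h'.qi g)⟩

theorem IsPrimOf.nsmul {ψ : Additive (Gamma0 N) →+ A} {P : V2 → A} (h : IsPrimOf ψ P) (n : ℕ) :
    IsPrimOf (n • ψ) (n • P) :=
  ⟨fun t v ht hv => by simp [h.homog t v ht hv], fun g v hv => by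
    have h1 := h.qi g v hv
    show n • P (gQ g *ᵥ v) = n • P v + n • ψ (Additive.ofMul g)
    rw [h1, nsmul_add]⟩

/-- invariance under the upper unipotent matrices. -/
theorem IsPrimOf.upper {ψ : Additive (Gamma0 N) →+ A} {P : V2 → A} (h : IsPrimOf ψ P) (m : ℤ) :
    QI P (toQ !![1, m; 0, 1]) 0 := by
  have h1 := h.qi (mkG0 N 1 m 0 1 (by ring) (dvd_zero _))
  rw [gQ, coe_mkG0] at h1
  have he : (![1, 0] : V2) ≠ 0 := by
    intro h0
    have := congrFun h0 0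
    simp at this
  have h2 := h1.eq_zero_of_fixed h.homog he (t := 1) one_ne_zero (by
    ext i; fin_cases i <;> simp [Matrix.mulVec, dotProduct, Fin.sum_univ_two])
  rw [h2] at h1
  exact h1

end Prim

/-! ### Functions invariant under `Γ(M)` -/

section InvM

variable {A : Type*}

/-- congruence of integral matrices modulo `M`. -/
def Cong (M : ℕ) (X Y : Matrix (Fin 2) (Fin 2) ℤ) : Prop := ∀ i j, (M : ℤ) ∣ X i j - Y i j

theorem exists_primitive (v : V2) (hv : v ≠ 0) :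
    ∃ (t : ℚ) (x y : ℤ), t ≠ 0 ∧ IsCoprime x y ∧ v = t • ![(x : ℚ), (y : ℚ)] := by
  obtain ⟨D, hD, a, b, ha, hb⟩ : ∃ D : ℤ, D ≠ 0 ∧ ∃ a b : ℤ, v 0 * D = a ∧ v 1 * D = b := by
    refine ⟨(v 0).den * (v 1).den, by positivity, (v 0).num * (v 1).den, (v 1).num * (v 0).den,
      ?_, ?_⟩
    · push_cast
      rw [← mul_assoc, Rat.mul_den_eq_num]
    · push_cast
      rw [mul_comm ((v 0).den : ℚ), ← mul_assoc, Rat.mul_den_eq_num]
  have hDQ : (D : ℚ) ≠ 0 := by exact_mod_cast hD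
  have hab : a ≠ 0 ∨ b ≠ 0 := by
    by_contra h
    push Not at h
    apply hv
    rw [h.1] at ha
    rw [h.2] at hb
    ext i
    fin_cases i
    · simpa [hD] using ha
    · simpa [hD] using hb
  obtain ⟨x, y, hx, hy, hxy⟩ : ∃ x y : ℤ, a = Int.gcd a b * x ∧ b = Int.gcd a b * y ∧
      IsCoprime x y := by
    have hg : (Int.gcd a b : ℤ) ≠ 0 := by
      rcases hab with h | h
      · exact_mod_cast (Int.gcd_pos_of_ne_zero_left b h).ne'
      · exact_mod_cast (Int.gcd_pos_of_ne_zero_right a h).ne'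
    obtain ⟨x, hx⟩ := Int.gcd_dvd_left a b
    obtain ⟨y, hy⟩ := Int.gcd_dvd_right a b
    refine ⟨x, y, hx, hy, Int.gcdA a b, Int.gcdB a b, ?_⟩
    have h1 := Int.gcd_eq_gcd_ab a b
    apply mul_left_cancel₀ hg
    linear_combination -h1 - (Int.gcdA a b) * hx - (Int.gcdB a b) * hy
  have hg : (Int.gcd a b : ℤ) ≠ 0 := by
    rcases hab with h | h
    · exact_mod_cast (Int.gcd_pos_of_ne_zero_left b h).ne'
    · exact_mod_cast (Int.gcd_pos_of_ne_zero_right a h).ne'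
  have hgQ : ((Int.gcd a b : ℕ) : ℚ) ≠ 0 := by exact_mod_cast hg
  refine ⟨(Int.gcd a b : ℚ) / D, x, y, div_ne_zero hgQ hDQ, hxy, ?_⟩
  have hxQ : (a : ℚ) = (Int.gcd a b : ℚ) * x := by exact_mod_cast hx
  have hyQ : (b : ℚ) = (Int.gcd a b : ℚ) * y := by exact_mod_cast hy
  ext i
  fin_cases i
  · simp only [Fin.zero_eta, Fin.isValue, Pi.smul_apply, Matrix.cons_val_zero, smul_eq_mul]
    rw [div_mul_eq_mul_div, ← hxQ, ← ha]
    field_simp
  · simp only [Fin.mk_one, Fin.isValue, Pi.smul_apply, Matrix.cons_val_one, smul_eq_mul]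
    rw [Matrix.cons_val_zero, div_mul_eq_mul_div, ← hyQ, ← hb]
    field_simp

theorem Cong.mul {M : ℕ} {X Y X' Y' : Matrix (Fin 2) (Fin 2) ℤ} (h : Cong M X Y)
    (h' : Cong M X' Y') : Cong M (X * X') (Y * Y') := by
  intro i j
  simp only [Matrix.mul_apply, Fin.sum_univ_two]
  obtain ⟨k0, hk0⟩ := h i 0
  obtain ⟨k1, hk1⟩ := h i 1
  obtain ⟨l0, hl0⟩ := h' 0 j
  obtain ⟨l1, hl1⟩ := h' 1 j
  refine ⟨k0 * X' 0 j + k1 * X' 1 j + Y i 0 * l0 + Y i 1 * l1, ?_⟩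
  linear_combination (X' 0 j) * hk0 + (X' 1 j) * hk1 + (Y i 0) * hl0 + (Y i 1) * hl1

theorem Cong.refl (M : ℕ) (X : Matrix (Fin 2) (Fin 2) ℤ) : Cong M X X := fun i j => by simp

theorem Cong.symm {M : ℕ} {X Y : Matrix (Fin 2) (Fin 2) ℤ} (h : Cong M X Y) : Cong M Y X :=
  fun i j => by rw [← dvd_neg, neg_sub]; exact h i j

theorem Cong.trans {M : ℕ} {X Y Z : Matrix (Fin 2) (Fin 2) ℤ} (h : Cong M X Y)
    (h' : Cong M Y Z) : Cong M X Z :=
  fun i j => by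
    have := dvd_add (h i j) (h' i j)
    simpa using this

theorem Cong.of_dvd {M M' : ℕ} {X Y : Matrix (Fin 2) (Fin 2) ℤ} (hM : M ∣ M') (h : Cong M' X Y) :
    Cong M X Y := fun i j => (Int.natCast_dvd_natCast.mpr hM).trans (h i j)

/-- `P` is exactly invariant under `Γ(M)`. -/
def InvM (M : ℕ) (P : V2 → A) : Prop :=
  ∀ X : Matrix (Fin 2) (Fin 2) ℤ, X.det = 1 → Cong M X 1 → ∀ v : V2, v ≠ 0 → P (toQ X *ᵥ v) = P v

theorem vec_ne_zero {x y : ℤ} (h : IsCoprime x y) : (![(x : ℚ), (y : ℚ)] : V2) ≠ 0 := by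
  intro h0
  have h1 := congrFun h0 0
  have h2 := congrFun h0 1
  simp at h1 h2
  subst h1 h2
  obtain ⟨a, b, hab⟩ := h
  simp at hab

theorem toQ_mulVec (a b c d x y : ℤ) : toQ !![a, b; c, d] *ᵥ ![(x : ℚ), (y : ℚ)] =
    ![((a * x + b * y : ℤ) : ℚ), ((c * x + d * y : ℤ) : ℚ)] := by
  ext i; fin_cases i <;> simp [Matrix.mulVec, dotProduct, Fin.sum_univ_two]

/-- primitive vectors which are congruent modulo `M` are equivalent under `Γ(M)`. -/
theorem InvM.eq_of_cong {M : ℕ} {P : V2 → A} (hP : InvM M P) {x y x' y' : ℤ}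
    (h : IsCoprime x y) (h' : IsCoprime x' y') (hx : (M : ℤ) ∣ x' - x) (hy : (M : ℤ) ∣ y' - y) :
    P ![(x' : ℚ), (y' : ℚ)] = P ![(x : ℚ), (y : ℚ)] := by
  have hv := vec_ne_zero h
  obtain ⟨u, w, huw⟩ := h
  obtain ⟨u', w', huw'⟩ := h'
  obtain ⟨k, hk⟩ := hx
  obtain ⟨l, hl⟩ := hy
  -- `(a, c) = g⁻¹ (x', y')`
  set a := u * x' + w * y' with ha
  set c := -y * x' + x * y' with hc
  set d := u' * x + w' * y with hd
  set b := u' * w - w' * u with hb
  have hdet : a * d - b * c = 1 := by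
    rw [ha, hb, hc, hd]
    linear_combination (u' * x' + w' * y') * huw + huw'
  have ha1 : a - 1 = M * (u * k + w * l) := by
    rw [ha]; linear_combination u * hk + w * hl + huw
  have hc1 : c = M * (-y * k + x * l) := by
    rw [hc]; linear_combination -y * hk + x * hl
  have hγ : Cong M !![a, b * (1 - a); c, d - b * c] 1 := by
    intro i j
    fin_cases i <;> fin_cases j
    · exact ⟨_, by simpa using ha1⟩
    · refine ⟨-b * (u * k + w * l), ?_⟩
      simp only [Fin.zero_eta, Fin.isValue, Fin.mk_one, of_apply, cons_val', cons_val_one,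
        cons_val_fin_one, cons_val_zero, ne_eq, zero_ne_one, not_false_eq_true, one_apply_ne]
      linear_combination -b * ha1
    · exact ⟨_, by simpa using hc1⟩
    · refine ⟨-d * (u * k + w * l), ?_⟩
      simp only [Fin.mk_one, Fin.isValue, of_apply, cons_val', cons_val_one, cons_val_fin_one,
        one_apply_eq]
      linear_combination -d * ha1 + hdet
  have hgg : (!![x, -w; y, u] : Matrix (Fin 2) (Fin 2) ℤ) * !![u, w; -y, x] = 1 := by
    rw [Matrix.mul_fin_two, Matrix.one_fin_two]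
    congr 1
    have h1 : x * u + -w * -y = 1 := by linear_combination huw
    have h2 : x * w + -w * x = 0 := by ring
    have h3 : y * u + u * -y = 0 := by ring
    have h4 : y * w + u * x = 1 := by linear_combination huw
    rw [h1, h2, h3, h4]
  have hX : Cong M (!![x, -w; y, u] * !![a, b * (1 - a); c, d - b * c] * !![u, w; -y, x]) 1 := by
    have h1 := ((Cong.refl M !![x, -w; y, u]).mul hγ).mul (Cong.refl M !![u, w; -y, x])
    rwa [Matrix.mul_one, hgg] at h1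
  have hXdet : (!![x, -w; y, u] * !![a, b * (1 - a); c, d - b * c] * !![u, w; -y, x] :
      Matrix (Fin 2) (Fin 2) ℤ).det = 1 := by
    rw [Matrix.det_mul, Matrix.det_mul, Matrix.det_fin_two_of, Matrix.det_fin_two_of,
      Matrix.det_fin_two_of]
    have h1 : x * u - -w * y = 1 := by linear_combination huw
    have h2 : u * x - w * -y = 1 := by linear_combination huw
    have h3 : a * (d - b * c) - b * (1 - a) * c = 1 := by linear_combination hdet
    rw [h1, h2, h3]; norm_num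
  have key := hP _ hXdet hX _ hv
  rw [← key]
  congr 1
  rw [toQ_mul, toQ_mul, ← Matrix.mulVec_mulVec, ← Matrix.mulVec_mulVec, toQ_mulVec, toQ_mulVec,
    toQ_mulVec]
  have e1 : u * x + w * y = 1 := huw
  have e2 : -y * x + x * y = 0 := by ring
  rw [e1, e2]
  have e3 : x * (a * 1 + b * (1 - a) * 0) + -w * (c * 1 + (d - b * c) * 0) = x' := by
    rw [ha, hc]; linear_combination x' * huw
  have e4 : y * (a * 1 + b * (1 - a) * 0) + u * (c * 1 + (d - b * c) * 0) = y' := by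
    rw [ha, hc]; linear_combination y' * huw
  rw [e3, e4]

/-- `Γ(M)`-invariant functions are invariant under matrices of prime determinant `ℓ ≡ 1`
congruent to `1` modulo `M`. -/
theorem InvM.of_det_prime {M : ℕ} {P : V2 → A} (hP : InvM M P) (hh : Homog P) {ℓ : ℕ}
    (hℓ : ℓ.Prime) (hℓM : (M : ℤ) ∣ ℓ - 1) (X : Matrix (Fin 2) (Fin 2) ℤ) (hdet : X.det = ℓ)
    (hX : Cong M X 1) (v : V2) (hv : v ≠ 0) : P (toQ X *ᵥ v) = P v := by
  obtain ⟨t, x, y, ht, hxy, rfl⟩ := exists_primitive v hv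
  have hXQ : (toQ X).det ≠ 0 := by
    rw [det_toQ, hdet]; exact_mod_cast hℓ.ne_zero
  have hv0 := vec_ne_zero hxy
  rw [Matrix.mulVec_smul, hh t _ ht (mulVec_ne_zero hXQ hv0), hh t _ ht hv0]
  have hXe : X = !![X 0 0, X 0 1; X 1 0, X 1 1] := by
    ext i j; fin_cases i <;> fin_cases j <;> rfl
  have hmul : toQ X *ᵥ ![(x : ℚ), (y : ℚ)] =
      ![((X 0 0 * x + X 0 1 * y : ℤ) : ℚ), ((X 1 0 * x + X 1 1 * y : ℤ) : ℚ)] := by
    conv_lhs => rw [hXe]
    rw [toQ_mulVec]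
  rw [Matrix.det_fin_two] at hdet
  set x' := X 0 0 * x + X 0 1 * y with hx'
  set y' := X 1 0 * x + X 1 1 * y with hy'
  have hne : x' ≠ 0 ∨ y' ≠ 0 := by
    by_contra hcon
    push Not at hcon
    apply mulVec_ne_zero hXQ hv0
    rw [hmul, hcon.1, hcon.2]
    ext i; fin_cases i <;> simp
  have hg : (Int.gcd x' y' : ℤ) ≠ 0 := by
    rcases hne with h | h
    · exact_mod_cast (Int.gcd_pos_of_ne_zero_left y' h).ne'
    · exact_mod_cast (Int.gcd_pos_of_ne_zero_right x' h).ne'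
  -- the gcd divides `ℓ`
  have hgℓ : (Int.gcd x' y' : ℤ) ∣ ℓ := by
    obtain ⟨u, w, huw⟩ := hxy
    have e : (ℓ : ℤ) = (u * X 1 1 - w * X 1 0) * x' + (w * X 0 0 - u * X 0 1) * y' := by
      rw [hx', hy', ← hdet]
      linear_combination -(X 0 0 * X 1 1 - X 0 1 * X 1 0) * huw
    rw [e]
    exact dvd_add (dvd_mul_of_dvd_right (Int.gcd_dvd_left x' y') _)
      (dvd_mul_of_dvd_right (Int.gcd_dvd_right x' y') _)
  have hgcong : (M : ℤ) ∣ (Int.gcd x' y' : ℤ) - 1 := by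
    have h1 : Int.gcd x' y' ∣ ℓ := by exact_mod_cast hgℓ
    rcases (Nat.dvd_prime hℓ).mp h1 with h2 | h2
    · rw [h2]; simp
    · rw [h2]; exact hℓM
  obtain ⟨x'', hx''⟩ := Int.gcd_dvd_left x' y'
  obtain ⟨y'', hy''⟩ := Int.gcd_dvd_right x' y'
  have hcop : IsCoprime x'' y'' := by
    refine ⟨Int.gcdA x' y', Int.gcdB x' y', ?_⟩
    have h1 := Int.gcd_eq_gcd_ab x' y'
    apply mul_left_cancel₀ hg
    linear_combination -h1 - (Int.gcdA x' y') * hx'' - (Int.gcdB x' y') * hy''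
  obtain ⟨m, hm⟩ := hgcong
  obtain ⟨k00, hk00⟩ := hX 0 0
  obtain ⟨k01, hk01⟩ := hX 0 1
  obtain ⟨k10, hk10⟩ := hX 1 0
  obtain ⟨k11, hk11⟩ := hX 1 1
  simp at hk00 hk01 hk10 hk11
  have hfin := hP.eq_of_cong hxy hcop (x' := x'') (y' := y'')
    ⟨k00 * x + k01 * y - m * x'', by
      linear_combination -x'' * hm - hx'' + x * hk00 + y * hk01 + hx'⟩
    ⟨k10 * x + k11 * y - m * y'', by
      linear_combination -y'' * hm - hy'' + x * hk10 + y * hk11 + hy'⟩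
  rw [← hfin, hmul]
  have hgQ : ((Int.gcd x' y' : ℕ) : ℚ) ≠ 0 := by exact_mod_cast hg
  have e5 : (![(x' : ℚ), (y' : ℚ)] : V2) = ((Int.gcd x' y' : ℕ) : ℚ) • ![(x'' : ℚ), (y'' : ℚ)] := by
    have h1 : (x' : ℚ) = ((Int.gcd x' y' : ℕ) : ℚ) * x'' := by exact_mod_cast hx''
    have h2 : (y' : ℚ) = ((Int.gcd x' y' : ℕ) : ℚ) * y'' := by exact_mod_cast hy''
    ext i; fin_cases i
    · simpa using h1
    · simpa using h2
  rw [e5, hh _ _ hgQ (vec_ne_zero hcop)]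

end InvM

section HeckeInv

variable {A : Type*} [AddCommGroup A]

theorem heckeFun_of_inv {M : ℕ} {P : V2 → A} (hP : InvM M P) (hh : Homog P)
    (hU : ∀ (m : ℤ) (v : V2), v ≠ 0 → P (toQ !![1, m; 0, 1] *ᵥ v) = P v) {ℓ : ℕ}
    [hℓ : Fact ℓ.Prime] (hℓM : (M : ℤ) ∣ ℓ - 1) (v : V2) (hv : v ≠ 0) :
    heckeFun ℓ P v = (ℓ + 1) • P v := by
  haveI : NeZero ℓ := ⟨hℓ.out.ne_zero⟩
  rw [heckeFun_apply]
  have h1 : ∀ x : Option (ZMod ℓ), P (toQ (intRep ℓ x) *ᵥ v) = P v := by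
    intro x
    cases x with
    | none =>
      refine hP.of_det_prime hh hℓ.out hℓM _ (det_intRep _ _) ?_ v hv
      intro i j
      fin_cases i <;> fin_cases j <;> simp [hℓM]
    | some j =>
      have e : intRep ℓ (some j) = !![1, (j.val : ℤ); 0, 1] *
          !![1, (j.val : ℤ) - j.val * ℓ; 0, (ℓ : ℤ)] := by
        rw [intRep_some]
        ext i k
        fin_cases i <;> fin_cases k <;> simp [Matrix.mul_apply, Fin.sum_univ_two]
      have hd : (toQ !![1, (j.val : ℤ) - j.val * ℓ; 0, (ℓ : ℤ)]).det ≠ 0 := by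
        rw [det_toQ, Matrix.det_fin_two_of]
        have := hℓ.out.ne_zero
        simpa using this
      rw [e, toQ_mul, ← Matrix.mulVec_mulVec, hU _ _ (mulVec_ne_zero hd hv)]
      refine hP.of_det_prime hh hℓ.out hℓM _ (by rw [Matrix.det_fin_two_of]; ring) ?_ v hv
      obtain ⟨k, hk⟩ := hℓM
      intro i l
      fin_cases i <;> fin_cases l
      · simp
      · refine ⟨-j.val * k, ?_⟩
        simp only [Fin.zero_eta, Fin.isValue, Fin.mk_one, of_apply, cons_val', cons_val_one,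
          cons_val_fin_one, cons_val_zero, ne_eq, zero_ne_one, not_false_eq_true, one_apply_ne]
        linear_combination (-(j.val : ℤ)) * hk
      · simp
      · exact ⟨k, by simpa using hk⟩
  simp only [h1, Finset.sum_const, Finset.card_univ, Fintype.card_option, ZMod.card]

end HeckeInv

end Fermat.Agent.S41aux
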