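import Fermat.Agent.S41.Serre
import Mathlib.NumberTheory.ModularForms.CongruenceSubgroups
import Mathlib.LinearAlgebra.Matrix.NonsingularInverse

/-!
# Quasi-invariant functions on `P¹(ℚ)`
-/

set_option autoImplicit false

open Matrix
open scoped MatrixGroups

namespace Fermat.Agent.S41aux

/-- rational column vectors -/
abbrev V2 : Type := Fin 2 → ℚ
/-- rational matrices -/
abbrev M2 : Type := Matrix (Fin 2) (Fin 2) ℚ

/-- integral matrices as rational matrices -/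
def toQ (X : Matrix (Fin 2) (Fin 2) ℤ) : M2 := X.map (Int.cast)

@[simp] theorem toQ_apply (X : Matrix (Fin 2) (Fin 2) ℤ) (i j : Fin 2) : toQ X i j = (X i j : ℚ) := rfl

theorem toQ_mul (X Y : Matrix (Fin 2) (Fin 2) ℤ) : toQ (X * Y) = toQ X * toQ Y := by
  have := Matrix.map_mul (f := Int.castRingHom ℚ) (L := X) (M := Y)
  simpa [toQ] using this

theorem toQ_one : toQ 1 = 1 := by
  ext i j; fin_cases i <;> fin_cases j <;> simp

theorem det_toQ (X : Matrix (Fin 2) (Fin 2) ℤ) : (toQ X).det = (X.det : ℚ) := by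
  rw [Matrix.det_fin_two, Matrix.det_fin_two]; simp

theorem mulVec_ne_zero {A : M2} (hA : A.det ≠ 0) {v : V2} (hv : v ≠ 0) : A *ᵥ v ≠ 0 := by
  intro h
  apply hv
  have h1 : A⁻¹ *ᵥ (A *ᵥ v) = v := by
    rw [Matrix.mulVec_mulVec, Matrix.nonsing_inv_mul _ (isUnit_iff_ne_zero.mpr hA), Matrix.one_mulVec]
  rw [← h1, h, Matrix.mulVec_zero]

section Quasi

variable {F : Type*} [AddCommGroup F]

/-- Homogeneous functions on nonzero vectors, i.e. functions on `P¹(ℚ)`. -/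
def Homog (P : V2 → F) : Prop := ∀ (t : ℚ) (v : V2), t ≠ 0 → v ≠ 0 → P (t • v) = P v

/-- `P` is quasi-invariant under `A` with constant `c`. -/
def QI (P : V2 → F) (A : M2) (c : F) : Prop := ∀ v : V2, v ≠ 0 → P (A *ᵥ v) = P v + c

theorem QI.unique {P : V2 → F} {A : M2} {c c' : F} (h : QI P A c) (h' : QI P A c') : c = c' := by
  have hv : (![1, 0] : V2) ≠ 0 := by
    intro h0
    have := congrFun h0 0
    simp at this
  have h1 := h _ hv
  rw [h' _ hv] at h1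
  exact (add_left_cancel h1).symm

theorem QI.one (P : V2 → F) : QI P 1 0 := by
  intro v _; rw [Matrix.one_mulVec, add_zero]

theorem QI.mul {P : V2 → F} {A B : M2} {c d : F} (hA : QI P A c) (hB : QI P B d)
    (hdB : B.det ≠ 0) : QI P (A * B) (c + d) := by
  intro v hv
  rw [← Matrix.mulVec_mulVec, hA _ (mulVec_ne_zero hdB hv), hB _ hv]
  abel

theorem QI.inv {P : V2 → F} {A : M2} {c : F} (hA : QI P A c) (hdA : A.det ≠ 0) : QI P A⁻¹ (-c) := by
  intro v hv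
  have h1 : A⁻¹ *ᵥ v ≠ 0 := by
    apply mulVec_ne_zero _ hv
    rw [Matrix.det_nonsing_inv]
    simpa using hdA
  have h2 := hA _ h1
  rw [Matrix.mulVec_mulVec, Matrix.mul_nonsing_inv _ (isUnit_iff_ne_zero.mpr hdA), Matrix.one_mulVec]
    at h2
  rw [h2]; abel

theorem QI.smul {P : V2 → F} (hP : Homog P) {A : M2} {c : F} (hA : QI P A c) (hdA : A.det ≠ 0)
    {t : ℚ} (ht : t ≠ 0) : QI P (t • A) c := by
  intro v hv
  rw [Matrix.smul_mulVec, hP t _ ht (mulVec_ne_zero hdA hv), hA v hv]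

theorem QI.of_smul {P : V2 → F} (hP : Homog P) {A : M2} {c : F} {t : ℚ} (ht : t ≠ 0)
    (hA : QI P (t • A) c) (hdA : A.det ≠ 0) : QI P A c := by
  have hd : (t • A).det ≠ 0 := by
    rw [Matrix.det_smul]
    exact mul_ne_zero (pow_ne_zero _ ht) hdA
  have := hA.smul hP hd (inv_ne_zero ht)
  rwa [smul_smul, inv_mul_cancel₀ ht, one_smul] at this

/-- an eigenvector of `A` forces the constant to vanish. -/
theorem QI.eq_zero_of_fixed {P : V2 → F} (hP : Homog P) {A : M2} {c : F} (hA : QI P A c)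
    {v : V2} (hv : v ≠ 0) {t : ℚ} (ht : t ≠ 0) (h : A *ᵥ v = t • v) : c = 0 := by
  have h1 := hA v hv
  rw [h, hP t v ht hv] at h1
  simpa using h1.symm

/-- composition of a homogeneous function with an invertible matrix. -/
def pull (P : V2 → F) (A : M2) : V2 → F := fun v => P (A *ᵥ v)

theorem pull_apply (P : V2 → F) (A : M2) (v : V2) : pull P A v = P (A *ᵥ v) := rfl

theorem pull_pull (P : V2 → F) (A B : M2) : pull (pull P A) B = pull P (A * B) := by
  funext v; simp [pull]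

theorem Homog.pull {P : V2 → F} (hP : Homog P) {A : M2} (hA : A.det ≠ 0) : Homog (pull P A) := by
  intro t v ht hv
  rw [pull_apply, Matrix.mulVec_smul, hP t _ ht (mulVec_ne_zero hA hv), pull_apply]

/-- conjugation: if `A X = Y A` and `P` is quasi-invariant under `Y` then `pull P A` is
quasi-invariant under `X`. -/
theorem QI.pull {P : V2 → F} {A X Y : M2} {c : F} (hA : A.det ≠ 0) (hY : QI P Y c)
    (h : A * X = Y * A) : QI (pull P A) X c := by
  intro v hv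
  rw [pull_apply, pull_apply, Matrix.mulVec_mulVec, h, ← Matrix.mulVec_mulVec,
    hY _ (mulVec_ne_zero hA hv)]

theorem Homog.add {P Q : V2 → F} (hP : Homog P) (hQ : Homog Q) : Homog (P + Q) := by
  intro t v ht hv
  simp [hP t v ht hv, hQ t v ht hv]

theorem Homog.sub {P Q : V2 → F} (hP : Homog P) (hQ : Homog Q) : Homog (P - Q) := by
  intro t v ht hv
  simp [hP t v ht hv, hQ t v ht hv]

theorem QI.add {P Q : V2 → F} {A : M2} {c d : F} (hP : QI P A c) (hQ : QI Q A d) :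
    QI (P + Q) A (c + d) := by
  intro v hv
  simp only [Pi.add_apply, hP v hv, hQ v hv]; abel

theorem QI.sub {P Q : V2 → F} {A : M2} {c d : F} (hP : QI P A c) (hQ : QI Q A d) :
    QI (P - Q) A (c - d) := by
  intro v hv
  simp only [Pi.sub_apply, hP v hv, hQ v hv]; abel

theorem QI.zsmul {P : V2 → F} {A : M2} {c : F} (hP : QI P A c) (n : ℤ) :
    QI (n • P) A (n • c) := by
  intro v hv
  simp only [Pi.smul_apply, hP v hv, smul_add]

end Quasi

/-! ### The group `Γ₀(N)[1/q]` -/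

/-- an integral matrix of determinant one as an element of `Γ₀(N)`. -/
def toG0 (N : ℕ) (X : Matrix (Fin 2) (Fin 2) ℤ) (h : X.det = 1) (hc : (N : ℤ) ∣ X 1 0) :
    CongruenceSubgroup.Gamma0 N :=
  ⟨(⟨X, h⟩ : SL(2, ℤ)), CongruenceSubgroup.Gamma0_mem.mpr
    ((ZMod.intCast_zmod_eq_zero_iff_dvd _ _).mpr hc)⟩

theorem coe_toG0 (N : ℕ) (X : Matrix (Fin 2) (Fin 2) ℤ) (h : X.det = 1) (hc : (N : ℤ) ∣ X 1 0) :
    (((toG0 N X h hc : CongruenceSubgroup.Gamma0 N) : SL(2, ℤ)) : Matrix (Fin 2) (Fin 2) ℤ) = X :=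
  rfl

/-- the matrix `(a b; c d)` as an element of `Γ₀(N)`. -/
def mkG0 (N : ℕ) (a b c d : ℤ) (h : a * d - b * c = 1) (hc : (N : ℤ) ∣ c) :
    CongruenceSubgroup.Gamma0 N :=
  toG0 N !![a, b; c, d] (by rw [Matrix.det_fin_two_of]; exact h) hc

theorem coe_mkG0 (N : ℕ) (a b c d : ℤ) (h : a * d - b * c = 1) (hc : (N : ℤ) ∣ c) :
    (((mkG0 N a b c d h hc : CongruenceSubgroup.Gamma0 N) : SL(2, ℤ)) : Matrix (Fin 2) (Fin 2) ℤ) =
      !![a, b; c, d] := rfl

section Generation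

variable {F : Type*} [AddCommGroup F] {P : V2 → F} {N q : ℕ}

/-- `P` is quasi-invariant (with some constant). -/
def QIx (P : V2 → F) (A : M2) : Prop := ∃ c, QI P A c

theorem QIx.mul {A B : M2} (hA : QIx P A) (hB : QIx P B) (hdB : B.det ≠ 0) : QIx P (A * B) := by
  obtain ⟨c, hc⟩ := hA
  obtain ⟨d, hd⟩ := hB
  exact ⟨_, hc.mul hd hdB⟩

theorem QIx.inv {A : M2} (hA : QIx P A) (hdA : A.det ≠ 0) : QIx P A⁻¹ := by
  obtain ⟨c, hc⟩ := hA
  exact ⟨_, hc.inv hdA⟩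

/-- cancel a quasi-invariant matrix on the left -/
theorem QIx.of_mul_left {A B : M2} (hA : QIx P A) (hdA : A.det ≠ 0) (hAB : QIx P (A * B))
    (hdB : B.det ≠ 0) : QIx P B := by
  have h1 := (hA.inv hdA).mul hAB (by rw [Matrix.det_mul]; exact mul_ne_zero hdA hdB)
  rwa [← Matrix.mul_assoc, Matrix.nonsing_inv_mul _ (isUnit_iff_ne_zero.mpr hdA), Matrix.one_mul]
    at h1

/-- If the rows of `X` are dependent modulo `q`, some element of `Γ₀(N)` makes the second row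
divisible by `q`. -/
theorem exists_second_row (hq : q.Prime) (hqN : ¬ q ∣ N) (X : Matrix (Fin 2) (Fin 2) ℤ)
    (hdet : (q : ℤ) ∣ X.det) (hX : (N : ℤ) ∣ X 1 0) :
    ∃ (g : CongruenceSubgroup.Gamma0 N) (Z : Matrix (Fin 2) (Fin 2) ℤ),
      ((g : SL(2, ℤ)) : Matrix (Fin 2) (Fin 2) ℤ) * X = Z ∧ (q : ℤ) ∣ Z 1 0 ∧ (q : ℤ) ∣ Z 1 1 ∧
        (N : ℤ) ∣ Z 1 0 := by
  have : Fact q.Prime := ⟨hq⟩
  have hqN' : IsCoprime (q : ℤ) (N : ℤ) :=
    Nat.isCoprime_iff_coprime.mpr ((Nat.Prime.coprime_iff_not_dvd hq).mpr hqN)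
  have hNz : ((N : ℤ) : ZMod q) ≠ 0 := by
    intro h
    rw [ZMod.intCast_zmod_eq_zero_iff_dvd] at h
    exact hqN (by exact_mod_cast h)
  have hdet0 : ((X 0 0 : ℤ) : ZMod q) * ((X 1 1 : ℤ) : ZMod q) -
      ((X 0 1 : ℤ) : ZMod q) * ((X 1 0 : ℤ) : ZMod q) = 0 := by
    rw [Matrix.det_fin_two, ← ZMod.intCast_zmod_eq_zero_iff_dvd] at hdet
    exact_mod_cast hdet
  by_cases h0 : ((X 0 0 : ℤ) : ZMod q) = 0 ∧ ((X 0 1 : ℤ) : ZMod q) = 0
  · -- the first row vanishes mod `q`: use `(a b; N q)`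
    obtain ⟨u, v, huv⟩ := hqN'
    refine ⟨mkG0 N u (-v) N q (by linear_combination huv) dvd_rfl, _, by rw [coe_mkG0], ?_, ?_, ?_⟩
    · have h1 := (ZMod.intCast_zmod_eq_zero_iff_dvd _ _).mp h0.1
      simp only [Matrix.mul_apply, Fin.sum_univ_two, Matrix.of_apply, Matrix.cons_val',
        Matrix.cons_val_zero, Matrix.cons_val_one, Matrix.cons_val_fin_one]
      exact dvd_add (dvd_mul_of_dvd_right h1 _) (Dvd.intro _ rfl)
    · have h1 := (ZMod.intCast_zmod_eq_zero_iff_dvd _ _).mp h0.2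
      simp only [Matrix.mul_apply, Fin.sum_univ_two, Matrix.of_apply, Matrix.cons_val',
        Matrix.cons_val_zero, Matrix.cons_val_one, Matrix.cons_val_fin_one]
      exact dvd_add (dvd_mul_of_dvd_right h1 _) (Dvd.intro _ rfl)
    · simp only [Matrix.mul_apply, Fin.sum_univ_two, Matrix.of_apply, Matrix.cons_val',
        Matrix.cons_val_zero, Matrix.cons_val_one, Matrix.cons_val_fin_one]
      exact dvd_add (Dvd.intro _ rfl) (dvd_mul_of_dvd_right hX _)
  · -- the second row is `t` times the first mod `q`: use `(1 0; N k 1)` with `N k = -t`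
    obtain ⟨t, ht0, ht1⟩ : ∃ t : ZMod q, ((X 1 0 : ℤ) : ZMod q) = t * ((X 0 0 : ℤ) : ZMod q) ∧
        ((X 1 1 : ℤ) : ZMod q) = t * ((X 0 1 : ℤ) : ZMod q) := by
      by_cases h00 : ((X 0 0 : ℤ) : ZMod q) = 0
      · have h01 : ((X 0 1 : ℤ) : ZMod q) ≠ 0 := fun h => h0 ⟨h00, h⟩
        refine ⟨((X 1 1 : ℤ) : ZMod q) / ((X 0 1 : ℤ) : ZMod q), ?_, by rw [div_mul_cancel₀ _ h01]⟩
        rw [h00, zero_mul, zero_sub, neg_eq_zero] at hdet0
        rw [h00, mul_zero]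
        exact (mul_eq_zero.mp hdet0).resolve_left h01
      · refine ⟨((X 1 0 : ℤ) : ZMod q) / ((X 0 0 : ℤ) : ZMod q), by rw [div_mul_cancel₀ _ h00], ?_⟩
        field_simp
        linear_combination hdet0
    obtain ⟨k, hk⟩ : ∃ k : ℤ, ((N : ℤ) : ZMod q) * ((k : ℤ) : ZMod q) = -t := by
      refine ⟨((-t / ((N : ℤ) : ZMod q)).val : ℤ), ?_⟩
      push_cast
      rw [ZMod.natCast_zmod_val]
      have hN' : ((N : ℕ) : ZMod q) ≠ 0 := by exact_mod_cast hNz
      field_simp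
    refine ⟨mkG0 N 1 0 (N * k) 1 (by ring) (Dvd.intro _ rfl), _, by rw [coe_mkG0], ?_, ?_, ?_⟩
    · rw [← ZMod.intCast_zmod_eq_zero_iff_dvd]
      simp only [Matrix.mul_apply, Fin.sum_univ_two, Matrix.of_apply, Matrix.cons_val',
        Matrix.cons_val_zero, Matrix.cons_val_one, Matrix.cons_val_fin_one]
      push_cast at hk ⊢
      rw [hk, ht0]; ring
    · rw [← ZMod.intCast_zmod_eq_zero_iff_dvd]
      simp only [Matrix.mul_apply, Fin.sum_univ_two, Matrix.of_apply, Matrix.cons_val',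
        Matrix.cons_val_zero, Matrix.cons_val_one, Matrix.cons_val_fin_one]
      push_cast at hk ⊢
      rw [hk, ht1]; ring
    · simp only [Matrix.mul_apply, Fin.sum_univ_two, Matrix.of_apply, Matrix.cons_val',
        Matrix.cons_val_zero, Matrix.cons_val_one, Matrix.cons_val_fin_one]
      exact dvd_add (dvd_mul_of_dvd_left (Dvd.intro _ rfl) _) (dvd_mul_of_dvd_right hX _)

/-- Same for the first row. -/
theorem exists_first_row (hq : q.Prime) (hqN : ¬ q ∣ N) (X : Matrix (Fin 2) (Fin 2) ℤ)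
    (hdet : (q : ℤ) ∣ X.det) (hX : (N : ℤ) ∣ X 1 0) :
    ∃ (g : CongruenceSubgroup.Gamma0 N) (Z : Matrix (Fin 2) (Fin 2) ℤ),
      ((g : SL(2, ℤ)) : Matrix (Fin 2) (Fin 2) ℤ) * X = Z ∧ (q : ℤ) ∣ Z 0 0 ∧ (q : ℤ) ∣ Z 0 1 ∧
        (N : ℤ) ∣ Z 1 0 := by
  have : Fact q.Prime := ⟨hq⟩
  have hqN' : IsCoprime (q : ℤ) (N : ℤ) :=
    Nat.isCoprime_iff_coprime.mpr ((Nat.Prime.coprime_iff_not_dvd hq).mpr hqN)
  have hdet0 : ((X 0 0 : ℤ) : ZMod q) * ((X 1 1 : ℤ) : ZMod q) -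
      ((X 0 1 : ℤ) : ZMod q) * ((X 1 0 : ℤ) : ZMod q) = 0 := by
    rw [Matrix.det_fin_two, ← ZMod.intCast_zmod_eq_zero_iff_dvd] at hdet
    exact_mod_cast hdet
  by_cases h0 : ((X 1 0 : ℤ) : ZMod q) = 0 ∧ ((X 1 1 : ℤ) : ZMod q) = 0
  · -- the second row vanishes: use `(q b; N d)`
    obtain ⟨u, v, huv⟩ := hqN'
    refine ⟨mkG0 N q (-v) N u (by linear_combination huv) dvd_rfl, _, by rw [coe_mkG0], ?_, ?_, ?_⟩
    · have h1 := (ZMod.intCast_zmod_eq_zero_iff_dvd _ _).mp h0.1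
      simp only [Matrix.mul_apply, Fin.sum_univ_two, Matrix.of_apply, Matrix.cons_val',
        Matrix.cons_val_zero, Matrix.cons_val_one, Matrix.cons_val_fin_one]
      exact dvd_add (Dvd.intro _ rfl) (dvd_mul_of_dvd_right h1 _)
    · have h1 := (ZMod.intCast_zmod_eq_zero_iff_dvd _ _).mp h0.2
      simp only [Matrix.mul_apply, Fin.sum_univ_two, Matrix.of_apply, Matrix.cons_val',
        Matrix.cons_val_zero, Matrix.cons_val_one, Matrix.cons_val_fin_one]
      exact dvd_add (Dvd.intro _ rfl) (dvd_mul_of_dvd_right h1 _)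
    · simp only [Matrix.mul_apply, Fin.sum_univ_two, Matrix.of_apply, Matrix.cons_val',
        Matrix.cons_val_zero, Matrix.cons_val_one, Matrix.cons_val_fin_one]
      exact dvd_add (Dvd.intro _ rfl) (dvd_mul_of_dvd_right hX _)
  · obtain ⟨t, ht0, ht1⟩ : ∃ t : ZMod q, ((X 0 0 : ℤ) : ZMod q) = t * ((X 1 0 : ℤ) : ZMod q) ∧
        ((X 0 1 : ℤ) : ZMod q) = t * ((X 1 1 : ℤ) : ZMod q) := by
      by_cases h00 : ((X 1 0 : ℤ) : ZMod q) = 0
      · have h01 : ((X 1 1 : ℤ) : ZMod q) ≠ 0 := fun h => h0 ⟨h00, h⟩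
        refine ⟨((X 0 1 : ℤ) : ZMod q) / ((X 1 1 : ℤ) : ZMod q), ?_, by rw [div_mul_cancel₀ _ h01]⟩
        rw [h00, mul_zero, sub_zero] at hdet0
        rw [h00, mul_zero]
        exact (mul_eq_zero.mp hdet0).resolve_right h01
      · refine ⟨((X 0 0 : ℤ) : ZMod q) / ((X 1 0 : ℤ) : ZMod q), by rw [div_mul_cancel₀ _ h00], ?_⟩
        field_simp
        linear_combination -hdet0
    have hk : (((-t).val : ℤ) : ZMod q) = -t := by
      push_cast
      rw [ZMod.natCast_zmod_val]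
    refine ⟨mkG0 N 1 ((-t).val : ℤ) 0 1 (by ring) (dvd_zero _), _, by rw [coe_mkG0], ?_, ?_, ?_⟩
    · rw [← ZMod.intCast_zmod_eq_zero_iff_dvd]
      simp only [Matrix.mul_apply, Fin.sum_univ_two, Matrix.of_apply, Matrix.cons_val',
        Matrix.cons_val_zero, Matrix.cons_val_one, Matrix.cons_val_fin_one]
      rw [Int.cast_add, Int.cast_mul, Int.cast_mul, hk, ht0]; push_cast; ring
    · rw [← ZMod.intCast_zmod_eq_zero_iff_dvd]
      simp only [Matrix.mul_apply, Fin.sum_univ_two, Matrix.of_apply, Matrix.cons_val',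
        Matrix.cons_val_zero, Matrix.cons_val_one, Matrix.cons_val_fin_one]
      rw [Int.cast_add, Int.cast_mul, Int.cast_mul, hk, ht1]; push_cast; ring
    · simp only [Matrix.mul_apply, Fin.sum_univ_two, Matrix.of_apply, Matrix.cons_val',
        Matrix.cons_val_zero, Matrix.cons_val_one, Matrix.cons_val_fin_one, zero_mul, one_mul,
        zero_add]
      exact hX

/-- the matrix `diag(q, 1)`. -/
def betaZ (q : ℕ) : Matrix (Fin 2) (Fin 2) ℤ := !![(q : ℤ), 0; 0, 1]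

/-- Quasi-invariance under `Γ₀(N)` and under `β⁻¹ Γ₀(N) β` implies quasi-invariance under all
integral matrices of determinant `q ^ (2 k)` which are upper triangular modulo `N`. -/
theorem qix_of_generators (hq : q.Prime) (hqN : ¬ q ∣ N) (hP : Homog P)
    (h1 : ∀ g : CongruenceSubgroup.Gamma0 N, QIx P (toQ ((g : SL(2, ℤ)) : Matrix (Fin 2) (Fin 2) ℤ)))
    (h2 : ∀ (g : CongruenceSubgroup.Gamma0 N) (A : M2),
      toQ (betaZ q) * A = toQ ((g : SL(2, ℤ)) : Matrix (Fin 2) (Fin 2) ℤ) * toQ (betaZ q) → QIx P A)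
    (k : ℕ) (X : Matrix (Fin 2) (Fin 2) ℤ) (hdet : X.det = (q : ℤ) ^ (2 * k))
    (hX : (N : ℤ) ∣ X 1 0) : QIx P (toQ X) := by
  have hq0 : (q : ℤ) ≠ 0 := by exact_mod_cast hq.ne_zero
  have hqQ : (q : ℚ) ≠ 0 := by exact_mod_cast hq.ne_zero
  induction k generalizing X with
  | zero =>
    rw [mul_zero, pow_zero] at hdet
    exact h1 (toG0 N X hdet hX)
  | succ k ih =>
    have hdq : (q : ℤ) ∣ X.det := by
      rw [hdet]; exact dvd_pow_self _ (by omega)
    obtain ⟨g, Z, hgZ, hZ0, hZ1, hZN⟩ := exists_second_row hq hqN X hdq hX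
    obtain ⟨z0, hz0⟩ := hZ0
    obtain ⟨z1, hz1⟩ := hZ1
    have hNq : IsCoprime (N : ℤ) (q : ℤ) :=
      (Nat.isCoprime_iff_coprime.mpr ((Nat.Prime.coprime_iff_not_dvd hq).mpr hqN)).symm
    have hdZ : Z.det = (q : ℤ) ^ (2 * (k + 1)) := by
      rw [← hgZ, Matrix.det_mul, Matrix.SpecialLinearGroup.det_coe, one_mul, hdet]
    -- X' = (first row of Z; second row / q)
    set X' : Matrix (Fin 2) (Fin 2) ℤ := !![Z 0 0, Z 0 1; z0, z1] with hX'
    have hdX' : (q : ℤ) * X'.det = (q : ℤ) ^ (2 * (k + 1)) := by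
      rw [← hdZ, hX', Matrix.det_fin_two_of, Matrix.det_fin_two, hz0, hz1]; ring
    have hdX'2 : X'.det = (q : ℤ) ^ (2 * k + 1) := by
      apply mul_left_cancel₀ hq0
      rw [hdX']; ring
    have hX'N : (N : ℤ) ∣ X' 1 0 := by
      rw [hz0] at hZN
      simpa [hX'] using hNq.dvd_of_dvd_mul_left hZN
    obtain ⟨g', Z', hgZ', hZ'0, hZ'1, hZ'N⟩ := exists_first_row hq hqN X'
      (by rw [hdX'2]; exact dvd_pow_self _ (by omega)) hX'N
    obtain ⟨y0, hy0⟩ := hZ'0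
    obtain ⟨y1, hy1⟩ := hZ'1
    set Y : Matrix (Fin 2) (Fin 2) ℤ := !![y0, y1; Z' 1 0, Z' 1 1] with hY
    have hdZ' : Z'.det = (q : ℤ) ^ (2 * k + 1) := by
      rw [← hgZ', Matrix.det_mul, Matrix.SpecialLinearGroup.det_coe, one_mul, hdX'2]
    have hdY : Y.det = (q : ℤ) ^ (2 * k) := by
      apply mul_left_cancel₀ hq0
      have : (q : ℤ) * Y.det = Z'.det := by
        rw [hY, Matrix.det_fin_two_of, Matrix.det_fin_two, hy0, hy1]; ring
      rw [this, hdZ']; ring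
    have hYq := ih Y hdY (by simpa [hY] using hZ'N)
    -- `β⁻¹ g' β Z = q Y`
    set β : M2 := toQ (betaZ q) with hβ
    have hdβ : β.det ≠ 0 := by
      rw [hβ, det_toQ, betaZ, Matrix.det_fin_two_of]; simpa using hqQ
    set A : M2 := β⁻¹ * (toQ ((g' : SL(2, ℤ)) : Matrix (Fin 2) (Fin 2) ℤ) * β) with hA
    have hβA : β * A = toQ ((g' : SL(2, ℤ)) : Matrix (Fin 2) (Fin 2) ℤ) * β := by
      rw [hA, Matrix.mul_nonsing_inv_cancel_left _ _ (isUnit_iff_ne_zero.mpr hdβ)]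
    have hAq : QIx P A := h2 g' A hβA
    have hdg' : (toQ ((g' : SL(2, ℤ)) : Matrix (Fin 2) (Fin 2) ℤ)).det = 1 := by
      rw [det_toQ, Matrix.SpecialLinearGroup.det_coe]; simp
    have hdA : A.det ≠ 0 := by
      rw [hA, Matrix.det_mul, Matrix.det_mul, hdg', one_mul, Matrix.det_nonsing_inv]
      simp [hdβ]
    have hβZ : β * toQ Z = (q : ℚ) • toQ X' := by
      ext i j
      fin_cases i <;> fin_cases j <;>
        simp [hβ, betaZ, Matrix.mul_apply, Fin.sum_univ_two, hX', hz0, hz1]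
    have hβY : β * toQ Y = toQ Z' := by
      ext i j
      fin_cases i <;> fin_cases j <;>
        simp [hβ, betaZ, Matrix.mul_apply, Fin.sum_univ_two, hY, hy0, hy1]
    have hAZ : A * toQ Z = (q : ℚ) • toQ Y := by
      have h3 : β * (A * toQ Z) = β * ((q : ℚ) • toQ Y) := by
        rw [← Matrix.mul_assoc, hβA, Matrix.mul_assoc, hβZ, Matrix.mul_smul, ← toQ_mul, hgZ',
          Matrix.mul_smul, hβY]
      have h4 := congrArg (fun T => β⁻¹ * T) h3
      simp only [Matrix.nonsing_inv_mul_cancel_left _ _ (isUnit_iff_ne_zero.mpr hdβ)] at h4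
      exact h4
    have hdYQ : (toQ Y).det ≠ 0 := by
      rw [det_toQ, hdY]; exact_mod_cast pow_ne_zero _ hq0
    have hqY : QIx P ((q : ℚ) • toQ Y) := by
      obtain ⟨c, hc⟩ := hYq
      exact ⟨c, hc.smul hP hdYQ hqQ⟩
    have hdZQ : (toQ Z).det ≠ 0 := by
      rw [det_toQ, hdZ]; exact_mod_cast pow_ne_zero _ hq0
    have hZq : QIx P (toQ Z) := QIx.of_mul_left hAq hdA (by rw [hAZ]; exact hqY) hdZQ
    have hdg : (toQ ((g : SL(2, ℤ)) : Matrix (Fin 2) (Fin 2) ℤ)).det ≠ 0 := by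
      rw [det_toQ, Matrix.SpecialLinearGroup.det_coe]; simp
    refine QIx.of_mul_left (h1 g) hdg ?_ ?_
    · rw [← toQ_mul, hgZ]; exact hZq
    · rw [det_toQ, hdet]; exact_mod_cast pow_ne_zero _ hq0

end Generation

end Fermat.Agent.S41aux
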