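import Fermat.Agent.S41.Symb

/-!
# Ihara's lemma for modular symbols on integral vectors
-/

set_option autoImplicit false

open Matrix CongruenceSubgroup
open scoped MatrixGroups

namespace Fermat.Agent.S41aux

open Fermat.Agent.HeckePar

/-- integral vectors as rational vectors -/
def vQ (a : Fin 2 → ℤ) : V2 := fun i => (a i : ℚ)

theorem vQ_ne_zero {a : Fin 2 → ℤ} (ha : a ≠ 0) : vQ a ≠ 0 := by
  intro h
  apply ha
  ext i
  have := congrFun h i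
  simpa [vQ] using this

theorem vQ_zsmul (n : ℤ) (a : Fin 2 → ℤ) : vQ (n • a) = (n : ℚ) • vQ a := by
  ext i; simp [vQ]

theorem vQ_mulVec (X : Matrix (Fin 2) (Fin 2) ℤ) (a : Fin 2 → ℤ) :
    vQ (X *ᵥ a) = toQ X *ᵥ vQ a := by
  ext i
  simp [vQ, Matrix.mulVec, dotProduct, Fin.sum_univ_two]

theorem exists_primZ (u : V2) : ∃ a : Fin 2 → ℤ, u ≠ 0 → a ≠ 0 ∧ ∃ t : ℚ, t ≠ 0 ∧ u = t • vQ a := by
  by_cases hu : u ≠ 0
  · obtain ⟨t, x, y, ht, hxy, hu'⟩ := exists_primitive u hu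
    refine ⟨![x, y], fun _ => ⟨?_, t, ht, ?_⟩⟩
    · intro h0
      have h1 := congrFun h0 0
      have h2 := congrFun h0 1
      simp at h1 h2
      subst h1 h2
      obtain ⟨a, b, hab⟩ := hxy
      simp at hab
    · rw [hu']
      congr 1
      ext i; fin_cases i <;> simp [vQ]
  · exact ⟨0, fun h => absurd h hu⟩

/-- an integral vector on the line of `u`. -/
noncomputable def primZ (u : V2) : Fin 2 → ℤ := (exists_primZ u).choose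

theorem primZ_ne_zero {u : V2} (hu : u ≠ 0) : primZ u ≠ 0 := ((exists_primZ u).choose_spec hu).1

theorem primZ_spec {u : V2} (hu : u ≠ 0) : ∃ t : ℚ, t ≠ 0 ∧ u = t • vQ (primZ u) :=
  ((exists_primZ u).choose_spec hu).2

/-- proportional integral vectors -/
theorem exists_prop {a b : Fin 2 → ℤ} {t : ℚ} (ht : t ≠ 0) (h : vQ a = t • vQ b) :
    ∃ n m : ℤ, n ≠ 0 ∧ m ≠ 0 ∧ n • a = m • b := by
  refine ⟨t.den, t.num, by exact_mod_cast t.den_nz, Rat.num_ne_zero.mpr ht, ?_⟩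
  ext i
  have h1 := congrFun h i
  simp only [vQ, Pi.smul_apply, smul_eq_mul] at h1
  have h2 : ((t.den : ℤ) : ℚ) * (a i : ℚ) = (t.num : ℚ) * (b i : ℚ) := by
    rw [h1, ← mul_assoc]
    congr 1
    push_cast
    rw [mul_comm, Rat.mul_den_eq_num]
  simp only [Pi.smul_apply, smul_eq_mul]
  exact_mod_cast h2

section SymbZ

variable {F : Type*} [Field F] {p N q : ℕ} [CharP F p] {S : ℕ → Prop} {a : ℕ → F}

/-- Modular symbols on integral vectors. -/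
structure IsSymbZ (N : ℕ) (X : (Fin 2 → ℤ) → (Fin 2 → ℤ) → F) : Prop where
  add : ∀ u v w : Fin 2 → ℤ, u ≠ 0 → v ≠ 0 → w ≠ 0 → X u v + X v w = X u w
  smul_left : ∀ (n : ℤ) (u v : Fin 2 → ℤ), n ≠ 0 → X (n • u) v = X u v
  smul_right : ∀ (n : ℤ) (u v : Fin 2 → ℤ), n ≠ 0 → X u (n • v) = X u v
  inv : ∀ (g : Gamma0 N) (u v : Fin 2 → ℤ),
    X (((g : SL(2, ℤ)) : Matrix (Fin 2) (Fin 2) ℤ) *ᵥ u)
      (((g : SL(2, ℤ)) : Matrix (Fin 2) (Fin 2) ℤ) *ᵥ v) = X u v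

variable {X : (Fin 2 → ℤ) → (Fin 2 → ℤ) → F}

theorem IsSymbZ.congr_prop (h : IsSymbZ N X) {a b a' b' : Fin 2 → ℤ} {t s : ℚ} (ht : t ≠ 0)
    (hs : s ≠ 0) (ha : vQ a = t • vQ a') (hb : vQ b = s • vQ b') : X a b = X a' b' := by
  obtain ⟨n, m, hn, hm, hnm⟩ := exists_prop ht ha
  obtain ⟨n', m', hn', hm', hnm'⟩ := exists_prop hs hb
  rw [← h.smul_left n a b hn, hnm, h.smul_left m a' b hm, ← h.smul_right n' a' b hn', hnm',
    h.smul_right m' a' b' hm']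

/-- the associated symbol on rational vectors. -/
noncomputable def symbQ (X : (Fin 2 → ℤ) → (Fin 2 → ℤ) → F) : V2 → V2 → F :=
  fun u v => X (primZ u) (primZ v)

theorem IsSymbZ.symbQ_eq (h : IsSymbZ N X) {u v : V2} (hu : u ≠ 0) (hv : v ≠ 0)
    {a b : Fin 2 → ℤ} {t s : ℚ} (ht : t ≠ 0) (hs : s ≠ 0) (ha : u = t • vQ a) (hb : v = s • vQ b) :
    symbQ X u v = X a b := by
  obtain ⟨t', ht', htu⟩ := primZ_spec hu
  obtain ⟨s', hs', hsv⟩ := primZ_spec hv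
  refine h.congr_prop (t := t'⁻¹ * t) (s := s'⁻¹ * s) (mul_ne_zero (inv_ne_zero ht') ht)
    (mul_ne_zero (inv_ne_zero hs') hs) ?_ ?_
  · rw [← smul_smul, ← ha]
    conv_rhs => rw [htu]
    rw [smul_smul, inv_mul_cancel₀ ht', one_smul]
  · rw [← smul_smul, ← hb]
    conv_rhs => rw [hsv]
    rw [smul_smul, inv_mul_cancel₀ hs', one_smul]

theorem IsSymbZ.symbQ_mulVec (h : IsSymbZ N X) {u v : V2} (hu : u ≠ 0) (hv : v ≠ 0)
    (Y : Matrix (Fin 2) (Fin 2) ℤ) (hY : (toQ Y).det ≠ 0) :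
    symbQ X (toQ Y *ᵥ u) (toQ Y *ᵥ v) = X (Y *ᵥ primZ u) (Y *ᵥ primZ v) := by
  obtain ⟨t', ht', htu⟩ := primZ_spec hu
  obtain ⟨s', hs', hsv⟩ := primZ_spec hv
  refine h.symbQ_eq (mulVec_ne_zero hY hu) (mulVec_ne_zero hY hv) ht' hs' ?_ ?_
  · rw [vQ_mulVec, ← Matrix.mulVec_smul, ← htu]
  · rw [vQ_mulVec, ← Matrix.mulVec_smul, ← hsv]

theorem IsSymbZ.isSymb (h : IsSymbZ N X) : IsSymb N (symbQ X) where
  add u v w hu hv hw := h.add _ _ _ (primZ_ne_zero hu) (primZ_ne_zero hv) (primZ_ne_zero hw)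
  smul_right t u v ht hu hv := by
    obtain ⟨t', ht', htu⟩ := primZ_spec hu
    obtain ⟨s', hs', hsv⟩ := primZ_spec hv
    refine h.symbQ_eq hu (smul_ne_zero ht hv) ht' (mul_ne_zero ht hs') htu ?_
    rw [← smul_smul, ← hsv]
  inv g u v hu hv := by
    rw [gQ, h.symbQ_mulVec hu hv _ (det_gQ_ne g), h.inv]
    rfl

/-- The Hecke eigen-equation on integral vectors. -/
def SymbEigZ (N : ℕ) (S : ℕ → Prop) (a : ℕ → F) (X : (Fin 2 → ℤ) → (Fin 2 → ℤ) → F) : Prop :=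
  ∀ (ℓ : ℕ) [Fact ℓ.Prime], S ℓ → ∀ u v : Fin 2 → ℤ, u ≠ 0 → v ≠ 0 →
    ∑ x : HIdx N ℓ, X (intRep ℓ x.1 *ᵥ u) (intRep ℓ x.1 *ᵥ v) = a ℓ * X u v

theorem IsSymbZ.symbEig (h : IsSymbZ N X) (he : SymbEigZ N S a X) :
    SymbEig (N := N) S a (symbQ X) := by
  intro ℓ hℓ hS u v hu hv
  rw [symbQ, ← he ℓ hS _ _ (primZ_ne_zero hu) (primZ_ne_zero hv)]
  exact Finset.sum_congr rfl fun x _ =>
    h.symbQ_mulVec hu hv _ (det_intRepQ_ne hℓ.out.ne_zero x.1)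

/-- **Ihara's lemma for modular symbols on integral vectors.** -/
theorem ihara_symbZ (hp : p.Prime) (hp2 : p ≠ 2) (hq : q.Prime) (hqN : ¬ q ∣ N)
    (hSN : ∀ ℓ, S ℓ → ¬ ℓ ∣ N) (hne : NonEis S a)
    {X₁ X₂ : (Fin 2 → ℤ) → (Fin 2 → ℤ) → F} (h₁ : IsSymbZ N X₁) (h₂ : IsSymbZ N X₂)
    (he₁ : SymbEigZ N S a X₁) (he₂ : SymbEigZ N S a X₂)
    (hker : ∀ u v : Fin 2 → ℤ, u ≠ 0 → v ≠ 0 →
      X₁ u v + X₂ (betaZ q *ᵥ u) (betaZ q *ᵥ v) = 0) :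
    (∀ u v : Fin 2 → ℤ, u ≠ 0 → v ≠ 0 → X₁ u v = 0) ∧
      (∀ u v : Fin 2 → ℤ, u ≠ 0 → v ≠ 0 → X₂ u v = 0) := by
  obtain ⟨hz₁, hz₂⟩ := ihara_symb hp hp2 hq hqN hSN hne h₁.isSymb h₂.isSymb (h₁.symbEig he₁)
    (h₂.symbEig he₂) (by
      intro u v hu hv
      rw [h₂.symbQ_mulVec hu hv _ (det_betaQ_ne hq.ne_zero)]
      exact hker _ _ (primZ_ne_zero hu) (primZ_ne_zero hv))
  constructor
  · intro u v hu hv
    rw [← h₁.symbQ_eq (vQ_ne_zero hu) (vQ_ne_zero hv) one_ne_zero one_ne_zero (one_smul _ _).symm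
      (one_smul _ _).symm]
    exact hz₁ _ _ (vQ_ne_zero hu) (vQ_ne_zero hv)
  · intro u v hu hv
    rw [← h₂.symbQ_eq (vQ_ne_zero hu) (vQ_ne_zero hv) one_ne_zero one_ne_zero (one_smul _ _).symm
      (one_smul _ _).symm]
    exact hz₂ _ _ (vQ_ne_zero hu) (vQ_ne_zero hv)

end SymbZ

end Fermat.Agent.S41aux
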