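import Fermat.Agent.S41.DualHecke
import Fermat.Agent.S41.DualSurj
import Fermat.Agent.S41.SymbZ
import Fermat.Agent.S41.NakH
import Fermat.Agent.HeckePar.Faithful

/-!
# Level raising modulo `p`: an integral homomorphism in the kernel of the trace maps
-/

set_option autoImplicit false

noncomputable section

open Matrix CongruenceSubgroup
open scoped MatrixGroups

namespace Fermat.Agent.S41aux

open Fermat.Agent.HeckePar
open Fermat.Agent.S41dual (Psi trA trB resA resB RC gs gm)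

variable {N q p : ℕ} [hq : Fact q.Prime] (hc : Nat.Coprime q N)

/-- The Hecke operators on pairs. -/
def opPair (N : ℕ) (S : ℕ → Prop) (ℓ : {ℓ : Nat.Primes // S ℓ}) :
    Module.End ℤ ((Additive (Gamma0 N) →+ ℤ) × (Additive (Gamma0 N) →+ ℤ)) :=
  (opPrime N ℤ ℓ.1).prodMap (opPrime N ℤ ℓ.1)

theorem opPair_commute (N : ℕ) (S : ℕ → Prop) (ℓ ℓ' : {ℓ : Nat.Primes // S ℓ}) :
    Commute (opPair N S ℓ) (opPair N S ℓ') := by
  have h := opPrime_commute (N := N) (A := ℤ) ℓ.1 ℓ'.1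
  refine LinearMap.ext fun x => ?_
  refine Prod.ext ?_ ?_
  · exact LinearMap.congr_fun h x.1
  · exact LinearMap.congr_fun h x.2

/-- The Hecke operators on homomorphisms. -/
def opOne (N : ℕ) (S : ℕ → Prop) (ℓ : {ℓ : Nat.Primes // S ℓ}) :
    Module.End ℤ (Additive (Gamma0 N) →+ ℤ) := opPrime N ℤ ℓ.1

theorem opOne_commute (N : ℕ) (S : ℕ → Prop) (ℓ ℓ' : {ℓ : Nat.Primes // S ℓ}) :
    Commute (opOne N S ℓ) (opOne N S ℓ') := opPrime_commute (N := N) (A := ℤ) ℓ.1 ℓ'.1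

/-- the pair of traces -/
def tau (hc : Nat.Coprime q N) : (Additive (Gamma0 (N * q)) →+ ℤ) →+
    (Additive (Gamma0 N) →+ ℤ) × (Additive (Gamma0 N) →+ ℤ) :=
  (trA hc ℤ).prod (trB hc ℤ)

/-- the symbol attached to a functional on homomorphisms -/
theorem isSymbZ_of_functional (N p : ℕ) [Fact p.Prime]
    (Y : (Additive (Gamma0 N) →+ ℤ) →+ ZMod p) :
    IsSymbZ (F := ZMod p) N (fun u v => Y (Psi (Gamma0 N) u v)) where
  add u v w hu hv hw := by rw [← map_add, S41dual.Psi_add hu hv hw]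
  smul_left n u v hn := by rw [S41dual.Psi_smul_left hn]
  smul_right n u v hn := by rw [S41dual.Psi_smul_right hn]
  inv g u v := by
    have := S41dual.Psi_gm (Γ := Gamma0 N) g u v
    exact congrArg Y this

theorem functional_eq_zero (N p : ℕ) [NeZero N] [hp : Fact p.Prime] (hp2 : p ≠ 2)
    (Y : (Additive (Gamma0 N) →+ ℤ) →+ ZMod p)
    (hY : ∀ u v : Fin 2 → ℤ, u ≠ 0 → v ≠ 0 → Y (Psi (Gamma0 N) u v) = 0) : Y = 0 := by
  classical
  haveI : (Gamma0 N).FiniteIndex := inferInstance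
  haveI : Finite (RC (Gamma0 N)) := by
    have := Subgroup.finite_quotient_of_finiteIndex (H := Gamma0 N)
    exact Finite.of_equiv _ (QuotientGroup.quotientRightRelEquivQuotientLeftRel (Gamma0 N)).symm
  letI : Fintype (RC (Gamma0 N)) := Fintype.ofFinite _
  refine AddMonoidHom.ext fun ψ => ?_
  obtain ⟨w, hw⟩ := S41dual.exists_eq_sum_Psi ψ
  have h1 : Y ((8 : ℤ) • ψ) = 0 := by
    rw [hw, map_sum]
    refine Finset.sum_eq_zero fun x _ => ?_
    rw [map_zsmul, hY, smul_zero]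
    · intro h0
      have h2 : vQ (gs x.out *ᵥ S41dual.e₁) = 0 := by rw [h0]; ext i; simp [vQ]
      rw [vQ_mulVec] at h2
      refine mulVec_ne_zero ?_ (vQ_ne_zero ?_) h2
      · rw [det_toQ, S41dual.gs, Matrix.SpecialLinearGroup.det_coe]; simp
      · intro h3; have := congrFun h3 0; simp [S41dual.e₁] at this
    · intro h0
      have h2 : vQ (gs x.out *ᵥ S41dual.e₂) = 0 := by rw [h0]; ext i; simp [vQ]
      rw [vQ_mulVec] at h2
      refine mulVec_ne_zero ?_ (vQ_ne_zero ?_) h2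
      · rw [det_toQ, S41dual.gs, Matrix.SpecialLinearGroup.det_coe]; simp
      · intro h3; have := congrFun h3 1; simp [S41dual.e₂] at this
  rw [map_zsmul, zsmul_eq_mul] at h1
  refine (mul_eq_zero.mp h1).resolve_left ?_
  have h2 : (2 : ZMod p) ≠ 0 := two_ne_zero_of_charP (F := ZMod p) hp.out hp2
  have h8 : (((8 : ℤ)) : ZMod p) = 2 ^ 3 := by norm_num
  rw [h8]
  exact pow_ne_zero 3 h2

/-- evaluation of Hecke polynomials modulo `p` on an eigenvector. -/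
theorem commEval_congr {L : Type*} [AddCommGroup L] {ι : Type*} (op : ι → Module.End ℤ L)
    (h : ∀ i j, Commute (op i) (op j)) (p : ℤ) (a : ι → ℤ) (x : L)
    (hx : ∀ i, ∃ z : L, op i x = a i • x + p • z) (t : MvPolynomial ι ℤ) :
    ∃ z : L, commEval op h t x = MvPolynomial.eval a t • x + p • z := by
  induction t using MvPolynomial.induction_on with
  | C c =>
    refine ⟨0, ?_⟩
    rw [← MvPolynomial.algebraMap_eq, AlgHom.commutes, eq_intCast, Module.End.intCast_apply]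
    simp
  | add P Q hP hQ =>
    obtain ⟨z, hz⟩ := hP
    obtain ⟨z', hz'⟩ := hQ
    refine ⟨z + z', ?_⟩
    rw [map_add, LinearMap.add_apply, hz, hz', map_add, add_smul, smul_add]
    abel
  | mul_X P i hP =>
    obtain ⟨z, hz⟩ := hP
    obtain ⟨z', hz'⟩ := hx i
    refine ⟨a i • z + commEval op h P z', ?_⟩
    rw [map_mul, commEval_X, Module.End.mul_apply, hz', map_add, map_zsmul, map_zsmul, hz,
      map_mul, MvPolynomial.eval_X, smul_add, smul_add, smul_smul, smul_comm (a i) p z,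
      mul_comm, add_assoc]

/-- **The key construction.** -/
theorem exists_kernel_vector [NeZero N] [hpf : Fact p.Prime] (hp2 : p ≠ 2) (S : ℕ → Prop)
    (hSN : ∀ ℓ, S ℓ → ¬ ℓ ∣ N * q) (a : ℕ → ℤ)
    (hne : NonEis (F := ZMod p) S (fun ℓ => ((a ℓ : ℤ) : ZMod p)))
    (hcA : ∀ (ℓ : ℕ) [Fact ℓ.Prime], ¬ ℓ ∣ N * q → ∀ φ : Additive (Gamma0 (N * q)) →+ ℤ,
      trA hc ℤ ((heckeSys (N * q) ℓ).addTransfer φ) = (heckeSys N ℓ).addTransfer (trA hc ℤ φ))
    (hcB : ∀ (ℓ : ℕ) [Fact ℓ.Prime], ¬ ℓ ∣ N * q → ∀ φ : Additive (Gamma0 (N * q)) →+ ℤ,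
      trB hc ℤ ((heckeSys (N * q) ℓ).addTransfer φ) = (heckeSys N ℓ).addTransfer (trB hc ℤ φ))
    (hrA : ∀ (ℓ : ℕ) [Fact ℓ.Prime], ¬ ℓ ∣ N * q → ∀ φ : Additive (Gamma0 N) →+ ℤ,
      (heckeSys (N * q) ℓ).addTransfer (resA N q ℤ φ) = resA N q ℤ ((heckeSys N ℓ).addTransfer φ))
    (hrB : ∀ (ℓ : ℕ) [Fact ℓ.Prime], ¬ ℓ ∣ N * q → ∀ φ : Additive (Gamma0 N) →+ ℤ,
      (heckeSys (N * q) ℓ).addTransfer (resB N q ℤ φ) = resB N q ℤ ((heckeSys N ℓ).addTransfer φ))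
    (ε : ℤ) (hε : ε * ε = 1) (ξ : Additive (Gamma0 N) →+ ℤ) (hξ0 : ∃ x, ¬ (p : ℤ) ∣ ξ x)
    (hξ : ∀ (ℓ : ℕ) [Fact ℓ.Prime], S ℓ → ∀ g, (p : ℤ) ∣ (heckeSys N ℓ).addTransfer ξ g - a ℓ * ξ g)
    (hξq : ∀ g, (p : ℤ) ∣ (heckeSys N q).addTransfer ξ g - ε * (q + 1) * ξ g) :
    ∃ y : Additive (Gamma0 (N * q)) →+ ℤ, trA hc ℤ y = 0 ∧ trB hc ℤ y = 0 ∧
      (∃ g, ¬ (p : ℤ) ∣ y g) ∧
      ∀ (ℓ : ℕ) [Fact ℓ.Prime], S ℓ → ∀ g,
        (p : ℤ) ∣ (heckeSys (N * q) ℓ).addTransfer y g - a ℓ * y g := by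
  classical
  have hp : p.Prime := hpf.out
  have hqN : ¬ q ∣ N := S41dual.not_dvd_of_coprime hc
  have hSN' : ∀ ℓ, S ℓ → ¬ ℓ ∣ N := fun ℓ h hd => hSN ℓ h (hd.mul_right q)
  -- divisible homomorphisms
  have hdiv : ∀ {M : ℕ} (φ : Additive (Gamma0 M) →+ ℤ), (∀ g, (p : ℤ) ∣ φ g) →
      ∃ z : Additive (Gamma0 M) →+ ℤ, φ = (p : ℤ) • z := by
    intro M φ h
    have hp0 : (p : ℤ) ≠ 0 := by exact_mod_cast hp.ne_zero
    choose z hz using h
    refine ⟨⟨⟨z, ?_⟩, ?_⟩, AddMonoidHom.ext fun g => ?_⟩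
    · apply mul_left_cancel₀ hp0
      rw [← hz, map_zero, mul_zero]
    · intro x y
      apply mul_left_cancel₀ hp0
      rw [← hz, map_add, hz, hz, mul_add]
    · show φ g = (p : ℤ) * z g
      exact hz g
  -- Step 1: the polynomial
  obtain ⟨t, ht1, ht⟩ := exists_poly_mem (L := (Additive (Gamma0 N) →+ ℤ) × (Additive (Gamma0 N) →+ ℤ))
    hp (opPair N S) (opPair_commute N S) (tau hc).range (by
      rintro ⟨ℓ, hS⟩ _ ⟨φ, rfl⟩
      haveI : Fact (ℓ : ℕ).Prime := ⟨ℓ.2⟩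
      refine ⟨(heckeSys (N * q) (ℓ : ℕ)).addTransfer φ, Prod.ext ?_ ?_⟩
      · exact hcA ℓ (hSN _ hS) φ
      · exact hcB ℓ (hSN _ hS) φ) (fun ℓ => a ℓ.1) (by
      intro Y hY0 hYe
      set Y₁ : (Additive (Gamma0 N) →+ ℤ) →+ ZMod p := Y.comp (AddMonoidHom.inl _ _) with hY₁
      set Y₂ : (Additive (Gamma0 N) →+ ℤ) →+ ZMod p := Y.comp (AddMonoidHom.inr _ _) with hY₂
      have hYsplit : ∀ φ φ', Y (φ, φ') = Y₁ φ + Y₂ φ' := by
        intro φ φ'
        have : (φ, φ') = (φ, 0) + (0, φ') := by simp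
        rw [this, map_add]; rfl
      have hs₁ := isSymbZ_of_functional N p Y₁
      have hs₂ := isSymbZ_of_functional N p Y₂
      have he₁ : SymbEigZ N S (fun ℓ => ((a ℓ : ℤ) : ZMod p))
          (fun u v => Y₁ (Psi (Gamma0 N) u v)) := by
        intro ℓ hℓ hS u v hu hv
        have h1 := hYe ⟨⟨ℓ, hℓ.out⟩, hS⟩ (Psi (Gamma0 N) u v, 0)
        have h2 : opPair N S ⟨⟨ℓ, hℓ.out⟩, hS⟩ (Psi (Gamma0 N) u v, 0) =
            ((heckeSys N ℓ).addTransfer (Psi (Gamma0 N) u v), 0) := by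
          refine Prod.ext rfl ?_
          show opPrime N ℤ ⟨ℓ, hℓ.out⟩ 0 = 0
          exact map_zero _
        rw [h2, S41dual.addTransfer_Psi (hSN' ℓ hS), hYsplit, hYsplit, map_zero, add_zero,
          add_zero, map_sum] at h1
        exact h1
      have he₂ : SymbEigZ N S (fun ℓ => ((a ℓ : ℤ) : ZMod p))
          (fun u v => Y₂ (Psi (Gamma0 N) u v)) := by
        intro ℓ hℓ hS u v hu hv
        have h1 := hYe ⟨⟨ℓ, hℓ.out⟩, hS⟩ (0, Psi (Gamma0 N) u v)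
        have h2 : opPair N S ⟨⟨ℓ, hℓ.out⟩, hS⟩ (0, Psi (Gamma0 N) u v) =
            (0, (heckeSys N ℓ).addTransfer (Psi (Gamma0 N) u v)) := by
          refine Prod.ext ?_ rfl
          show opPrime N ℤ ⟨ℓ, hℓ.out⟩ 0 = 0
          exact map_zero _
        rw [h2, S41dual.addTransfer_Psi (hSN' ℓ hS), hYsplit, hYsplit, map_zero, zero_add,
          zero_add, map_sum] at h1
        exact h1
      obtain ⟨hz₁, hz₂⟩ := ihara_symbZ hp hp2 hq.out hqN hSN' hne hs₁ hs₂ he₁ he₂ (by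
        intro u v hu hv
        have h1 := hY0 (tau hc (Psi (Gamma0 (N * q)) u v)) ⟨_, rfl⟩
        have h2 : tau hc (Psi (Gamma0 (N * q)) u v) =
            (Psi (Gamma0 N) u v, Psi (Gamma0 N) (betaZ q *ᵥ u) (betaZ q *ᵥ v)) :=
          Prod.ext (S41dual.trA_Psi hc u v) (S41dual.trB_Psi hc u v)
        rw [h2, hYsplit] at h1
        exact h1)
      have h₁ := functional_eq_zero N p hp2 Y₁ hz₁
      have h₂ := functional_eq_zero N p hp2 Y₂ hz₂
      refine AddMonoidHom.ext fun x => ?_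
      rw [show x = (x.1, x.2) from rfl, hYsplit, h₁, h₂]
      simp)
  -- Step 2: `ξ` modulo `p`
  obtain ⟨η, hη⟩ : ∃ η : Additive (Gamma0 N) →+ ℤ,
      (heckeSys N q).addTransfer ξ - (ε * (q + 1)) • ξ = (p : ℤ) • η :=
    hdiv _ (fun g => hξq g)
  have hξe : ∀ ℓ : {ℓ : Nat.Primes // S ℓ}, ∃ z : Additive (Gamma0 N) →+ ℤ,
      opOne N S ℓ ξ = a ℓ.1 • ξ + (p : ℤ) • z := by
    rintro ⟨ℓ, hS⟩
    haveI : Fact (ℓ : ℕ).Prime := ⟨ℓ.2⟩
    obtain ⟨z, hz⟩ := hdiv ((heckeSys N (ℓ : ℕ)).addTransfer ξ - a ℓ • ξ) (fun g => hξ ℓ hS g)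
    refine ⟨z, ?_⟩
    rw [← hz]
    show (heckeSys N (ℓ : ℕ)).addTransfer ξ = _
    abel
  set x : Additive (Gamma0 (N * q)) →+ ℤ := resA N q ℤ ξ - ε • resB N q ℤ ξ with hx
  have htx : tau hc x = (p : ℤ) • (-(ε • η), η) := by
    have hT : (heckeSys N q).addTransfer ξ = (ε * (q + 1)) • ξ + (p : ℤ) • η := by
      rw [← hη]; abel
    refine Prod.ext ?_ ?_
    · show trA hc ℤ x = (p : ℤ) • (-(ε • η))
      rw [hx, map_sub, map_zsmul, S41dual.trA_resA, S41dual.trA_resB, hT, smul_add, smul_smul,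
        ← mul_assoc, hε, one_mul, smul_neg, smul_comm (p : ℤ) ε η]
      have : ((q + 1 : ℕ) • ξ : Additive (Gamma0 N) →+ ℤ) = ((q : ℤ) + 1) • ξ := by
        rw [← natCast_zsmul]; push_cast; rfl
      rw [this]; abel
    · show trB hc ℤ x = (p : ℤ) • η
      rw [hx, map_sub, map_zsmul, S41dual.trB_resB, S41dual.trB_resA, hT]
      have : ε • ((q + 1 : ℕ) • ξ : Additive (Gamma0 N) →+ ℤ) = (ε * ((q : ℤ) + 1)) • ξ := by
        rw [← natCast_zsmul, smul_smul]; push_cast; rfl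
      rw [this]; abel
  have hxe : ∀ ℓ : {ℓ : Nat.Primes // S ℓ}, ∃ z : Additive (Gamma0 (N * q)) →+ ℤ,
      opOne (N * q) S ℓ x = a ℓ.1 • x + (p : ℤ) • z := by
    rintro ⟨ℓ, hS⟩
    haveI : Fact (ℓ : ℕ).Prime := ⟨ℓ.2⟩
    obtain ⟨z, hz⟩ := hξe ⟨ℓ, hS⟩
    have hz' : (heckeSys N (ℓ : ℕ)).addTransfer ξ = a ℓ • ξ + (p : ℤ) • z := hz
    refine ⟨resA N q ℤ z - ε • resB N q ℤ z, ?_⟩
    show (heckeSys (N * q) (ℓ : ℕ)).addTransfer x = a ℓ • x + _
    rw [hx, map_sub, map_zsmul, hrA ℓ (hSN _ hS), hrB ℓ (hSN _ hS), hz', map_add, map_add,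
      map_zsmul, map_zsmul, map_zsmul, map_zsmul]
    simp only [smul_sub, smul_add, smul_comm ε]
    abel
  -- Step 3: the correction
  set w : (Additive (Gamma0 N) →+ ℤ) × (Additive (Gamma0 N) →+ ℤ) := (-(ε • η), η) with hw
  obtain ⟨z, hz⟩ := ht w
  obtain ⟨z', hz'⟩ := commEval_congr (opOne (N * q) S) (opOne_commute (N * q) S) (p : ℤ)
    (fun ℓ => a ℓ.1) x hxe t
  set y : Additive (Gamma0 (N * q)) →+ ℤ :=
    commEval (opOne (N * q) S) (opOne_commute (N * q) S) t x - (p : ℤ) • z with hy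
  have htau_y : tau hc y = 0 := by
    have hnat := commEval_natural (opOne (N * q) S) (opOne_commute (N * q) S) (opPair N S)
      (opPair_commute N S) (tau hc) (by
        rintro ⟨ℓ, hS⟩ φ
        haveI : Fact (ℓ : ℕ).Prime := ⟨ℓ.2⟩
        exact Prod.ext (hcA ℓ (hSN _ hS) φ) (hcB ℓ (hSN _ hS) φ)) t x
    rw [hy, map_sub, map_zsmul, hnat, htx, map_zsmul, hz, sub_self]
  obtain ⟨c, hc'⟩ := ht1
  have hyx : ∃ z'' : Additive (Gamma0 (N * q)) →+ ℤ, y = x + (p : ℤ) • z'' := by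
    refine ⟨c • x + z' - z, ?_⟩
    have hev : MvPolynomial.eval (fun ℓ : {ℓ : Nat.Primes // S ℓ} => a ℓ.1) t = 1 + p * c := by
      linear_combination hc'
    rw [hy, hz', hev, add_smul, one_smul, mul_smul, smul_sub ((p : ℤ)) (c • x + z') z,
      smul_add ((p : ℤ)) (c • x) z']
    abel
  obtain ⟨z'', hz''⟩ := hyx
  refine ⟨y, congrArg Prod.fst htau_y, congrArg Prod.snd htau_y, ?_, ?_⟩
  · -- `y` is not divisible by `p`
    by_contra hcon
    push Not at hcon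
    -- reduce `ξ` modulo `p`
    have hpsi0 := ihara_hom (p := p) hp hp2 hq.out hqN hSN' hne
      (ψ := (Int.castAddHom (ZMod p)).comp ξ) (by
        intro ℓ hℓ hS g
        rw [CosetSys.addTransfer_comp, AddMonoidHom.comp_apply, AddMonoidHom.comp_apply]
        have h1 := hξ ℓ hS g
        rw [← ZMod.intCast_zmod_eq_zero_iff_dvd] at h1
        push_cast at h1
        exact sub_eq_zero.mp h1) (-(ε : ZMod p)) (by
        intro g
        have h1 := hcon (Additive.ofMul g)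
        have h2 : (p : ℤ) ∣ x (Additive.ofMul g) := by
          rw [hz''] at h1
          have h3 : (x + (p : ℤ) • z'') (Additive.ofMul g) =
            x (Additive.ofMul g) + p * z'' (Additive.ofMul g) := rfl
          rw [h3] at h1
          exact (dvd_add_left (Dvd.intro _ rfl)).mp h1
        have h4 : x (Additive.ofMul g) = ξ (Additive.ofMul (degA N q g)) -
            ε * ξ (Additive.ofMul (degB N hq.out.ne_zero g)) := by
          rw [hx]
          show resA N q ℤ ξ (Additive.ofMul g) - ε * resB N q ℤ ξ (Additive.ofMul g) = _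
          rw [S41dual.resA_apply, S41dual.resB_apply]
        rw [h4, ← ZMod.intCast_zmod_eq_zero_iff_dvd] at h2
        push_cast at h2
        show ((ξ (Additive.ofMul (degA N q g)) : ℤ) : ZMod p) + -(ε : ZMod p) *
          ((ξ (Additive.ofMul (degB N hq.out.ne_zero g)) : ℤ) : ZMod p) = 0
        linear_combination h2)
    obtain ⟨g, hg⟩ := hξ0
    apply hg
    rw [← ZMod.intCast_zmod_eq_zero_iff_dvd]
    exact DFunLike.congr_fun hpsi0 g
  · intro ℓ hℓ hS g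
    obtain ⟨v, hv⟩ := hxe ⟨⟨ℓ, hℓ.out⟩, hS⟩
    have hv' : (heckeSys (N * q) ℓ).addTransfer x = a ℓ • x + (p : ℤ) • v := hv
    rw [hz'', map_add, map_zsmul, hv']
    refine ⟨v g + (heckeSys (N * q) ℓ).addTransfer z'' g - a ℓ * z'' g, ?_⟩
    show a ℓ * x g + p * v g + p * (heckeSys (N * q) ℓ).addTransfer z'' g -
      a ℓ * (x g + p * z'' g) = _
    ring

end Fermat.Agent.S41aux

end
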