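import Mathlib.NumberTheory.LSeries.PrimesInAP
import Mathlib.Tactic

/-!
# Serre's trick with units of `ℤ[1/q]` and primes in arithmetic progressions

A function `P` on `P¹(ℚ)` (written as a homogeneous function of two variables) which is invariant
under the elementary matrices congruent to `1` modulo `M` over `ℤ[1/q]` takes the same value at
`(a : c)` and `(q² a : c)` whenever `(a, c) ≡ (1, 0)` modulo `M`.
-/

set_option autoImplicit false

namespace Fermat.Agent.S41aux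

section Serre

variable {F : Type*} (q M : ℕ) (P : ℚ → ℚ → F)

/-- The invariance properties used in Serre's trick. -/
structure SerreInv : Prop where
  hom : ∀ t x y : ℚ, t ≠ 0 → (x ≠ 0 ∨ y ≠ 0) → P (t * x) (t * y) = P x y
  up : ∀ (i z : ℤ) (x y : ℚ), (x ≠ 0 ∨ y ≠ 0) → P (x + (M * i * (q : ℚ) ^ z) * y) y = P x y
  low : ∀ (i z : ℤ) (x y : ℚ), (x ≠ 0 ∨ y ≠ 0) → P x (y + (M * i * (q : ℚ) ^ z) * x) = P x y
  diag : ∀ n : ℕ, (q ^ n ≡ 1 [MOD M]) → ∀ x y : ℚ, (x ≠ 0 ∨ y ≠ 0) →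
    P ((q : ℚ) ^ (2 * (n : ℤ)) * x) y = P x y

variable {q M P}

/-- existence of a prime `r` with prescribed residues. -/
theorem exists_prime_aux (hM0 : 0 < M) (hM4 : 2 ∣ M → 4 ∣ M) (ℓ : ℕ) (hℓ : ℓ.Prime)
    (a : ℤ) (ha : a ≡ 1 [ZMOD M]) (c₁ : ℕ) (hc₁ : c₁.Prime) (hc₁ℓ : ℓ ≠ c₁) (hac : ¬ (c₁ : ℤ) ∣ a)
    (B : ℕ) :
    ∃ (r : ℕ) (j : ℕ) (s : ℤ), B < r ∧ r.Prime ∧ r = 2 * j + 1 ∧ ¬ ℓ ∣ j ∧
      a + s * ((M : ℤ) * (M * c₁)) = -(r : ℤ) := by
  have haM : IsCoprime a (M : ℤ) := by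
    obtain ⟨k, hk⟩ := ha.symm.dvd
    exact ⟨1, -k, by linear_combination hk⟩
  have hac' : IsCoprime a (c₁ : ℤ) :=
    ((Prime.coprime_iff_not_dvd (Nat.prime_iff_prime_int.mp hc₁)).mpr hac).symm
  have ha1 : IsCoprime a ((M : ℤ) * (M * c₁)) := haM.mul_right (haM.mul_right hac')
  by_cases hℓM : ℓ ∣ M
  · -- take `r ≡ -a` modulo `M² c₁`
    have hne : M * (M * c₁) ≠ 0 := by
      have := hc₁.pos
      positivity
    obtain ⟨r, hrB, hrp, hr⟩ := Nat.forall_exists_prime_gt_and_zmodEq (max B 2)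
      (q := M * (M * c₁)) (a := -a) hne (by push_cast; exact ha1.neg_left)
    have hr2 : 2 < r := lt_of_le_of_lt (le_max_right _ _) hrB
    obtain ⟨j, hj⟩ := (hrp.eq_two_or_odd'.resolve_left (by omega))
    obtain ⟨s, hs⟩ := hr.dvd
    push_cast at hs
    refine ⟨r, j, s, lt_of_le_of_lt (le_max_left _ _) hrB, hrp, hj, ?_, ?_⟩
    · intro hℓj
      obtain ⟨k, hk⟩ := ha.symm.dvd
      -- `r ≡ -1 mod M`
      have hr1 : (M : ℤ) ∣ (r : ℤ) + 1 := by
        refine ⟨-k - s * (M * c₁), ?_⟩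
        linear_combination -hs - hk
      by_cases h2 : ℓ = 2
      · subst h2
        have h4 : (4 : ℤ) ∣ M := by exact_mod_cast hM4 hℓM
        have h5 : (4 : ℤ) ∣ (r : ℤ) + 1 := h4.trans hr1
        obtain ⟨j', rfl⟩ := hℓj
        omega
      · have h3 : (ℓ : ℤ) ∣ (r : ℤ) + 1 := (Int.natCast_dvd_natCast.mpr hℓM).trans hr1
        have h4 : (ℓ : ℤ) ∣ 2 := by
          have h5 : (ℓ : ℤ) ∣ 2 * j := Dvd.dvd.mul_left (Int.natCast_dvd_natCast.mpr hℓj) _
          have h6 : (r : ℤ) = 2 * j + 1 := by exact_mod_cast hj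
          have h7 := dvd_sub h3 h5
          rw [h6] at h7
          ring_nf at h7
          exact h7
        have h5 : ℓ ∣ 2 := by exact_mod_cast h4
        exact h2 ((Nat.prime_dvd_prime_iff_eq hℓ Nat.prime_two).mp h5)
    · linear_combination -hs
  · -- moreover `r ≡ -1` modulo `ℓ²`
    have hcop : IsCoprime ((M : ℤ) * (M * c₁)) ((ℓ : ℤ) * ℓ) := by
      have h1 : IsCoprime (M : ℤ) (ℓ : ℤ) :=
        (Nat.isCoprime_iff_coprime.mpr ((Nat.Prime.coprime_iff_not_dvd hℓ).mpr hℓM)).symm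
      have h2 : IsCoprime (c₁ : ℤ) (ℓ : ℤ) :=
        Nat.isCoprime_iff_coprime.mpr ((Nat.coprime_primes hc₁ hℓ).mpr (Ne.symm hc₁ℓ))
      exact (h1.mul_right h1).mul_left ((h1.mul_right h1).mul_left (h2.mul_right h2))
    obtain ⟨u, v, huv⟩ := hcop
    set m₁ : ℤ := (M : ℤ) * (M * c₁) with hm₁
    set m₂ : ℤ := (ℓ : ℤ) * ℓ with hm₂
    -- `b ≡ -a mod m₁`, `b ≡ -1 mod m₂`
    set b : ℤ := -a * (v * m₂) - u * m₁ with hb
    have hb1 : b = -a + m₁ * (a * u - u) := by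
      rw [hb]; linear_combination -a * huv
    have hb2 : b = -1 + m₂ * (v - a * v) := by
      rw [hb]; linear_combination -huv
    have hbc1 : IsCoprime b m₁ := by
      rw [hb1]
      exact (ha1.neg_left).add_mul_left_left _
    have hbc2 : IsCoprime b m₂ := by
      rw [hb2]
      exact (isCoprime_one_left.neg_left).add_mul_left_left _
    have hne : M * (M * c₁) * (ℓ * ℓ) ≠ 0 := by
      have := hc₁.pos
      have := hℓ.pos
      positivity
    obtain ⟨r, hrB, hrp, hr⟩ := Nat.forall_exists_prime_gt_and_zmodEq (max B 2)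
      (q := M * (M * c₁) * (ℓ * ℓ)) (a := b) hne (by push_cast; exact hbc1.mul_right hbc2)
    have hr2 : 2 < r := lt_of_le_of_lt (le_max_right _ _) hrB
    obtain ⟨j, hj⟩ := (hrp.eq_two_or_odd'.resolve_left (by omega))
    obtain ⟨s, hs⟩ := hr.dvd
    push_cast at hs
    rw [← hm₁, ← hm₂] at hs
    refine ⟨r, j, s * m₂ - (a * u - u), lt_of_le_of_lt (le_max_left _ _) hrB, hrp, hj, ?_, ?_⟩
    · intro hℓj
      have hr1 : m₂ ∣ (r : ℤ) + 1 := by
        refine ⟨v - a * v - m₁ * s, ?_⟩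
        linear_combination -hs + hb2
      by_cases h2 : ℓ = 2
      · subst h2
        have h5 : (4 : ℤ) ∣ (r : ℤ) + 1 := by
          rw [hm₂] at hr1; norm_num at hr1; exact hr1
        obtain ⟨j', rfl⟩ := hℓj
        omega
      · have h3 : (ℓ : ℤ) ∣ (r : ℤ) + 1 := (Dvd.intro _ rfl : (ℓ : ℤ) ∣ m₂).trans hr1
        have h4 : (ℓ : ℤ) ∣ 2 := by
          have h5 : (ℓ : ℤ) ∣ 2 * j := Dvd.dvd.mul_left (Int.natCast_dvd_natCast.mpr hℓj) _
          have h6 : (r : ℤ) = 2 * j + 1 := by exact_mod_cast hj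
          have h7 := dvd_sub h3 h5
          rw [h6] at h7
          ring_nf at h7
          exact h7
        have h5 : ℓ ∣ 2 := by exact_mod_cast h4
        exact h2 ((Nat.prime_dvd_prime_iff_eq hℓ Nat.prime_two).mp h5)
    · linear_combination -hs + hb1

variable (hq : q.Prime) (hqM : ¬ q ∣ M) (hM : 2 ≤ M) (hM4 : 2 ∣ M → 4 ∣ M)
  (hP : SerreInv q M P)

include hq hqM hM hM4 hP

/-- Serre's trick for coprime integers. -/
theorem serre_coprime (a c : ℤ) (hac : IsCoprime a c) (ha : a ≡ 1 [ZMOD M]) (hc : (M : ℤ) ∣ c) :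
    P ((q : ℚ) ^ 2 * a) c = P a c := by
  have hq0 : (q : ℚ) ≠ 0 := by exact_mod_cast hq.ne_zero
  have ha0 : a ≠ 0 := by
    rintro rfl
    have h1 : (M : ℤ) ∣ 1 := by simpa using ha.dvd
    have h2 : M ∣ 1 := by exact_mod_cast h1
    have := Nat.dvd_one.mp h2
    omega
  have haQ : (a : ℚ) ≠ 0 := by exact_mod_cast ha0
  have hqz : ∀ z : ℤ, (q : ℚ) ^ z ≠ 0 := fun z => zpow_ne_zero z hq0
  by_cases hc0 : c = 0
  · subst hc0
    have := hP.hom ((q : ℚ) ^ 2) a 0 (pow_ne_zero 2 hq0) (Or.inl haQ)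
    simpa using this
  obtain ⟨c₀, rfl⟩ := hc
  -- the group of periods
  let D : AddSubgroup ℤ :=
    { carrier := {j | ∀ i : ℤ, P ((q : ℚ) ^ (2 * (i + j)) * a) (M * c₀ : ℤ) =
        P ((q : ℚ) ^ (2 * i) * a) (M * c₀ : ℤ)}
      zero_mem' := by intro i; simp
      add_mem' := by
        intro x y hx hy i
        have h1 := hy (i + x)
        have h2 := hx i
        rw [← add_assoc, h1, h2]
      neg_mem' := by
        intro x hx i
        have h1 := hx (i + -x)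
        rw [← h1]
        congr 4
        ring }
  have hDmem : ∀ j : ℤ, j ∈ D ↔ ∀ i : ℤ, P ((q : ℚ) ^ (2 * (i + j)) * a) (M * c₀ : ℤ) =
        P ((q : ℚ) ^ (2 * i) * a) (M * c₀ : ℤ) := fun j => Iff.rfl
  have hn : ((Nat.totient M : ℕ) : ℤ) ∈ D := by
    rw [hDmem]
    intro i
    have h1 : q ^ Nat.totient M ≡ 1 [MOD M] :=
      Nat.ModEq.pow_totient ((Nat.Prime.coprime_iff_not_dvd hq).mpr hqM)
    have h2 := hP.diag _ h1 ((q : ℚ) ^ (2 * i) * a) ((M * c₀ : ℤ) : ℚ)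
      (Or.inl (mul_ne_zero (hqz _) haQ))
    rw [← h2, ← mul_assoc, ← zpow_add₀ hq0]
    congr 3
    ring
  have hprime : ∀ ℓ : ℕ, ℓ.Prime → ∃ j ∈ D, ¬ (ℓ : ℤ) ∣ j := by
    intro ℓ hℓ
    have hcop : IsCoprime c₀ (a.natAbs : ℤ) := by
      have h1 : IsCoprime c₀ a := (hac.of_isCoprime_of_dvd_right (Dvd.intro_left _ rfl)).symm
      rcases Int.natAbs_eq a with h | h
      · rwa [h] at h1
      · rw [h] at h1
        exact (IsCoprime.neg_right_iff _ _).mp h1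
    obtain ⟨c₁, hc₁B, hc₁p, hc₁⟩ := Nat.forall_exists_prime_gt_and_zmodEq (max a.natAbs ℓ)
      (q := a.natAbs) (a := c₀) (Int.natAbs_ne_zero.mpr ha0) hcop
    have hc₁a : ¬ (c₁ : ℤ) ∣ a := by
      intro h
      have h1 := Int.natAbs_dvd_natAbs.mpr h
      have h2 := Nat.le_of_dvd (Int.natAbs_pos.mpr ha0) h1
      have h3 : a.natAbs < c₁ := lt_of_le_of_lt (le_max_left _ _) hc₁B
      simp only [Int.natAbs_natCast] at h2
      omega
    have hc₁ℓ : ℓ ≠ c₁ := by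
      have : ℓ < c₁ := lt_of_le_of_lt (le_max_right _ _) hc₁B
      omega
    obtain ⟨t, ht⟩ : a ∣ (c₁ : ℤ) - c₀ := Int.natAbs_dvd.mp hc₁.symm.dvd
    obtain ⟨r, j, s, hrB, hrp, hrj, hℓj, hs⟩ := exists_prime_aux (by omega) hM4 ℓ hℓ a ha c₁ hc₁p
      hc₁ℓ hc₁a q
    refine ⟨(j : ℤ), ?_, by exact_mod_cast hℓj⟩
    rw [hDmem]
    have hr0 : (r : ℚ) ≠ 0 := by exact_mod_cast hrp.ne_zero
    -- moves
    have hmove : ∀ i : ℤ, P ((q : ℚ) ^ (2 * i) * a) (M * c₀ : ℤ) =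
        P ((q : ℚ) ^ (2 * i) * (-(r : ℚ))) ((M : ℚ) * c₁) := by
      intro i
      have hx : (q : ℚ) ^ (2 * i) * a ≠ 0 := mul_ne_zero (hqz _) haQ
      have h1 := hP.low t (-(2 * i)) ((q : ℚ) ^ (2 * i) * a) ((M * c₀ : ℤ) : ℚ) (Or.inl hx)
      have h2 : ((M * c₀ : ℤ) : ℚ) + (M * t * (q : ℚ) ^ (-(2 * i))) * ((q : ℚ) ^ (2 * i) * a) =
          (M : ℚ) * c₁ := by
        have h3 : (q : ℚ) ^ (-(2 * i)) * (q : ℚ) ^ (2 * i) = 1 := by
          rw [← zpow_add₀ hq0]; simp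
        have h4 : (c₁ : ℚ) = c₀ + a * t := by
          have : (c₁ : ℤ) = c₀ + a * t := by linear_combination ht
          exact_mod_cast this
        push_cast
        rw [h4]
        linear_combination ((M : ℚ) * t * a) * h3
      rw [h2] at h1
      rw [← h1]
      have h5 := hP.up s (2 * i) ((q : ℚ) ^ (2 * i) * a) ((M : ℚ) * c₁) (Or.inl hx)
      rw [← h5]
      congr 1
      have h6 : (a : ℚ) + s * ((M : ℚ) * (M * c₁)) = -(r : ℚ) := by exact_mod_cast hs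
      linear_combination (q : ℚ) ^ (2 * i) * h6
    intro i
    rw [hmove, hmove]
    -- the period `r - 1`
    have hqr : (q : ℤ) ^ (r - 1) ≡ 1 [ZMOD r] := by
      have hrq : ¬ r ∣ q := by
        intro h
        have := (Nat.prime_dvd_prime_iff_eq hrp hq).mp h
        omega
      have h1 : IsCoprime (q : ℤ) (r : ℤ) :=
        (Nat.isCoprime_iff_coprime.mpr ((Nat.Prime.coprime_iff_not_dvd hrp).mpr hrq)).symm
      have : Fact r.Prime := ⟨hrp⟩
      exact Int.ModEq.pow_card_sub_one_eq_one hrp h1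
    obtain ⟨w, hw⟩ := hqr.symm.dvd
    have hx : (q : ℚ) ^ (2 * i) * (-(r : ℚ)) ≠ 0 := mul_ne_zero (hqz _) (neg_ne_zero.mpr hr0)
    have h1 := hP.low (w * c₁) (-(2 * (j : ℤ)) - 2 * i) ((q : ℚ) ^ (2 * i) * (-(r : ℚ)))
      ((M : ℚ) * c₁) (Or.inl hx)
    rw [← h1]
    have h2 := hP.hom ((q : ℚ) ^ (-(2 * (j : ℤ)))) ((q : ℚ) ^ (2 * (i + j)) * (-(r : ℚ)))
      ((M : ℚ) * c₁) (hqz _) (Or.inl (mul_ne_zero (hqz _) (neg_ne_zero.mpr hr0)))
    rw [← h2]
    have e1 : (q : ℚ) ^ (-(2 * (j : ℤ))) * ((q : ℚ) ^ (2 * (i + j)) * (-(r : ℚ))) =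
        (q : ℚ) ^ (2 * i) * (-(r : ℚ)) := by
      rw [← mul_assoc, ← zpow_add₀ hq0]
      congr 2
      ring
    have hwQ : (q : ℚ) ^ (2 * j) - 1 = r * w := by
      have h3 : ((q : ℤ) ^ (r - 1) : ℤ) - 1 = r * w := hw
      have h4 : r - 1 = 2 * j := by omega
      rw [h4] at h3
      exact_mod_cast h3
    have e2 : (q : ℚ) ^ (-(2 * (j : ℤ))) * ((M : ℚ) * c₁) =
        (M : ℚ) * c₁ + (M * (w * c₁ : ℤ) * (q : ℚ) ^ (-(2 * (j : ℤ)) - 2 * i)) *
          ((q : ℚ) ^ (2 * i) * (-(r : ℚ))) := by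
      have h3 : (q : ℚ) ^ (-(2 * (j : ℤ)) - 2 * i) * (q : ℚ) ^ (2 * i) =
          (q : ℚ) ^ (-(2 * (j : ℤ))) := by
        rw [← zpow_add₀ hq0]; congr 1; ring
      have h4 : (q : ℚ) ^ (-(2 * (j : ℤ))) * (q : ℚ) ^ (2 * j) = 1 := by
        rw [← zpow_natCast, ← zpow_add₀ hq0]
        have : -(2 * (j : ℤ)) + ((2 * j : ℕ) : ℤ) = 0 := by push_cast; ring
        rw [this, zpow_zero]
      push_cast
      have h5 : (M : ℚ) * (w * c₁) * (q : ℚ) ^ (-(2 * (j : ℤ)) - 2 * i) *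
          ((q : ℚ) ^ (2 * i) * (-(r : ℚ))) = -((M : ℚ) * c₁) * (r * w) *
            ((q : ℚ) ^ (-(2 * (j : ℤ)) - 2 * i) * (q : ℚ) ^ (2 * i)) := by ring
      rw [h5, h3, ← hwQ]
      linear_combination ((M : ℚ) * c₁) * h4
    rw [e1, e2]
  have h1D : (1 : ℤ) ∈ D := by
    obtain ⟨d, hd⟩ := Int.subgroup_cyclic D
    have hd1 : d.natAbs = 1 := by
      by_contra hne
      obtain ⟨ℓ, hℓ, hℓd⟩ := Nat.exists_prime_and_dvd hne
      obtain ⟨j, hjD, hℓj⟩ := hprime ℓ hℓ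
      apply hℓj
      rw [hd, AddSubgroup.mem_closure_singleton] at hjD
      obtain ⟨k, hk⟩ := hjD
      rw [← hk, zsmul_eq_mul]
      exact Dvd.dvd.mul_left (Int.natCast_dvd.mpr hℓd) _
    rw [hd, AddSubgroup.mem_closure_singleton]
    rcases Int.natAbs_eq d with h | h
    · exact ⟨1, by rw [h, hd1]; simp⟩
    · exact ⟨-1, by rw [h, hd1]; simp⟩
  have := (hDmem 1).mp h1D 0
  simp only [zero_add, mul_one, mul_zero, zpow_zero, one_mul] at this
  exact_mod_cast this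

/-- Serre's trick for unimodular pairs over `ℤ[1/q]`. -/
theorem serre_unimodular (a c b d : ℤ) (m : ℕ) (hdet : a * d - b * c = (q : ℤ) ^ m)
    (ha : a ≡ 1 [ZMOD M]) (hc : (M : ℤ) ∣ c) :
    P ((q : ℚ) ^ 2 * a) c = P a c := by
  have hq0 : (q : ℚ) ≠ 0 := by exact_mod_cast hq.ne_zero
  have ha0 : a ≠ 0 := by
    rintro rfl
    have h1 : (M : ℤ) ∣ 1 := by simpa using ha.dvd
    have h2 : M ∣ 1 := by exact_mod_cast h1
    have := Nat.dvd_one.mp h2
    omega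
  have haQ : (a : ℚ) ≠ 0 := by exact_mod_cast ha0
  have hqZ : Prime (q : ℤ) := Nat.prime_iff_prime_int.mp hq
  -- a common prime divisor of `a` and `c` is `q`
  have hcommon : ∀ x : ℤ, Prime x → x ∣ a → x ∣ c → x ∣ (q : ℤ) := by
    intro x hx h1 h2
    have h3 : x ∣ (q : ℤ) ^ m := by
      rw [← hdet]
      exact dvd_sub (dvd_mul_of_dvd_left h1 _) (dvd_mul_of_dvd_right h2 _)
    exact hx.dvd_of_dvd_pow h3
  have hcop_of : ∀ c' : ℤ, (∀ x : ℤ, Prime x → x ∣ a → x ∣ c' → False) → IsCoprime a c' := by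
    intro c' h
    exact isCoprime_of_prime_dvd (fun h0 => ha0 h0.1) (fun x hx h1 h2 => h x hx h1 h2)
  by_cases hqc : (q : ℤ) ∣ c
  · by_cases hqa : (q : ℤ) ∣ a
    · -- remove `q` from `c`
      obtain ⟨f, a₂, ha₂, hfa⟩ : ∃ (f : ℕ) (a₂ : ℤ), ¬ (q : ℤ) ∣ a₂ ∧ a = (q : ℤ) ^ f * a₂ := by
        obtain ⟨f, hf⟩ := (FiniteMultiplicity.exists_eq_pow_mul_and_not_dvd
          (Int.finiteMultiplicity_iff.mpr ⟨by
            rw [Int.natAbs_natCast]; exact hq.ne_one, ha0⟩) : _)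
        exact ⟨_, f, hf.2, hf.1⟩
      set c' : ℤ := c + M * a₂ with hc'
      have hqM' : ¬ (q : ℤ) ∣ (M : ℤ) := by exact_mod_cast hqM
      have hqc' : ¬ (q : ℤ) ∣ c' := by
        intro h
        have h1 : (q : ℤ) ∣ M * a₂ := (dvd_add_right hqc).mp h
        rcases hqZ.dvd_or_dvd h1 with h2 | h2
        · exact hqM' h2
        · exact ha₂ h2
      have hcop : IsCoprime a c' := by
        refine hcop_of c' fun x hx h1 h2 => ?_
        have hxq : ¬ x ∣ (q : ℤ) := by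
          intro h3
          have h4 : Associated x (q : ℤ) := hx.associated_of_dvd hqZ h3
          exact hqc' (h4.symm.dvd.trans h2)
        have h3 : x ∣ a₂ := by
          rw [hfa] at h1
          rcases hx.dvd_or_dvd h1 with h4 | h4
          · exact absurd (hx.dvd_of_dvd_pow h4) hxq
          · exact h4
        have h4 : x ∣ c := by
          have : c = c' - M * a₂ := by rw [hc']; ring
          rw [this]
          exact dvd_sub h2 (dvd_mul_of_dvd_right h3 _)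
        exact hxq (hcommon x hx h1 h4)
      have hMc' : (M : ℤ) ∣ c' := dvd_add hc (Dvd.intro _ rfl)
      have key := serre_coprime hq hqM hM hM4 hP a c' hcop ha hMc'
      have hfaQ : (a : ℚ) = (q : ℚ) ^ (f : ℤ) * a₂ := by
        rw [zpow_natCast]; exact_mod_cast hfa
      have hz : ∀ z : ℤ, (q : ℚ) ^ (-(f : ℤ) - z) * (q : ℚ) ^ z * (q : ℚ) ^ (f : ℤ) = 1 := by
        intro z
        rw [← zpow_add₀ hq0, ← zpow_add₀ hq0]
        have : -(f : ℤ) - z + z + f = 0 := by ring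
        rw [this, zpow_zero]
      have h1 := hP.low 1 (-(f : ℤ) - 2) ((q : ℚ) ^ (2 : ℤ) * a) c
        (Or.inl (mul_ne_zero (zpow_ne_zero _ hq0) haQ))
      have h2 := hP.low 1 (-(f : ℤ) - 0) ((q : ℚ) ^ (0 : ℤ) * a) c
        (Or.inl (mul_ne_zero (zpow_ne_zero _ hq0) haQ))
      have e1 : (c : ℚ) + (M * (1 : ℤ) * (q : ℚ) ^ (-(f : ℤ) - 2)) * ((q : ℚ) ^ (2 : ℤ) * a) =
          (c' : ℚ) := by
        rw [hc', hfaQ]; push_cast
        linear_combination ((M : ℚ) * a₂) * hz 2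
      have e2 : (c : ℚ) + (M * (1 : ℤ) * (q : ℚ) ^ (-(f : ℤ) - 0)) * ((q : ℚ) ^ (0 : ℤ) * a) =
          (c' : ℚ) := by
        rw [hc', hfaQ]; push_cast
        linear_combination ((M : ℚ) * a₂) * hz 0
      rw [e1] at h1
      rw [e2, zpow_zero, one_mul] at h2
      rw [← h2, ← key]
      have e3 : (q : ℚ) ^ (2 : ℤ) = (q : ℚ) ^ 2 := by norm_cast
      rw [e3] at h1
      exact h1.symm
    · refine serre_coprime hq hqM hM hM4 hP a c (hcop_of c fun x hx h1 h2 => ?_) ha hc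
      have h3 := hcommon x hx h1 h2
      have h4 : Associated x (q : ℤ) := hx.associated_of_dvd hqZ h3
      exact hqa (h4.symm.dvd.trans h1)
  · refine serre_coprime hq hqM hM hM4 hP a c (hcop_of c fun x hx h1 h2 => ?_) ha hc
    have h3 := hcommon x hx h1 h2
    have h4 : Associated x (q : ℤ) := hx.associated_of_dvd hqZ h3
    exact hqc (h4.symm.dvd.trans h2)

end Serre

end Fermat.Agent.S41aux
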