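import Mathlib

/-!
# Change of variables on points of Weierstrass curves
-/

set_option autoImplicit false

noncomputable section

namespace Fermat.Agent.S41vch

open WeierstrassCurve WeierstrassCurve.Affine

variable {k : Type*} [Field k] {V V' : WeierstrassCurve k} {C : VariableChange k}

/-- the new `x`-coordinate -/
def xx (C : VariableChange k) (x : k) : k := (C.u : k) ^ 2 * x + C.r
/-- the new `y`-coordinate -/
def yy (C : VariableChange k) (x y : k) : k :=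
  (C.u : k) ^ 3 * y + (C.u : k) ^ 2 * C.s * x + C.t

lemma xx_inj {x x' : k} : xx C x = xx C x' ↔ x = x' := by
  have hu : (C.u : k) ≠ 0 := C.u.ne_zero
  constructor
  · intro h
    exact mul_left_cancel₀ (pow_ne_zero 2 hu) (add_right_cancel h)
  · rintro rfl; rfl

lemma yy_inj {x y y' : k} : yy C x y = yy C x y' ↔ y = y' := by
  have hu : (C.u : k) ≠ 0 := C.u.ne_zero
  constructor
  · intro h
    exact mul_left_cancel₀ (pow_ne_zero 3 hu) (add_right_cancel (add_right_cancel h))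
  · rintro rfl; rfl

lemma a1 (h : V' = C • V) : (C.u : k) * V'.a₁ = V.a₁ + 2 * C.s := by
  subst h; rw [variableChange_a₁]; simp

lemma a2 (h : V' = C • V) : (C.u : k) ^ 2 * V'.a₂ = V.a₂ - C.s * V.a₁ + 3 * C.r - C.s ^ 2 := by
  have hu : (C.u : k) ≠ 0 := C.u.ne_zero
  subst h; rw [variableChange_a₂, Units.val_inv_eq_inv_val]; field_simp

lemma a3 (h : V' = C • V) : (C.u : k) ^ 3 * V'.a₃ = V.a₃ + C.r * V.a₁ + 2 * C.t := by
  have hu : (C.u : k) ≠ 0 := C.u.ne_zero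
  subst h; rw [variableChange_a₃, Units.val_inv_eq_inv_val]; field_simp

lemma a4 (h : V' = C • V) : (C.u : k) ^ 4 * V'.a₄ = V.a₄ - C.s * V.a₃ + 2 * C.r * V.a₂ -
    (C.t + C.r * C.s) * V.a₁ + 3 * C.r ^ 2 - 2 * C.s * C.t := by
  have hu : (C.u : k) ≠ 0 := C.u.ne_zero
  subst h; rw [variableChange_a₄, Units.val_inv_eq_inv_val]; field_simp

lemma a6 (h : V' = C • V) : (C.u : k) ^ 6 * V'.a₆ = V.a₆ + C.r * V.a₄ + C.r ^ 2 * V.a₂ + C.r ^ 3 -
    C.t * V.a₃ - C.t ^ 2 - C.r * C.t * V.a₁ := by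
  have hu : (C.u : k) ≠ 0 := C.u.ne_zero
  subst h; rw [variableChange_a₆, Units.val_inv_eq_inv_val]; field_simp

lemma equation (h : V' = C • V) {x y : k} (he : V'.toAffine.Equation x y) :
    V.toAffine.Equation (xx C x) (yy C x y) := by
  rw [equation_iff] at he ⊢
  rw [xx, yy]
  linear_combination (C.u : k) ^ 6 * he - (C.u : k) ^ 5 * x * y * a1 h +
    (C.u : k) ^ 4 * x ^ 2 * a2 h - (C.u : k) ^ 3 * y * a3 h + (C.u : k) ^ 2 * x * a4 h + a6 h

lemma negY (h : V' = C • V) (x y : k) :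
    V.toAffine.negY (xx C x) (yy C x y) = yy C x (V'.toAffine.negY x y) := by
  rw [Affine.negY, Affine.negY, xx, yy, yy]
  linear_combination (C.u : k) ^ 2 * x * a1 h + a3 h

variable [DecidableEq k]

lemma slope (h : V' = C • V) {x₁ x₂ y₁ y₂ : k} (h₁ : V'.toAffine.Equation x₁ y₁)
    (h₂ : V'.toAffine.Equation x₂ y₂) (hxy : ¬(x₁ = x₂ ∧ y₁ = V'.toAffine.negY x₂ y₂)) :
    V.toAffine.slope (xx C x₁) (xx C x₂) (yy C x₁ y₁) (yy C x₂ y₂) =
      (C.u : k) * V'.toAffine.slope x₁ x₂ y₁ y₂ + C.s := by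
  have hu : (C.u : k) ≠ 0 := C.u.ne_zero
  by_cases hx : x₁ = x₂
  · subst hx
    have hy : y₁ ≠ V'.toAffine.negY x₁ y₂ := fun h' => hxy ⟨rfl, h'⟩
    have hyy : y₁ = y₂ := (Y_eq_of_Y_ne h₁ h₂ rfl hy)
    subst hyy
    rw [slope_of_Y_ne rfl hy, slope_of_Y_ne rfl (by rw [negY h]; exact fun h' => hy (yy_inj.mp h'))]
    have hd : y₁ - V'.toAffine.negY x₁ y₁ ≠ 0 := sub_ne_zero.mpr hy
    have hD : yy C x₁ y₁ - V.toAffine.negY (xx C x₁) (yy C x₁ y₁) =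
        (C.u : k) ^ 3 * (y₁ - V'.toAffine.negY x₁ y₁) := by
      rw [negY h, yy, yy]; ring
    rw [hD, div_eq_iff (mul_ne_zero (pow_ne_zero 3 hu) hd)]
    have e : ((C.u : k) * ((3 * x₁ ^ 2 + 2 * V'.a₂ * x₁ + V'.a₄ - V'.a₁ * y₁) /
        (y₁ - V'.toAffine.negY x₁ y₁)) + C.s) * ((C.u : k) ^ 3 * (y₁ - V'.toAffine.negY x₁ y₁)) =
        (C.u : k) ^ 4 * (3 * x₁ ^ 2 + 2 * V'.a₂ * x₁ + V'.a₄ - V'.a₁ * y₁) +
          (C.u : k) ^ 3 * C.s * (y₁ - V'.toAffine.negY x₁ y₁) := by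
      field_simp
    rw [e, Affine.negY, xx, yy]
    linear_combination (C.u : k) ^ 3 * y₁ * a1 h - 2 * (C.u : k) ^ 2 * x₁ * a2 h - a4 h -
      C.s * (C.u : k) ^ 2 * x₁ * a1 h - C.s * a3 h
  · rw [slope_of_X_ne hx, slope_of_X_ne (fun h' => hx (xx_inj.mp h'))]
    have hd : x₁ - x₂ ≠ 0 := sub_ne_zero.mpr hx
    have hD : xx C x₁ - xx C x₂ = (C.u : k) ^ 2 * (x₁ - x₂) := by rw [xx, xx]; ring
    rw [hD, div_eq_iff (mul_ne_zero (pow_ne_zero 2 hu) hd)]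
    have e : ((C.u : k) * ((y₁ - y₂) / (x₁ - x₂)) + C.s) * ((C.u : k) ^ 2 * (x₁ - x₂)) =
        (C.u : k) ^ 3 * (y₁ - y₂) + (C.u : k) ^ 2 * C.s * (x₁ - x₂) := by
      field_simp
    rw [e, yy, yy]
    ring

/-- the map on points induced by a change of variables, as a function. -/
def pt (h : V' = C • V) (hΔ : V.Δ ≠ 0) : V'.toAffine.Point → V.toAffine.Point
  | .zero => 0
  | .some x y hxy => .some (xx C x) (yy C x y)
      ((equation_iff_nonsingular_of_Δ_ne_zero hΔ).mp (equation h hxy.1))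

omit [DecidableEq k] in
lemma pt_injective (h : V' = C • V) (hΔ : V.Δ ≠ 0) : Function.Injective (pt h hΔ) := by
  rintro (_ | ⟨x, y, hxy⟩) (_ | ⟨x', y', hxy'⟩) heq
  · rfl
  · simp [pt] at heq
  · simp [pt] at heq
  · simp only [pt, Point.some.injEq] at heq
    obtain ⟨h1, h2⟩ := heq
    have hx := xx_inj.mp h1
    subst hx
    have hy := yy_inj.mp h2
    subst hy
    rfl

lemma pt_add (h : V' = C • V) (hΔ : V.Δ ≠ 0) (P Q : V'.toAffine.Point) :
    pt h hΔ (P + Q) = pt h hΔ P + pt h hΔ Q := by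
  rcases P with _ | ⟨x₁, y₁, h₁⟩
  · show pt h hΔ (0 + Q) = 0 + _
    rw [zero_add, zero_add]
  rcases Q with _ | ⟨x₂, y₂, h₂⟩
  · show pt h hΔ (_ + 0) = _ + 0
    rw [add_zero, add_zero]
  by_cases hxy : x₁ = x₂ ∧ y₁ = V'.toAffine.negY x₂ y₂
  · obtain ⟨rfl, hy⟩ := hxy
    rw [Point.add_of_Y_eq rfl hy]
    show (0 : V.toAffine.Point) = _
    simp only [pt]
    rw [Point.add_of_Y_eq rfl (by rw [negY h, ← hy])]
  · rw [Point.add_some hxy]
    simp only [pt]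
    have hxy' : ¬(xx C x₁ = xx C x₂ ∧ yy C x₁ y₁ = V.toAffine.negY (xx C x₂) (yy C x₂ y₂)) := by
      rintro ⟨e1, e2⟩
      have e1' := xx_inj.mp e1
      subst e1'
      rw [negY h] at e2
      exact hxy ⟨rfl, yy_inj.mp e2⟩
    rw [Point.add_some hxy']
    have hs := slope h h₁.1 h₂.1 hxy
    have hX : xx C (V'.toAffine.addX x₁ x₂ (V'.toAffine.slope x₁ x₂ y₁ y₂)) =
        V.toAffine.addX (xx C x₁) (xx C x₂)
          (V.toAffine.slope (xx C x₁) (xx C x₂) (yy C x₁ y₁) (yy C x₂ y₂)) := by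
      rw [hs, Affine.addX, Affine.addX, xx, xx, xx]
      linear_combination V'.toAffine.slope x₁ x₂ y₁ y₂ * (C.u : k) * a1 h - a2 h
    rw [Point.some.injEq]
    refine ⟨hX, ?_⟩
    rw [Affine.addY, Affine.addY, ← hX, Affine.negAddY, Affine.negAddY, ← hX, hs]
    have e : (↑C.u * V'.toAffine.slope x₁ x₂ y₁ y₂ + C.s) *
        (xx C (V'.toAffine.addX x₁ x₂ (V'.toAffine.slope x₁ x₂ y₁ y₂)) - xx C x₁) + yy C x₁ y₁ =
        yy C (V'.toAffine.addX x₁ x₂ (V'.toAffine.slope x₁ x₂ y₁ y₂))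
          (V'.toAffine.slope x₁ x₂ y₁ y₂ *
            (V'.toAffine.addX x₁ x₂ (V'.toAffine.slope x₁ x₂ y₁ y₂) - x₁) + y₁) := by
      rw [xx, xx, yy, yy]; ring
    rw [e, negY h]

/-- the homomorphism on points induced by a change of variables. -/
def ptHom (h : V' = C • V) (hΔ : V.Δ ≠ 0) : V'.toAffine.Point →+ V.toAffine.Point :=
  AddMonoidHom.mk' (pt h hΔ) (pt_add h hΔ)

end Fermat.Agent.S41vch

end
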